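import Mathlib
import Fermat.Agent.Gateway.C0.DivSide
import Fermat.Prelude.Def_AlgebraicCurve_BaseChangeGalois
import Fermat.Prelude.Def_ModularCurve_ArithmeticGalois

/-!
# P-S34, instantiation glue: semilinear automorphisms and the twisted Riemann–Roch lattices

For a semilinear automorphism `g : SemilinearAut K F` (Prelude) and two charts `T : C0.TwoCharts K F`
whose divisors `C₀ = T.Czero`, `C∞ = T.Cinf` are fixed by `g` (e.g.
`T := C0.TwoCharts.ofDivisor (divOf t)` for a function `t` fixed by `g`: `smul_Czero`, `smul_Cinf`):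

* (a) `smul_mem_rrs` : `f ∈ L(D) ⇒ g • f ∈ L(g • D)`;
* (b) `smul_dv`, `smul_mem_LM`, `smul_mem_LN`, `smul_mem_LN_iff` : `g` maps `L(D + a C₀ + b C∞)` to
  `L(g • D + a C₀ + b C∞)` and preserves `L(a C₀ + b C∞)`;
* (c) `ord_smul_div`, `degree_smul_sub` : for `m D_w = div w`, the divisor `E := g • D_w - D_w` has
  degree zero and `m E = div (g • w / w)`;
* (d) `sum_smul_mul_mul_mem_LM` (`_inf`, `_zero`) : THE (N3) ELEMENT: for
  `f_j ∈ L(D_w + a' C₀ + b' C∞)` and `f'_j ∈ L((m-1) D_w + a'' C₀ + b'' C∞)`,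
  `∑_j (g • f_j) * f'_j * w ∈ L(E + (a'+a'') C₀ + (b'+b'') C∞)`;
* (e) `arithmeticGalois_smul_eq_self` : elements of the function field with rational
  `q`-expansion coefficients are fixed by the arithmetic Galois action.
-/

set_option autoImplicit false

noncomputable section

namespace Fermat.Agent.S34x.Inst.SigmaGlue

open AlgebraicCurve Fermat.Agent.Gateway.C0 Fermat.Agent.Lib.RiemannRoch

section General

variable {K F : Type*} [Field K] [Field F] [Algebra K F] (g : SemilinearAut K F)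

/-- `ord_Q (g • f) = ord_{g⁻¹ Q} f`. -/
theorem ord_smul' (Q : Place K F) (f : F) : Q.ord (g • f) = (g⁻¹ • Q).ord f := by
  have h := SemilinearAut.ord_smul g (g⁻¹ • Q) f
  rwa [smul_inv_smul] at h

/-- (a) `g` maps `L(D)` to `L(g • D)`. -/
theorem smul_mem_rrs {D : Divisor K F} {f : F} (hf : f ∈ riemannRochSpace D) :
    g • f ∈ riemannRochSpace (g • D) := by
  rw [mem_riemannRochSpace_iff] at hf ⊢
  intro w
  rcases hf (g⁻¹ • w) with h0 | h
  · left
    rw [h0, smul_zero]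
  · right
    rw [SemilinearAut.divisor_smul_apply, ord_smul']
    exact h

theorem smul_sup_zero (D : Divisor K F) : g • (D ⊔ 0) = (g • D) ⊔ 0 := by
  ext w
  rw [SemilinearAut.divisor_smul_apply, Finsupp.sup_apply, Finsupp.sup_apply,
    SemilinearAut.divisor_smul_apply]
  rfl

theorem smul_nsmul_divisor (n : ℕ) (D : Divisor K F) : g • (n • D) = n • (g • D) :=
  map_nsmul (DistribSMul.toAddMonoidHom (Divisor K F) g) n D

variable [HasPrincipalDivisors K F] [∀ v : Place K F, v.FiniteResidue]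

/-- `g • div t = div (g • t)`. -/
theorem smul_divOf (t : F) : g • divOf (K := K) t = divOf (K := K) (g • t) := by
  rcases eq_or_ne t 0 with rfl | ht
  · rw [smul_zero]
    have h0 : divOf (K := K) (0 : F) = 0 := by
      rw [divOf, dif_neg (not_not.mpr rfl)]
    rw [h0, smul_zero]
  · have hgt : g • t ≠ 0 := by
      intro h
      apply ht
      have := congrArg (g⁻¹ • ·) h
      simpa using this
    ext w
    rw [SemilinearAut.divisor_smul_apply, divOf_apply ht, divOf_apply hgt, ord_smul']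

/-- (b) `g` fixes the divisor of zeros of a `g`-fixed function. -/
theorem smul_Czero {t : F} (ht : g • t = t) :
    g • (TwoCharts.ofDivisor (divOf (K := K) t)).Czero =
      (TwoCharts.ofDivisor (divOf (K := K) t)).Czero := by
  show g • (divOf (K := K) t ⊔ 0) = divOf (K := K) t ⊔ 0
  rw [smul_sup_zero, smul_divOf, ht]

/-- (b) `g` fixes the divisor of poles of a `g`-fixed function. -/
theorem smul_Cinf {t : F} (ht : g • t = t) :
    g • (TwoCharts.ofDivisor (divOf (K := K) t)).Cinf =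
      (TwoCharts.ofDivisor (divOf (K := K) t)).Cinf := by
  show g • ((-divOf (K := K) t) ⊔ 0) = (-divOf (K := K) t) ⊔ 0
  rw [smul_sup_zero, smul_neg, smul_divOf, ht]

end General

section Charts

variable {K F : Type*} [Field K] [Field F] [Algebra K F] (g : SemilinearAut K F)
variable {T : TwoCharts K F} (hC0 : g • T.Czero = T.Czero) (hCinf : g • T.Cinf = T.Cinf)
include hC0 hCinf

theorem smul_dv (a b : ℕ) : g • T.dv a b = T.dv a b := by
  rw [TwoCharts.dv, smul_add, smul_nsmul_divisor, smul_nsmul_divisor, hC0, hCinf]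

/-- (b) `g` maps `L(D + a C₀ + b C∞)` to `L(g • D + a C₀ + b C∞)`. -/
theorem smul_mem_LM {D : Divisor K F} {a b : ℕ} {f : F} (hf : f ∈ T.LM D a b) :
    g • f ∈ T.LM (g • D) a b := by
  have h := smul_mem_rrs g hf
  rwa [smul_add, smul_dv g hC0 hCinf] at h

/-- (b) `g` preserves `L(a C₀ + b C∞)`. -/
theorem smul_mem_LN {a b : ℕ} {f : F} (hf : f ∈ T.LN a b) : g • f ∈ T.LN a b := by
  have h := smul_mem_rrs g hf
  rwa [smul_dv g hC0 hCinf] at h

/-- (b) `g • f ∈ L(a C₀ + b C∞) ↔ f ∈ L(a C₀ + b C∞)`. -/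
theorem smul_mem_LN_iff {a b : ℕ} {f : F} : g • f ∈ T.LN a b ↔ f ∈ T.LN a b := by
  refine ⟨fun h => ?_, smul_mem_LN g hC0 hCinf⟩
  have h0 : g⁻¹ • T.Czero = T.Czero := by rw [inv_smul_eq_iff, hC0]
  have h1 : g⁻¹ • T.Cinf = T.Cinf := by rw [inv_smul_eq_iff, hCinf]
  have := smul_mem_LN g⁻¹ h0 h1 h
  rwa [inv_smul_smul] at this

end Charts


section Twist

variable {K F : Type*} [Field K] [Field F] [Algebra K F] (g : SemilinearAut K F)

theorem smul_ne_zero {w : F} (hw : w ≠ 0) : g • w ≠ 0 := by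
  intro h
  apply hw
  have := congrArg (g⁻¹ • ·) h
  simpa using this

/-- (c) `m (g • D_w - D_w) = div (g • w / w)`. -/
theorem ord_smul_div {m : ℤ} {w : F} (hw : w ≠ 0) {Dw : Divisor K F}
    (hDw : ∀ P : Place K F, m * Dw P = P.ord w) (P : Place K F) :
    m * (g • Dw - Dw) P = P.ord (g • w / w) := by
  rw [div_eq_mul_inv, P.ord_mul (smul_ne_zero g hw) (inv_ne_zero hw), P.ord_inv,
    Finsupp.sub_apply, SemilinearAut.divisor_smul_apply, mul_sub, hDw, hDw, ord_smul']
  ring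

/-- (c) `g • D_w - D_w` has degree zero. -/
theorem degree_smul_sub (Dw : Divisor K F) : Divisor.degree (g • Dw - Dw) = 0 := by
  rw [map_sub, SemilinearAut.degree_smul, sub_self]

/-- product of two elements of Riemann–Roch spaces with a function of given divisor. -/
theorem mul_mul_mem_rrs {D₁ D₂ Dw : Divisor K F} {x y w : F} (hw : w ≠ 0)
    (hDw : ∀ P : Place K F, Dw P = P.ord w) (hx : x ∈ riemannRochSpace D₁)
    (hy : y ∈ riemannRochSpace D₂) : x * y * w ∈ riemannRochSpace (D₁ + D₂ - Dw) := by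
  have hxy := mul_mem_rrs hx hy
  rw [mem_riemannRochSpace_iff] at hxy ⊢
  intro P
  rcases hxy P with h0 | h
  · left
    rw [h0, zero_mul]
  · by_cases hxy0 : x * y = 0
    · left
      rw [hxy0, zero_mul]
    · right
      rw [P.ord_mul hxy0 hw, Finsupp.sub_apply, hDw P]
      linarith

variable {T : TwoCharts K F} (hC0 : g • T.Czero = T.Czero) (hCinf : g • T.Cinf = T.Cinf)
include hC0 hCinf

/-- (d) **the (N3) element**, one summand. -/
theorem smul_mul_mul_mem_LM {m : ℕ} (hm : 0 < m) {w : F} (hw : w ≠ 0) {Dw : Divisor K F}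
    (hDw : ∀ P : Place K F, (m : ℤ) * Dw P = P.ord w) {a' b' a'' b'' : ℕ} {f f' : F}
    (hf : f ∈ T.LM Dw a' b') (hf' : f' ∈ T.LM ((m - 1) • Dw) a'' b'') :
    g • f * f' * w ∈ T.LM (g • Dw - Dw) (a' + a'') (b' + b'') := by
  have h1 := smul_mem_LM g hC0 hCinf hf
  have hmw : ∀ P : Place K F, (m • Dw) P = P.ord w := fun P => by
    rw [Finsupp.smul_apply, nsmul_eq_mul, hDw]
  have h2 := mul_mul_mem_rrs hw hmw h1 hf'
  have e : g • Dw + T.dv a' b' + ((m - 1) • Dw + T.dv a'' b'') - m • Dw =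
      g • Dw - Dw + T.dv (a' + a'') (b' + b'') := by
    rw [TwoCharts.dv_add]
    have hm1 : m • Dw = (m - 1) • Dw + Dw := by
      rw [← succ_nsmul, Nat.sub_add_cancel hm]
    rw [hm1]
    abel
  rw [e] at h2
  exact h2

/-- (d) **the (N3) element**: `∑_j (g • f_j) * f'_j * w ∈ L(E + (a'+a'') C₀ + (b'+b'') C∞)`,
`E = g • D_w - D_w`. -/
theorem sum_smul_mul_mul_mem_LM {m : ℕ} (hm : 0 < m) {w : F} (hw : w ≠ 0) {Dw : Divisor K F}
    (hDw : ∀ P : Place K F, (m : ℤ) * Dw P = P.ord w) {a' b' a'' b'' : ℕ}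
    {ι : Type*} (s : Finset ι) (f f' : ι → F)
    (hf : ∀ j ∈ s, f j ∈ T.LM Dw a' b')
    (hf' : ∀ j ∈ s, f' j ∈ T.LM ((m - 1) • Dw) a'' b'') :
    ∑ j ∈ s, g • f j * f' j * w ∈ T.LM (g • Dw - Dw) (a' + a'') (b' + b'') :=
  Submodule.sum_mem _ fun j hj =>
    smul_mul_mul_mem_LM g hC0 hCinf hm hw hDw (hf j hj) (hf' j hj)

/-- (d) the chart-`∞` form: `a`-indices zero. -/
theorem sum_smul_mul_mul_mem_LM_inf {m : ℕ} (hm : 0 < m) {w : F} (hw : w ≠ 0) {Dw : Divisor K F}
    (hDw : ∀ P : Place K F, (m : ℤ) * Dw P = P.ord w) {b' b'' : ℕ}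
    {ι : Type*} (s : Finset ι) (f f' : ι → F)
    (hf : ∀ j ∈ s, f j ∈ T.LM Dw 0 b')
    (hf' : ∀ j ∈ s, f' j ∈ T.LM ((m - 1) • Dw) 0 b'') :
    ∑ j ∈ s, g • f j * f' j * w ∈ T.LM (g • Dw - Dw) 0 (b' + b'') := by
  have := sum_smul_mul_mul_mem_LM g hC0 hCinf hm hw hDw s f f' hf hf'
  rwa [add_zero] at this

/-- (d) the chart-`0` form: `b`-indices zero. -/
theorem sum_smul_mul_mul_mem_LM_zero {m : ℕ} (hm : 0 < m) {w : F} (hw : w ≠ 0) {Dw : Divisor K F}
    (hDw : ∀ P : Place K F, (m : ℤ) * Dw P = P.ord w) {a' a'' : ℕ}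
    {ι : Type*} (s : Finset ι) (f f' : ι → F)
    (hf : ∀ j ∈ s, f j ∈ T.LM Dw a' 0)
    (hf' : ∀ j ∈ s, f' j ∈ T.LM ((m - 1) • Dw) a'' 0) :
    ∑ j ∈ s, g • f j * f' j * w ∈ T.LM (g • Dw - Dw) (a' + a'') 0 := by
  have := sum_smul_mul_mul_mem_LM g hC0 hCinf hm hw hDw s f f' hf hf'
  rwa [add_zero] at this

end Twist

section Modular

open ModularCurve

variable {L : Type*} [Field L] [Algebra ℚ L] (F₀ : IntermediateField ℚ (LaurentSeries ℚ))

/-- (e) an element of the function field whose `q`-expansion has rational coefficients is fixed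
by the arithmetic Galois action. -/
theorem arithmeticGalois_smul_eq_self (τ : L ≃ₐ[ℚ] L) (t : laurentBaseChange L F₀)
    (t₀ : LaurentSeries ℚ) (ht : (t : LaurentSeries L) = coeffMap (algebraMap ℚ L) t₀) :
    arithmeticGalois F₀ τ • t = t := by
  apply Subtype.ext
  rw [coe_arithmeticGalois_smul, ht, coeffMap_coeffMap]
  exact coeffMap_congr (RingHom.ext fun a => τ.commutes a) t₀

end Modular

end Fermat.Agent.S34x.Inst.SigmaGlue
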