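/-
helper45 (P-S34, WP3-inst (I5')): the CONCRETE `RedSetup2` at level `M q` (`q ∤ M` the residue
characteristic), common definitions for all `Inst/*` files.

* `ResidueFacts` : hypothesis structure = helper10's (R1)-(R3) (`TwoVal/Residue`): the reductions
  of `Ov_∞`, `Ov0` of `F_{Mq}` land in `Fk k M`, and both valuations are unramified over `A`.
* `resInfty`, `resZero` : the residue maps `valInfty → Fk k M`, `valZero → Fk k M`.
* `redSetupInfty`, `redSetupZero` : the two `Gateway.C0.RedSetup`s (mirror of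
  `Gateway/C0/GaussSetup.gaussRedSetup`).
* `redSetup2` : `RedSetup2 A (twoVal valInfty valZero) k (Fk k M × Fk k M)`.
* bridge lemmas `mem_O_iff`, `coe_res_fst`, `coe_res_snd`, `res_eq_of_const`.
-/
import Fermat.Agent.S34x.TwoVal.ValZero
import Fermat.Agent.S34x.C0two.Pair
import Fermat.Agent.Gateway.C0.GaussSetup

set_option autoImplicit false
set_option linter.style.haveILetI false
set_option linter.unusedSectionVars false

noncomputable section

namespace Fermat.Agent.S34x.Inst.RedSetupInst

open ModularCurve AlgebraicCurve IntermediateField IsLocalRing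
open Fermat.Agent.Gateway.Hecke Fermat.Agent.Gateway.ESC
open Fermat.Agent.Gateway.Red Fermat.Agent.Gateway.GoodRed
open Fermat.Agent.S34x.TwoVal Fermat.Agent.S34x.C0two

variable {L : Type} [Field L] [Algebra ℚ L] [IsAlgClosed L] (A : ValuationSubring L)
  {k : Type} [Field k] (π : A →+* k) [IsAlgClosed k]
variable (M q : ℕ) [NeZero M] [Fact q.Prime] [CharP k q]
variable (hdeg : finrankAlong L (heckeAlphaBar L M q) = q + 1) (hq : q.Prime) (hqM : ¬ q ∣ M)
variable (hrk : ∀ x ∈ maximalIdeal A, ∀ c : A, c ≠ 0 → ∃ j : ℕ, c ∣ x ^ j)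
  (hπ : Function.Surjective π)

/-- helper10's (R1)-(R3) at level `M q`: both residue fields are `Fk k M` and both valuations
have the value group of `A`. -/
structure ResidueFacts : Prop where
  redV_mem : ∀ (f : FL L (M * q)) (hf : f ∈ Ov A π (FL L (M * q))),
    redV A π (FL L (M * q)) ⟨f, hf⟩ ∈ modularFunctionFieldFullC k M
  red0_mem : ∀ (f : FL L (M * q)) (hf : f ∈ Ov0 A π M q hdeg hq hqM),
    red0 A π M q hdeg hq hqM ⟨f, hf⟩ ∈ modularFunctionFieldFullC k M
  scalV : ∀ f : FL L (M * q), f ≠ 0 →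
    ∃ c : L, c ≠ 0 ∧ (valInfty A π M q hrk hπ hqM).valuation (c • f) = 1
  scal0 : ∀ f : FL L (M * q), f ≠ 0 →
    ∃ c : L, c ≠ 0 ∧ (valZero A π M q hdeg hq hqM hrk hπ).valuation (c • f) = 1

variable {A π M q hdeg hq hqM hrk hπ}

/-! ### The two residue maps -/

/-- the identity map `valInfty → Ov`. -/
def inftyToOv : valInfty A π M q hrk hπ hqM →+* Ov A π (FL L (M * q)) where
  toFun f := ⟨(f : FL L (M * q)), f.2⟩
  map_one' := rfl
  map_mul' _ _ := rfl
  map_zero' := rfl
  map_add' _ _ := rfl

/-- the identity map `valZero → Ov0`. -/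
def zeroToOv0 : valZero A π M q hdeg hq hqM hrk hπ →+* Ov0 A π M q hdeg hq hqM where
  toFun f := ⟨(f : FL L (M * q)), f.2⟩
  map_one' := rfl
  map_mul' _ _ := rfl
  map_zero' := rfl
  map_add' _ _ := rfl

/-- the residue map `valInfty → Fk k M`. -/
def resInfty (H : ResidueFacts A π M q hdeg hq hqM hrk hπ) :
    valInfty A π M q hrk hπ hqM →+* modularFunctionFieldFullC k M :=
  ((redV A π (FL L (M * q))).comp inftyToOv).codRestrict
    (modularFunctionFieldFullC k M) fun f => H.redV_mem _ f.2

/-- the residue map `valZero → Fk k M`. -/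
def resZero (H : ResidueFacts A π M q hdeg hq hqM hrk hπ) :
    valZero A π M q hdeg hq hqM hrk hπ →+* modularFunctionFieldFullC k M :=
  ((red0 A π M q hdeg hq hqM).comp zeroToOv0).codRestrict
    (modularFunctionFieldFullC k M) fun f => H.red0_mem _ f.2

theorem coe_resInfty (H : ResidueFacts A π M q hdeg hq hqM hrk hπ)
    (f : valInfty A π M q hrk hπ hqM) :
    ((resInfty H f : modularFunctionFieldFullC k M) : LaurentSeries k)
      = redV A π (FL L (M * q)) ⟨(f : FL L (M * q)), f.2⟩ := rfl

theorem coe_resZero (H : ResidueFacts A π M q hdeg hq hqM hrk hπ)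
    (f : valZero A π M q hdeg hq hqM hrk hπ) :
    ((resZero H f : modularFunctionFieldFullC k M) : LaurentSeries k)
      = red0 A π M q hdeg hq hqM ⟨(f : FL L (M * q)), f.2⟩ := rfl

theorem resInfty_eq_zero_iff (H : ResidueFacts A π M q hdeg hq hqM hrk hπ)
    (f : valInfty A π M q hrk hπ hqM) : resInfty H f = 0 ↔ ¬ IsUnit f := by
  rw [← redV_eq_zero_iff A π M q hrk hπ hqM f]
  constructor
  · intro h
    have := congrArg (fun z : modularFunctionFieldFullC k M => (z : LaurentSeries k)) h
    simpa [coe_resInfty] using this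
  · intro h
    exact Subtype.ext (by rw [coe_resInfty, h]; rfl)

theorem resZero_eq_zero_iff (H : ResidueFacts A π M q hdeg hq hqM hrk hπ)
    (f : valZero A π M q hdeg hq hqM hrk hπ) : resZero H f = 0 ↔ ¬ IsUnit f := by
  rw [← red0_eq_zero_iff A π M q hdeg hq hqM hrk hπ f]
  constructor
  · intro h
    have := congrArg (fun z : modularFunctionFieldFullC k M => (z : LaurentSeries k)) h
    simpa [coe_resZero] using this
  · intro h
    exact Subtype.ext (by rw [coe_resZero, h]; rfl)

/-! ### The two `RedSetup`s and the `RedSetup2` -/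

theorem exists_ne_zero_of_liesOver (hA : A.LiesOverPrime q) :
    ∃ ϖ ∈ maximalIdeal A, ϖ ≠ 0 := by
  have : CharZero L := algebraRat.charZero L
  refine ⟨⟨(q : L), ?_⟩, ?_, ?_⟩
  · exact (A.valuation_le_one_iff _).mp (le_of_lt ((A.mem_nonunits_iff).mp hA))
  · rw [A.valuation_lt_one_iff]
    exact (A.mem_nonunits_iff).mp hA
  · intro h
    have := congrArg Subtype.val h
    simp only [ZeroMemClass.coe_zero, Nat.cast_eq_zero] at this
    exact (Fact.out : q.Prime).ne_zero this

theorem algebraMap_mem_valInfty (a : A) :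
    algebraMap L (FL L (M * q)) (a : L) ∈ valInfty A π M q hrk hπ hqM :=
  (algebraMap_mem_Ov_iff A π (M * q) hπ (a : L)).mpr a.2

theorem algebraMap_mem_valZero (a : A) :
    algebraMap L (FL L (M * q)) (a : L) ∈ valZero A π M q hdeg hq hqM hrk hπ :=
  (algebraMap_mem_Ov0_iff A π M q hdeg hq hqM (a : L)).mpr
    ((algebraMap_mem_Ov_iff A π M hπ (a : L)).mpr a.2)

theorem coe_algebraMap_Fk (c : k) :
    ((algebraMap k (modularFunctionFieldFullC k M) c : modularFunctionFieldFullC k M) :
      LaurentSeries k) = HahnSeries.C c := by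
  have : ((algebraMap k (modularFunctionFieldFullC k M) c : modularFunctionFieldFullC k M) :
      LaurentSeries k) = algebraMap k (LaurentSeries k) c := rfl
  rw [this, algebraMap_laurentSeries_eq_single]
  rfl

/-- the `RedSetup` of the Gauss valuation `v_∞` of `F_{Mq}`. -/
def redSetupInfty (H : ResidueFacts A π M q hdeg hq hqM hrk hπ) (hA : A.LiesOverPrime q) :
    Fermat.Agent.Gateway.C0.RedSetup A (valInfty A π M q hrk hπ hqM) k
      (modularFunctionFieldFullC k M) where
  π := π
  π_surj := hπ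
  res := resInfty H
  res_ker x := by
    rw [resInfty_eq_zero_iff, ValuationSubring.valuation_eq_one_iff]
    have hle : (valInfty A π M q hrk hπ hqM).valuation (x : FL L (M * q)) ≤ 1 :=
      (ValuationSubring.valuation_le_one_iff _ _).mpr x.2
    exact ⟨fun h => lt_of_le_of_ne hle h, fun h => ne_of_lt h⟩
  algebraMap_mem a := algebraMap_mem_valInfty a
  res_algebraMap a := by
    apply Subtype.ext
    rw [coe_resInfty, coe_algebraMap_Fk]
    exact redV_algebraMap A π (M * q) a _
  scal := H.scalV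
  rank_one := hrk
  exists_ne_zero := exists_ne_zero_of_liesOver hA

/-- the `RedSetup` of the second Gauss valuation `v_0` of `F_{Mq}`. -/
def redSetupZero (H : ResidueFacts A π M q hdeg hq hqM hrk hπ) (hA : A.LiesOverPrime q) :
    Fermat.Agent.Gateway.C0.RedSetup A (valZero A π M q hdeg hq hqM hrk hπ) k
      (modularFunctionFieldFullC k M) where
  π := π
  π_surj := hπ
  res := resZero H
  res_ker x := by
    rw [resZero_eq_zero_iff, ValuationSubring.valuation_eq_one_iff]
    have hle : (valZero A π M q hdeg hq hqM hrk hπ).valuation (x : FL L (M * q)) ≤ 1 :=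
      (ValuationSubring.valuation_le_one_iff _ _).mpr x.2
    exact ⟨fun h => lt_of_le_of_ne hle h, fun h => ne_of_lt h⟩
  algebraMap_mem a := algebraMap_mem_valZero a
  res_algebraMap a := by
    apply Subtype.ext
    rw [coe_resZero, coe_algebraMap_Fk, red0_apply]
    rw [gaussRed_of_eq_embA A π _ (a := HahnSeries.C a), redA_C]
    rw [embA_C]
    exact iota0_algebraMap hdeg hq hqM (a : L)
  scal := H.scal0
  rank_one := hrk
  exists_ne_zero := exists_ne_zero_of_liesOver hA

/-- **The concrete `RedSetup2` at level `M q`**: `S.O = Ov_∞ ⊓ Ov0`, residue ring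
`Fk k M × Fk k M`, `res = (red_∞, red_0)`. -/
def redSetup2 (H : ResidueFacts A π M q hdeg hq hqM hrk hπ) (hA : A.LiesOverPrime q) :
    RedSetup2 A (twoVal (valInfty A π M q hrk hπ hqM) (valZero A π M q hdeg hq hqM hrk hπ)) k
      (modularFunctionFieldFullC k M × modularFunctionFieldFullC k M) :=
  redSetupTwoVal (redSetupInfty H hA) (redSetupZero H hA) rfl

/-! ### Bridge lemmas -/

theorem mem_O_iff {x : FL L (M * q)} :
    x ∈ (twoVal (valInfty A π M q hrk hπ hqM) (valZero A π M q hdeg hq hqM hrk hπ)).O ↔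
      x ∈ Ov A π (FL L (M * q)) ∧ x ∈ Ov0 A π M q hdeg hq hqM := Iff.rfl

theorem coe_res_fst (H : ResidueFacts A π M q hdeg hq hqM hrk hπ) (hA : A.LiesOverPrime q)
    {x : FL L (M * q)}
    (hx : x ∈ (twoVal (valInfty A π M q hrk hπ hqM) (valZero A π M q hdeg hq hqM hrk hπ)).O) :
    ((((redSetup2 H hA).res ⟨x, hx⟩).1 : modularFunctionFieldFullC k M) : LaurentSeries k)
      = redV A π (FL L (M * q)) ⟨x, hx.1⟩ := rfl

theorem coe_res_snd (H : ResidueFacts A π M q hdeg hq hqM hrk hπ) (hA : A.LiesOverPrime q)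
    {x : FL L (M * q)}
    (hx : x ∈ (twoVal (valInfty A π M q hrk hπ hqM) (valZero A π M q hdeg hq hqM hrk hπ)).O) :
    ((((redSetup2 H hA).res ⟨x, hx⟩).2 : modularFunctionFieldFullC k M) : LaurentSeries k)
      = red0 A π M q hdeg hq hqM ⟨x, hx.2⟩ := rfl

theorem redSetup2_π (H : ResidueFacts A π M q hdeg hq hqM hrk hπ) (hA : A.LiesOverPrime q) :
    (redSetup2 H hA).π = π := rfl

/-- an element of `Fk k M × Fk k M` is determined by its two Laurent series -/
theorem prod_ext_coe {y z : modularFunctionFieldFullC k M × modularFunctionFieldFullC k M}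
    (h1 : ((y.1 : modularFunctionFieldFullC k M) : LaurentSeries k) = (z.1 : LaurentSeries k))
    (h2 : ((y.2 : modularFunctionFieldFullC k M) : LaurentSeries k) = (z.2 : LaurentSeries k)) :
    y = z :=
  Prod.ext (Subtype.ext h1) (Subtype.ext h2)

/-- **`hconst`**: an element whose two reductions are constants `c₁`, `c₂` reduces to
`(c₁, c₂)`. -/
theorem res_eq_of_const (H : ResidueFacts A π M q hdeg hq hqM hrk hπ) (hA : A.LiesOverPrime q)
    {x : FL L (M * q)}
    (hx : x ∈ (twoVal (valInfty A π M q hrk hπ hqM) (valZero A π M q hdeg hq hqM hrk hπ)).O)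
    {c₁ c₂ : k} (h1 : redV A π (FL L (M * q)) ⟨x, hx.1⟩ = HahnSeries.C c₁)
    (h2 : red0 A π M q hdeg hq hqM ⟨x, hx.2⟩ = HahnSeries.C c₂) :
    (redSetup2 H hA).res ⟨x, hx⟩ =
      (algebraMap k (modularFunctionFieldFullC k M) c₁,
        algebraMap k (modularFunctionFieldFullC k M) c₂) := by
  apply prod_ext_coe
  · rw [coe_res_fst, h1, coe_algebraMap_Fk]
  · rw [coe_res_snd, h2, coe_algebraMap_Fk]

/-- an element with both reductions equal to `1` reduces to `1`. -/
theorem res_eq_one (H : ResidueFacts A π M q hdeg hq hqM hrk hπ) (hA : A.LiesOverPrime q)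
    {x : FL L (M * q)}
    (hx : x ∈ (twoVal (valInfty A π M q hrk hπ hqM) (valZero A π M q hdeg hq hqM hrk hπ)).O)
    (h1 : redV A π (FL L (M * q)) ⟨x, hx.1⟩ = 1)
    (h2 : red0 A π M q hdeg hq hqM ⟨x, hx.2⟩ = 1) :
    (redSetup2 H hA).res ⟨x, hx⟩ = 1 := by
  apply prod_ext_coe
  · rw [coe_res_fst, h1]; rfl
  · rw [coe_res_snd, h2]; rfl

end Fermat.Agent.S34x.Inst.RedSetupInst
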