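/-
helper70 (P-S34, assembly slice (A3)): the two formal steps (I) and (N) of
`Target.kummerSemistable_of_steps`, in the abstract `RedSetup` language.

* `exists_const_of_smul_div` = the free step (I) at ONE valuation: `R : C0.RedSetup A O k κ`,
  `g : SemilinearAut K F` preserving `O` and acting trivially on the reductions, and such that
  `(baseAut g d) / d` is a unit of `A` for every `d ≠ 0` (automatic when `K` is algebraic over `ℚ`
  and `baseAut g` lies in the decomposition group).  Then for every `u ≠ 0` the quotient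
  `g • u / u` lies in `O` and reduces to a nonzero CONSTANT.
* `ConstRed R₁ R₂ z`: `z` has nonzero constant reductions at both valuations;
  `OneRed R₁ R₂ hπ z`: `z` is a unit of `O₁ ⊓ O₂` with reduction `(1, 1)`.
* `constRed_smul_div`: (I) at both valuations; `exists_oneRed_mul_pow`: (N), from
  `Normalise.exists_normalise_twoVal`.
-/
import Fermat.Agent.S34x.Normalise
import Fermat.Prelude.Def_AlgebraicCurve_BaseChangeGalois

set_option autoImplicit false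

namespace Fermat.Agent.S34x.Inst.StepsAbs

open AlgebraicCurve IsLocalRing
open Fermat.Agent.Gateway.C0 Fermat.Agent.S34x.C0two

section One

variable {K : Type*} [Field K] {A : ValuationSubring K} {F : Type*} [Field F] [Algebra K F]
  {O : ValuationSubring F} {k κ : Type*} [Field k] [Field κ] [Algebra k κ]
  (R : RedSetup A O k κ)

/-- a unit of `A` reduces to a nonzero constant -/
theorem res_unit_ne_zero (a : Aˣ) : R.π (a : A) ≠ 0 := by
  intro h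
  have := (R.π_eq_zero_iff (a : A)).mp h
  exact (mem_maximalIdeal _).mp this a.isUnit

/-- if `O.valuation v = 1` then `v` and `v⁻¹` lie in `O` -/
theorem mem_of_valuation_eq_one {v : F} (hv : O.valuation v = 1) : v ∈ O ∧ v⁻¹ ∈ O := by
  refine ⟨(O.valuation_le_one_iff v).mp hv.le, (O.valuation_le_one_iff _).mp ?_⟩
  rw [map_inv₀, hv, inv_one]

/-- **The free step (I) at one valuation.** -/
theorem exists_const_of_smul_div (g : SemilinearAut K F)
    (hgO : ∀ f ∈ O, g • f ∈ O)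
    (hgres : ∀ (f : F) (hf : f ∈ O), R.res ⟨g • f, hgO f hf⟩ = R.res ⟨f, hf⟩)
    (hunit : ∀ d : K, d ≠ 0 → ∃ a : Aˣ, ((a : A) : K) = SemilinearAut.baseAut g d / d)
    {u : F} (hu : u ≠ 0) :
    ∃ c₁ : k, c₁ ≠ 0 ∧ ∃ hz : g • u / u ∈ O, R.res ⟨g • u / u, hz⟩ = algebraMap k κ c₁ := by
  obtain ⟨c, hc, hcu⟩ := R.scal u hu
  set v : F := c • u with hvdef
  have hv0 : v ≠ 0 := by
    intro h
    rw [h, map_zero] at hcu
    exact zero_ne_one hcu
  obtain ⟨hv, hvi⟩ := mem_of_valuation_eq_one hcu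
  obtain ⟨a, ha⟩ := hunit c hc
  -- `g • v / v` reduces to `1`
  have hgv : g • v ∈ O := hgO v hv
  have h1 : R.res ⟨g • v, hgv⟩ * R.res ⟨v⁻¹, hvi⟩ = 1 := by
    rw [hgres v hv, ← map_mul]
    have : (⟨v, hv⟩ : O) * ⟨v⁻¹, hvi⟩ = 1 := Subtype.ext (mul_inv_cancel₀ hv0)
    rw [this, map_one]
  -- `g • u / u = (g • v / v) * (a⁻¹)`
  have hσc : SemilinearAut.baseAut g c ≠ 0 := by
    intro h
    exact hc ((map_eq_zero (SemilinearAut.baseAut g)).mp h)
  have hgvv : g • v = algebraMap K F (SemilinearAut.baseAut g c) * g • u := by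
    rw [hvdef, Algebra.smul_def, smul_mul', SemilinearAut.smul_algebraMap]
  have hai : (((a⁻¹ : Aˣ) : A) : K) = c / SemilinearAut.baseAut g c := by
    have h2 : (((a⁻¹ : Aˣ) : A) : K) * ((a : A) : K) = 1 := by
      have h := congrArg (fun x : A => (x : K)) (a.inv_mul)
      exact h
    rw [ha] at h2
    field_simp at h2 ⊢
    linear_combination h2
  have hkey : g • u / u = g • v * v⁻¹ * algebraMap K F (((a⁻¹ : Aˣ) : A) : K) := by
    rw [hgvv, hvdef, Algebra.smul_def, hai, map_div₀]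
    have h3 : algebraMap K F c ≠ 0 := (map_ne_zero (algebraMap K F)).mpr hc
    have h4 : algebraMap K F (SemilinearAut.baseAut g c) ≠ 0 :=
      (map_ne_zero (algebraMap K F)).mpr hσc
    field_simp
  have hmemc : algebraMap K F (((a⁻¹ : Aˣ) : A) : K) ∈ O := R.algebraMap_mem ((a⁻¹ : Aˣ) : A)
  have hz : g • u / u ∈ O := by
    rw [hkey]
    exact O.mul_mem _ _ (O.mul_mem _ _ hgv hvi) hmemc
  refine ⟨R.π ((a⁻¹ : Aˣ) : A), res_unit_ne_zero R a⁻¹, hz, ?_⟩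
  have e : (⟨g • u / u, hz⟩ : O) =
      ⟨g • v, hgv⟩ * ⟨v⁻¹, hvi⟩ * ⟨algebraMap K F (((a⁻¹ : Aˣ) : A) : K), hmemc⟩ :=
    Subtype.ext hkey
  rw [e, map_mul, map_mul, h1, one_mul]
  exact R.res_algebraMap ((a⁻¹ : Aˣ) : A)

end One

section Two

variable {K : Type*} [Field K] {A : ValuationSubring K} {F : Type*} [Field F] [Algebra K F]
  {O₁ O₂ : ValuationSubring F} {k κ₁ κ₂ : Type*} [Field k] [Field κ₁] [Field κ₂]
  [Algebra k κ₁] [Algebra k κ₂]
  (R₁ : RedSetup A O₁ k κ₁) (R₂ : RedSetup A O₂ k κ₂) (hπ : R₁.π = R₂.π)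

/-- `z` has nonzero constant reductions at both valuations -/
def ConstRed (z : F) : Prop :=
  (∃ c₁ : k, c₁ ≠ 0 ∧ ∃ hz : z ∈ O₁, R₁.res ⟨z, hz⟩ = algebraMap k κ₁ c₁) ∧
  (∃ c₂ : k, c₂ ≠ 0 ∧ ∃ hz : z ∈ O₂, R₂.res ⟨z, hz⟩ = algebraMap k κ₂ c₂)

/-- `z` is a unit of `O₁ ⊓ O₂` with reduction `(1, 1)` -/
def OneRed (z : F) : Prop :=
  ∃ hz : z ∈ (twoVal O₁ O₂).O, z⁻¹ ∈ (twoVal O₁ O₂).O ∧
    (redSetupTwoVal R₁ R₂ hπ).res ⟨z, hz⟩ = 1

/-- **(I)** at both valuations. -/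
theorem constRed_smul_div (g : SemilinearAut K F)
    (hgO₁ : ∀ f ∈ O₁, g • f ∈ O₁) (hgO₂ : ∀ f ∈ O₂, g • f ∈ O₂)
    (hgres₁ : ∀ (f : F) (hf : f ∈ O₁), R₁.res ⟨g • f, hgO₁ f hf⟩ = R₁.res ⟨f, hf⟩)
    (hgres₂ : ∀ (f : F) (hf : f ∈ O₂), R₂.res ⟨g • f, hgO₂ f hf⟩ = R₂.res ⟨f, hf⟩)
    (hunit : ∀ d : K, d ≠ 0 → ∃ a : Aˣ, ((a : A) : K) = SemilinearAut.baseAut g d / d)
    {u : F} (hu : u ≠ 0) : ConstRed R₁ R₂ (g • u / u) :=
  ⟨exists_const_of_smul_div R₁ g hgO₁ hgres₁ hunit hu,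
    exists_const_of_smul_div R₂ g hgO₂ hgres₂ hunit hu⟩

/-- **(N)**: a function with nonzero constant reductions becomes a unit with reductions `(1, 1)`
after multiplication by an `m`-th power. -/
theorem exists_oneRed_mul_pow [IsAlgClosed k]
    (hsep : ∃ s : (twoVal O₁ O₂).O, (redSetupTwoVal R₁ R₂ hπ).res s = (0, 1))
    {m : ℕ} (hm : 0 < m) {z : F} (hz : ConstRed R₁ R₂ z) :
    ∃ f : F, f ≠ 0 ∧ OneRed R₁ R₂ hπ (z * f ^ m) := by
  obtain ⟨⟨c₁, hc₁, hz₁, hr₁⟩, ⟨c₂, hc₂, hz₂, hr₂⟩⟩ := hz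
  have hzO : z ∈ (twoVal O₁ O₂).O := mem_twoVal_O.mpr ⟨hz₁, hz₂⟩
  have hres : (redSetupTwoVal R₁ R₂ hπ).res ⟨z, hzO⟩ =
      (algebraMap k κ₁ c₁, algebraMap k κ₂ c₂) := by
    refine Prod.ext ?_ ?_
    · rw [redSetupTwoVal_res_fst]; exact hr₁
    · rw [redSetupTwoVal_res_snd]; exact hr₂
  obtain ⟨e, he0, heO, heiO, h, hres1⟩ :=
    Normalise.exists_normalise_twoVal R₁ R₂ hπ hsep hm hzO hc₁ hc₂ hres
  have hze : z * e⁻¹ ^ m = z / e ^ m := by
    rw [inv_pow, div_eq_mul_inv]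
  refine ⟨e⁻¹, inv_ne_zero he0, ?_⟩
  rw [hze]
  refine ⟨h, ?_, hres1⟩
  refine Normalise.inv_mem_twoVal R₁ R₂ hπ ⟨z / e ^ m, h⟩ ?_ ?_
  · rw [hres1]; exact one_ne_zero
  · rw [hres1]; exact one_ne_zero

end Two

end Fermat.Agent.S34x.Inst.StepsAbs
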