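/-
helper70 (P-S34, assembly slice (A3)): for `L` algebraic over `ℚ`, `A` a valuation subring of `L`
and `σ` in the decomposition group of `A`, the quotient `σ d / d` is a unit of `A` for every
`d ≠ 0` (`σ` has finite order on `d`, and the telescoping product of the conjugates of `σ d / d`
is `1`).  This is the input `hunit` of `StepsAbs.exists_const_of_smul_div` (the constants of the
free step (I)).
-/
import Mathlib

set_option autoImplicit false

namespace Fermat.Agent.S34x.Inst.UnitQuot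

variable {L : Type*} [Field L] [Algebra ℚ L] (A : ValuationSubring L)

/-- the decomposition group preserves `A` -/
theorem apply_mem {σ : L ≃ₐ[ℚ] L} (hσ : σ ∈ A.decompositionSubgroup ℚ) {x : L} (hx : x ∈ A) :
    σ x ∈ A :=
  ((⟨σ, hσ⟩ : A.decompositionSubgroup ℚ) • (⟨x, hx⟩ : A)).2

theorem apply_mem_iff {σ : L ≃ₐ[ℚ] L} (hσ : σ ∈ A.decompositionSubgroup ℚ) {x : L} :
    σ x ∈ A ↔ x ∈ A := by
  refine ⟨fun h => ?_, apply_mem A hσ⟩
  have h1 := apply_mem A (inv_mem hσ) h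
  have h2 : (σ⁻¹ : L ≃ₐ[ℚ] L) (σ x) = x := by
    show σ.symm (σ x) = x
    exact σ.symm_apply_apply x
  rwa [h2] at h1

/-- the decomposition group preserves the maximal ideal -/
theorem valuation_apply_lt_one_iff {σ : L ≃ₐ[ℚ] L} (hσ : σ ∈ A.decompositionSubgroup ℚ) {x : L} :
    A.valuation (σ x) < 1 ↔ A.valuation x < 1 := by
  by_cases hx : x = 0
  · subst hx
    simp
  have hσx : σ x ≠ 0 := (map_ne_zero σ).mpr hx
  have key : ∀ y : L, y ≠ 0 → (A.valuation y < 1 ↔ y⁻¹ ∉ A) := by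
    intro y hy
    rw [← A.valuation_le_one_iff, map_inv₀, not_le]
    have hv : A.valuation y ≠ 0 := (Valuation.ne_zero_iff _).mpr hy
    constructor
    · intro h
      exact (one_lt_inv₀ (zero_lt_iff.mpr hv)).mpr h
    · intro h
      exact (one_lt_inv₀ (zero_lt_iff.mpr hv)).mp h
  rw [key _ hσx, key _ hx, ← map_inv₀, apply_mem_iff A hσ]

theorem valuation_pow_apply_lt_one {σ : L ≃ₐ[ℚ] L} (hσ : σ ∈ A.decompositionSubgroup ℚ) {x : L}
    (hx : A.valuation x < 1) (i : ℕ) : A.valuation ((σ ^ i) x) < 1 := by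
  induction i with
  | zero => simpa using hx
  | succ i ih =>
    have : (σ ^ (i + 1)) x = σ ((σ ^ i) x) := by
      rw [pow_succ']
      rfl
    rw [this]
    exact (valuation_apply_lt_one_iff A hσ).mpr ih

/-- telescoping product -/
theorem prod_apply_div (σ : L ≃ₐ[ℚ] L) {d : L} (hd : d ≠ 0) (n : ℕ) :
    ∏ i ∈ Finset.range n, (σ ^ i) (σ d / d) = (σ ^ n) d / d := by
  induction n with
  | zero => simp [div_self hd]
  | succ n ih =>
    rw [Finset.prod_range_succ, ih, map_div₀]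
    have h1 : (σ ^ n) (σ d) = (σ ^ (n + 1)) d := by
      rw [pow_succ]
      rfl
    have h2 : (σ ^ n) d ≠ 0 := (map_ne_zero _).mpr hd
    rw [h1]
    field_simp

variable [Algebra.IsAlgebraic ℚ L]

/-- `σ` has finite order on every element -/
theorem exists_pow_apply_eq (σ : L ≃ₐ[ℚ] L) (d : L) : ∃ n : ℕ, 0 < n ∧ (σ ^ n) d = d := by
  have hfin : ((minpoly ℚ d).rootSet L).Finite := Polynomial.rootSet_finite _ _
  have hmem : ∀ i : ℕ, (σ ^ i) d ∈ (minpoly ℚ d).rootSet L := by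
    intro i
    have hint : IsIntegral ℚ d := (Algebra.IsAlgebraic.isAlgebraic d).isIntegral
    rw [Polynomial.mem_rootSet]
    refine ⟨minpoly.ne_zero hint, ?_⟩
    have := Polynomial.aeval_algHom_apply ((σ ^ i : L ≃ₐ[ℚ] L) : L →ₐ[ℚ] L) d (minpoly ℚ d)
    simpa [minpoly.aeval] using this
  obtain ⟨a, b, hab, he⟩ := hfin.exists_lt_map_eq_of_forall_mem hmem
  refine ⟨b - a, Nat.sub_pos_of_lt hab, ?_⟩
  have h1 : (σ ^ b) d = (σ ^ a) ((σ ^ (b - a)) d) := by
    rw [← AlgEquiv.mul_apply, ← pow_add, Nat.add_sub_cancel' hab.le]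
  rw [← he] at h1
  exact ((σ ^ a).injective h1).symm

theorem not_valuation_apply_div_lt_one {σ : L ≃ₐ[ℚ] L} (hσ : σ ∈ A.decompositionSubgroup ℚ)
    {d : L} (hd : d ≠ 0) : ¬ A.valuation (σ d / d) < 1 := by
  intro hlt
  obtain ⟨n, hn, hnd⟩ := exists_pow_apply_eq σ d
  have hprod := prod_apply_div σ hd n
  rw [hnd, div_self hd] at hprod
  have hval : A.valuation (∏ i ∈ Finset.range n, (σ ^ i) (σ d / d)) < 1 := by
    rw [map_prod]
    obtain ⟨n', rfl⟩ : ∃ n', n = n' + 1 := ⟨n - 1, by omega⟩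
    rw [Finset.prod_range_succ]
    have h1 : ∏ i ∈ Finset.range n', A.valuation ((σ ^ i) (σ d / d)) ≤ 1 :=
      Finset.prod_le_one' fun i _ => (valuation_pow_apply_lt_one A hσ hlt i).le
    exact mul_lt_one_of_nonneg_of_lt_one_right h1 zero_le
      (valuation_pow_apply_lt_one A hσ hlt n')
  rw [hprod, map_one] at hval
  exact lt_irrefl _ hval

/-- **`σ d / d` is a unit of `A`.** -/
theorem exists_unit_eq_apply_div {σ : L ≃ₐ[ℚ] L} (hσ : σ ∈ A.decompositionSubgroup ℚ)
    {d : L} (hd : d ≠ 0) : ∃ a : Aˣ, ((a : A) : L) = σ d / d := by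
  have h1 := not_valuation_apply_div_lt_one A hσ hd
  have h2 := not_valuation_apply_div_lt_one A hσ (inv_ne_zero hd)
  have hσd : σ d ≠ 0 := (map_ne_zero σ).mpr hd
  have e : σ d⁻¹ / d⁻¹ = (σ d / d)⁻¹ := by
    rw [map_inv₀]
    field_simp
  rw [e, map_inv₀] at h2
  have hv0 : A.valuation (σ d / d) ≠ 0 :=
    (Valuation.ne_zero_iff _).mpr (div_ne_zero hσd hd)
  have hle : A.valuation (σ d / d) ≤ 1 := by
    by_contra h
    rw [not_le] at h
    exact h2 (inv_lt_one_of_one_lt₀ h)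
  have heq : A.valuation (σ d / d) = 1 := le_antisymm hle (not_lt.mp h1)
  have hmem : σ d / d ∈ A := (A.valuation_le_one_iff _).mp hle
  have hunit : IsUnit (⟨σ d / d, hmem⟩ : A) := (A.valuation_eq_one_iff _).mpr heq
  exact ⟨hunit.unit, rfl⟩

end Fermat.Agent.S34x.Inst.UnitQuot
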