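/-
helper44 (P-S34, final discharge): the CONCRETE free step (I) of
`Target.kummerSemistable_of_steps` at `R = RedSetupInst.redSetup2 H hA`: for `τ` in the inertia
group of `A` and `u ≠ 0` in `F_{Mq}`, the quotient `τ • u / u` has nonzero CONSTANT reductions at
both Gauss valuations (`StepsAbs.ConstRed`).
-/
import Fermat.Agent.S34x.Inst.StepsAbs
import Fermat.Agent.S34x.Inst.UnitQuot
import Fermat.Agent.S34x.Inst.RedSetupInst
import Fermat.Agent.S34x.TwoVal.GaloisRed

set_option autoImplicit false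
set_option linter.style.haveILetI false
set_option linter.unusedSectionVars false

noncomputable section

namespace Fermat.Agent.S34x.Inst.FinalStepsI

open ModularCurve AlgebraicCurve IntermediateField IsLocalRing
open Fermat.Agent.Gateway.Hecke Fermat.Agent.Gateway.ESC
open Fermat.Agent.Gateway.Red Fermat.Agent.Gateway.GoodRed
open Fermat.Agent.S34x.TwoVal Fermat.Agent.S34x.C0two
open Fermat.Agent.S34x.Inst.RedSetupInst

variable {L : Type} [Field L] [Algebra ℚ L] [IsAlgClosed L] [Algebra.IsAlgebraic ℚ L]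
  {A : ValuationSubring L}
  {k : Type} [Field k] {π : A →+* k} [IsAlgClosed k]
variable {M q : ℕ} [NeZero M] [NeZero q] [Fact q.Prime] [CharP k q]
variable {hdeg : finrankAlong L (heckeAlphaBar L M q) = q + 1} {hq : q.Prime} {hqM : ¬ q ∣ M}
variable {hrk : ∀ x ∈ maximalIdeal A, ∀ c : A, c ≠ 0 → ∃ j : ℕ, c ∣ x ^ j}
  {hπ : Function.Surjective π}
variable (H : ResidueFacts A π M q hdeg hq hqM hrk hπ) (hA : A.LiesOverPrime q)

/-- inertia elements lie in the decomposition group. -/
theorem mem_decomposition_of_mem_inertia' {τ : L ≃ₐ[ℚ] L} (hτ : τ ∈ A.inertiaSubgroupIn ℚ) :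
    τ ∈ A.decompositionSubgroup ℚ := by
  obtain ⟨σ, -, rfl⟩ := hτ
  exact σ.2

/-- **step (I), concrete**: `τ • u / u` has nonzero constant reductions at `v_∞` and `v_0`. -/
theorem hI :
    ∀ τ ∈ A.inertiaSubgroupIn ℚ, ∀ u : FL L (M * q), u ≠ 0 →
      StepsAbs.ConstRed (redSetupInfty H hA) (redSetupZero H hA)
        (arithmeticGalois (modularFunctionFieldFull (M * q)) τ • u / u) := by
  intro τ hτ u hu
  have hτD := mem_decomposition_of_mem_inertia' hτ
  refine StepsAbs.constRed_smul_div (redSetupInfty H hA) (redSetupZero H hA)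
    (arithmeticGalois (modularFunctionFieldFull (M * q)) τ)
    (fun f hf => (smul_mem_Ov_iff A π (M * q) hπ hτD f).mpr hf)
    (fun f hf => (smul_mem_Ov0_iff A π M q hdeg hq hqM hπ hτD f).mpr hf)
    (fun f hf => ?_) (fun f hf => ?_) (fun d hd => ?_) hu
  · obtain ⟨h, e⟩ := redV_smul_of_mem_inertia A π (M * q) hπ hτ hf
    apply Subtype.ext
    exact e
  · obtain ⟨h, e⟩ := red0_smul_of_mem_inertia A π M q hdeg hq hqM hπ hτ hf
    apply Subtype.ext
    exact e
  · obtain ⟨a, ha⟩ := UnitQuot.exists_unit_eq_apply_div A hτD hd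
    refine ⟨a, ?_⟩
    rw [ha, baseAut_arithmeticGalois]
    rfl

end Fermat.Agent.S34x.Inst.FinalStepsI
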