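/-
helper44 (P-S34, final discharge): the CONCRETE normalisation step (N) of
`Target.kummerSemistable_of_steps` at `R = RedSetupInst.redSetup2 H hA`:

* `hsep`  : the separating element of `TwoVal/Separating` as an element of `S.O` with
            `R.res s = (0, 1)`;
* `hN`    : `ConstRed z → ∃ f ≠ 0, OneRed (z * f ^ m)` (helper70's `StepsAbs` vocabulary).
-/
import Fermat.Agent.S34x.Inst.StepsAbs
import Fermat.Agent.S34x.Inst.RedSetupInst
import Fermat.Agent.S34x.TwoVal.Separating

set_option autoImplicit false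
set_option linter.style.haveILetI false
set_option linter.unusedSectionVars false

noncomputable section

namespace Fermat.Agent.S34x.Inst.FinalStepsN

open ModularCurve AlgebraicCurve IntermediateField IsLocalRing
open Fermat.Agent.Gateway.Hecke Fermat.Agent.Gateway.ESC
open Fermat.Agent.Gateway.Red Fermat.Agent.Gateway.GoodRed
open Fermat.Agent.S34x.TwoVal Fermat.Agent.S34x.C0two
open Fermat.Agent.S34x.Inst.RedSetupInst

variable {L : Type} [Field L] [Algebra ℚ L] [IsAlgClosed L] {A : ValuationSubring L}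
  {k : Type} [Field k] {π : A →+* k} [IsAlgClosed k]
variable {M q : ℕ} [NeZero M] [NeZero q] [Fact q.Prime] [CharP k q]
variable {hdeg : finrankAlong L (heckeAlphaBar L M q) = q + 1} {hq : q.Prime} {hqM : ¬ q ∣ M}
variable {hrk : ∀ x ∈ maximalIdeal A, ∀ c : A, c ≠ 0 → ∃ j : ℕ, c ∣ x ^ j}
  {hπ : Function.Surjective π}
variable (H : ResidueFacts A π M q hdeg hq hqM hrk hπ) (hA : A.LiesOverPrime q)

/-- the separating element: `s ∈ O_∞ ⊓ O_0` with `R.res s = (0, 1)` -/
theorem hsep :
    ∃ s : (twoVal (valInfty A π M q hrk hπ hqM) (valZero A π M q hdeg hq hqM hrk hπ)).O,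
      (redSetup2 H hA).res s = (0, 1) := by
  obtain ⟨s, hs, hs0, h1, h2⟩ := exists_separating A π M q hdeg hq hqM hπ
  have hsO : s ∈ (twoVal (valInfty A π M q hrk hπ hqM)
      (valZero A π M q hdeg hq hqM hrk hπ)).O := mem_O_iff.mpr ⟨hs, hs0⟩
  refine ⟨⟨s, hsO⟩, ?_⟩
  apply prod_ext_coe
  · rw [coe_res_fst, h1]; rfl
  · rw [coe_res_snd, h2]; rfl

/-- the complementary separating element: `R.res s = (1, 0)` -/
theorem hsep' :
    ∃ s : (twoVal (valInfty A π M q hrk hπ hqM) (valZero A π M q hdeg hq hqM hrk hπ)).O,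
      (redSetup2 H hA).res s = (1, 0) := by
  obtain ⟨s, hs, hs0, h1, h2⟩ := exists_separating' A π M q hdeg hq hqM hπ
  have hsO : s ∈ (twoVal (valInfty A π M q hrk hπ hqM)
      (valZero A π M q hdeg hq hqM hrk hπ)).O := mem_O_iff.mpr ⟨hs, hs0⟩
  refine ⟨⟨s, hsO⟩, ?_⟩
  apply prod_ext_coe
  · rw [coe_res_fst, h1]; rfl
  · rw [coe_res_snd, h2]; rfl

/-- **step (N), concrete**: a function with nonzero constant reductions at `v_∞` and `v_0` becomes
a unit of `O_∞ ⊓ O_0` with reduction `(1, 1)` after multiplication by an `m`-th power. -/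
theorem hN {m : ℕ} (hm : 0 < m) :
    ∀ z : FL L (M * q), z ≠ 0 →
      StepsAbs.ConstRed (redSetupInfty H hA) (redSetupZero H hA) z →
      ∃ f : FL L (M * q), f ≠ 0 ∧
        StepsAbs.OneRed (redSetupInfty H hA) (redSetupZero H hA) rfl (z * f ^ m) := by
  intro z _ hz
  exact StepsAbs.exists_oneRed_mul_pow (redSetupInfty H hA) (redSetupZero H hA) rfl
    (hsep H hA) hm hz

end Fermat.Agent.S34x.Inst.FinalStepsN
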