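import Fermat.Agent.S34x.Lattice2.OfDivisor
import Fermat.Agent.S34x.Lattice2.DimBridgeTwoPole

/-!
# P-S34 WP3-inst (J8): the concrete dimension counts `hdimS` / `hdimN`

helper72.  Setting of `Lattice2/OfDivisor`: `R : RedSetup2 A S k κ`, `C : ChartCoord R` with
`C.t` transcendental, `F / K(t)` finite separable, `K` algebraically closed (any characteristic),
`Dt = div t`, `T = TwoCharts.ofDivisor Dt`.

* Part A: `T.Cinf = (t)_∞` has degree `[F : K(t)]`; `T.LM E 0 b = Lb E T.Cinf b`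
  (`Lattice2/Dim`); Riemann's inequality / Riemann-Roch for `T.LM E 0 b`; the reduction of a
  cartesian lattice has the dimension of the space.
* Part B: from a linear count `dim P b = n b + cP` on the special fibre and cartesian-ness:
  `hdimS : dim P b = dim red (L(b C∞) ∩ O) + δ` and
  `hdimN : dim P b ≤ dim red (L(E + b C∞) ∩ O) + δ` for all `E` of degree `0`, `b ≥ b₁`,
  `δ = g - 1 + cP ≥ 0`; the same for the members `W.L i 0 b` of a `TwistFam`.
* Part C: `κ = E × E`, `C.T = (x, x ^ q)`: `P b = C.Pk 0 b`, `cP = 2 - 2 g'`,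
  `δ = g - 2 g' + 1` (`Lattice2/DimBridgeTwoPole.finrank_twoPole`).
-/

set_option autoImplicit false
set_option linter.unusedSectionVars false
set_option linter.style.haveILetI false

noncomputable section

namespace Fermat.Agent.S34x.Inst.CountsInst

open AlgebraicCurve IntermediateField Module
open Fermat.Agent.Gateway.C0 Fermat.Agent.S34x.C0two Fermat.Agent.S34x.Lattice2
open Fermat.Agent.Lib.RiemannRoch Fermat.Agent.Lib.RiemannRoch.FunctionFieldRR

/-! ### Part A: the divisor side -/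

section DivSide

variable {K F : Type*} [Field K] [Field F] [Algebra K F] {t : F} {Dt : Divisor K F}
  (hDt : ∀ v : Place K F, Dt v = v.ord t)

include hDt in
theorem Cinf_apply (v : Place K F) : (TwoCharts.ofDivisor Dt).Cinf v = max 0 (-(v.ord t)) := by
  rw [TwoCharts.ofDivisor_Cinf_apply, hDt, max_comm]

/-- `L(E + b C∞)` is the pole filtration of `Lattice2/Dim`. -/
theorem LM_zero_eq_Lb (T : TwoCharts K F) (E : Divisor K F) (b : ℕ) :
    T.LM E 0 b = Dim.Lb E T.Cinf b := by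
  unfold TwoCharts.LM Dim.Lb TwoCharts.dv
  rw [zero_smul, zero_add]

theorem LN_zero_eq_Lb (T : TwoCharts K F) (b : ℕ) : T.LN 0 b = Dim.Lb 0 T.Cinf b := by
  rw [← TwoCharts.LM_zero_eq, LM_zero_eq_Lb]

variable [IsAlgClosed K] (ht : Transcendental K t) [FiniteDimensional K⟮t⟯ F]
  [Algebra.IsSeparable K⟮t⟯ F]

include ht hDt in
/-- `deg (t)_∞ = [F : K(t)]` (any characteristic). -/
theorem degree_Cinf :
    Divisor.degree (TwoCharts.ofDivisor Dt).Cinf = (finrank K⟮t⟯ F : ℤ) := by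
  obtain ⟨C, hC, hCdeg⟩ := Dim.exists_poleDiv ht ht
  have h : (TwoCharts.ofDivisor Dt).Cinf = C := by
    ext v
    rw [Cinf_apply hDt, hC]
  rw [h, hCdeg]

include ht in
theorem finite_LM (T : TwoCharts K F) (E : Divisor K F) (b : ℕ) :
    Module.Finite K (T.LM E 0 b) := by
  rw [LM_zero_eq_Lb]
  exact Dim.finite_Lb ht E T.Cinf b

include ht hDt in
/-- **Riemann's inequality** for `L(E + b C∞)`. -/
theorem le_finrank_LM (E : Divisor K F) (b : ℕ) :
    Divisor.degree E + b * (finrank K⟮t⟯ F : ℤ) + 1 - genusFF K F ≤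
      (finrank K ((TwoCharts.ofDivisor Dt).LM E 0 b) : ℤ) := by
  rw [LM_zero_eq_Lb]
  exact Dim.le_finrank_Lb ht (degree_Cinf hDt ht) E b

include ht hDt in
/-- **Riemann-Roch** for `L(E + b C∞)`, `b` large. -/
theorem finrank_LM (E : Divisor K F) {b : ℕ}
    (hb : 2 * (genusFF K F : ℤ) - 2 < Divisor.degree E + b * (finrank K⟮t⟯ F : ℤ)) :
    (finrank K ((TwoCharts.ofDivisor Dt).LM E 0 b) : ℤ) =
      Divisor.degree E + b * (finrank K⟮t⟯ F : ℤ) + 1 - genusFF K F := by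
  rw [LM_zero_eq_Lb]
  exact Dim.finrank_Lb ht (degree_Cinf hDt ht) E hb

include ht in
/-- A divisor `D` with `m D = div u`, `m > 0`, has degree `0`. -/
theorem degree_eq_zero_of_div {D : Divisor K F} {m : ℕ} (hm : 0 < m) {u : F} (hu0 : u ≠ 0)
    (hD : ∀ v : Place K F, (m : ℤ) * D v = v.ord u) : Divisor.degree D = 0 := by
  haveI := nonempty_place ht
  haveI : ∀ v : Place K F, v.FiniteResidue := FunctionField.finiteResidue K t
  haveI := hasPrincipalDivisors ht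
  have h1 : m • D = divOf (K := K) u := by
    ext v
    rw [Finsupp.smul_apply, nsmul_eq_mul, hD, divOf_apply hu0]
  have h2 := congrArg Divisor.degree h1
  rw [map_nsmul, degree_divOf, nsmul_eq_mul] at h2
  rcases mul_eq_zero.mp h2 with h | h
  · exact absurd (by exact_mod_cast h) hm.ne'
  · exact h

end DivSide

/-! ### Part B: the counts `hdimS`, `hdimN` -/

section Counts

variable {K : Type*} [Field K] [IsAlgClosed K] {A : ValuationSubring K} {F : Type*} [Field F]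
  [Algebra K F] {S : SmallRing F} {k κ : Type*} [Field k] [CommRing κ] [Algebra k κ]
  {R : RedSetup2 A S k κ} (C : ChartCoord R)
  (ht : Transcendental K C.t) [FiniteDimensional K⟮C.t⟯ F] [Algebra.IsSeparable K⟮C.t⟯ F]
  {Dt : Divisor K F} (hDt : ∀ v : Place K F, Dt v = v.ord C.t)

include ht in
/-- The reduction of a cartesian lattice `L(E + b C∞) ∩ O` has the dimension of `L(E + b C∞)`. -/
theorem finrank_redLat_LM (T : TwoCharts K F) (E : Divisor K F) (b : ℕ)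
    (hfg : (R.lat (T.LM E 0 b)).FG) :
    finrank k (R.redLat (T.LM E 0 b)) = finrank K (T.LM E 0 b) := by
  haveI := finite_LM ht T E b
  exact finrank_redLat_eq R _ hfg

include ht hDt in
/-- `n b + 1 - g ≤ dim red (L(E + b C∞) ∩ O)` for `deg E = 0` (Riemann + cartesian). -/
theorem le_finrank_redLat_LM {E : Divisor K F} (hE : Divisor.degree E = 0) (b : ℕ)
    (hfg : (R.lat ((TwoCharts.ofDivisor Dt).LM E 0 b)).FG) :
    (finrank K⟮C.t⟯ F : ℤ) * b + 1 - genusFF K F ≤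
      (finrank k (R.redLat ((TwoCharts.ofDivisor Dt).LM E 0 b)) : ℤ) := by
  rw [finrank_redLat_LM C ht _ E b hfg]
  have := le_finrank_LM hDt ht E b
  rw [hE] at this
  linarith

include ht hDt in
/-- `dim red (L(b C∞) ∩ O) = n b + 1 - g` for `b n > 2 g - 2` (Riemann-Roch + cartesian). -/
theorem finrank_redLat_LN {b : ℕ}
    (hb : 2 * (genusFF K F : ℤ) - 2 < b * (finrank K⟮C.t⟯ F : ℤ))
    (hfg : (R.lat ((TwoCharts.ofDivisor Dt).LM 0 0 b)).FG) :
    (finrank k (R.redLat (C.LN 0 b)) : ℤ) =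
      (finrank K⟮C.t⟯ F : ℤ) * b + 1 - genusFF K F := by
  have h1 : C.LN 0 b = (TwoCharts.ofDivisor Dt).LM 0 0 b := by
    rw [TwoCharts.LM_zero_eq, LN_eq C ht hDt]
  rw [h1, finrank_redLat_LM C ht _ 0 b hfg,
    finrank_LM hDt ht 0 (by rw [map_zero, zero_add]; exact hb), map_zero]
  ring

variable (P : ℕ → Submodule k κ) (cP : ℤ) (b₀ : ℕ)
  (hP : ∀ b, b₀ ≤ b → (finrank k (P b) : ℤ) = (finrank K⟮C.t⟯ F : ℤ) * b + cP)

include ht in
theorem lt_mul_finrank {b : ℕ} (hb : 2 * genusFF K F ≤ b) :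
    2 * (genusFF K F : ℤ) - 2 < b * (finrank K⟮C.t⟯ F : ℤ) := by
  have hn : (1 : ℤ) ≤ (finrank K⟮C.t⟯ F : ℤ) := by
    have : 0 < finrank K⟮C.t⟯ F := Module.finrank_pos
    exact_mod_cast this
  have hb' : (2 : ℤ) * genusFF K F ≤ b := by exact_mod_cast hb
  have h0 : (0 : ℤ) ≤ b := Int.natCast_nonneg _
  nlinarith

include ht hDt hP in
/-- **The counts `hdimS` and `hdimN`** (for all twists of degree `0` at once). -/
theorem exists_counts
    (hcart : ∀ E : Divisor K F, Divisor.degree E = 0 → ∀ b,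
      (R.lat ((TwoCharts.ofDivisor Dt).LM E 0 b)).FG)
    (δ : ℕ) (hδ : (δ : ℤ) = genusFF K F - 1 + cP) :
    ∃ b₁, b₀ ≤ b₁ ∧
      (∀ b, b₁ ≤ b → finrank k (P b) = finrank k (R.redLat (C.LN 0 b)) + δ) ∧
      (∀ E : Divisor K F, Divisor.degree E = 0 → ∀ b, b₁ ≤ b →
        finrank k (P b) ≤ finrank k (R.redLat ((TwoCharts.ofDivisor Dt).LM E 0 b)) + δ) := by
  refine ⟨max b₀ (2 * genusFF K F), le_max_left _ _, fun b hb => ?_, fun E hE b hb => ?_⟩
  · have h1 := hP b ((le_max_left _ _).trans hb)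
    have h2 := finrank_redLat_LN C ht hDt (lt_mul_finrank C ht ((le_max_right _ _).trans hb))
      (hcart 0 (map_zero _) b)
    have : (finrank k (P b) : ℤ) = ((finrank k (R.redLat (C.LN 0 b)) + δ : ℕ) : ℤ) := by
      push_cast
      rw [h1, h2, hδ]
      ring
    exact_mod_cast this
  · have h1 := hP b ((le_max_left _ _).trans hb)
    have h2 := le_finrank_redLat_LM C ht hDt hE b (hcart E hE b)
    have : (finrank k (P b) : ℤ) ≤
        ((finrank k (R.redLat ((TwoCharts.ofDivisor Dt).LM E 0 b)) + δ : ℕ) : ℤ) := by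
      push_cast
      rw [h1, hδ]
      linarith
    exact_mod_cast this

include ht hDt hP in
/-- The counts for the members of a twisted family `W.L i 0 b = L(i D + b C∞)`, `deg D = 0`. -/
theorem exists_counts_twistFam
    (hcart : ∀ E : Divisor K F, Divisor.degree E = 0 → ∀ b,
      (R.lat ((TwoCharts.ofDivisor Dt).LM E 0 b)).FG)
    (δ : ℕ) (hδ : (δ : ℤ) = genusFF K F - 1 + cP)
    {m : ℕ} (W : TwistFam C m) (D : Divisor K F) (hD0 : Divisor.degree D = 0)
    (hWL : ∀ i b, W.L i 0 b = (TwoCharts.ofDivisor Dt).LM (i • D) 0 b) :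
    ∃ b₁, b₀ ≤ b₁ ∧
      (∀ b, b₁ ≤ b → finrank k (P b) = finrank k (R.redLat (C.LN 0 b)) + δ) ∧
      (∀ i b, b₁ ≤ b → finrank k (P b) ≤ finrank k (R.redLat (W.L i 0 b)) + δ) := by
  obtain ⟨b₁, hb₁, hS, hN⟩ := exists_counts C ht hDt P cP b₀ hP hcart δ hδ
  refine ⟨b₁, hb₁, hS, fun i b hb => ?_⟩
  rw [hWL]
  exact hN (i • D) (by rw [map_nsmul, hD0, smul_zero]) b hb

include ht hDt hP in
/-- `δ = g - 1 + cP` is a natural number. -/
theorem exists_delta (hcart0 : ∀ b, (R.lat ((TwoCharts.ofDivisor Dt).LM 0 0 b)).FG)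
    [∀ b, Module.Finite k (P b)] (hSP : ∀ b, R.redLat (C.LN 0 b) ≤ P b) :
    ∃ δ : ℕ, (δ : ℤ) = genusFF K F - 1 + cP := by
  set b := max b₀ (2 * genusFF K F) with hb
  have h1 := hP b (le_max_left _ _)
  have h2 := finrank_redLat_LN C ht hDt (lt_mul_finrank C ht (le_max_right _ _)) (hcart0 b)
  have h3 : (finrank k (R.redLat (C.LN 0 b)) : ℤ) ≤ finrank k (P b) := by
    exact_mod_cast Submodule.finrank_mono (hSP b)
  have h4 : (0 : ℤ) ≤ genusFF K F - 1 + cP := by linarith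
  exact ⟨(genusFF K F - 1 + cP).toNat, Int.toNat_of_nonneg h4⟩

end Counts

/-! ### Part C: `κ = E × E`, `T = (x, x ^ q)` -/

section Prod

variable {K : Type*} [Field K] [IsAlgClosed K] {A : ValuationSubring K} {F : Type*} [Field F]
  [Algebra K F] {S : SmallRing F} {k : Type*} [Field k] [IsAlgClosed k]
  {E : Type*} [Field E] [Algebra k E] {x : E} (hx : Transcendental k x)
  [FiniteDimensional k⟮x⟯ E] [Algebra.IsSeparable k⟮x⟯ E] {q : ℕ} (hq : 0 < q)
  {R : RedSetup2 A S k (E × E)} (C : ChartCoord R) (hT : C.T = (x, x ^ q))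

include hx hT in
theorem Ti_eq : C.Ti = (x⁻¹, (x ^ q)⁻¹) := by
  have h1 := DimBridgeTwoPole.T_mul_Ti hx q
  have h2 := C.T_mul_Ti
  calc C.Ti = C.Ti * (((x, x ^ q) : E × E) * (x⁻¹, (x ^ q)⁻¹)) := by rw [h1, mul_one]
    _ = (C.T * C.Ti) * (x⁻¹, (x ^ q)⁻¹) := by rw [hT]; ring
    _ = (x⁻¹, (x ^ q)⁻¹) := by rw [h2, one_mul]

include hx hT in
theorem Pk_eq (a b : ℕ) :
    C.Pk a b = twoPole k ((x, x ^ q) : E × E) (x⁻¹, (x ^ q)⁻¹) a b := by
  unfold ChartCoord.Pk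
  rw [Ti_eq hx C hT, hT]

include hx hq hT in
theorem finite_Pk (a b : ℕ) : Module.Finite k (C.Pk a b) := by
  rw [Pk_eq hx C hT]
  exact DimBridgeTwoPole.finite_twoPole hx hq a b

include hx hq hT in
/-- **Riemann-Roch on the special fibre**: `dim L(b C̄∞) = (q+1) n' b + 2 - 2 g'`. -/
theorem finrank_Pk {b : ℕ}
    (hb : 2 * (genusFF k E : ℤ) - 2 < (b : ℤ) * (finrank k⟮x⟯ E : ℤ)) :
    (finrank k (C.Pk 0 b) : ℤ) =
      (((q + 1) * finrank k⟮x⟯ E : ℕ) : ℤ) * b + (2 - 2 * (genusFF k E : ℤ)) := by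
  rw [Pk_eq hx C hT]
  have := DimBridgeTwoPole.finrank_twoPole hx hq (a := 0) (b := b) (by rwa [zero_add])
  rw [this, zero_add]

variable (ht : Transcendental K C.t) [FiniteDimensional K⟮C.t⟯ F] [Algebra.IsSeparable K⟮C.t⟯ F]
  {Dt : Divisor K F} (hDt : ∀ v : Place K F, Dt v = v.ord C.t)
  (hn : finrank K⟮C.t⟯ F = (q + 1) * finrank k⟮x⟯ E)

include hx hq hT ht hDt hn in
/-- **`hdimS` / `hdimN` at a two-component special fibre**, `δ = g - 2 g' + 1`. -/
theorem exists_counts_prod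
    (hcart : ∀ E' : Divisor K F, Divisor.degree E' = 0 → ∀ b,
      (R.lat ((TwoCharts.ofDivisor Dt).LM E' 0 b)).FG) :
    ∃ δ : ℕ, (δ : ℤ) = genusFF K F - 2 * genusFF k E + 1 ∧ ∃ b₁,
      (∀ b, b₁ ≤ b → finrank k (C.Pk 0 b) = finrank k (R.redLat (C.LN 0 b)) + δ) ∧
      (∀ E' : Divisor K F, Divisor.degree E' = 0 → ∀ b, b₁ ≤ b →
        finrank k (C.Pk 0 b) ≤
          finrank k (R.redLat ((TwoCharts.ofDivisor Dt).LM E' 0 b)) + δ) := by
  obtain ⟨b₀, hb₀⟩ := DimBridge.exists_threshold hx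
  have hP : ∀ b, b₀ ≤ b → (finrank k (C.Pk 0 b) : ℤ) =
      (finrank K⟮C.t⟯ F : ℤ) * b + (2 - 2 * (genusFF k E : ℤ)) := by
    intro b hb
    rw [hn]
    refine finrank_Pk hx hq C hT ?_
    have h2 : (b₀ : ℤ) * (finrank k⟮x⟯ E : ℤ) ≤ (b : ℤ) * (finrank k⟮x⟯ E : ℤ) :=
      mul_le_mul_of_nonneg_right (by exact_mod_cast hb) (Int.natCast_nonneg _)
    linarith
  haveI : ∀ b, Module.Finite k (C.Pk 0 b) := fun b => finite_Pk hx hq C hT 0 b
  obtain ⟨δ, hδ⟩ := exists_delta C ht hDt (fun b => C.Pk 0 b) _ b₀ hP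
    (fun b => hcart 0 (map_zero _) b) (fun b => C.redLat_LN_le 0 b)
  obtain ⟨b₁, -, hS, hN⟩ := exists_counts C ht hDt (fun b => C.Pk 0 b) _ b₀ hP hcart δ hδ
  exact ⟨δ, by rw [hδ]; ring, b₁, hS, hN⟩

include hx hq hT ht hDt hn in
/-- The same for a twisted family `W.L i 0 b = L(i D + b C∞)`, `deg D = 0`. -/
theorem exists_counts_prod_twistFam
    (hcart : ∀ E' : Divisor K F, Divisor.degree E' = 0 → ∀ b,
      (R.lat ((TwoCharts.ofDivisor Dt).LM E' 0 b)).FG)
    {m : ℕ} (W : TwistFam C m) (D : Divisor K F) (hD0 : Divisor.degree D = 0)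
    (hWL : ∀ i b, W.L i 0 b = (TwoCharts.ofDivisor Dt).LM (i • D) 0 b) :
    ∃ δ : ℕ, (δ : ℤ) = genusFF K F - 2 * genusFF k E + 1 ∧ ∃ b₁,
      (∀ b, b₁ ≤ b → finrank k (C.Pk 0 b) = finrank k (R.redLat (C.LN 0 b)) + δ) ∧
      (∀ i b, b₁ ≤ b → finrank k (C.Pk 0 b) ≤ finrank k (R.redLat (W.L i 0 b)) + δ) := by
  obtain ⟨δ, hδ, b₁, hS, hN⟩ := exists_counts_prod hx hq C hT ht hDt hn hcart
  refine ⟨δ, hδ, b₁, hS, fun i b hb => ?_⟩
  rw [hWL]
  exact hN (i • D) (by rw [map_nsmul, hD0, smul_zero]) b hb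

end Prod

end Fermat.Agent.S34x.Inst.CountsInst
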