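/-
helper44 (P-S34, WP3-inst (I4)): the (L2)-structure at level `M ℓ` (`ℓ ∤ M` the residue
characteristic).

* `GoodLevelFactsT` : hypothesis structure = the deep GoodRed inputs at level `M` for a chart
  function `x ∈ F_M` (exactly the hypotheses of `Gateway/C0/Main.exists_countData_spec`).
* `LiftsIntegral x xb` : (EQ) for the chart `x`: every element of the integral closure of `k[xb]`
  in `Fk k M` lifts to an element of the Gauss ring `OvVal` integral over `L[x]`.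
* `liftsIntegral_of_facts`, `liftsIntegral_inv_of_facts` : (EQ) for the charts `x`, `x⁻¹` from
  `GoodLevelFactsT`, via the landed `CountData` API (`exists_lift`).
* `exists_alpha_lift`, `exists_beta_lift` : **(L2)**.  For `y` in the integral closure of `k[xb]`
  there are `f ∈ Ov_∞ ∩ Ov0` of `F_{Mℓ}`, integral over `L[α x]`, with
  `(red_∞ f, red_0 f) = (y, y(s^ℓ))`, resp. `(y(t^ℓ), y)` (the latter needs
  (Y3) : `β x` integral over `L[α x]`).  So both projections of the reduced chart ring `Bbar`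
  onto the reduced chart rings of the two components are onto.
-/
import Fermat.Agent.S34x.TwoVal.Gauss0
import Fermat.Agent.Gateway.C0.Instantiate
import Fermat.Agent.Gateway.Red.Filtered

set_option autoImplicit false
set_option linter.style.haveILetI false
set_option linter.unusedSectionVars false

noncomputable section

namespace Fermat.Agent.S34x.Inst.L2

open Polynomial ModularCurve AlgebraicCurve IntermediateField Module
open Fermat.Agent.Gateway.Hecke Fermat.Agent.Gateway.ESC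
open Fermat.Agent.Gateway.Red Fermat.Agent.Gateway.GoodRed Fermat.Agent.Gateway.C0
open Fermat.Agent.Gateway.GoodRed.ConjFamily
open Fermat.Agent.S34x.TwoVal

/-! ### Two lemmas on integrality over `R[a]` -/

section Algebra

variable {R S S' : Type*} [CommRing R] [CommRing S] [CommRing S'] [Algebra R S] [Algebra R S']

/-- integrality over `R[a]` is transported by `R`-algebra homomorphisms -/
theorem isIntegral_adjoin_map (φ : S →ₐ[R] S') {a b : S}
    (h : IsIntegral (Algebra.adjoin R {a}) b) : IsIntegral (Algebra.adjoin R {φ a}) (φ b) := by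
  have hle : (Algebra.adjoin R {a}).map φ ≤ Algebra.adjoin R {φ a} := by
    rw [AlgHom.map_adjoin, Set.image_singleton]
  let ψ : Algebra.adjoin R {a} →+* Algebra.adjoin R {φ a} :=
    { toFun := fun z => ⟨φ z, hle ⟨z, z.2, rfl⟩⟩
      map_one' := Subtype.ext (map_one φ)
      map_mul' := fun z w => Subtype.ext (map_mul φ (z : S) (w : S))
      map_zero' := Subtype.ext (map_zero φ)
      map_add' := fun z w => Subtype.ext (map_add φ (z : S) (w : S)) }
  exact IsIntegral.map_of_comp_eq ψ (φ : S →+* S') (RingHom.ext fun z => rfl) h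

/-- transitivity of integrality over `R[a]` -/
theorem isIntegral_adjoin_trans {a b c : S} (hb : IsIntegral (Algebra.adjoin R {a}) b)
    (hc : IsIntegral (Algebra.adjoin R {b}) c) : IsIntegral (Algebra.adjoin R {a}) c := by
  set R₁ := Algebra.adjoin R {a} with hR₁
  set IC := integralClosure R₁ S with hIC
  have hle : ∀ z ∈ Algebra.adjoin R {b}, z ∈ IC := by
    intro z hz
    induction hz using Algebra.adjoin_induction with
    | mem x hx =>
      rw [Set.mem_singleton_iff] at hx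
      subst hx
      exact hb
    | algebraMap r =>
      have : algebraMap R S r = algebraMap R₁ S (algebraMap R R₁ r) := rfl
      rw [this]
      exact IC.algebraMap_mem _
    | add x y _ _ hx hy => exact IC.add_mem hx hy
    | mul x y _ _ hx hy => exact IC.mul_mem hx hy
  let ψ : Algebra.adjoin R {b} →+* IC :=
    { toFun := fun z => ⟨z, hle z z.2⟩
      map_one' := rfl
      map_mul' := fun _ _ => rfl
      map_zero' := rfl
      map_add' := fun _ _ => rfl }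
  have h1 : IsIntegral IC c :=
    IsIntegral.map_of_comp_eq ψ (RingHom.id S) (RingHom.ext fun z => rfl) hc
  exact isIntegral_trans (R := R₁) (A := IC) c h1

end Algebra

/-! ### The level facts for a chart function and (EQ) -/

section Facts

variable {L : Type} [Field L] [Algebra ℚ L] (A : ValuationSubring L)
  {k : Type} [Field k] (π : A →+* k) [IsAlgClosed k] (M : ℕ) [NeZero M]
  (ℓ : ℕ) [Fact ℓ.Prime] [CharP k ℓ]

/-- **(EQ)** for the chart function `x` with reduction `xb`: every element of the integral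
closure of `k[xb]` in `Fk k M` lifts to an element of `OvVal` integral over `L[x]`. -/
def LiftsIntegral (hπ : Function.Surjective π) (hℓM : ¬ ℓ ∣ M) (x : FBar L M) (xb : Fk k M) :
    Prop :=
  ∀ y : Fk k M, IsIntegral (Algebra.adjoin k {xb}) y →
    ∃ (f : FBar L M) (hf : f ∈ OvVal A π M ℓ hπ hℓM),
      IsIntegral (Algebra.adjoin L {x}) f ∧ resFk A π M ℓ hπ hℓM ⟨f, hf⟩ = y

/-- The deep GoodRed inputs at level `M` (residue characteristic `ℓ ∤ M`) for a chart function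
`x ∈ F_M`: exactly the hypotheses of `Gateway/C0/Main.exists_countData_spec` for the Gauss
valuation ring (the cartesian property is `GoodRed.fg_inf_OvVal`, landed). -/
structure GoodLevelFactsT (hπ : Function.Surjective π) (hℓM : ¬ ℓ ∣ M) (x : FBar L M) : Prop where
  trans : Transcendental L x
  finite : FiniteDimensional L⟮x⟯ (FBar L M)
  mem : x ∈ OvVal A π M ℓ hπ hℓM
  trans_res : Transcendental k (resFk A π M ℓ hπ hℓM ⟨x, mem⟩)
  finite_res : FiniteDimensional k⟮resFk A π M ℓ hπ hℓM ⟨x, mem⟩⟯ (Fk k M)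
  sep_res : Algebra.IsSeparable k⟮resFk A π M ℓ hπ hℓM ⟨x, mem⟩⟯ (Fk k M)
  integral : ∀ (f : FBar L M) (hf : f ∈ OvVal A π M ℓ hπ hℓM),
    IsIntegral (Algebra.adjoin L {x}) f →
      IsIntegral (Algebra.adjoin k {resFk A π M ℓ hπ hℓM ⟨x, mem⟩})
        (resFk A π M ℓ hπ hℓM ⟨f, hf⟩)
  integral_inv : ∀ (f : FBar L M) (hf : f ∈ OvVal A π M ℓ hπ hℓM),
    IsIntegral (Algebra.adjoin L {x⁻¹}) f →
      IsIntegral (Algebra.adjoin k {(resFk A π M ℓ hπ hℓM ⟨x, mem⟩)⁻¹})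
        (resFk A π M ℓ hπ hℓM ⟨f, hf⟩)
  finrank_le : finrank k⟮resFk A π M ℓ hπ hℓM ⟨x, mem⟩⟯ (Fk k M) ≤ finrank L⟮x⟯ (FBar L M)
  genus_le : genusFF L (FBar L M) ≤ genusFF k (Fk k M)

end Facts

section EQ

variable {L : Type} [Field L] [Algebra ℚ L] [IsAlgClosed L] [Algebra.IsAlgebraic ℚ L]
  (A : ValuationSubring L)
  {k : Type} [Field k] (π : A →+* k) [IsAlgClosed k] (M : ℕ) [NeZero M]
  (ℓ : ℕ) [Fact ℓ.Prime] [CharP k ℓ]

/-- the two lifting statements behind (EQ): for `b ≥ b₀` every `y` with `y` integral over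
`k[xb]` and `xb⁻ᵇ y` integral over `k[1/xb]` lifts to `f ∈ OvVal` with the same property
over `L`; same with the roles of the two charts exchanged. -/
theorem exists_lift_of_facts (hπ : Function.Surjective π) (hℓM : ¬ ℓ ∣ M)
    (hA : A.LiesOverPrime ℓ) {x : FBar L M} (H : GoodLevelFactsT A π M ℓ hπ hℓM x) :
    ∃ m₀ : ℕ, ∀ a b : ℕ, (m₀ ≤ a ∨ m₀ ≤ b) → ∀ y : Fk k M,
      IsIntegral (Algebra.adjoin k {resFk A π M ℓ hπ hℓM ⟨x, H.mem⟩})
        ((resFk A π M ℓ hπ hℓM ⟨x, H.mem⟩) ^ a * y) →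
      IsIntegral (Algebra.adjoin k {(resFk A π M ℓ hπ hℓM ⟨x, H.mem⟩)⁻¹})
        ((resFk A π M ℓ hπ hℓM ⟨x, H.mem⟩)⁻¹ ^ b * y) →
      ∃ (f : FBar L M) (hf : f ∈ OvVal A π M ℓ hπ hℓM),
        IsIntegral (Algebra.adjoin L {x}) (x ^ a * f) ∧
        IsIntegral (Algebra.adjoin L {x⁻¹}) (x⁻¹ ^ b * f) ∧
        resFk A π M ℓ hπ hℓM ⟨f, hf⟩ = y := by
  haveI : CharZero L := algebraRat.charZero L
  haveI := H.finite
  haveI := H.finite_res
  haveI := H.sep_res
  set R := gaussRedSetup A π M ℓ hπ hℓM hA with hR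
  have hD₀ : ∀ v : Place L (FBar L M), ((1 : ℕ) : ℤ) * (0 : Divisor L (FBar L M)) v =
      v.ord (1 : FBar L M) := by
    intro v
    rw [Place.ord_one]
    simp
  have key := exists_countData_spec R H.trans H.mem
    (xb := resFk A π M ℓ hπ hℓM ⟨x, H.mem⟩) rfl H.trans_res H.integral H.integral_inv
    H.finrank_le H.genus_le
    (fun V hV => fg_inf_OvVal A π ℓ hπ hℓM V _ (fun f => Iff.rfl))
    (m := 1) Nat.one_pos (one_ne_zero) hD₀ (map_zero _)
  obtain ⟨D, -, hLN, hLbar, hLM, -⟩ := key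
  have h1O : (1 : FBar L M) ∈ OvVal A π M ℓ hπ hℓM := one_mem _
  have h11 : R.res ⟨1, h1O⟩ = 1 := map_one R.res
  refine ⟨D.m₀, fun a b hab y hy1 hy2 => ?_⟩
  have hyL : y ∈ D.Lbar a b := (hLbar a b y).mpr ⟨hy1, hy2⟩
  obtain ⟨f, hf, hfM, hres⟩ := D.exists_lift h1O h11 hab hyL
  rw [hLM rfl a b, hLN a b f] at hfM
  exact ⟨f, hf, hfM.1, hfM.2, hres⟩

/-- **(EQ) for the chart `x`** -/
theorem liftsIntegral_of_facts (hπ : Function.Surjective π) (hℓM : ¬ ℓ ∣ M)
    (hA : A.LiesOverPrime ℓ) {x : FBar L M} (H : GoodLevelFactsT A π M ℓ hπ hℓM x) :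
    LiftsIntegral A π M ℓ hπ hℓM x (resFk A π M ℓ hπ hℓM ⟨x, H.mem⟩) := by
  obtain ⟨m₀, hm₀⟩ := exists_lift_of_facts A π M ℓ hπ hℓM hA H
  intro y hy
  set xb := resFk A π M ℓ hπ hℓM ⟨x, H.mem⟩ with hxb
  have hxb0 : xb ≠ 0 := by
    intro h0
    apply H.trans_res
    rw [← hxb, h0]
    exact isAlgebraic_zero
  obtain ⟨m₁, hm₁⟩ := exists_isIntegral_mul_inv_pow (K := k) hxb0 hy
  have h2 := hm₁ (max m₀ m₁) (le_max_right _ _)
  rw [mul_comm] at h2
  obtain ⟨f, hf, hf1, -, hres⟩ := hm₀ 0 (max m₀ m₁) (Or.inr (le_max_left _ _)) y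
    (by rw [pow_zero, one_mul]; exact hy) h2
  rw [pow_zero, one_mul] at hf1
  exact ⟨f, hf, hf1, hres⟩

/-- **(EQ) for the chart `x⁻¹`** -/
theorem liftsIntegral_inv_of_facts (hπ : Function.Surjective π) (hℓM : ¬ ℓ ∣ M)
    (hA : A.LiesOverPrime ℓ) {x : FBar L M} (H : GoodLevelFactsT A π M ℓ hπ hℓM x) :
    LiftsIntegral A π M ℓ hπ hℓM x⁻¹ (resFk A π M ℓ hπ hℓM ⟨x, H.mem⟩)⁻¹ := by
  obtain ⟨m₀, hm₀⟩ := exists_lift_of_facts A π M ℓ hπ hℓM hA H
  intro y hy
  set xb := resFk A π M ℓ hπ hℓM ⟨x, H.mem⟩ with hxb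
  have hxb0 : xb ≠ 0 := by
    intro h0
    apply H.trans_res
    rw [← hxb, h0]
    exact isAlgebraic_zero
  obtain ⟨m₁, hm₁⟩ := exists_isIntegral_mul_inv_pow (K := k) (inv_ne_zero hxb0) hy
  have h2 := hm₁ (max m₀ m₁) (le_max_right _ _)
  rw [inv_inv, mul_comm] at h2
  obtain ⟨f, hf, -, hf2, hres⟩ := hm₀ (max m₀ m₁) 0 (Or.inl (le_max_left _ _)) y h2
    (by rw [pow_zero, one_mul]; exact hy)
  rw [pow_zero, one_mul] at hf2
  exact ⟨f, hf, hf2, hres⟩

end EQ

/-! ### (L2) -/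

section L2

variable {L : Type} [Field L] [Algebra ℚ L] [IsAlgClosed L] (A : ValuationSubring L)
  {k : Type} [Field k] (π : A →+* k) [IsAlgClosed k] (M : ℕ) [NeZero M]
  (ℓ : ℕ) [NeZero ℓ] [Fact ℓ.Prime] [CharP k ℓ]
variable (hdeg : finrankAlong L (heckeAlphaBar L M ℓ) = ℓ + 1) (hℓ : ℓ.Prime)
variable (hπ : Function.Surjective π) (hℓM : ¬ ℓ ∣ M)

/-- **(L2), first projection**: every `y` in the integral closure of `k[xb]` in `Fk k M` is
`red_∞ f` for some `f = α f' ∈ Ov_∞ ∩ Ov0` integral over `L[α x]`; moreover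
`red_0 f = y(s^ℓ)`. -/
theorem exists_alpha_lift {x : FBar L M} {xb : Fk k M}
    (hEQ : LiftsIntegral A π M ℓ hπ hℓM x xb) (y : Fk k M)
    (hy : IsIntegral (Algebra.adjoin k {xb}) y) :
    ∃ (f : FL L (M * ℓ)) (hf : f ∈ Ov A π (FBar L (M * ℓ)))
      (hf0 : f ∈ Ov0 A π M ℓ hdeg hℓ hℓM),
      IsIntegral (Algebra.adjoin L {heckeAlphaBar L M ℓ x}) f ∧
      redV A π (FBar L (M * ℓ)) ⟨f, hf⟩ = (y : LaurentSeries k) ∧
      red0 A π M ℓ hdeg hℓ hℓM ⟨f, hf0⟩ = qExpand k ℓ (y : LaurentSeries k) := by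
  obtain ⟨f', hf', hint, hres⟩ := hEQ y hy
  have hres' : redV A π (FBar L M) ⟨f', hf'⟩ = (y : LaurentSeries k) := by
    rw [← hres, coe_resFk]
  refine ⟨heckeAlphaBar L M ℓ f', (alpha_mem_Ov_iff A π M ℓ f').mpr hf',
    alpha_mem_Ov0 A π M ℓ hdeg hℓ hℓM f' hf', isIntegral_adjoin_map (heckeAlphaBar L M ℓ) hint,
    ?_, ?_⟩
  · rw [redV_alpha A π M ℓ f' hf', hres']
  · rw [red0_alpha A π M ℓ hdeg hℓ hℓM f' hf', hres']

/-- **(L2), second projection**: every `y` in the integral closure of `k[xb]` in `Fk k M` is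
`red_0 f` for some `f = β f' ∈ Ov_∞ ∩ Ov0` integral over `L[α x]` (this uses (Y3): `β x` is
integral over `L[α x]`); moreover `red_∞ f = y(t^ℓ)`. -/
theorem exists_beta_lift {x : FBar L M} {xb : Fk k M}
    (hEQ : LiftsIntegral A π M ℓ hπ hℓM x xb)
    (hY3 : IsIntegral (Algebra.adjoin L {heckeAlphaBar L M ℓ x}) (heckeBetaBar L M ℓ x))
    (y : Fk k M) (hy : IsIntegral (Algebra.adjoin k {xb}) y) :
    ∃ (f : FL L (M * ℓ)) (hf : f ∈ Ov A π (FBar L (M * ℓ)))
      (hf0 : f ∈ Ov0 A π M ℓ hdeg hℓ hℓM),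
      IsIntegral (Algebra.adjoin L {heckeAlphaBar L M ℓ x}) f ∧
      redV A π (FBar L (M * ℓ)) ⟨f, hf⟩ = qExpand k ℓ (y : LaurentSeries k) ∧
      red0 A π M ℓ hdeg hℓ hℓM ⟨f, hf0⟩ = (y : LaurentSeries k) := by
  obtain ⟨f', hf', hint, hres⟩ := hEQ y hy
  have hres' : redV A π (FBar L M) ⟨f', hf'⟩ = (y : LaurentSeries k) := by
    rw [← hres, coe_resFk]
  refine ⟨heckeBetaBar L M ℓ f', beta_mem_Ov A π M ℓ f' hf',
    (beta_mem_Ov0_iff A π M ℓ hdeg hℓ hℓM f').mpr hf',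
    isIntegral_adjoin_trans hY3 (isIntegral_adjoin_map (heckeBetaBar L M ℓ) hint), ?_, ?_⟩
  · rw [redV_beta A π M ℓ f' hf', hres']
  · rw [red0_beta A π M ℓ hdeg hℓ hℓM f' hf', hres']

/-- chart `x⁻¹`, first projection -/
theorem exists_alpha_lift_inv {x : FBar L M} {xb : Fk k M}
    (hEQ : LiftsIntegral A π M ℓ hπ hℓM x⁻¹ xb⁻¹) (y : Fk k M)
    (hy : IsIntegral (Algebra.adjoin k {xb⁻¹}) y) :
    ∃ (f : FL L (M * ℓ)) (hf : f ∈ Ov A π (FBar L (M * ℓ)))
      (hf0 : f ∈ Ov0 A π M ℓ hdeg hℓ hℓM),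
      IsIntegral (Algebra.adjoin L {(heckeAlphaBar L M ℓ x)⁻¹}) f ∧
      redV A π (FBar L (M * ℓ)) ⟨f, hf⟩ = (y : LaurentSeries k) ∧
      red0 A π M ℓ hdeg hℓ hℓM ⟨f, hf0⟩ = qExpand k ℓ (y : LaurentSeries k) := by
  have h := exists_alpha_lift A π M ℓ hdeg hℓ hπ hℓM hEQ y hy
  rwa [map_inv₀] at h

/-- chart `x⁻¹`, second projection (uses (Y3) for `x⁻¹`) -/
theorem exists_beta_lift_inv {x : FBar L M} {xb : Fk k M}
    (hEQ : LiftsIntegral A π M ℓ hπ hℓM x⁻¹ xb⁻¹)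
    (hY3 : IsIntegral (Algebra.adjoin L {(heckeAlphaBar L M ℓ x)⁻¹}) (heckeBetaBar L M ℓ x)⁻¹)
    (y : Fk k M) (hy : IsIntegral (Algebra.adjoin k {xb⁻¹}) y) :
    ∃ (f : FL L (M * ℓ)) (hf : f ∈ Ov A π (FBar L (M * ℓ)))
      (hf0 : f ∈ Ov0 A π M ℓ hdeg hℓ hℓM),
      IsIntegral (Algebra.adjoin L {(heckeAlphaBar L M ℓ x)⁻¹}) f ∧
      redV A π (FBar L (M * ℓ)) ⟨f, hf⟩ = qExpand k ℓ (y : LaurentSeries k) ∧
      red0 A π M ℓ hdeg hℓ hℓM ⟨f, hf0⟩ = (y : LaurentSeries k) := by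
  have hY3' : IsIntegral (Algebra.adjoin L {heckeAlphaBar L M ℓ x⁻¹})
      (heckeBetaBar L M ℓ x⁻¹) := by
    rw [map_inv₀, map_inv₀]
    exact hY3
  have h := exists_beta_lift A π M ℓ hdeg hℓ hπ hℓM hEQ hY3' y hy
  rwa [map_inv₀] at h

end L2

/-! ### Integrality of the second components -/

section Second

variable {k : Type} [Field k] (ℓ : ℕ) [NeZero ℓ]

/-- `f ↦ f(t^ℓ)` as a `k`-algebra endomorphism of `k((t))` -/
def qExpandAlgHom : LaurentSeries k →ₐ[k] LaurentSeries k :=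
  { qExpand k ℓ with
    commutes' := fun c => by
      show qExpand k ℓ (algebraMap k (LaurentSeries k) c) = algebraMap k (LaurentSeries k) c
      rw [algebraMap_laurentSeries_eq_single, qExpand_single, mul_zero] }

theorem qExpandAlgHom_apply (f : LaurentSeries k) : qExpandAlgHom ℓ f = qExpand k ℓ f := rfl

/-- if `b` is integral over `k[a]` then `b(t^ℓ)` is integral over `k[a(t^ℓ)]` -/
theorem isIntegral_qExpand {a b : LaurentSeries k} (h : IsIntegral (Algebra.adjoin k {a}) b) :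
    IsIntegral (Algebra.adjoin k {qExpand k ℓ a}) (qExpand k ℓ b) :=
  isIntegral_adjoin_map (qExpandAlgHom ℓ) h

/-- integrality in `Fk k M` implies integrality in `k((t))` -/
theorem isIntegral_coe {M : ℕ} {xb y : Fk k M} (h : IsIntegral (Algebra.adjoin k {xb}) y) :
    IsIntegral (Algebra.adjoin k {(xb : LaurentSeries k)}) (y : LaurentSeries k) :=
  isIntegral_adjoin_map (IntermediateField.val (modularFunctionFieldFullC k M)) h

end Second

end Fermat.Agent.S34x.Inst.L2
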