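/-
helper44 (P-S34, WP3-inst (J1)): the (L2)-structure `C.IsL2`, `C.swap.IsL2` of helper50's
`Lattice2/L2.lean` for the concrete two-valuation setup at level `M ℓ`.

The concrete `R : RedSetup2 A S k (Fk k M × Fk k M)` enters only through a small BRIDGE:
`S.O = Ov_∞ ∩ Ov0` and the two components of `R.res` are `redV`, `red0` (as Laurent series).
Inputs: (EQ) at level `M` for the chart function `x = t'` (`Inst/L2.LiftsIntegral`), (Y3)
(`β x` integral over `L[α x]`), and `T₂` integral over `k[T₁]` (e.g. `T₂ = T₁ ^ ℓ` for a Hauptmodul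
with integer expansion).
-/
import Fermat.Agent.S34x.Inst.L2
import Fermat.Agent.S34x.Lattice2.L2
import Fermat.Agent.S34x.Lattice2.Swap
import Fermat.Agent.S34x.TwoVal.ValZero
import Fermat.Agent.S34x.C0two.Pair

set_option autoImplicit false
set_option linter.style.haveILetI false
set_option linter.unusedSectionVars false

noncomputable section

namespace Fermat.Agent.S34x.Inst.IsL2Inst

open Polynomial ModularCurve AlgebraicCurve IntermediateField Module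
open Fermat.Agent.Gateway.Hecke Fermat.Agent.Gateway.ESC
open Fermat.Agent.Gateway.Red Fermat.Agent.Gateway.GoodRed
open Fermat.Agent.Gateway.GoodRed.ConjFamily
open Fermat.Agent.S34x.TwoVal Fermat.Agent.S34x.C0two Fermat.Agent.S34x.Lattice2
open Fermat.Agent.S34x.Inst.L2

section Algebra

variable {R S : Type*} [CommRing R] [CommRing S] [Algebra R S]

/-- an element of `R[a]` is integral over `R[a]` -/
theorem isIntegral_of_mem_adjoin {a b : S} (hb : b ∈ Algebra.adjoin R {a}) :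
    IsIntegral (Algebra.adjoin R {a}) b :=
  isIntegral_algebraMap (R := Algebra.adjoin R {a}) (x := ⟨b, hb⟩)

theorem isIntegral_pow_self (a : S) (n : ℕ) : IsIntegral (Algebra.adjoin R {a}) (a ^ n) :=
  isIntegral_of_mem_adjoin (pow_mem (Algebra.self_mem_adjoin_singleton R a) n)

end Algebra

section Congr

variable {L : Type*} [Field L] (A : ValuationSubring L) {k : Type*} [Field k] (π : A →+* k)
  (F : IntermediateField L (LaurentSeries L))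

theorem redV_congr {x x' : F} (h : x = x') (hx : x ∈ Ov A π F) (hx' : x' ∈ Ov A π F) :
    redV A π F ⟨x, hx⟩ = redV A π F ⟨x', hx'⟩ := by
  subst h
  rfl

end Congr

section Main

variable {L : Type} [Field L] [Algebra ℚ L] [IsAlgClosed L] (A : ValuationSubring L)
  {k : Type} [Field k] (π : A →+* k) [IsAlgClosed k] (M : ℕ) [NeZero M]
  (ℓ : ℕ) [NeZero ℓ] [Fact ℓ.Prime] [CharP k ℓ]
variable (hdeg : finrankAlong L (heckeAlphaBar L M ℓ) = ℓ + 1) (hℓ : ℓ.Prime)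
variable (hπ : Function.Surjective π) (hℓM : ¬ ℓ ∣ M)
variable {S : SmallRing (FL L (M * ℓ))}

/-- The bridge between an abstract `RedSetup2` on `F_{Mℓ}` with residue ring `Fk × Fk` and the
two concrete Gauss rings: `S.O = Ov_∞ ∩ Ov0`, `R.res = (redV, red0)`. -/
structure Bridge (R : RedSetup2 A S k (Fk k M × Fk k M)) : Prop where
  mem_iff : ∀ x : FL L (M * ℓ), x ∈ S.O ↔
    x ∈ Ov A π (FBar L (M * ℓ)) ∧ x ∈ Ov0 A π M ℓ hdeg hℓ hℓM
  res_fst : ∀ (x : FL L (M * ℓ)) (hx : x ∈ S.O) (hx' : x ∈ Ov A π (FBar L (M * ℓ))),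
    (((R.res ⟨x, hx⟩).1 : Fk k M) : LaurentSeries k) = redV A π (FBar L (M * ℓ)) ⟨x, hx'⟩
  res_snd : ∀ (x : FL L (M * ℓ)) (hx : x ∈ S.O) (hx' : x ∈ Ov0 A π M ℓ hdeg hℓ hℓM),
    (((R.res ⟨x, hx⟩).2 : Fk k M) : LaurentSeries k) = red0 A π M ℓ hdeg hℓ hℓM ⟨x, hx'⟩

variable {R : RedSetup2 A S k (Fk k M × Fk k M)} (C : ChartCoord R)
variable {A π M ℓ hdeg hℓ hπ hℓM}

/-- the first component of `T = res t` is the reduction of `x` (`t = α x`) -/
theorem T_fst_eq (hB : Bridge A π M ℓ hdeg hℓ hℓM R) {x : FBar L M}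
    (hxO : x ∈ OvVal A π M ℓ hπ hℓM) (hCt : C.t = heckeAlphaBar L M ℓ x) :
    C.T.1 = resFk A π M ℓ hπ hℓM ⟨x, hxO⟩ := by
  apply Subtype.ext
  have h1 : C.t ∈ Ov A π (FBar L (M * ℓ)) := ((hB.mem_iff C.t).mp C.t_mem).1
  rw [ChartCoord.T, hB.res_fst C.t C.t_mem h1, coe_resFk, ← redV_alpha A π M ℓ x hxO]
  exact redV_congr A π _ hCt _ _

/-- the first component of `Ti = res t⁻¹` is the inverse of the reduction of `x` -/
theorem Ti_fst_eq (hB : Bridge A π M ℓ hdeg hℓ hℓM R) {x : FBar L M}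
    (hxO : x ∈ OvVal A π M ℓ hπ hℓM) (hCt : C.t = heckeAlphaBar L M ℓ x) :
    C.Ti.1 = (resFk A π M ℓ hπ hℓM ⟨x, hxO⟩)⁻¹ := by
  have h1 := congrArg Prod.fst C.T_mul_Ti
  rw [Prod.fst_mul, Prod.fst_one, T_fst_eq C hB hxO hCt] at h1
  exact eq_inv_of_mul_eq_one_right h1

/-- the second component of `Ti` is the inverse of the second component of `T` -/
theorem Ti_snd_eq : C.Ti.2 = (C.T.2)⁻¹ := by
  have h1 := congrArg Prod.snd C.T_mul_Ti
  rw [Prod.snd_mul, Prod.snd_one] at h1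
  exact eq_inv_of_mul_eq_one_right h1

/-- **(L2) for the chart `t ≠ ∞`**, `t = α x` -/
theorem isL2 (hB : Bridge A π M ℓ hdeg hℓ hℓM R) {x : FBar L M}
    (hxO : x ∈ OvVal A π M ℓ hπ hℓM) (hCt : C.t = heckeAlphaBar L M ℓ x)
    (hEQ : LiftsIntegral A π M ℓ hπ hℓM x (resFk A π M ℓ hπ hℓM ⟨x, hxO⟩))
    (hY3 : IsIntegral (Algebra.adjoin L {heckeAlphaBar L M ℓ x}) (heckeBetaBar L M ℓ x))
    (hT2 : IsIntegral (Algebra.adjoin k {C.T.1}) C.T.2) : C.IsL2 := by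
  have hT1 := T_fst_eq C hB hxO hCt
  refine ChartCoord.IsL2.of_lift C (fun f hf => ?_) (fun g hg => ?_)
  · rw [hT1] at hf
    obtain ⟨f', hf1, hf0, hint, hr1, -⟩ :=
      exists_alpha_lift A π M ℓ hdeg hℓ hπ hℓM hEQ f hf
    have hfS : f' ∈ S.O := (hB.mem_iff f').mpr ⟨hf1, hf0⟩
    refine ⟨f', hfS, ?_, ?_⟩
    · rw [hCt]
      exact hint
    · apply Subtype.ext
      rw [hB.res_fst f' hfS hf1, hr1]
  · have hg' : IsIntegral (Algebra.adjoin k {resFk A π M ℓ hπ hℓM ⟨x, hxO⟩}) g := by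
      rw [← hT1]
      exact isIntegral_adjoin_trans hT2 hg
    obtain ⟨f', hf1, hf0, hint, -, hr2⟩ :=
      exists_beta_lift A π M ℓ hdeg hℓ hπ hℓM hEQ hY3 g hg'
    have hfS : f' ∈ S.O := (hB.mem_iff f').mpr ⟨hf1, hf0⟩
    refine ⟨f', hfS, ?_, ?_⟩
    · rw [hCt]
      exact hint
    · apply Subtype.ext
      rw [hB.res_snd f' hfS hf0, hr2]

/-- **(L2) for the chart `t ≠ 0`**, coordinate `t⁻¹ = (α x)⁻¹` -/
theorem isL2_swap (hB : Bridge A π M ℓ hdeg hℓ hℓM R) {x : FBar L M}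
    (hxO : x ∈ OvVal A π M ℓ hπ hℓM) (hCt : C.t = heckeAlphaBar L M ℓ x)
    (hEQ : LiftsIntegral A π M ℓ hπ hℓM x⁻¹ (resFk A π M ℓ hπ hℓM ⟨x, hxO⟩)⁻¹)
    (hY3 : IsIntegral (Algebra.adjoin L {(heckeAlphaBar L M ℓ x)⁻¹}) (heckeBetaBar L M ℓ x)⁻¹)
    (hT2 : IsIntegral (Algebra.adjoin k {(C.T.1)⁻¹}) (C.T.2)⁻¹) : C.swap.IsL2 := by
  have hT1 := T_fst_eq C hB hxO hCt
  have hTi1 := Ti_fst_eq C hB hxO hCt
  have hTi2 := Ti_snd_eq C
  refine ChartCoord.IsL2.of_lift C.swap (fun f hf => ?_) (fun g hg => ?_)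
  · rw [ChartCoord.swap_T, hTi1] at hf
    obtain ⟨f', hf1, hf0, hint, hr1, -⟩ :=
      exists_alpha_lift_inv A π M ℓ hdeg hℓ hπ hℓM hEQ f hf
    have hfS : f' ∈ S.O := (hB.mem_iff f').mpr ⟨hf1, hf0⟩
    refine ⟨f', hfS, ?_, ?_⟩
    · rw [ChartCoord.swap_t, hCt]
      exact hint
    · apply Subtype.ext
      rw [hB.res_fst f' hfS hf1, hr1]
  · rw [ChartCoord.swap_T, hTi2] at hg
    have hg' : IsIntegral (Algebra.adjoin k {(resFk A π M ℓ hπ hℓM ⟨x, hxO⟩)⁻¹}) g := by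
      rw [← hT1]
      exact isIntegral_adjoin_trans hT2 hg
    obtain ⟨f', hf1, hf0, hint, -, hr2⟩ :=
      exists_beta_lift_inv A π M ℓ hdeg hℓ hπ hℓM hEQ hY3 g hg'
    have hfS : f' ∈ S.O := (hB.mem_iff f').mpr ⟨hf1, hf0⟩
    refine ⟨f', hfS, ?_, ?_⟩
    · rw [ChartCoord.swap_t, hCt]
      exact hint
    · apply Subtype.ext
      rw [hB.res_snd f' hfS hf0, hr2]

/-- `hT2` of `isL2` when `T₂ = T₁ ^ ℓ` (Hauptmodul with integer expansion) -/
theorem isIntegral_T_snd (hT : C.T.2 = C.T.1 ^ ℓ) :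
    IsIntegral (Algebra.adjoin k {C.T.1}) C.T.2 := by
  rw [hT]
  exact isIntegral_pow_self _ _

/-- `hT2` of `isL2_swap` when `T₂ = T₁ ^ ℓ` -/
theorem isIntegral_T_snd_inv (hT : C.T.2 = C.T.1 ^ ℓ) :
    IsIntegral (Algebra.adjoin k {(C.T.1)⁻¹}) (C.T.2)⁻¹ := by
  rw [hT, ← inv_pow]
  exact isIntegral_pow_self _ _

end Main

/-! ### The bridge for `redSetupTwoVal` of the two valuation subrings `valInfty`, `valZero` -/

section TwoValBridge

variable {L : Type} [Field L] [Algebra ℚ L] [IsAlgClosed L] (A : ValuationSubring L)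
  {k : Type} [Field k] (π : A →+* k) [IsAlgClosed k] (M : ℕ) [NeZero M]
  (ℓ : ℕ) [NeZero ℓ] [Fact ℓ.Prime] [CharP k ℓ]
variable (hdeg : finrankAlong L (heckeAlphaBar L M ℓ) = ℓ + 1) (hℓ : ℓ.Prime)
variable (hπ : Function.Surjective π) (hℓM : ¬ ℓ ∣ M)
variable (hrk : ∀ x ∈ IsLocalRing.maximalIdeal A, ∀ c : A, c ≠ 0 → ∃ j : ℕ, c ∣ x ^ j)

/-- the bridge for `R = redSetupTwoVal R₁ R₂` with `R₁.res = redV`, `R₂.res = red0` -/
theorem bridge_twoVal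
    (R₁ : Fermat.Agent.Gateway.C0.RedSetup A (valInfty A π M ℓ hrk hπ hℓM) k (Fk k M))
    (R₂ : Fermat.Agent.Gateway.C0.RedSetup A (valZero A π M ℓ hdeg hℓ hℓM hrk hπ) k (Fk k M))
    (hπ' : R₁.π = R₂.π)
    (h₁ : ∀ (x : FL L (M * ℓ)) (hx : x ∈ valInfty A π M ℓ hrk hπ hℓM),
      ((R₁.res ⟨x, hx⟩ : Fk k M) : LaurentSeries k) = redV A π (FBar L (M * ℓ)) ⟨x, hx⟩)
    (h₂ : ∀ (x : FL L (M * ℓ)) (hx : x ∈ valZero A π M ℓ hdeg hℓ hℓM hrk hπ),
      ((R₂.res ⟨x, hx⟩ : Fk k M) : LaurentSeries k) = red0 A π M ℓ hdeg hℓ hℓM ⟨x, hx⟩) :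
    Bridge A π M ℓ hdeg hℓ hℓM (redSetupTwoVal R₁ R₂ hπ') where
  mem_iff _ := Iff.rfl
  res_fst x _ hx' := h₁ x hx'
  res_snd x _ hx' := h₂ x hx'

end TwoValBridge

end Fermat.Agent.S34x.Inst.IsL2Inst
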