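/-
helper44 (P-S34, WP3-inst): `C.IsL2` and `C.swap.IsL2` for a chart `C.t = α x` at level `M ℓ`
from the NAMED inputs only:

* `H : GoodLevelFactsT A π M ℓ hπ hℓM x` (the deep GoodRed facts on the `x`-line at level `M`;
  unconditional for `x = x4F` / `y9F - 3`: `Inst/LevelFactsTHaupt`),
* (Y3) `β x` integral over `L[α x]`, `(β x)⁻¹` integral over `L[(α x)⁻¹]`,
* `x` has an INTEGER `q`-expansion `z`,
* the bridge `Bridge` between `R` and the two Gauss rings (`Inst/IsL2Inst`).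

Also: `C.T.2 = C.T.1 ^ ℓ` and `C.T.1 = z̄` for such a chart (= (J2) in bridge form).
-/
import Fermat.Agent.S34x.Inst.IsL2Inst
import Fermat.Agent.S34x.TwoVal.IntCoeff

set_option autoImplicit false
set_option linter.style.haveILetI false
set_option linter.unusedSectionVars false

noncomputable section

namespace Fermat.Agent.S34x.Inst.IsL2Facts

open Polynomial ModularCurve AlgebraicCurve IntermediateField Module
open Fermat.Agent.Gateway.Hecke Fermat.Agent.Gateway.ESC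
open Fermat.Agent.Gateway.Red Fermat.Agent.Gateway.GoodRed
open Fermat.Agent.Gateway.GoodRed.ConjFamily
open Fermat.Agent.S34x.TwoVal Fermat.Agent.S34x.C0two Fermat.Agent.S34x.Lattice2
open Fermat.Agent.S34x.Inst.L2 Fermat.Agent.S34x.Inst.IsL2Inst

variable {L : Type} [Field L] [Algebra ℚ L] [IsAlgClosed L] {A : ValuationSubring L}
  {k : Type} [Field k] {π : A →+* k} [IsAlgClosed k] {M : ℕ} [NeZero M]
  {ℓ : ℕ} [NeZero ℓ] [Fact ℓ.Prime] [CharP k ℓ]
variable {hdeg : finrankAlong L (heckeAlphaBar L M ℓ) = ℓ + 1} {hℓ : ℓ.Prime}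
variable {hπ : Function.Surjective π} {hℓM : ¬ ℓ ∣ M}
variable {S : SmallRing (FL L (M * ℓ))}
variable {R : RedSetup2 A S k (Fk k M × Fk k M)} (C : ChartCoord R)

theorem red0_congr {x x' : FL L (M * ℓ)} (h : x = x') (hx : x ∈ Ov0 A π M ℓ hdeg hℓ hℓM)
    (hx' : x' ∈ Ov0 A π M ℓ hdeg hℓ hℓM) :
    red0 A π M ℓ hdeg hℓ hℓM ⟨x, hx⟩ = red0 A π M ℓ hdeg hℓ hℓM ⟨x', hx'⟩ := by
  subst h
  rfl

/-- the first component of `T` is the reduction `z̄` of the integer expansion of `x` -/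
theorem coe_T_fst_of_int (hB : Bridge A π M ℓ hdeg hℓ hℓM R) {x : FBar L M}
    (hCt : C.t = heckeAlphaBar L M ℓ x) (z : LaurentSeries ℤ)
    (hz : ((x : FL L M) : LaurentSeries L) = coeffMap (Int.castRingHom L) z) :
    ((C.T.1 : Fk k M) : LaurentSeries k) = coeffMap (Int.castRingHom k) z := by
  have h1 : C.t ∈ Ov A π (FBar L (M * ℓ)) := ((hB.mem_iff C.t).mp C.t_mem).1
  rw [ChartCoord.T, hB.res_fst C.t C.t_mem h1, ← redV_alpha_of_int A π M ℓ x z hz]
  exact redV_congr A π _ hCt _ _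

/-- the second component of `T` is `z̄ ^ ℓ` -/
theorem coe_T_snd_of_int (hB : Bridge A π M ℓ hdeg hℓ hℓM R) {x : FBar L M}
    (hCt : C.t = heckeAlphaBar L M ℓ x) (z : LaurentSeries ℤ)
    (hz : ((x : FL L M) : LaurentSeries L) = coeffMap (Int.castRingHom L) z) :
    ((C.T.2 : Fk k M) : LaurentSeries k) = (coeffMap (Int.castRingHom k) z) ^ ℓ := by
  have h0 : C.t ∈ Ov0 A π M ℓ hdeg hℓ hℓM := ((hB.mem_iff C.t).mp C.t_mem).2
  rw [ChartCoord.T, hB.res_snd C.t C.t_mem h0, ← red0_alpha_of_int A π M ℓ hdeg hℓ hℓM x z hz]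
  exact red0_congr hCt _ _

/-- **(J2) in bridge form**: `T = (z̄, z̄ ^ ℓ)`, so `T₂ = T₁ ^ ℓ` -/
theorem T_snd_eq_pow (hB : Bridge A π M ℓ hdeg hℓ hℓM R) {x : FBar L M}
    (hCt : C.t = heckeAlphaBar L M ℓ x) (z : LaurentSeries ℤ)
    (hz : ((x : FL L M) : LaurentSeries L) = coeffMap (Int.castRingHom L) z) :
    C.T.2 = C.T.1 ^ ℓ := by
  apply Subtype.ext
  rw [coe_T_snd_of_int C hB hCt z hz, SubmonoidClass.coe_pow, coe_T_fst_of_int C hB hCt z hz]

/-- **(L2) on both charts from the named inputs.** -/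
theorem isL2_both [Algebra.IsAlgebraic ℚ L] (hB : Bridge A π M ℓ hdeg hℓ hℓM R)
    (hA : A.LiesOverPrime ℓ) {x : FBar L M}
    (H : GoodLevelFactsT A π M ℓ hπ hℓM x) (hCt : C.t = heckeAlphaBar L M ℓ x)
    (hY3 : IsIntegral (Algebra.adjoin L {heckeAlphaBar L M ℓ x}) (heckeBetaBar L M ℓ x))
    (hY3' : IsIntegral (Algebra.adjoin L {(heckeAlphaBar L M ℓ x)⁻¹}) (heckeBetaBar L M ℓ x)⁻¹)
    (z : LaurentSeries ℤ)
    (hz : ((x : FL L M) : LaurentSeries L) = coeffMap (Int.castRingHom L) z) :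
    C.IsL2 ∧ C.swap.IsL2 := by
  have hT := T_snd_eq_pow C hB hCt z hz
  exact ⟨isL2 C hB H.mem hCt (liftsIntegral_of_facts A π M ℓ hπ hℓM hA H) hY3
      (isIntegral_T_snd C hT),
    isL2_swap C hB H.mem hCt (liftsIntegral_inv_of_facts A π M ℓ hπ hℓM hA H) hY3'
      (isIntegral_T_snd_inv C hT)⟩

end Fermat.Agent.S34x.Inst.IsL2Facts
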