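/-
helper44 (P-S34, WP3-inst): the `IsL2Inst.Bridge` for helper45's concrete
`RedSetupInst.redSetup2 H hA` at level `M q`, and (L2) on both charts for any chart
`C : ChartCoord (redSetup2 H hA)` with `C.t = α x`, `x` with integer expansion.
-/
import Fermat.Agent.S34x.Inst.IsL2Facts
import Fermat.Agent.S34x.Inst.RedSetupInst

set_option autoImplicit false
set_option linter.style.haveILetI false
set_option linter.unusedSectionVars false

noncomputable section

namespace Fermat.Agent.S34x.Inst.BridgeInst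

open ModularCurve AlgebraicCurve IntermediateField IsLocalRing
open Fermat.Agent.Gateway.Hecke Fermat.Agent.Gateway.ESC
open Fermat.Agent.Gateway.Red Fermat.Agent.Gateway.GoodRed
open Fermat.Agent.Gateway.GoodRed.ConjFamily
open Fermat.Agent.S34x.TwoVal Fermat.Agent.S34x.C0two Fermat.Agent.S34x.Lattice2
open Fermat.Agent.S34x.Inst.L2 Fermat.Agent.S34x.Inst.IsL2Inst
open Fermat.Agent.S34x.Inst.RedSetupInst

variable {L : Type} [Field L] [Algebra ℚ L] [IsAlgClosed L] {A : ValuationSubring L}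
  {k : Type} [Field k] {π : A →+* k} [IsAlgClosed k]
variable {M q : ℕ} [NeZero M] [NeZero q] [Fact q.Prime] [CharP k q]
variable {hdeg : finrankAlong L (heckeAlphaBar L M q) = q + 1} {hq : q.Prime} {hqM : ¬ q ∣ M}
variable {hrk : ∀ x ∈ maximalIdeal A, ∀ c : A, c ≠ 0 → ∃ j : ℕ, c ∣ x ^ j}
  {hπ : Function.Surjective π}

/-- **the bridge for the concrete `redSetup2`** -/
theorem bridge (H : ResidueFacts A π M q hdeg hq hqM hrk hπ) (hA : A.LiesOverPrime q) :
    Bridge A π M q hdeg hq hqM (redSetup2 H hA) :=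
  bridge_twoVal A π M q hdeg hq hπ hqM hrk (redSetupInfty H hA) (redSetupZero H hA) rfl
    (fun x hx => coe_resInfty H ⟨x, hx⟩) (fun x hx => coe_resZero H ⟨x, hx⟩)

variable (H : ResidueFacts A π M q hdeg hq hqM hrk hπ) (hA : A.LiesOverPrime q)
  (C : ChartCoord (redSetup2 H hA))

/-- `T = (z̄, z̄ ^ q)` for a chart `t = α x`, `x` with integer expansion `z` -/
theorem coe_T_fst {x : FBar L M} (hCt : C.t = heckeAlphaBar L M q x) (z : LaurentSeries ℤ)
    (hz : ((x : FL L M) : LaurentSeries L) = coeffMap (Int.castRingHom L) z) :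
    ((C.T.1 : Fk k M) : LaurentSeries k) = coeffMap (Int.castRingHom k) z :=
  IsL2Facts.coe_T_fst_of_int C (bridge H hA) hCt z hz

theorem coe_T_snd {x : FBar L M} (hCt : C.t = heckeAlphaBar L M q x) (z : LaurentSeries ℤ)
    (hz : ((x : FL L M) : LaurentSeries L) = coeffMap (Int.castRingHom L) z) :
    ((C.T.2 : Fk k M) : LaurentSeries k) = (coeffMap (Int.castRingHom k) z) ^ q :=
  IsL2Facts.coe_T_snd_of_int C (bridge H hA) hCt z hz

theorem T_snd_eq_pow {x : FBar L M} (hCt : C.t = heckeAlphaBar L M q x) (z : LaurentSeries ℤ)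
    (hz : ((x : FL L M) : LaurentSeries L) = coeffMap (Int.castRingHom L) z) :
    C.T.2 = C.T.1 ^ q :=
  IsL2Facts.T_snd_eq_pow C (bridge H hA) hCt z hz

/-- **(L2) on both charts for the concrete `R`.** -/
theorem isL2_both [Algebra.IsAlgebraic ℚ L] {x : FBar L M}
    (Hx : GoodLevelFactsT A π M q hπ hqM x) (hCt : C.t = heckeAlphaBar L M q x)
    (hY3 : IsIntegral (Algebra.adjoin L {heckeAlphaBar L M q x}) (heckeBetaBar L M q x))
    (hY3' : IsIntegral (Algebra.adjoin L {(heckeAlphaBar L M q x)⁻¹}) (heckeBetaBar L M q x)⁻¹)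
    (z : LaurentSeries ℤ)
    (hz : ((x : FL L M) : LaurentSeries L) = coeffMap (Int.castRingHom L) z) :
    C.IsL2 ∧ C.swap.IsL2 :=
  IsL2Facts.isL2_both C (bridge H hA) hA Hx hCt hY3 hY3' z hz

end Fermat.Agent.S34x.Inst.BridgeInst
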