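/-
helper64 (P-S34, WP3-inst, file (I1)): the characteristic-zero chart setup at level `M q`.

* generic: for `φ : F' →ₐ[K] F` finite and `x' : F'` transcendental with `F' / K(x')` finite,
  `φ x'` is transcendental, `F / K(φ x')` is finite (separable in characteristic `0`) of degree
  `[F' : K(x')] * deg φ`;
* at level `M q`: the chart coordinate `t := α t'` (`α = heckeAlphaBar`), the two charts
  `C₀ = (t)_0`, `C∞ = (t)_∞`, their degrees, the description of `L(a C₀ + b C∞)` by integrality
  over `L[t]`, `L[t⁻¹]`, Riemann's inequality for the twisted spaces and the equality for large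
  degree.
-/
import Fermat.Agent.Gateway.C0.Main
import Fermat.Agent.Gateway.HK1.Modular
import Fermat.Agent.Gateway.ESC.DegreeS24

set_option autoImplicit false
set_option linter.unusedSectionVars false
set_option linter.style.haveILetI false

noncomputable section

namespace Fermat.Agent.S34x.Inst.Charts

open AlgebraicCurve IntermediateField ModularCurve Module
open Fermat.Agent.Gateway Fermat.Agent.Gateway.C0 Fermat.Agent.Lib.RiemannRoch

section Generic

variable {K F' F : Type*} [Field K] [Field F'] [Field F] [Algebra K F'] [Algebra K F]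
  (φ : F' →ₐ[K] F)

theorem transcendental_map {x' : F'} (hx' : Transcendental K x') : Transcendental K (φ x') :=
  fun h => hx' ((isAlgebraic_algHom_iff φ φ.toRingHom.injective).mp h)

theorem map_adjoin_simple (x' : F') : (K⟮x'⟯).map φ = K⟮φ x'⟯ := by
  rw [IntermediateField.adjoin_map, Set.image_singleton]

/-- the degree of `F / K(φ x')` -/
theorem finrank_adjoin_map (x' : F') :
    finrank K⟮x'⟯ F' * finrankAlong K φ = finrank K⟮φ x'⟯ F :=
  ESC.finrank_mul_finrank_along φ K⟮x'⟯ K⟮φ x'⟯ (map_adjoin_simple φ x')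

theorem finiteDimensional_adjoin_map (hfin : FiniteAlong K φ) (x' : F')
    [FiniteDimensional K⟮x'⟯ F'] : FiniteDimensional K⟮φ x'⟯ F := by
  letI := algebraAlong φ
  haveI : Module.Finite F' F := hfin
  have h1 : 0 < finrank K⟮x'⟯ F' := Module.finrank_pos
  have h2 : 0 < finrank F' F := Module.finrank_pos
  have h3 : finrank K⟮x'⟯ F' * finrank F' F = finrank K⟮φ x'⟯ F := finrank_adjoin_map φ x'
  exact Module.finite_of_finrank_pos (by rw [← h3]; exact Nat.mul_pos h1 h2)

/-- in characteristic zero finite extensions are separable -/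
theorem isSeparable_adjoin_of_charZero [CharZero K] (x : F) [FiniteDimensional K⟮x⟯ F] :
    Algebra.IsSeparable K⟮x⟯ F := by
  haveI : CharZero K⟮x⟯ := charZero_of_injective_algebraMap (algebraMap K K⟮x⟯).injective
  infer_instance

/-- `x` is transcendental as soon as `K(x)` contains a transcendental element -/
theorem transcendental_of_mem_adjoin {j x : F} (hj : j ∈ K⟮x⟯) (hjt : Transcendental K j) :
    Transcendental K x := by
  intro hx
  haveI : Algebra.IsAlgebraic K K⟮x⟯ := IntermediateField.isAlgebraic_adjoin_simple hx.isIntegral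
  have h1 : IsAlgebraic K (⟨j, hj⟩ : K⟮x⟯) := Algebra.IsAlgebraic.isAlgebraic _
  exact hjt ((isAlgebraic_algHom_iff (K⟮x⟯).val (K⟮x⟯).val.toRingHom.injective).mpr h1)

/-- `F / K(x)` is finite as soon as `F / K(j)` is finite and `j ∈ K(x)` -/
theorem finiteDimensional_of_mem_adjoin {j x : F} (hj : j ∈ K⟮x⟯) [FiniteDimensional K⟮j⟯ F] :
    FiniteDimensional K⟮x⟯ F := by
  have hle : K⟮j⟯ ≤ K⟮x⟯ := adjoin_simple_le_iff.mpr hj
  letI : Algebra K⟮j⟯ K⟮x⟯ := (IntermediateField.inclusion hle).toRingHom.toAlgebra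
  haveI : IsScalarTower K⟮j⟯ K⟮x⟯ F := IsScalarTower.of_algebraMap_eq fun _ => rfl
  exact Module.Finite.of_restrictScalars_finite K⟮j⟯ K⟮x⟯ F

end Generic

/-! ### The two charts of a transcendental element (characteristic zero) -/

section TwoChartsOf

variable {K F : Type*} [Field K] [Field F] [Algebra K F] [IsAlgClosed K] [CharZero K]
  {t : F} (ht : Transcendental K t) [FiniteDimensional K⟮t⟯ F]

include ht in
theorem t_ne_zero : t ≠ 0 := by
  rintro rfl
  exact ht isAlgebraic_zero

/-- the divisor of `t` -/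
def divT : Divisor K F :=
  haveI := hasPrincipalDivisors_cz ht
  divOf (K := K) t

theorem divT_apply (v : Place K F) : divT ht v = v.ord t := by
  haveI := hasPrincipalDivisors_cz ht
  haveI : ∀ v : Place K F, v.FiniteResidue := finiteResidue_cz ht
  exact divOf_apply (t_ne_zero ht) v

theorem degree_divT : Divisor.degree (divT ht) = 0 := by
  haveI := hasPrincipalDivisors_cz ht
  haveI : ∀ v : Place K F, v.FiniteResidue := finiteResidue_cz ht
  exact degree_divOf t

/-- the two charts `t ≠ ∞`, `t ≠ 0`: `C₀ = (t)_0`, `C∞ = (t)_∞` -/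
def chartsOf : TwoCharts K F := TwoCharts.ofDivisor (divT ht)

theorem chartsOf_Czero_apply (v : Place K F) : (chartsOf ht).Czero v = max (v.ord t) 0 := by
  rw [chartsOf, TwoCharts.ofDivisor_Czero_apply, divT_apply]

theorem chartsOf_Cinf_apply (v : Place K F) : (chartsOf ht).Cinf v = max (-(v.ord t)) 0 := by
  rw [chartsOf, TwoCharts.ofDivisor_Cinf_apply, divT_apply]

/-- `(t)_0 - (t)_∞ = div t` -/
theorem chartsOf_sub : (chartsOf ht).Czero - (chartsOf ht).Cinf = divT ht :=
  TwoCharts.ofDivisor_sub (divT ht)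

/-- `deg (t)_∞ = [F : K(t)]` -/
theorem degree_Cinf : Divisor.degree (chartsOf ht).Cinf = finrank K⟮t⟯ F := by
  obtain ⟨B, hB, hBdeg⟩ := exists_poleDivisor_cz ht
  have hCinf : (chartsOf ht).Cinf = B := by
    ext v
    rw [chartsOf_Cinf_apply ht, hB v, max_comm]
  rw [hCinf, hBdeg]

/-- `deg (t)_0 = [F : K(t)]` -/
theorem degree_Czero : Divisor.degree (chartsOf ht).Czero = finrank K⟮t⟯ F := by
  have h1 := congrArg Divisor.degree (chartsOf_sub ht)
  rw [map_sub, degree_divT] at h1
  rw [← degree_Cinf ht]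
  exact sub_eq_zero.mp h1

/-- `L(a (t)_0 + b (t)_∞)` in terms of integrality over `K[t]` and `K[1/t]` -/
theorem mem_LN_iff (a b : ℕ) (f : F) :
    f ∈ (chartsOf ht).LN a b ↔
      IsIntegral (Algebra.adjoin K {t}) (t ^ a * f) ∧
        IsIntegral (Algebra.adjoin K {t⁻¹}) (t⁻¹ ^ b * f) := by
  haveI := isSeparable_adjoin_of_charZero (K := K) t
  exact mem_LN_iff_isIntegral ht (divT_apply ht) a b f

/-- `deg (E + a C₀ + b C∞) = (a + b) [F : K(t)]` for `deg E = 0` -/
theorem degree_add_dv {E : Divisor K F} (hE : Divisor.degree E = 0) (a b : ℕ) :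
    Divisor.degree (E + (chartsOf ht).dv a b) = ((a : ℤ) + b) * finrank K⟮t⟯ F := by
  rw [map_add, hE, zero_add, TwoCharts.dv, map_add, map_nsmul, map_nsmul, nsmul_eq_mul,
    nsmul_eq_mul, degree_Czero ht, degree_Cinf ht]
  ring

/-- **Riemann's inequality for the twisted spaces** `L(E + a C₀ + b C∞)`, `deg E = 0` -/
theorem LM_lb {E : Divisor K F} (hE : Divisor.degree E = 0) (a b : ℕ) :
    (((a : ℤ) + b) * finrank K⟮t⟯ F + 1 - genusFF K F : ℤ) ≤
      finrank K ((chartsOf ht).LM E a b) := by
  have h := (chartsOf ht).LM_lb ht hE a b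
  rw [degree_Czero ht, degree_Cinf ht] at h
  linarith

/-- **Riemann-Roch for large degree**: `l(E + a C₀ + b C∞) = (a + b) n + 1 - g` as soon as
`2 g - 2 < (a + b) n`, `deg E = 0` -/
theorem finrank_LM_eq {E : Divisor K F} (hE : Divisor.degree E = 0) (a b : ℕ)
    (hab : 2 * (genusFF K F : ℤ) - 2 < ((a : ℤ) + b) * finrank K⟮t⟯ F) :
    (finrank K ((chartsOf ht).LM E a b) : ℤ) =
      ((a : ℤ) + b) * finrank K⟮t⟯ F + 1 - genusFF K F := by
  haveI := isSeparable_adjoin_of_charZero (K := K) t
  have h := (FunctionFieldRR.riemann_ineq_algClosed ht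
    (E + (chartsOf ht).dv a b)).2 (by rw [degree_add_dv ht hE]; exact hab)
  rw [degree_add_dv ht hE] at h
  exact h

theorem finrank_LN_eq (a b : ℕ)
    (hab : 2 * (genusFF K F : ℤ) - 2 < ((a : ℤ) + b) * finrank K⟮t⟯ F) :
    (finrank K ((chartsOf ht).LN a b) : ℤ) =
      ((a : ℤ) + b) * finrank K⟮t⟯ F + 1 - genusFF K F := by
  rw [← TwoCharts.LM_zero_eq]
  exact finrank_LM_eq ht (map_zero _) a b hab

theorem LM_finite (E : Divisor K F) (a b : ℕ) :
    Module.Finite K ((chartsOf ht).LM E a b) :=
  (chartsOf ht).LM_finite ht E a b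

end TwoChartsOf

/-! ### Level `M q` -/

section Level

variable (L : Type) [Field L] [Algebra ℚ L] [IsAlgClosed L] (M q : ℕ) [NeZero M] [NeZero q]
  (t' : HK1.FL L M)

/-- the chart coordinate `t := α t'` at level `M q` -/
abbrev tα : HK1.FL L (M * q) := heckeAlphaBar L M q t'

/-- the second pull-back `β t'` at level `M q` -/
abbrev tβ : HK1.FL L (M * q) := heckeBetaBar L M q t'

variable {t'}

theorem transcendental_tα (ht' : Transcendental L t') : Transcendental L (tα L M q t') :=
  transcendental_map _ ht'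

theorem transcendental_tβ (ht' : Transcendental L t') : Transcendental L (tβ L M q t') :=
  transcendental_map _ ht'

variable (t') [FiniteDimensional L⟮t'⟯ (HK1.FL L M)]

instance finiteDimensional_tα : FiniteDimensional L⟮tα L M q t'⟯ (HK1.FL L (M * q)) :=
  haveI : CharZero L := algebraRat.charZero L
  finiteDimensional_adjoin_map _ (HK1.finiteAlong_alpha L M q) t'

instance finiteDimensional_tβ : FiniteDimensional L⟮tβ L M q t'⟯ (HK1.FL L (M * q)) :=
  haveI : CharZero L := algebraRat.charZero L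
  finiteDimensional_adjoin_map _ (HK1.finiteAlong_beta L M q) t'

instance isSeparable_tα : Algebra.IsSeparable L⟮tα L M q t'⟯ (HK1.FL L (M * q)) :=
  haveI : CharZero L := algebraRat.charZero L
  isSeparable_adjoin_of_charZero _

instance isSeparable_tβ : Algebra.IsSeparable L⟮tβ L M q t'⟯ (HK1.FL L (M * q)) :=
  haveI : CharZero L := algebraRat.charZero L
  isSeparable_adjoin_of_charZero _

/-- `[F_{Mq} : L(α t')] = [F_M : L(t')] (q + 1)` -/
theorem finrank_tα (hdeg : finrankAlong L (heckeAlphaBar L M q) = q + 1) :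
    finrank L⟮tα L M q t'⟯ (HK1.FL L (M * q)) = finrank L⟮t'⟯ (HK1.FL L M) * (q + 1) := by
  rw [← hdeg]
  exact (finrank_adjoin_map (heckeAlphaBar L M q) t').symm

theorem finrank_tβ :
    finrank L⟮tβ L M q t'⟯ (HK1.FL L (M * q)) =
      finrank L⟮t'⟯ (HK1.FL L M) * finrankAlong L (heckeBetaBar L M q) :=
  (finrank_adjoin_map (heckeBetaBar L M q) t').symm

end Level

end Fermat.Agent.S34x.Inst.Charts
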