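/-
helper64 (P-S34, WP3-inst, file (Y4)): the reductions of the cusp-separation element
`y := (α t')^q / β t'` at level `M q` for the two Gauss valuations `Ov_∞`, `Ov0` of
`TwoVal/Gauss0.lean`, for `t' ∈ F_M` with INTEGER `q`-expansion `x : ℤ((q))` which is nonzero
modulo `q`:

  `y ∈ Ov_∞`, `red_∞ y = 1`,     `y ∈ Ov0`, `red_0 y = t̄' ^ (q^2 - 1)`,

the mirror statements for `y⁻¹`, and the reductions of `t = α t'`, `t⁻¹`:
`red t = (t̄', t̄'^q)`, `red t⁻¹ = (σ, σ^q)` with `σ = t̄'⁻¹`.  These are the inputs `s`, `he` of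
`UB.mem_of_mul_mem` (cusp separation) on both charts.
-/
import Fermat.Agent.S34x.TwoVal.Gauss0

set_option autoImplicit false
set_option linter.style.haveILetI false
set_option linter.unusedSectionVars false

noncomputable section

namespace Fermat.Agent.S34x.Inst.ElementYRed

open ModularCurve AlgebraicCurve IntermediateField
open Fermat.Agent.Gateway.Hecke Fermat.Agent.Gateway.Red Fermat.Agent.Gateway.GoodRed
open Fermat.Agent.S34x.TwoVal

/-! ### Series with integer coefficients -/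

section IntSeries

variable {L : Type*} [Field L] (A : ValuationSubring L) {k : Type*} [Field k] (π : A →+* k)

theorem coeffMap_int_eq_embA (x : LaurentSeries ℤ) :
    coeffMap (Int.castRingHom L) x = embA A (coeffMap (Int.castRingHom A) x) := by
  rw [embA, coeffMap_coeffMap]
  exact coeffMap_congr (RingHom.ext_int _ _) x

theorem redA_coeffMap_int (x : LaurentSeries ℤ) :
    redA A π (coeffMap (Int.castRingHom A) x) = coeffMap (Int.castRingHom k) x := by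
  rw [redA, coeffMap_coeffMap]
  exact coeffMap_congr (RingHom.ext_int _ _) x

/-- in characteristic `q`, a series with coefficients in the prime field satisfies
`f(t^q) = f(t)^q` -/
theorem qExpand_coeffMap_int (q : ℕ) [NeZero q] [Fact q.Prime] [CharP k q] (x : LaurentSeries ℤ) :
    qExpand k q (coeffMap (Int.castRingHom k) x) = (coeffMap (Int.castRingHom k) x) ^ q := by
  rw [Fermat.Agent.Gateway.ES.pow_char_eq_qExpand_coeffMap_frobenius q, coeffMap_coeffMap]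
  congr 1
  exact (coeffMap_congr (RingHom.ext_int _ _) x).symm

/-- `redV (f⁻¹) = (redV f)⁻¹` -/
theorem redV_inv' {E : IntermediateField L (LaurentSeries L)} {f : E} (hf : f ∈ Ov A π E)
    (hf' : f⁻¹ ∈ Ov A π E) (hne : redV A π E ⟨f, hf⟩ ≠ 0) :
    redV A π E ⟨f⁻¹, hf'⟩ = (redV A π E ⟨f, hf⟩)⁻¹ := by
  have hf0 : f ≠ 0 := by
    rintro rfl
    apply hne
    have : (⟨(0 : E), hf⟩ : Ov A π E) = 0 := rfl
    rw [this, map_zero]
  have h1 : (⟨f⁻¹, hf'⟩ : Ov A π E) * ⟨f, hf⟩ = 1 := Subtype.ext (inv_mul_cancel₀ hf0)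
  have h2 := congrArg (redV A π E) h1
  rw [map_mul, map_one] at h2
  exact eq_inv_of_mul_eq_one_left h2

end IntSeries

/-! ### Level `M`: an element with integer expansion -/

section LevelM

variable {L : Type} [Field L] [Algebra ℚ L] (A : ValuationSubring L)
  {k : Type} [Field k] (π : A →+* k) (M : ℕ) [NeZero M]
  (x : LaurentSeries ℤ) (hx : coeffMap (Int.castRingHom L) x ∈ FBar L M)

/-- the element of `F_M` with integer expansion `x` -/
def tInt : FL L M := ⟨coeffMap (Int.castRingHom L) x, hx⟩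

/-- its reduction: the same series with coefficients in `k` -/
def tbar (k : Type) [Field k] (x : LaurentSeries ℤ) : LaurentSeries k :=
  coeffMap (Int.castRingHom k) x

theorem coe_tInt : ((tInt M x hx : FL L M) : LaurentSeries L) = coeffMap (Int.castRingHom L) x :=
  rfl

theorem tInt_mem_Ov : tInt M x hx ∈ Ov A π (FBar L M) := by
  rw [mem_Ov_iff, coe_tInt, coeffMap_int_eq_embA A]
  exact embA_mem_gaussRing A π _

theorem redV_tInt :
    redV A π (FBar L M) ⟨tInt M x hx, tInt_mem_Ov A π M x hx⟩ = tbar k x := by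
  rw [redV_of_eq_embA A π (FBar L M) _ (a := coeffMap (Int.castRingHom A) x)
    (coeffMap_int_eq_embA A x), redA_coeffMap_int]
  rfl

end LevelM

/-! ### Level `M q`: the reductions of `t = α t'`, `β t'` and of `y = t^q / β t'` -/

section LevelMq

variable {L : Type} [Field L] [Algebra ℚ L] [IsAlgClosed L] (A : ValuationSubring L)
  {k : Type} [Field k] (π : A →+* k) (M q : ℕ) [NeZero M] [NeZero q] [Fact q.Prime] [CharP k q]
  (hdeg : finrankAlong L (heckeAlphaBar L M q) = q + 1) (hq : q.Prime) (hqM : ¬ q ∣ M)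
  (x : LaurentSeries ℤ) (hx : coeffMap (Int.castRingHom L) x ∈ FBar L M)

/-- `t := α t'` -/
abbrev tA : FL L (M * q) := heckeAlphaBar L M q (tInt M x hx)

/-- `β t'` -/
abbrev tB : FL L (M * q) := heckeBetaBar L M q (tInt M x hx)

/-- the cusp-separation element `y := (α t')^q / β t'` -/
def elY : FL L (M * q) := tA M q x hx ^ q * (tB M q x hx)⁻¹

/-! #### the valuation `∞` -/

theorem tA_mem_Ov : tA M q x hx ∈ Ov A π (FBar L (M * q)) :=
  (alpha_mem_Ov_iff A π M q _).mpr (tInt_mem_Ov A π M x hx)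

theorem redV_tA : redV A π (FBar L (M * q)) ⟨tA M q x hx, tA_mem_Ov A π M q x hx⟩ = tbar k x := by
  rw [← redV_tInt A π M x hx]
  exact redV_alpha A π M q _ _

theorem tB_mem_Ov : tB M q x hx ∈ Ov A π (FBar L (M * q)) :=
  beta_mem_Ov A π M q _ (tInt_mem_Ov A π M x hx)

theorem redV_tB :
    redV A π (FBar L (M * q)) ⟨tB M q x hx, tB_mem_Ov A π M q x hx⟩ = tbar k x ^ q := by
  rw [tbar, ← qExpand_coeffMap_int q x]
  have h := redV_beta A π M q (tInt M x hx) (tInt_mem_Ov A π M x hx)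
  rw [redV_tInt A π M x hx] at h
  exact h

variable (hxk : tbar k x ≠ 0)

include hxk in
theorem tA_inv_mem_Ov : (tA M q x hx)⁻¹ ∈ Ov A π (FBar L (M * q)) :=
  inv_mem_Ov A π _ (tA_mem_Ov A π M q x hx) (by rw [redV_tA]; exact hxk)

include hxk in
theorem tB_inv_mem_Ov : (tB M q x hx)⁻¹ ∈ Ov A π (FBar L (M * q)) :=
  inv_mem_Ov A π _ (tB_mem_Ov A π M q x hx) (by rw [redV_tB]; exact pow_ne_zero _ hxk)

include hxk in
theorem redV_tA_inv :
    redV A π (FBar L (M * q)) ⟨(tA M q x hx)⁻¹, tA_inv_mem_Ov A π M q x hx hxk⟩ =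
      (tbar k x)⁻¹ := by
  rw [redV_inv' A π (tA_mem_Ov A π M q x hx) _ (by rw [redV_tA]; exact hxk), redV_tA]

include hxk in
theorem redV_tB_inv :
    redV A π (FBar L (M * q)) ⟨(tB M q x hx)⁻¹, tB_inv_mem_Ov A π M q x hx hxk⟩ =
      (tbar k x ^ q)⁻¹ := by
  rw [redV_inv' A π (tB_mem_Ov A π M q x hx) _ (by rw [redV_tB]; exact pow_ne_zero _ hxk),
    redV_tB]

include hxk in
/-- `y ∈ Ov_∞` -/
theorem elY_mem_Ov : elY M q x hx ∈ Ov A π (FBar L (M * q)) :=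
  mul_mem (pow_mem (tA_mem_Ov A π M q x hx) q) (tB_inv_mem_Ov A π M q x hx hxk)

include hxk in
/-- **`red_∞ y = 1`** -/
theorem redV_elY :
    redV A π (FBar L (M * q)) ⟨elY M q x hx, elY_mem_Ov A π M q x hx hxk⟩ = 1 := by
  have h1 : (⟨elY M q x hx, elY_mem_Ov A π M q x hx hxk⟩ : Ov A π (FBar L (M * q))) =
      ⟨tA M q x hx, tA_mem_Ov A π M q x hx⟩ ^ q *
        ⟨(tB M q x hx)⁻¹, tB_inv_mem_Ov A π M q x hx hxk⟩ := rfl
  rw [h1, map_mul, map_pow, redV_tA, redV_tB_inv A π M q x hx hxk]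
  exact mul_inv_cancel₀ (pow_ne_zero _ hxk)

/-! #### the valuation `0` -/

omit hxk

theorem tA_mem_Ov0 : tA M q x hx ∈ Ov0 A π M q hdeg hq hqM :=
  alpha_mem_Ov0 A π M q hdeg hq hqM _ (tInt_mem_Ov A π M x hx)

theorem red0_tA :
    red0 A π M q hdeg hq hqM ⟨tA M q x hx, tA_mem_Ov0 A π M q hdeg hq hqM x hx⟩ =
      tbar k x ^ q := by
  rw [tbar, ← qExpand_coeffMap_int q x]
  have h := red0_alpha A π M q hdeg hq hqM (tInt M x hx) (tInt_mem_Ov A π M x hx)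
  rw [redV_tInt A π M x hx] at h
  exact h

theorem tB_mem_Ov0 : tB M q x hx ∈ Ov0 A π M q hdeg hq hqM :=
  (beta_mem_Ov0_iff A π M q hdeg hq hqM _).mpr (tInt_mem_Ov A π M x hx)

theorem red0_tB :
    red0 A π M q hdeg hq hqM ⟨tB M q x hx, tB_mem_Ov0 A π M q hdeg hq hqM x hx⟩ = tbar k x := by
  rw [← redV_tInt A π M x hx]
  exact red0_beta A π M q hdeg hq hqM _ _

include hxk in
theorem tA_inv_mem_Ov0 : (tA M q x hx)⁻¹ ∈ Ov0 A π M q hdeg hq hqM :=
  inv_mem_Ov0 A π M q hdeg hq hqM (tA_mem_Ov0 A π M q hdeg hq hqM x hx)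
    (by rw [red0_tA]; exact pow_ne_zero _ hxk)

include hxk in
theorem tB_inv_mem_Ov0 : (tB M q x hx)⁻¹ ∈ Ov0 A π M q hdeg hq hqM :=
  inv_mem_Ov0 A π M q hdeg hq hqM (tB_mem_Ov0 A π M q hdeg hq hqM x hx)
    (by rw [red0_tB]; exact hxk)

include hxk in
theorem red0_tA_inv :
    red0 A π M q hdeg hq hqM
        ⟨(tA M q x hx)⁻¹, tA_inv_mem_Ov0 A π M q hdeg hq hqM x hx hxk⟩ = (tbar k x ^ q)⁻¹ := by
  rw [red0_inv A π M q hdeg hq hqM (tA_mem_Ov0 A π M q hdeg hq hqM x hx), red0_tA]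

include hxk in
theorem red0_tB_inv :
    red0 A π M q hdeg hq hqM
        ⟨(tB M q x hx)⁻¹, tB_inv_mem_Ov0 A π M q hdeg hq hqM x hx hxk⟩ = (tbar k x)⁻¹ := by
  rw [red0_inv A π M q hdeg hq hqM (tB_mem_Ov0 A π M q hdeg hq hqM x hx), red0_tB]

include hxk in
/-- `y ∈ Ov0` -/
theorem elY_mem_Ov0 : elY M q x hx ∈ Ov0 A π M q hdeg hq hqM :=
  mul_mem (pow_mem (tA_mem_Ov0 A π M q hdeg hq hqM x hx) q)
    (tB_inv_mem_Ov0 A π M q hdeg hq hqM x hx hxk)

include hxk in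
/-- **`red_0 y = t̄' ^ (q^2 - 1)`** -/
theorem red0_elY :
    red0 A π M q hdeg hq hqM ⟨elY M q x hx, elY_mem_Ov0 A π M q hdeg hq hqM x hx hxk⟩ =
      tbar k x ^ (q ^ 2 - 1) := by
  have h1 : (⟨elY M q x hx, elY_mem_Ov0 A π M q hdeg hq hqM x hx hxk⟩ :
      Ov0 A π M q hdeg hq hqM) =
      ⟨tA M q x hx, tA_mem_Ov0 A π M q hdeg hq hqM x hx⟩ ^ q *
        ⟨(tB M q x hx)⁻¹, tB_inv_mem_Ov0 A π M q hdeg hq hqM x hx hxk⟩ := rfl
  rw [h1, map_mul, map_pow, red0_tA, red0_tB_inv A π M q hdeg hq hqM x hx hxk, ← pow_mul,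
    ← sq]
  have hpos : 1 ≤ q ^ 2 := Nat.one_le_pow _ _ hq.pos
  rw [eq_comm, ← mul_inv_eq_iff_eq_mul₀ (inv_ne_zero hxk), inv_inv, ← pow_succ,
    Nat.sub_add_cancel hpos]

/-! #### the mirror element `y⁻¹ = β t' / (α t')^q` -/

include hxk in
theorem elY_inv_mem_Ov : (elY M q x hx)⁻¹ ∈ Ov A π (FBar L (M * q)) :=
  inv_mem_Ov A π _ (elY_mem_Ov A π M q x hx hxk) (by rw [redV_elY A π M q x hx hxk]; exact one_ne_zero)

include hxk in
/-- **`red_∞ y⁻¹ = 1`** -/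
theorem redV_elY_inv :
    redV A π (FBar L (M * q)) ⟨(elY M q x hx)⁻¹, elY_inv_mem_Ov A π M q x hx hxk⟩ = 1 := by
  rw [redV_inv' A π (elY_mem_Ov A π M q x hx hxk) _ (by rw [redV_elY A π M q x hx hxk]; exact one_ne_zero),
    redV_elY A π M q x hx hxk, inv_one]

include hxk in
theorem elY_inv_mem_Ov0 : (elY M q x hx)⁻¹ ∈ Ov0 A π M q hdeg hq hqM :=
  inv_mem_Ov0 A π M q hdeg hq hqM (elY_mem_Ov0 A π M q hdeg hq hqM x hx hxk)
    (by rw [red0_elY A π M q hdeg hq hqM x hx hxk]; exact pow_ne_zero _ hxk)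

include hxk in
/-- **`red_0 y⁻¹ = σ ^ (q^2 - 1)`**, `σ = t̄'⁻¹` -/
theorem red0_elY_inv :
    red0 A π M q hdeg hq hqM
        ⟨(elY M q x hx)⁻¹, elY_inv_mem_Ov0 A π M q hdeg hq hqM x hx hxk⟩ =
      (tbar k x)⁻¹ ^ (q ^ 2 - 1) := by
  rw [red0_inv A π M q hdeg hq hqM (elY_mem_Ov0 A π M q hdeg hq hqM x hx hxk),
    red0_elY A π M q hdeg hq hqM x hx hxk, inv_pow]

/-! #### the shapes consumed by `UB.mem_of_mul_mem` -/

include hq in
theorem sq_sub_one_eq : q ^ 2 - 1 = (q ^ 2 - 1 - q) + q := by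
  have h2 : 2 ≤ q := hq.two_le
  have h3 : q + 1 ≤ q ^ 2 := by nlinarith
  omega

include hxk in
/-- chart `t ≠ ∞`: `red y = (1, c * (red t).2)` with `c = t̄' ^ (q^2 - 1 - q)` -/
theorem red0_elY_eq_mul :
    red0 A π M q hdeg hq hqM ⟨elY M q x hx, elY_mem_Ov0 A π M q hdeg hq hqM x hx hxk⟩ =
      tbar k x ^ (q ^ 2 - 1 - q) *
        red0 A π M q hdeg hq hqM ⟨tA M q x hx, tA_mem_Ov0 A π M q hdeg hq hqM x hx⟩ := by
  rw [red0_elY A π M q hdeg hq hqM x hx hxk, red0_tA, ← pow_add, ← sq_sub_one_eq q hq]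

include hxk in
/-- chart `t ≠ 0`: `red y⁻¹ = (1, c * (red t⁻¹).2)` with `c = σ ^ (q^2 - 1 - q)` -/
theorem red0_elY_inv_eq_mul :
    red0 A π M q hdeg hq hqM
        ⟨(elY M q x hx)⁻¹, elY_inv_mem_Ov0 A π M q hdeg hq hqM x hx hxk⟩ =
      (tbar k x)⁻¹ ^ (q ^ 2 - 1 - q) *
        red0 A π M q hdeg hq hqM
          ⟨(tA M q x hx)⁻¹, tA_inv_mem_Ov0 A π M q hdeg hq hqM x hx hxk⟩ := by
  rw [red0_elY_inv A π M q hdeg hq hqM x hx hxk, red0_tA_inv A π M q hdeg hq hqM x hx hxk,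
    ← inv_pow, ← pow_add, ← sq_sub_one_eq q hq]

end LevelMq

end Fermat.Agent.S34x.Inst.ElementYRed
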