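/-
helper64 (P-S34, WP3-inst, file (J9)): the INTEGRALITY packaging (Y1)-(Y3) of the cusp-separation
element `y := (α t')^q / β t'` at level `M q` in characteristic zero, and the packaged memberships
`(1, c * T₂) ∈ B̄` (chart `t ≠ ∞`), `(1, c' * Ti₂) ∈ B̄'` (chart `t ≠ 0`), i.e. the inputs `he`, `he'`
of `Lattice2/UBBridge.codim_main_of_isL2`.

* Part C (generic): from the place-wise statement `v(u) = q v(t) ∨ q v(u) = v(t)` at every place of
  a function field `F / K`: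
    (Y1)  `t^q / u` integral over `K[t]`,       (Y2)  `u / t^q` integral over `K[t⁻¹]`,
    (Y3)  `u` integral over `K[t]`,  `u⁻¹` integral over `K[t⁻¹]`.
* Part A: helper8's `Cusp/EltY4.ord_eq_of_jRel` transported to any copy `E = Fk k N` of the
  function field, with the `j`-relations stated in the ambient Laurent series ring.
* Part B: the level-4 instance in `F_{Mq}` (`4 ∣ M`, `q` an odd prime): `t = α x₄`, `u = β x₄`.
* Part D: the packaged memberships against helper44's `IsL2Inst.Bridge`.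
-/
import Fermat.Agent.S34x.Cusp.EltY4
import Fermat.Agent.S34x.Inst.Charts
import Fermat.Agent.S34x.Inst.ElementYRed
import Fermat.Agent.S34x.Inst.IsL2Inst
import Fermat.Agent.Gateway.AuxLevel.MembershipFk
import Fermat.Agent.Gateway.GoodRed.ConjFamily.FBarEq

set_option autoImplicit false
set_option linter.style.haveILetI false
set_option linter.unusedSectionVars false

noncomputable section

namespace Fermat.Agent.S34x.Inst.ElementYInt

open ModularCurve AlgebraicCurve IntermediateField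

attribute [-instance] IsScalarTower.of_algHom

/-! ### Part C: integrality from the orders at all places -/

section Generic

open Fermat.Agent.Gateway.GoodRed.PlacesIntegral Fermat.Agent.Gateway.C0

variable {K F : Type*} [Field K] [Field F] [Algebra K F] {t : F} (ht : Transcendental K t)
  [FiniteDimensional K⟮t⟯ F] [Algebra.IsSeparable K⟮t⟯ F]

include ht

theorem ne_zero_of_transcendental : t ≠ 0 := by
  rintro rfl
  exact ht isAlgebraic_zero

/-- integrality over `K[t]`: no poles off the poles of `t` -/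
theorem isIntegral_of_forall_ord {f : F} (h : ∀ v : Place K F, 0 ≤ v.ord t → 0 ≤ v.ord f) :
    IsIntegral (Algebra.adjoin K {t}) f :=
  (isIntegral_iff_forall_ord_nonneg t ht f).mpr h

/-- integrality over `K[t⁻¹]`: no poles off the zeros of `t` -/
theorem isIntegral_inv_of_forall_ord {f : F} (h : ∀ v : Place K F, v.ord t ≤ 0 → 0 ≤ v.ord f) :
    IsIntegral (Algebra.adjoin K {t⁻¹}) f := by
  have hti : Transcendental K t⁻¹ := transcendental_inv' ht
  haveI : FiniteDimensional K⟮t⁻¹⟯ F := by rw [adjoin_simple_inv_eq]; infer_instance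
  haveI : Algebra.IsSeparable K⟮t⁻¹⟯ F := by rw [adjoin_simple_inv_eq]; infer_instance
  rw [isIntegral_iff_forall_ord_nonneg t⁻¹ hti]
  intro v hv
  rw [v.ord_inv] at hv
  exact h v (by linarith)

variable {u : F} {q : ℕ}

/-- **(Y1)**: `t^q / u` is integral over `K[t]`. -/
theorem isIntegral_pow_mul_inv (hu : u ≠ 0)
    (h : ∀ v : Place K F, 0 ≤ v.ord t → v.ord u ≤ q * v.ord t) :
    IsIntegral (Algebra.adjoin K {t}) (t ^ q * u⁻¹) := by
  have ht0 : t ≠ 0 := ne_zero_of_transcendental ht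
  apply isIntegral_of_forall_ord ht
  intro v hv
  rw [v.ord_mul (pow_ne_zero _ ht0) (inv_ne_zero hu), ← zpow_natCast, v.ord_zpow, v.ord_inv]
  linarith [h v hv]

/-- **(Y2)**: `u / t^q` is integral over `K[t⁻¹]`. -/
theorem isIntegral_mul_pow_inv (hu : u ≠ 0)
    (h : ∀ v : Place K F, v.ord t ≤ 0 → q * v.ord t ≤ v.ord u) :
    IsIntegral (Algebra.adjoin K {t⁻¹}) (u * (t ^ q)⁻¹) := by
  have ht0 : t ≠ 0 := ne_zero_of_transcendental ht
  apply isIntegral_inv_of_forall_ord ht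
  intro v hv
  rw [v.ord_mul hu (inv_ne_zero (pow_ne_zero _ ht0)), v.ord_inv, ← zpow_natCast, v.ord_zpow]
  linarith [h v hv]

/-- **(Y3)**, first half: `u` is integral over `K[t]`. -/
theorem isIntegral_of_ord_eq (hq : 0 < q)
    (h : ∀ v : Place K F, v.ord u = q * v.ord t ∨ q * v.ord u = v.ord t) :
    IsIntegral (Algebra.adjoin K {t}) u := by
  apply isIntegral_of_forall_ord ht
  intro v hv
  have hq' : (0 : ℤ) < q := by exact_mod_cast hq
  rcases h v with h1 | h1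
  · rw [h1]; positivity
  · by_contra hcon
    rw [not_le] at hcon
    nlinarith

/-- **(Y3)**, second half: `u⁻¹` is integral over `K[t⁻¹]`. -/
theorem isIntegral_inv_of_ord_eq (hq : 0 < q)
    (h : ∀ v : Place K F, v.ord u = q * v.ord t ∨ q * v.ord u = v.ord t) :
    IsIntegral (Algebra.adjoin K {t⁻¹}) u⁻¹ := by
  apply isIntegral_inv_of_forall_ord ht
  intro v hv
  have hq' : (0 : ℤ) < q := by exact_mod_cast hq
  rw [v.ord_inv]
  rcases h v with h1 | h1
  · rw [h1]; nlinarith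
  · by_contra hcon
    rw [not_le] at hcon
    nlinarith

/-- the two inequalities of Theorem A from the precise form -/
theorem ord_le_of_ord_eq (hq : 0 < q)
    (h : ∀ v : Place K F, v.ord u = q * v.ord t ∨ q * v.ord u = v.ord t) (v : Place K F) :
    (0 ≤ v.ord t → v.ord u ≤ q * v.ord t) ∧ (v.ord t ≤ 0 → q * v.ord t ≤ v.ord u) := by
  have hq' : (1 : ℤ) ≤ q := by exact_mod_cast hq
  rcases h v with h1 | h1
  · exact ⟨fun _ => h1.le, fun _ => h1.ge⟩
  · constructor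
    · intro h0
      rw [← h1] at h0 ⊢
      have : 0 ≤ v.ord u := by
        by_contra hcon
        rw [not_le] at hcon
        nlinarith
      nlinarith
    · intro h0
      rw [← h1] at h0 ⊢
      have : v.ord u ≤ 0 := by
        by_contra hcon
        rw [not_le] at hcon
        nlinarith
      nlinarith

end Generic

/-! ### Part A: Theorem A for a copy of `Fk k N`, relations in the ambient Laurent series ring -/

section Transport

open Fermat.Agent.S28 Fermat.Agent.S28.Tower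
open Fermat.Agent.Gateway.GoodRed Fermat.Agent.Gateway.GoodRed.ConjFamily
open Fermat.Agent.S34x.Cusp

variable {k : Type} [Field k] [IsAlgClosed k] [CharZero k] {N : ℕ} [NeZero N]

/-- helper8's Theorem A (precise form, `Cusp/EltY4.ord_eq_of_jRel`) for an intermediate field
`E = Fk k N`, with the six `j`-relations of the level-4 Hauptmodul stated for the Laurent series
`tx = (t : k((q)))`, `ux = (u : k((q)))`. -/
theorem ord_eq_of_jRel_amb {E : IntermediateField k (LaurentSeries k)} (hE : E = Fk k N)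
    (hNk : (N : k) ≠ 0) {q : ℕ} (hq : q.Prime) (hq2 : q ≠ 2) (h4N : 4 ∣ N) (h4qN : 4 * q ∣ N)
    {t u : E} {tx ux : LaurentSeries k} (htx : (t : LaurentSeries k) = tx)
    (hux : (u : LaurentSeries k) = ux)
    (ht0 : tx ≠ 0) (ht16 : tx - 16 ≠ 0) (hu0 : ux ≠ 0) (hu16 : ux - 16 ≠ 0)
    (T1 : jS k 1 1 * (tx * (tx - 16) ^ 4) = (tx ^ 2 + 224 * tx + 256) ^ 3)
    (T2 : jS k 1 2 * (tx ^ 2 * (tx - 16) ^ 2) = (tx ^ 2 - 16 * tx + 256) ^ 3)
    (T4 : jS k 1 4 * (tx * (tx - 16)) = (tx ^ 2 - 16 * tx + 16) ^ 3)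
    (U1 : jS k 1 q * (ux * (ux - 16) ^ 4) = (ux ^ 2 + 224 * ux + 256) ^ 3)
    (U2 : jS k 1 (2 * q) * (ux ^ 2 * (ux - 16) ^ 2) = (ux ^ 2 - 16 * ux + 256) ^ 3)
    (U4 : jS k 1 (4 * q) * (ux * (ux - 16)) = (ux ^ 2 - 16 * ux + 16) ^ 3)
    (v : Place k E) : v.ord u = q * v.ord t ∨ q * v.ord u = v.ord t := by
  subst hE htx hux
  have h2N : 2 ∣ N := (by norm_num : 2 ∣ 4).trans h4N
  have hqN : q ∣ N := (Dvd.intro_left 4 rfl).trans h4qN
  have h2qN : 2 * q ∣ N := (Nat.mul_dvd_mul_right (by norm_num : 2 ∣ 4) q).trans h4qN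
  have hinj : Function.Injective (algebraMap (Fk k N) (LaurentSeries k)) :=
    (algebraMap (Fk k N) (LaurentSeries k)).injective
  have h16 : algebraMap (Fk k N) (LaurentSeries k) 16 = 16 := map_ofNat _ 16
  refine ord_eq_of_jRel hNk hq hq2 h2N h4N hqN h2qN h4qN (t := t) (u := u)
    ?_ ?_ ?_ ?_ ?_ ?_ ?_ ?_ ?_ ?_ v
  · rintro rfl
    exact ht0 rfl
  · intro h
    apply ht16
    have := congrArg (algebraMap (Fk k N) (LaurentSeries k)) h
    rw [map_sub, h16, map_zero] at this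
    exact this
  · rintro rfl
    exact hu0 rfl
  · intro h
    apply hu16
    have := congrArg (algebraMap (Fk k N) (LaurentSeries k)) h
    rw [map_sub, h16, map_zero] at this
    exact this
  · apply hinj
    simp only [map_mul, map_pow, map_sub, map_add, map_ofNat]
    exact T1
  · apply hinj
    simp only [map_mul, map_pow, map_sub, map_add, map_ofNat]
    exact T2
  · apply hinj
    simp only [map_mul, map_pow, map_sub, map_add, map_ofNat]
    exact T4
  · apply hinj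
    simp only [map_mul, map_pow, map_sub, map_add, map_ofNat]
    exact U1
  · apply hinj
    simp only [map_mul, map_pow, map_sub, map_add, map_ofNat]
    exact U2
  · apply hinj
    simp only [map_mul, map_pow, map_sub, map_add, map_ofNat]
    exact U4

end Transport

/-! ### Level `M q`: (Y1)-(Y3) from the place-wise hypothesis -/

section LevelMq

open Fermat.Agent.Gateway Fermat.Agent.Gateway.Hecke Fermat.Agent.Gateway.GoodRed
open Fermat.Agent.S34x.Inst.ElementYRed Fermat.Agent.S34x.Inst.Charts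

variable {L : Type} [Field L] [Algebra ℚ L] [IsAlgClosed L] (M q : ℕ) [NeZero M] [NeZero q]
  (x : LaurentSeries ℤ) (hx : coeffMap (Int.castRingHom L) x ∈ FBar L M)

/-- the place-wise hypothesis (Theorem A, precise form) for `t = α t'`, `u = β t'` -/
def OrdHyp : Prop :=
  ∀ v : Place L (FL L (M * q)),
    v.ord (tB M q x hx) = q * v.ord (tA M q x hx) ∨ q * v.ord (tB M q x hx) = v.ord (tA M q x hx)

variable {M q x hx}

theorem elY_inv_eq : (elY M q x hx)⁻¹ = tB M q x hx * (tA M q x hx ^ q)⁻¹ := by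
  rw [elY, mul_inv_rev, inv_inv]

variable (ht' : Transcendental L (tInt M x hx)) [FiniteDimensional L⟮tInt M x hx⟯ (FL L M)]
  (hq : 0 < q) (hord : OrdHyp M q x hx)

include ht' in
theorem tB_ne_zero : tB M q x hx ≠ 0 :=
  ne_zero_of_transcendental (transcendental_tβ L M q ht')

include ht' hq hord

/-- **(Y1)**: `y = (α t')^q / β t'` is integral over `L[α t']`. -/
theorem isIntegral_elY : IsIntegral (Algebra.adjoin L {tA M q x hx}) (elY M q x hx) :=
  isIntegral_pow_mul_inv (transcendental_tα L M q ht') (tB_ne_zero ht')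
    fun v => (ord_le_of_ord_eq (transcendental_tα L M q ht') hq hord v).1

/-- **(Y2)**: `y⁻¹` is integral over `L[(α t')⁻¹]`. -/
theorem isIntegral_elY_inv :
    IsIntegral (Algebra.adjoin L {(tA M q x hx)⁻¹}) (elY M q x hx)⁻¹ := by
  rw [elY_inv_eq]
  exact isIntegral_mul_pow_inv (transcendental_tα L M q ht') (tB_ne_zero ht')
    fun v => (ord_le_of_ord_eq (transcendental_tα L M q ht') hq hord v).2

/-- **(Y3)**, first half: `β t'` is integral over `L[α t']`. -/
theorem isIntegral_tB : IsIntegral (Algebra.adjoin L {tA M q x hx}) (tB M q x hx) :=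
  isIntegral_of_ord_eq (transcendental_tα L M q ht') hq hord

/-- **(Y3)**, second half: `(β t')⁻¹` is integral over `L[(α t')⁻¹]`. -/
theorem isIntegral_tB_inv :
    IsIntegral (Algebra.adjoin L {(tA M q x hx)⁻¹}) (tB M q x hx)⁻¹ :=
  isIntegral_inv_of_ord_eq (transcendental_tα L M q ht') hq hord

end LevelMq

/-! ### Part B: the level-4 instance (`4 ∣ M`, `q` an odd prime, `t' = x₄`) -/

section Level4

open Fermat.Agent.Gateway Fermat.Agent.Gateway.Hecke Fermat.Agent.Gateway.GoodRed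
open Fermat.Agent.Gateway.GoodRed.ConjFamily Fermat.Agent.Gateway.AuxLevel
open Fermat.Agent.S28 Fermat.Agent.S28.Tower
open Fermat.Agent.S34x.Inst.ElementYRed Fermat.Agent.S34x.Inst.Charts

theorem qExpand_congr {R : Type*} [CommRing R] {a b : ℕ} [NeZero a] [NeZero b] (h : a = b)
    (f : LaurentSeries R) : qExpand R a f = qExpand R b f := by
  subst h
  rfl

variable {L : Type} [Field L] [Algebra ℚ L] [IsAlgClosed L] (M q : ℕ) [NeZero M] [NeZero q]

/-- `x₄ ∈ F_M` for `4 ∣ M` -/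
theorem x4_mem_FBar (h4M : 4 ∣ M) : coeffMap (Int.castRingHom L) L4.x4 ∈ FBar L M := by
  haveI : CharZero L := algebraRat.charZero L
  rw [FBar_eq_fullC]
  exact L4.x4k_mem h4M (Nat.cast_ne_zero.mpr (NeZero.ne M))

variable (hx : coeffMap (Int.castRingHom L) L4.x4 ∈ FBar L M)

theorem coe_tInt_x4 : ((tInt M L4.x4 hx : FL L M) : LaurentSeries L) = L4.x4k L := rfl

/-- the `j`-relation at level `M`: `j ∈ L(x₄)` -/
theorem jL_mem_adjoin_x4 : HK1.jL L M ∈ L⟮tInt M L4.x4 hx⟯ := by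
  set t' : FL L M := tInt M L4.x4 hx with ht'
  have hinj : Function.Injective (algebraMap (FL L M) (LaurentSeries L)) :=
    (algebraMap (FL L M) (LaurentSeries L)).injective
  have h16 : algebraMap (FL L M) (LaurentSeries L) 16 = 16 := map_ofNat _ 16
  have hrel : HK1.jL L M * (t' * (t' - 16) ^ 4) = (t' ^ 2 + 224 * t' + 256) ^ 3 := by
    apply hinj
    simp only [map_mul, map_pow, map_sub, map_add, map_ofNat]
    exact L4.jq_x4k L
  have ht0 : t' ≠ 0 := by
    intro h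
    apply L4.x4k_ne_zero L
    have := congrArg (algebraMap (FL L M) (LaurentSeries L)) h
    rw [map_zero] at this
    exact this
  have ht16 : t' - 16 ≠ 0 := by
    intro h
    apply L4.x4k_sub_ne_zero L
    have := congrArg (algebraMap (FL L M) (LaurentSeries L)) h
    rw [map_sub, h16, map_zero] at this
    exact this
  have hden : t' * (t' - 16) ^ 4 ≠ 0 := mul_ne_zero ht0 (pow_ne_zero _ ht16)
  have hj : HK1.jL L M = (t' ^ 2 + 224 * t' + 256) ^ 3 / (t' * (t' - 16) ^ 4) := by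
    rw [eq_div_iff hden, hrel]
  have hmem : t' ∈ L⟮t'⟯ := mem_adjoin_simple_self L t'
  have hnat : ∀ n : ℕ, (n : FL L M) ∈ L⟮t'⟯ := fun n => _root_.natCast_mem _ n
  have h16m : (16 : FL L M) ∈ L⟮t'⟯ := by exact_mod_cast hnat 16
  have h224m : (224 : FL L M) ∈ L⟮t'⟯ := by exact_mod_cast hnat 224
  have h256m : (256 : FL L M) ∈ L⟮t'⟯ := by exact_mod_cast hnat 256
  rw [hj]
  exact div_mem (pow_mem (add_mem (add_mem (pow_mem hmem 2) (mul_mem h224m hmem)) h256m) 3)
    (mul_mem hmem (pow_mem (sub_mem hmem h16m) 4))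

theorem transcendental_tInt_x4 : Transcendental L (tInt M L4.x4 hx) :=
  transcendental_of_mem_adjoin (jL_mem_adjoin_x4 M hx) (HK1.transcendental_jL L M)

theorem finiteDimensional_tInt_x4 : FiniteDimensional L⟮tInt M L4.x4 hx⟯ (FL L M) :=
  haveI : CharZero L := algebraRat.charZero L
  haveI := HK1.finiteDimensional_FL L M
  finiteDimensional_of_mem_adjoin (jL_mem_adjoin_x4 M hx)

/-- **Theorem A at level `M q`** for `t = α x₄`, `u = β x₄` (helper8's `Cusp/EltY4`). -/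
theorem ordHyp_x4 (h4M : 4 ∣ M) (hq : q.Prime) (hq2 : q ≠ 2) : OrdHyp M q L4.x4 hx := by
  intro v
  haveI : CharZero L := algebraRat.charZero L
  have hNk : ((M * q : ℕ) : L) ≠ 0 := Nat.cast_ne_zero.mpr (NeZero.ne (M * q))
  haveI : NeZero (2 * q) := ⟨Nat.mul_ne_zero two_ne_zero (NeZero.ne q)⟩
  haveI : NeZero (4 * q) := ⟨Nat.mul_ne_zero four_ne_zero (NeZero.ne q)⟩
  have hU : ∀ {a b : LaurentSeries L}, a = b → qExpand L q a = qExpand L q b :=
    fun h => congrArg _ h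
  have hux0 : qExpand L q (L4.x4k L) ≠ 0 := by
    intro h
    apply L4.x4k_ne_zero L
    rw [← map_zero (qExpand L q)] at h
    exact (qExpand L q).injective h
  have hux16 : qExpand L q (L4.x4k L) - 16 ≠ 0 := by
    intro h
    apply L4.x4k_sub_ne_zero L
    have h16 : qExpand L q 16 = 16 := map_ofNat _ 16
    rw [← h16, ← map_sub, ← map_zero (qExpand L q)] at h
    exact (qExpand L q).injective h
  refine ord_eq_of_jRel_amb (FBar_eq_fullC L (M * q)) hNk hq hq2 (Dvd.dvd.mul_right h4M q)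
    (by rw [mul_comm 4 q, mul_comm M q]; exact Nat.mul_dvd_mul_left q h4M)
    (tx := L4.x4k L) (ux := qExpand L q (L4.x4k L)) (coe_heckeAlphaBar M q _)
    (coe_heckeBetaBar M q _) (L4.x4k_ne_zero L) (L4.x4k_sub_ne_zero L) hux0 hux16
    ?_ ?_ ?_ ?_ ?_ ?_ v
  · rw [jS_one_one]
    exact L4.jq_x4k L
  · rw [jS_eq_qExpand]
    exact L4.jq2_x4k L
  · rw [jS_eq_qExpand]
    exact L4.jq4_x4k L
  · rw [jS_eq_qExpand]
    have := hU (L4.jq_x4k L)
    simpa only [map_mul, map_pow, map_sub, map_add, map_ofNat] using this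
  · rw [jS_eq_qExpand, qExpand_congr (mul_comm 2 q), ← qExpand_qExpand]
    have := hU (L4.jq2_x4k L)
    simpa only [map_mul, map_pow, map_sub, map_add, map_ofNat] using this
  · rw [jS_eq_qExpand, qExpand_congr (mul_comm 4 q), ← qExpand_qExpand]
    have := hU (L4.jq4_x4k L)
    simpa only [map_mul, map_pow, map_sub, map_add, map_ofNat] using this

end Level4

/-! ### Part D: the packaged memberships `he`, `he'` of `Lattice2/UBBridge.codim_main_of_isL2` -/

section Packaged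

open Fermat.Agent.Gateway.Hecke Fermat.Agent.Gateway.ESC
open Fermat.Agent.Gateway.Red Fermat.Agent.Gateway.GoodRed
open Fermat.Agent.Gateway.GoodRed.ConjFamily
open Fermat.Agent.S34x.TwoVal Fermat.Agent.S34x.C0two Fermat.Agent.S34x.Lattice2
open Fermat.Agent.S34x.Inst.IsL2Inst Fermat.Agent.S34x.Inst.ElementYRed

variable {L : Type} [Field L] [Algebra ℚ L] [IsAlgClosed L] (A : ValuationSubring L)
  {k : Type} [Field k] (π : A →+* k) [IsAlgClosed k] (M : ℕ) [NeZero M]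
  (q : ℕ) [NeZero q] [Fact q.Prime] [CharP k q]
variable (hdeg : finrankAlong L (heckeAlphaBar L M q) = q + 1) (hq : q.Prime)
variable (hqM : ¬ q ∣ M)

theorem red0_congr {f f' : FL L (M * q)} (h : f = f') (hf : f ∈ Ov0 A π M q hdeg hq hqM)
    (hf' : f' ∈ Ov0 A π M q hdeg hq hqM) :
    red0 A π M q hdeg hq hqM ⟨f, hf⟩ = red0 A π M q hdeg hq hqM ⟨f', hf'⟩ := by
  subst h
  rfl

variable {S : SmallRing (FL L (M * q))} {R : RedSetup2 A S k (Fk k M × Fk k M)}
  (C : ChartCoord R)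
variable (x : LaurentSeries ℤ) (hx : coeffMap (Int.castRingHom L) x ∈ FBar L M)
variable {A π M q hdeg hq hqM}
variable (hB : Bridge A π M q hdeg hq hqM R) (hCt : C.t = tA M q x hx)

include hB hCt

/-- `T₁ = t̄'` -/
theorem coe_T_fst : ((C.T.1 : Fk k M) : LaurentSeries k) = tbar k x := by
  have h1 : C.t ∈ Ov A π (FBar L (M * q)) := ((hB.mem_iff C.t).mp C.t_mem).1
  rw [ChartCoord.T, hB.res_fst C.t C.t_mem h1, ← redV_tA A π M q x hx]
  exact redV_congr A π _ hCt _ _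

/-- `T₂ = t̄'^q` -/
theorem coe_T_snd : ((C.T.2 : Fk k M) : LaurentSeries k) = tbar k x ^ q := by
  have h1 : C.t ∈ Ov0 A π M q hdeg hq hqM := ((hB.mem_iff C.t).mp C.t_mem).2
  rw [ChartCoord.T, hB.res_snd C.t C.t_mem h1, ← red0_tA A π M q hdeg hq hqM x hx]
  exact red0_congr A π M q hdeg hq hqM hCt _ _

/-- `T₂ = T₁^q` -/
theorem T_snd_eq_pow : C.T.2 = C.T.1 ^ q := by
  apply Subtype.ext
  rw [coe_T_snd C x hx hB hCt, SubmonoidClass.coe_pow, coe_T_fst C x hx hB hCt]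

/-- `Ti₂ = Ti₁^q` -/
theorem Ti_snd_eq_pow : C.Ti.2 = C.Ti.1 ^ q := by
  have h1 := congrArg Prod.fst C.T_mul_Ti
  have h2 := congrArg Prod.snd C.T_mul_Ti
  rw [Prod.fst_mul, Prod.fst_one] at h1
  rw [Prod.snd_mul, Prod.snd_one, T_snd_eq_pow C x hx hB hCt] at h2
  have h3 : C.T.1 ^ q * C.Ti.1 ^ q = 1 := by rw [← mul_pow, h1, one_pow]
  have hne : C.T.1 ^ q ≠ 0 := left_ne_zero_of_mul_eq_one h3
  exact mul_left_cancel₀ hne (h2.trans h3.symm)

/-- a power of `T₁` is integral over `k[T₂]` -/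
theorem isIntegral_T_fst_pow (e : ℕ) : IsIntegral (Algebra.adjoin k {C.T.2}) (C.T.1 ^ e) := by
  have hqpos : 0 < q := Nat.pos_of_ne_zero (NeZero.ne q)
  have h1 : IsIntegral (Algebra.adjoin k {C.T.2}) (C.T.1 ^ q) := by
    rw [← T_snd_eq_pow C x hx hB hCt]
    exact isIntegral_gen (k := k) C.T.2
  exact (IsIntegral.of_pow hqpos h1).pow e

/-- a power of `Ti₁` is integral over `k[Ti₂]` -/
theorem isIntegral_Ti_fst_pow (e : ℕ) : IsIntegral (Algebra.adjoin k {C.Ti.2}) (C.Ti.1 ^ e) := by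
  have hqpos : 0 < q := Nat.pos_of_ne_zero (NeZero.ne q)
  have h1 : IsIntegral (Algebra.adjoin k {C.Ti.2}) (C.Ti.1 ^ q) := by
    rw [← Ti_snd_eq_pow C x hx hB hCt]
    exact isIntegral_gen (k := k) C.Ti.2
  exact (IsIntegral.of_pow hqpos h1).pow e

variable (hxk : tbar k x ≠ 0)

include hxk

theorem elY_mem_O : elY M q x hx ∈ S.O :=
  (hB.mem_iff _).mpr ⟨elY_mem_Ov A π M q x hx hxk, elY_mem_Ov0 A π M q hdeg hq hqM x hx hxk⟩

theorem elY_inv_mem_O : (elY M q x hx)⁻¹ ∈ S.O :=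
  (hB.mem_iff _).mpr
    ⟨elY_inv_mem_Ov A π M q x hx hxk, elY_inv_mem_Ov0 A π M q hdeg hq hqM x hx hxk⟩

/-- **`red y = (1, T₁^(q²-1-q) * T₂)`** -/
theorem res_elY :
    R.res ⟨elY M q x hx, elY_mem_O C x hx hB hCt hxk⟩ =
      ((1 : Fk k M), C.T.1 ^ (q ^ 2 - 1 - q) * C.T.2) := by
  have hyO := elY_mem_O C x hx hB hCt hxk
  refine Prod.ext (Subtype.ext ?_) (Subtype.ext ?_)
  · rw [hB.res_fst _ hyO (elY_mem_Ov A π M q x hx hxk), redV_elY A π M q x hx hxk]
    rfl
  · rw [hB.res_snd _ hyO (elY_mem_Ov0 A π M q hdeg hq hqM x hx hxk),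
      red0_elY_eq_mul A π M q hdeg hq hqM x hx hxk, red0_tA]
    show _ = ((C.T.1 ^ (q ^ 2 - 1 - q) * C.T.2 : Fk k M) : LaurentSeries k)
    rw [MulMemClass.coe_mul, SubmonoidClass.coe_pow, coe_T_fst C x hx hB hCt,
      coe_T_snd C x hx hB hCt]

/-- **`he`** (chart `t ≠ ∞`) of `Lattice2/UBBridge.codim_main_of_isL2`, from (Y1) and the second
half of (Y3). -/
theorem exists_he
    (hY1 : IsIntegral (Algebra.adjoin L {tA M q x hx}) (elY M q x hx))
    (hY3i : IsIntegral (Algebra.adjoin L {(tA M q x hx)⁻¹}) (tB M q x hx)⁻¹) :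
    ∃ c : Fk k M, IsIntegral (Algebra.adjoin k {C.T.2}) c ∧
      ((1 : Fk k M), c * C.T.2) ∈ C.Bbar := by
  refine ⟨C.T.1 ^ (q ^ 2 - 1 - q), isIntegral_T_fst_pow C x hx hB hCt _, ?_⟩
  have hyO := elY_mem_O C x hx hB hCt hxk
  have ht0 : tA M q x hx ≠ 0 := hCt ▸ C.t_ne
  have hyL : elY M q x hx ∈ C.LN 0 q := by
    refine ⟨?_, ?_⟩
    · rw [pow_zero, one_mul, hCt]
      exact hY1
    · have e : C.t⁻¹ ^ q * elY M q x hx = (tB M q x hx)⁻¹ := by
        rw [hCt, elY, ← mul_assoc, ← mul_pow, inv_mul_cancel₀ ht0, one_pow, one_mul]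
      rw [e, hCt]
      exact hY3i
  have := C.res_mem_Bbar hyO hyL
  rwa [res_elY C x hx hB hCt hxk] at this

/-- `Ti₁ = t̄'⁻¹` -/
theorem coe_Ti_fst : ((C.Ti.1 : Fk k M) : LaurentSeries k) = (tbar k x)⁻¹ := by
  have h1 : C.t⁻¹ ∈ Ov A π (FBar L (M * q)) := ((hB.mem_iff C.t⁻¹).mp C.tinv_mem).1
  rw [ChartCoord.Ti, hB.res_fst C.t⁻¹ C.tinv_mem h1, ← redV_tA_inv A π M q x hx hxk]
  exact redV_congr A π _ (congrArg Inv.inv hCt) _ _

/-- `Ti₂ = (t̄'^q)⁻¹` -/
theorem coe_Ti_snd : ((C.Ti.2 : Fk k M) : LaurentSeries k) = (tbar k x ^ q)⁻¹ := by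
  have h1 : C.t⁻¹ ∈ Ov0 A π M q hdeg hq hqM := ((hB.mem_iff C.t⁻¹).mp C.tinv_mem).2
  rw [ChartCoord.Ti, hB.res_snd C.t⁻¹ C.tinv_mem h1,
    ← red0_tA_inv A π M q hdeg hq hqM x hx hxk]
  exact red0_congr A π M q hdeg hq hqM (congrArg Inv.inv hCt) _ _

/-- **`red y⁻¹ = (1, Ti₁^(q²-1-q) * Ti₂)`** -/
theorem res_elY_inv :
    R.res ⟨(elY M q x hx)⁻¹, elY_inv_mem_O C x hx hB hCt hxk⟩ =
      ((1 : Fk k M), C.Ti.1 ^ (q ^ 2 - 1 - q) * C.Ti.2) := by
  have hyO := elY_inv_mem_O C x hx hB hCt hxk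
  refine Prod.ext (Subtype.ext ?_) (Subtype.ext ?_)
  · rw [hB.res_fst _ hyO (elY_inv_mem_Ov A π M q x hx hxk), redV_elY_inv A π M q x hx hxk]
    rfl
  · rw [hB.res_snd _ hyO (elY_inv_mem_Ov0 A π M q hdeg hq hqM x hx hxk),
      red0_elY_inv_eq_mul A π M q hdeg hq hqM x hx hxk,
      red0_tA_inv A π M q hdeg hq hqM x hx hxk]
    show _ = ((C.Ti.1 ^ (q ^ 2 - 1 - q) * C.Ti.2 : Fk k M) : LaurentSeries k)
    rw [MulMemClass.coe_mul, SubmonoidClass.coe_pow, coe_Ti_fst C x hx hB hCt hxk,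
      coe_Ti_snd C x hx hB hCt hxk]

/-- **`he'`** (chart `t ≠ 0`) of `Lattice2/UBBridge.codim_main_of_isL2`, from (Y2) and the first
half of (Y3). -/
theorem exists_he'
    (hY2 : IsIntegral (Algebra.adjoin L {(tA M q x hx)⁻¹}) (elY M q x hx)⁻¹)
    (hY3 : IsIntegral (Algebra.adjoin L {tA M q x hx}) (tB M q x hx)) :
    ∃ c : Fk k M, IsIntegral (Algebra.adjoin k {C.Ti.2}) c ∧
      ((1 : Fk k M), c * C.Ti.2) ∈ C.swap.Bbar := by
  refine ⟨C.Ti.1 ^ (q ^ 2 - 1 - q), isIntegral_Ti_fst_pow C x hx hB hCt _, ?_⟩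
  have hyO := elY_inv_mem_O C x hx hB hCt hxk
  have ht0 : tA M q x hx ≠ 0 := hCt ▸ C.t_ne
  have hyL : (elY M q x hx)⁻¹ ∈ C.swap.LN 0 q := by
    rw [C.swap_LN]
    refine ⟨?_, ?_⟩
    · have e : C.t ^ q * (elY M q x hx)⁻¹ = tB M q x hx := by
        rw [hCt, elY_inv_eq, mul_comm (tB M q x hx), ← mul_assoc,
          mul_inv_cancel₀ (pow_ne_zero _ ht0), one_mul]
      rw [e, hCt]
      exact hY3
    · rw [pow_zero, one_mul, hCt]
      exact hY2
  have := C.swap.res_mem_Bbar hyO hyL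
  rwa [res_elY_inv C x hx hB hCt hxk] at this

omit hxk

/-! #### from the place-wise hypothesis -/

section FromOrdHyp

variable (ht' : Transcendental L (tInt M x hx)) [FiniteDimensional L⟮tInt M x hx⟯ (FL L M)]
  (hord : OrdHyp M q x hx)

include hxk ht' hord

theorem exists_he_of_ordHyp :
    ∃ c : Fk k M, IsIntegral (Algebra.adjoin k {C.T.2}) c ∧
      ((1 : Fk k M), c * C.T.2) ∈ C.Bbar :=
  have hqpos : 0 < q := Nat.pos_of_ne_zero (NeZero.ne q)
  exists_he C x hx hB hCt hxk (isIntegral_elY ht' hqpos hord) (isIntegral_tB_inv ht' hqpos hord)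

theorem exists_he'_of_ordHyp :
    ∃ c : Fk k M, IsIntegral (Algebra.adjoin k {C.Ti.2}) c ∧
      ((1 : Fk k M), c * C.Ti.2) ∈ C.swap.Bbar :=
  have hqpos : 0 < q := Nat.pos_of_ne_zero (NeZero.ne q)
  exists_he' C x hx hB hCt hxk (isIntegral_elY_inv ht' hqpos hord) (isIntegral_tB ht' hqpos hord)

end FromOrdHyp

end Packaged

/-! ### The level-4 case: all outputs for `t' = x₄`, `4 ∣ M`, `q` an odd prime -/

section Final4

open Fermat.Agent.Gateway.Hecke Fermat.Agent.Gateway.ESC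
open Fermat.Agent.Gateway.Red Fermat.Agent.Gateway.GoodRed
open Fermat.Agent.Gateway.GoodRed.ConjFamily Fermat.Agent.Gateway.AuxLevel
open Fermat.Agent.S34x.TwoVal Fermat.Agent.S34x.C0two Fermat.Agent.S34x.Lattice2
open Fermat.Agent.S34x.Inst.IsL2Inst Fermat.Agent.S34x.Inst.ElementYRed

variable {L : Type} [Field L] [Algebra ℚ L] [IsAlgClosed L] {M q : ℕ} [NeZero M] [NeZero q]
  (hx : coeffMap (Int.castRingHom L) L4.x4 ∈ FBar L M) (h4M : 4 ∣ M) (hq : q.Prime) (hq2 : q ≠ 2)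

include h4M hq hq2

/-- **(Y1)** for `x₄` -/
theorem isIntegral_elY_x4 :
    IsIntegral (Algebra.adjoin L {tA M q L4.x4 hx}) (elY M q L4.x4 hx) :=
  haveI := finiteDimensional_tInt_x4 M hx
  isIntegral_elY (transcendental_tInt_x4 M hx) hq.pos (ordHyp_x4 M q hx h4M hq hq2)

/-- **(Y2)** for `x₄` -/
theorem isIntegral_elY_inv_x4 :
    IsIntegral (Algebra.adjoin L {(tA M q L4.x4 hx)⁻¹}) (elY M q L4.x4 hx)⁻¹ :=
  haveI := finiteDimensional_tInt_x4 M hx
  isIntegral_elY_inv (transcendental_tInt_x4 M hx) hq.pos (ordHyp_x4 M q hx h4M hq hq2)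

/-- **(Y3)** for `x₄`, chart `t ≠ ∞` (the hypothesis `hY3` of `IsL2Inst.isL2`) -/
theorem isIntegral_tB_x4 :
    IsIntegral (Algebra.adjoin L {tA M q L4.x4 hx}) (tB M q L4.x4 hx) :=
  haveI := finiteDimensional_tInt_x4 M hx
  isIntegral_tB (transcendental_tInt_x4 M hx) hq.pos (ordHyp_x4 M q hx h4M hq hq2)

/-- **(Y3)** for `x₄`, chart `t ≠ 0` (the hypothesis `hY3` of `IsL2Inst.isL2_swap`) -/
theorem isIntegral_tB_inv_x4 :
    IsIntegral (Algebra.adjoin L {(tA M q L4.x4 hx)⁻¹}) (tB M q L4.x4 hx)⁻¹ :=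
  haveI := finiteDimensional_tInt_x4 M hx
  isIntegral_tB_inv (transcendental_tInt_x4 M hx) hq.pos (ordHyp_x4 M q hx h4M hq hq2)

variable {A : ValuationSubring L} {k : Type} [Field k] {π : A →+* k} [IsAlgClosed k]
  [Fact q.Prime] [CharP k q]
  {hdeg : finrankAlong L (heckeAlphaBar L M q) = q + 1} {hqM : ¬ q ∣ M}
  {S : SmallRing (FL L (M * q))} {R : RedSetup2 A S k (Fk k M × Fk k M)}
  (C : ChartCoord R) (hB : Bridge A π M q hdeg hq hqM R) (hCt : C.t = tA M q L4.x4 hx)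

include hB hCt

/-- **`he`** of `Lattice2/UBBridge.codim_main_of_isL2` for `x₄` -/
theorem exists_he_x4 :
    ∃ c : Fk k M, IsIntegral (Algebra.adjoin k {C.T.2}) c ∧
      ((1 : Fk k M), c * C.T.2) ∈ C.Bbar :=
  exists_he C L4.x4 hx hB hCt (L4.x4k_ne_zero k) (isIntegral_elY_x4 hx h4M hq hq2)
    (isIntegral_tB_inv_x4 hx h4M hq hq2)

/-- **`he'`** of `Lattice2/UBBridge.codim_main_of_isL2` for `x₄` -/
theorem exists_he'_x4 :
    ∃ c : Fk k M, IsIntegral (Algebra.adjoin k {C.Ti.2}) c ∧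
      ((1 : Fk k M), c * C.Ti.2) ∈ C.swap.Bbar :=
  exists_he' C L4.x4 hx hB hCt (L4.x4k_ne_zero k) (isIntegral_elY_inv_x4 hx h4M hq hq2)
    (isIntegral_tB_x4 hx h4M hq hq2)

/-- `T₂ = T₁^q` for `x₄` (the hypothesis `hT` of `IsL2Inst.isIntegral_T_snd`) -/
theorem T_snd_eq_pow_x4 : C.T.2 = C.T.1 ^ q := T_snd_eq_pow C L4.x4 hx hB hCt

end Final4

end Fermat.Agent.S34x.Inst.ElementYInt
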