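/-
helper47 (P-S34, WP3-inst (J6)): the Galois inputs of `TheoremBInst.exists_const_mul_pow_of_charts`
at level `M q`.

Setting (Σ): `L` algebraically closed of characteristic zero, `A ⊆ L` a rank-one valuation subring,
`π : A →+* k` onto an algebraically closed field of characteristic `q ∤ M`.  On `F = F_{Mq}` we have
the two Gauss valuation subrings `valInfty`, `valZero` (helper60) and the small ring
`S2 = twoVal valInfty valZero` (helper71).  For `τ : L ≃ₐ[ℚ] L` put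
`g := arithmeticGalois (modularFunctionFieldFull (M q)) τ : SemilinearAut L F`.

* `gal_smul_alpha_eq_self` (`hgt`) : `g • α t' = α t'` if `t'` has a rational `q`-expansion
  (`gal_smul_alpha_eq_self_int` : an integral one), for every `τ`;
* `gal_smul_mem_S2` (`hgO`) : `g` preserves `S2.O = O_∞ ⊓ O_0` for `τ` in the decomposition group;
* `res_gal_smul` (`hgres`) : for `τ` in the inertia group and ANY `R : RedSetup2 A S2 k κ`,
  `R.res (g • f) = R.res f` (no bridge hypothesis: `R.res_ker` + the two reductions `redV`, `red0`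
  are inertia-invariant and their kernels are the non-units);
* `isUnit_natCast` (`hm`) : `m` is a unit of `A` if `q ∤ m`;
* `exists_const_mul_pow_of_charts_inertia` : `TheoremBInst.exists_const_mul_pow_of_charts` with
  `g, hgt, hgO, hgres, hm` discharged.
-/
import Fermat.Agent.S34x.TwoVal.GaloisRed
import Fermat.Agent.S34x.TwoVal.ValZero
import Fermat.Agent.S34x.C0two.Pair
import Fermat.Agent.S34x.Inst.SigmaGlue
import Fermat.Agent.S34x.TheoremBInst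

set_option autoImplicit false
set_option linter.style.haveILetI false
set_option linter.unusedSectionVars false

noncomputable section

namespace Fermat.Agent.S34x.Inst.GaloisInst

open Polynomial ModularCurve AlgebraicCurve IntermediateField Module
open Fermat.Agent.S28 Fermat.Agent.S28.Tower Fermat.Agent.Gateway.Hecke
open Fermat.Agent.Gateway.Red Fermat.Agent.Gateway.GoodRed Fermat.Agent.Gateway.ESC
open Fermat.Agent.Gateway.C0 Fermat.Agent.S34x.C0two Fermat.Agent.S34x.TwoVal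

/-! ### `hgt`: functions with rational `q`-expansion are Galois-fixed -/

section Fixed

variable {L : Type*} [Field L] [Algebra ℚ L] (M q : ℕ) [NeZero M] [NeZero q]

/-- `g • α t' = α t'` for `t'` with rational `q`-expansion. -/
theorem gal_smul_alpha_eq_self (τ : L ≃ₐ[ℚ] L) (t' : FL L M) (t₀ : LaurentSeries ℚ)
    (ht : ((t' : FL L M) : LaurentSeries L) = coeffMap (algebraMap ℚ L) t₀) :
    arithmeticGalois (modularFunctionFieldFull (M * q)) τ • heckeAlphaBar L M q t' =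
      heckeAlphaBar L M q t' :=
  SigmaGlue.arithmeticGalois_smul_eq_self (modularFunctionFieldFull (M * q)) τ
    (heckeAlphaBar L M q t') t₀ (by rw [coe_heckeAlphaBar]; exact ht)

/-- `g • α t' = α t'` for `t'` with integral `q`-expansion. -/
theorem gal_smul_alpha_eq_self_int (τ : L ≃ₐ[ℚ] L) (t' : FL L M) (t₀ : LaurentSeries ℤ)
    (ht : ((t' : FL L M) : LaurentSeries L) = coeffMap (Int.castRingHom L) t₀) :
    arithmeticGalois (modularFunctionFieldFull (M * q)) τ • heckeAlphaBar L M q t' =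
      heckeAlphaBar L M q t' := by
  refine gal_smul_alpha_eq_self M q τ t' (coeffMap (Int.castRingHom ℚ) t₀) ?_
  rw [ht, coeffMap_coeffMap]
  exact coeffMap_congr (RingHom.ext fun n => by simp) t₀

end Fixed

/-! ### `hm` -/

section Unit

variable {L : Type*} [Field L] (A : ValuationSubring L) {k : Type*} [Field k] (π : A →+* k)

/-- `m` is a unit of `A` if the residue characteristic does not divide `m`. -/
theorem isUnit_natCast (hπ : Function.Surjective π) (q : ℕ) [CharP k q] {m : ℕ} (hm : ¬ q ∣ m) :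
    IsUnit ((m : ℕ) : A) := by
  by_contra hu
  have h1 : ((m : ℕ) : A) ∈ IsLocalRing.maximalIdeal A := hu
  have hmax : (RingHom.ker π).IsMaximal := RingHom.ker_isMaximal_of_surjective π hπ
  have h2 : RingHom.ker π = IsLocalRing.maximalIdeal A := IsLocalRing.eq_maximalIdeal hmax
  rw [← h2, RingHom.mem_ker, map_natCast] at h1
  exact hm ((CharP.cast_eq_zero_iff k q m).mp h1)

end Unit

/-! ### `hgO`, `hgres` -/

section Setting

variable {L : Type} [Field L] [Algebra ℚ L] [IsAlgClosed L] (A : ValuationSubring L)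
  {k : Type} [Field k] (π : A →+* k) [IsAlgClosed k]
variable (M q : ℕ) [NeZero M] [Fact q.Prime] [CharP k q]
variable (hdeg : finrankAlong L (heckeAlphaBar L M q) = q + 1) (hq : q.Prime) (hqM : ¬ q ∣ M)
variable (hrk : ∀ x ∈ IsLocalRing.maximalIdeal A, ∀ c : A, c ≠ 0 → ∃ j : ℕ, c ∣ x ^ j)
  (hπ : Function.Surjective π)

/-- the small ring `O_∞ ⊓ O_0` of the two Gauss valuations of `F_{Mq}`. -/
abbrev S2 : SmallRing (FL L (M * q)) :=
  twoVal (valInfty A π M q hrk hπ hqM) (valZero A π M q hdeg hq hqM hrk hπ)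

theorem mem_S2_iff {f : FL L (M * q)} :
    f ∈ (S2 A π M q hdeg hq hqM hrk hπ).O ↔
      f ∈ Ov A π (FL L (M * q)) ∧ f ∈ Ov0 A π M q hdeg hq hqM := Iff.rfl

/-- inertia elements lie in the decomposition group. -/
theorem mem_decomposition_of_mem_inertia {τ : L ≃ₐ[ℚ] L} (hτ : τ ∈ A.inertiaSubgroupIn ℚ) :
    τ ∈ A.decompositionSubgroup ℚ := by
  obtain ⟨σ, -, rfl⟩ := hτ
  exact σ.2

/-- **`hgO`**: the decomposition group preserves `O_∞ ⊓ O_0`. -/
theorem gal_smul_mem_S2 {τ : L ≃ₐ[ℚ] L} (hτ : τ ∈ A.decompositionSubgroup ℚ)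
    {f : FL L (M * q)} (hf : f ∈ (S2 A π M q hdeg hq hqM hrk hπ).O) :
    arithmeticGalois (modularFunctionFieldFull (M * q)) τ • f ∈
      (S2 A π M q hdeg hq hqM hrk hπ).O :=
  ⟨(smul_mem_Ov_iff A π (M * q) hπ hτ f).mpr hf.1,
    (smul_mem_Ov0_iff A π M q hdeg hq hqM hπ hτ f).mpr hf.2⟩

/-- an element of a valuation subring with zero reduction has valuation `< 1`. -/
theorem valuation_lt_one_of_not_isUnit {F : Type*} [Field F] (O : ValuationSubring F) (x : O)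
    (hx : ¬ IsUnit x) : O.valuation (x : F) < 1 :=
  (O.valuation_lt_one_iff x).mp hx

/-- **`hgres`**: the inertia group acts trivially on the residue ring of `O_∞ ⊓ O_0`, for any
reduction setup `R`. -/
theorem res_gal_smul {κ : Type*} [CommRing κ] [Algebra k κ]
    (R : RedSetup2 A (S2 A π M q hdeg hq hqM hrk hπ) k κ)
    {τ : L ≃ₐ[ℚ] L} (hτ : τ ∈ A.inertiaSubgroupIn ℚ)
    (f : FL L (M * q)) (hf : f ∈ (S2 A π M q hdeg hq hqM hrk hπ).O) :
    R.res ⟨arithmeticGalois (modularFunctionFieldFull (M * q)) τ • f,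
        gal_smul_mem_S2 A π M q hdeg hq hqM hrk hπ
          (mem_decomposition_of_mem_inertia A hτ) hf⟩ = R.res ⟨f, hf⟩ := by
  set g := arithmeticGalois (modularFunctionFieldFull (M * q)) τ with hg
  have hgf := gal_smul_mem_S2 A π M q hdeg hq hqM hrk hπ
    (mem_decomposition_of_mem_inertia A hτ) hf
  rw [← sub_eq_zero, ← map_sub, R.res_ker]
  obtain ⟨h1, e1⟩ := redV_smul_of_mem_inertia A π (M * q) hπ hτ hf.1
  obtain ⟨h2, e2⟩ := red0_smul_of_mem_inertia A π M q hdeg hq hqM hπ hτ hf.2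
  constructor
  · -- the valuation `∞`
    have hd : g • f - f ∈ valInfty A π M q hrk hπ hqM := sub_mem hgf.1 hf.1
    refine valuation_lt_one_of_not_isUnit _ ⟨g • f - f, hd⟩ ?_
    rw [← TwoVal.redV_eq_zero_iff A π M q hrk hπ hqM ⟨g • f - f, hd⟩]
    have e : (⟨g • f - f, hd⟩ : Ov A π (FL L (M * q))) = ⟨g • f, h1⟩ - ⟨f, hf.1⟩ := rfl
    rw [e, map_sub, e1, sub_self]
  · -- the valuation `0`
    have hd : g • f - f ∈ valZero A π M q hdeg hq hqM hrk hπ := sub_mem hgf.2 hf.2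
    refine valuation_lt_one_of_not_isUnit _ ⟨g • f - f, hd⟩ ?_
    rw [← TwoVal.red0_eq_zero_iff A π M q hdeg hq hqM hrk hπ ⟨g • f - f, hd⟩]
    have e : (⟨g • f - f, hd⟩ : Ov0 A π M q hdeg hq hqM) = ⟨g • f, h2⟩ - ⟨f, hf.2⟩ := rfl
    rw [e, map_sub, e2, sub_self]

end Setting

/-! ### The packaged consumer form -/

section Packaged

variable {L : Type} [Field L] [Algebra ℚ L] [IsAlgClosed L] (A : ValuationSubring L)
  {k : Type} [Field k] (π : A →+* k) [IsAlgClosed k]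
variable (M q : ℕ) [NeZero M] [Fact q.Prime] [CharP k q]
variable (hdeg : finrankAlong L (heckeAlphaBar L M q) = q + 1) (hq : q.Prime) (hqM : ¬ q ∣ M)
variable (hrk : ∀ x ∈ IsLocalRing.maximalIdeal A, ∀ c : A, c ≠ 0 → ∃ j : ℕ, c ∣ x ^ j)
  (hπ : Function.Surjective π)
variable {κ : Type*} [CommRing κ] [Algebra k κ] [Nontrivial κ]
  (R : RedSetup2 A (S2 A π M q hdeg hq hqM hrk hπ) k κ)
  {t : FL L (M * q)} (ht : Transcendental L t) [FiniteDimensional L⟮t⟯ (FL L (M * q))]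
  {Dt : Divisor L (FL L (M * q))} (hDt : ∀ v : Place L (FL L (M * q)), Dt v = v.ord t)
  (htO : t ∈ (S2 A π M q hdeg hq hqM hrk hπ).O) (htiO : t⁻¹ ∈ (S2 A π M q hdeg hq hqM hrk hπ).O)
  (hcart : ∀ V : Submodule L (FL L (M * q)), FiniteDimensional L V → (R.lat V).FG)
  (P : ℕ → Submodule k κ) [∀ b, FiniteDimensional k (P b)] {b₀ : ℕ}
  (hgen : ∀ b, b₀ ≤ b → ∀ x ∈ P (b + 1), ∃ y ∈ P b, ∃ z ∈ P b, x = y + R.res ⟨t, htO⟩ * z)
  {m : ℕ}
  (hSC : ∀ (b : ℕ) (f : FL L (M * q)) (hf : f ∈ (S2 A π M q hdeg hq hqM hrk hπ).O),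
    f ∈ (TwoCharts.ofDivisor Dt).LN 0 b → R.res ⟨f, hf⟩ ∈ P b)
  (hrad : ∀ (b : ℕ) (x : κ), x ^ m ∈ P (m * b) → x ∈ P b)
  (hqm : ¬ q ∣ m)
  {τ : L ≃ₐ[ℚ] L} (hτ : τ ∈ A.inertiaSubgroupIn ℚ)
  (hgt : arithmeticGalois (modularFunctionFieldFull (M * q)) τ • t = t)
  {w : FL L (M * q)} (hw0 : w ≠ 0) (hwO : w ∈ (S2 A π M q hdeg hq hqM hrk hπ).O)
  (hwiO : w⁻¹ ∈ (S2 A π M q hdeg hq hqM hrk hπ).O) (hw1 : R.res ⟨w, hwO⟩ = 1)
  {D : Divisor L (FL L (M * q))}
  (hD : ∀ v : Place L (FL L (M * q)), (m : ℤ) * D v = v.ord w)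
  {B₁ B₂ : Type*} [CommRing B₁] [CommRing B₂] [Algebra k B₁] [Algebra k B₂]
  {B₁' B₂' : Type*} [CommRing B₁'] [CommRing B₂'] [Algebra k B₁'] [Algebra k B₂']

include ht hDt htiO hcart hgen hSC hrad hqm hτ hgt hw0 hwiO hw1 hD in
/-- **Theorem B for an inertia element** `τ`, from the (N2) data of the two charts:
`TheoremBInst.exists_const_mul_pow_of_charts` with the Galois inputs `g, hgt, hgO, hgres, hm`
discharged (`g = arithmeticGalois _ τ`). -/
theorem exists_const_mul_pow_of_charts_inertia (hm0 : 0 < m)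
    -- chart `∞`
    (j : (B₁ × B₂) →ₐ[k] κ) (Bbar : Subalgebra k κ) (N N' : Submodule k κ)
    (h₁ : ∀ f : B₁, ∃ g : B₂, j (f, g) ∈ Bbar) (h₂ : ∀ g : B₂, ∃ f : B₁, j (f, g) ∈ Bbar)
    [Module.Finite k ((B₁ × B₂) ⧸ Subalgebra.toSubmodule (Bbar.comap j))]
    {p : ℕ} (hp : 2 ≤ p) (hpth : ∀ g : B₂, ∃ g' : B₂, j ((0 : B₁), g - g' ^ p) ∈ Bbar)
    [Module.Finite k ((B₁ × B₂) ⧸ N.comap j.toLinearMap)]
    [Module.Finite k ((B₁ × B₂) ⧸ N'.comap j.toLinearMap)]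
    (hcodim : finrank k ((B₁ × B₂) ⧸ N.comap j.toLinearMap) ≤
      finrank k ((B₁ × B₂) ⧸ Subalgebra.toSubmodule (Bbar.comap j)))
    (hcodim' : finrank k ((B₁ × B₂) ⧸ N'.comap j.toLinearMap) ≤
      finrank k ((B₁ × B₂) ⧸ Subalgebra.toSubmodule (Bbar.comap j)))
    (hpow : ∀ n ∈ N, n ^ m ∈ Bbar) (hpow' : ∀ n ∈ N', n ^ m ∈ Bbar)
    (hmul : ∀ n ∈ N, ∀ n' ∈ N', n * n' ∈ Bbar)
    (hN : ∀ x ∈ N, ∃ b, x ∈ R.redLat ((TwoCharts.ofDivisor Dt).LM D 0 b))
    (hN' : ∀ y ∈ N', ∃ b, y ∈ R.redLat ((TwoCharts.ofDivisor Dt).LM ((m - 1) • D) 0 b))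
    -- chart `0`
    (j₀ : (B₁' × B₂') →ₐ[k] κ) (Bbar₀ : Subalgebra k κ) (N₀ N₀' : Submodule k κ)
    (h₁₀ : ∀ f : B₁', ∃ g : B₂', j₀ (f, g) ∈ Bbar₀)
    (h₂₀ : ∀ g : B₂', ∃ f : B₁', j₀ (f, g) ∈ Bbar₀)
    [Module.Finite k ((B₁' × B₂') ⧸ Subalgebra.toSubmodule (Bbar₀.comap j₀))]
    {p₀ : ℕ} (hp₀ : 2 ≤ p₀)
    (hpth₀ : ∀ g : B₂', ∃ g' : B₂', j₀ ((0 : B₁'), g - g' ^ p₀) ∈ Bbar₀)
    [Module.Finite k ((B₁' × B₂') ⧸ N₀.comap j₀.toLinearMap)]
    [Module.Finite k ((B₁' × B₂') ⧸ N₀'.comap j₀.toLinearMap)]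
    (hcodim₀ : finrank k ((B₁' × B₂') ⧸ N₀.comap j₀.toLinearMap) ≤
      finrank k ((B₁' × B₂') ⧸ Subalgebra.toSubmodule (Bbar₀.comap j₀)))
    (hcodim₀' : finrank k ((B₁' × B₂') ⧸ N₀'.comap j₀.toLinearMap) ≤
      finrank k ((B₁' × B₂') ⧸ Subalgebra.toSubmodule (Bbar₀.comap j₀)))
    (hpow₀ : ∀ n ∈ N₀, n ^ m ∈ Bbar₀) (hpow₀' : ∀ n ∈ N₀', n ^ m ∈ Bbar₀)
    (hmul₀ : ∀ n ∈ N₀, ∀ n' ∈ N₀', n * n' ∈ Bbar₀)
    (hN₀ : ∀ x ∈ N₀, ∃ a, x ∈ R.redLat ((TwoCharts.ofDivisor Dt).LM D a 0))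
    (hN₀' : ∀ y ∈ N₀', ∃ a, y ∈ R.redLat ((TwoCharts.ofDivisor Dt).LM ((m - 1) • D) a 0)) :
    ∃ (c : L) (v : FL L (M * q)),
      arithmeticGalois (modularFunctionFieldFull (M * q)) τ • w / w =
        algebraMap L (FL L (M * q)) c * v ^ m := by
  haveI : CharZero L := algebraRat.charZero L
  have hτD := mem_decomposition_of_mem_inertia A hτ
  exact TheoremBInst.exists_const_mul_pow_of_charts R ht hDt htO htiO hcart P hgen hSC hrad
    (isUnit_natCast A π hπ q hqm)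
    (arithmeticGalois (modularFunctionFieldFull (M * q)) τ) hgt
    (fun f hf => gal_smul_mem_S2 A π M q hdeg hq hqM hrk hπ hτD hf)
    (fun f hf => res_gal_smul A π M q hdeg hq hqM hrk hπ R hτ f hf)
    hw0 hwO hwiO hw1 hD hm0 j Bbar N N' h₁ h₂ hp hpth hcodim hcodim' hpow hpow' hmul hN hN'
    j₀ Bbar₀ N₀ N₀' h₁₀ h₂₀ hp₀ hpth₀ hcodim₀ hcodim₀' hpow₀ hpow₀' hmul₀ hN₀ hN₀'

end Packaged

end Fermat.Agent.S34x.Inst.GaloisInst
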