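import Fermat.Agent.S34x.Inst.GaussInstChart
import Fermat.Agent.S34x.TwoVal.ValZero
import Fermat.Agent.S34x.TwoVal.Separating

/-!
# P-S34, WP3-inst (J4): the Gauss package at level `N ℓ` (helper57)

The thin concrete layer over `Inst/GaussInstTwo.lean` / `Inst/GaussInstChart.lean` for the two
valuation rings `valInfty`, `valZero` (helper60) of `F_{Nℓ}`, `ℓ ∤ N`, residue characteristic `ℓ`.
The two residue data `R∞ : C0.RedSetup A valInfty k κ₁`, `R0 : C0.RedSetup A valZero k κ₂` are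
hypotheses (they come from helper10's `TwoVal/Residue` through `RedSetupInst`).

* generic: `finrank_adjoin_pow : [κ : k(yⁿ)] = n [κ : k(y)]` for `y` transcendental,
  `hdeg_of` (the degree hypothesis from `[F : K(x)] ≤ (ℓ + 1) n'`, `n' ≤ [κ₁ : k(x̄₁)]`,
  `x̄₂ = y ^ ℓ`, `n' ≤ [κ₂ : k(y)]`);
* `valInfty_ne_valZero` (from helper44's `Ov_ne_Ov0`);
* `surjective_res_infty`, `surjective_res_zero`: the residue maps are onto `Fk k N` as soon as they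
  are given by `redV`, `red0`;
* `chartCoordMq`, `cartesianMq`, `exists_basis_latMq`, `exists_smul_of_res_eq_zeroMq`: the outputs
  (L1) and (G0) for `R := redSetupTwoVal R∞ R0 hRπ`.
-/

set_option autoImplicit false
set_option linter.unusedSectionVars false
set_option linter.style.haveILetI false

noncomputable section

namespace Fermat.Agent.S34x.Inst.GaussInstMq

open Polynomial ModularCurve AlgebraicCurve IntermediateField Module
open Fermat.Agent.S28 Fermat.Agent.S28.Tower Fermat.Agent.Gateway.Hecke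
open Fermat.Agent.Gateway.Red Fermat.Agent.Gateway.GoodRed Fermat.Agent.Gateway.ESC
open Fermat.Agent.Gateway.GoodRed.GaussRing
open Fermat.Agent.Gateway.C0 Fermat.Agent.S34x Fermat.Agent.S34x.C0two Fermat.Agent.S34x.TwoVal

universe u

/-! ### Degrees over `k(yⁿ)` -/

section Generic

theorem finrank_X_pow {k : Type*} [Field k] (n : ℕ) :
    finrank k⟮(RatFunc.X : RatFunc k) ^ n⟯ (RatFunc k) = n := by
  rw [RatFunc.finrank_eq_max_natDegree]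
  have h : (RatFunc.X : RatFunc k) ^ n = algebraMap k[X] (RatFunc k) (X ^ n) := by
    rw [map_pow, RatFunc.algebraMap_X]
  rw [h, RatFunc.num_algebraMap, RatFunc.denom_algebraMap, natDegree_X_pow, natDegree_one]
  exact max_eq_left (Nat.zero_le n)

/-- `[κ : k(yⁿ)] = n [κ : k(y)]` for `y` transcendental over `k`. -/
theorem finrank_adjoin_pow {k κ : Type*} [Field k] [Field κ] [Algebra k κ] {y : κ}
    (hy : Transcendental k y) (n : ℕ) :
    finrank k⟮y ^ n⟯ κ = n * finrank k⟮y⟯ κ := by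
  have hle : k⟮y ^ n⟯ ≤ k⟮y⟯ :=
    adjoin_simple_le_iff.mpr (pow_mem (mem_adjoin_simple_self k y) n)
  rw [← relfinrank_mul_finrank_top hle]
  congr 1
  have h1 : (k⟮(RatFunc.X : RatFunc k) ^ n⟯).map (evalRF y hy) = k⟮y ^ n⟯ := by
    rw [adjoin_map, Set.image_singleton, map_pow, evalRF_X]
  have h2 : (⊤ : IntermediateField k (RatFunc k)).map (evalRF y hy) = k⟮y⟯ := by
    rw [← RatFunc.adjoin_X, adjoin_map, Set.image_singleton, evalRF_X]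
  rw [← h1, ← h2, relfinrank_map_map, relfinrank_top_right, finrank_X_pow]

/-- The degree hypothesis of `GaussInstTwo` from the natural data at level `N ℓ`. -/
theorem hdeg_of {K F k κ₁ κ₂ : Type*} [Field K] [Field F] [Algebra K F] [Field k] [Field κ₁]
    [Field κ₂] [Algebra k κ₁] [Algebra k κ₂] {x : F} {x₁ : κ₁} {x₂ y : κ₂} {ℓ n' : ℕ}
    (hF : finrank K⟮x⟯ F ≤ n' * (ℓ + 1)) (h₁ : n' ≤ finrank k⟮x₁⟯ κ₁)
    (hy : Transcendental k y) (hxy : x₂ = y ^ ℓ) (h₂ : n' ≤ finrank k⟮y⟯ κ₂) :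
    finrank K⟮x⟯ F ≤ finrank k⟮x₁⟯ κ₁ + finrank k⟮x₂⟯ κ₂ := by
  rw [hxy, finrank_adjoin_pow hy]
  calc finrank K⟮x⟯ F ≤ n' * (ℓ + 1) := hF
    _ = n' + ℓ * n' := by ring
    _ ≤ finrank k⟮x₁⟯ κ₁ + ℓ * finrank k⟮y⟯ κ₂ :=
      Nat.add_le_add h₁ (Nat.mul_le_mul_left ℓ h₂)

end Generic

/-! ### Level `N ℓ` -/

/-- shortcut (the generic search for this instance takes more than a second) -/
local instance (priority := 100000) algebraFLShortcut (L : Type) [Field L] [Algebra ℚ L] (M : ℕ)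
    [NeZero M] : Algebra L (FL L M) := inferInstance

section Level

variable {L : Type} [Field L] [Algebra ℚ L] [IsAlgClosed L] (A : ValuationSubring L)
  {k : Type} [Field k] (π : A →+* k) [IsAlgClosed k]
variable (N ℓ : ℕ) [NeZero N] [NeZero ℓ] [Fact ℓ.Prime] [CharP k ℓ]
variable (hdeg : finrankAlong L (heckeAlphaBar L N ℓ) = ℓ + 1) (hℓ : ℓ.Prime) (hℓN : ¬ ℓ ∣ N)
  (hrk : ∀ x ∈ IsLocalRing.maximalIdeal A, ∀ c : A, c ≠ 0 → ∃ j : ℕ, c ∣ x ^ j)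
  (hπ : Function.Surjective π)

/-- **The two extensions of the Gauss valuation to `F_{Nℓ}` are distinct.** -/
theorem valInfty_ne_valZero :
    valInfty A π N ℓ hrk hπ hℓN ≠ valZero A π N ℓ hdeg hℓ hℓN hrk hπ := by
  intro h
  apply Ov_ne_Ov0 A π N ℓ hdeg hℓ hℓN hπ
  ext x
  have h1 : x ∈ valInfty A π N ℓ hrk hπ hℓN ↔ x ∈ valZero A π N ℓ hdeg hℓ hℓN hrk hπ := by
    rw [h]
  exact h1

variable {κ₁ κ₂ : Type u} [Field κ₁] [Field κ₂] [Algebra k κ₁] [Algebra k κ₂]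
  (Ri : RedSetup A (valInfty A π N ℓ hrk hπ hℓN) k κ₁)
  (Rz : RedSetup A (valZero A π N ℓ hdeg hℓ hℓN hrk hπ) k κ₂) (hRπ : Ri.π = Rz.π)
  {x : FL L (N * ℓ)} (hxi : x ∈ valInfty A π N ℓ hrk hπ hℓN)
  (hxz : x ∈ valZero A π N ℓ hdeg hℓ hℓN hrk hπ)
  (hxb₁ : Transcendental k (Ri.res ⟨x, hxi⟩)) (hxb₂ : Transcendental k (Rz.res ⟨x, hxz⟩))
  [FiniteDimensional L⟮x⟯ (FL L (N * ℓ))]
  (hs₁ : Function.Surjective Ri.res) (hs₂ : Function.Surjective Rz.res)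
  (hdeg' : finrank L⟮x⟯ (FL L (N * ℓ)) ≤
    finrank k⟮Ri.res ⟨x, hxi⟩⟯ κ₁ + finrank k⟮Rz.res ⟨x, hxz⟩⟯ κ₂)

/-- **(L1)**: `x` is a chart coordinate of `redSetupTwoVal Ri Rz hRπ`. -/
def chartCoordMq : Lattice2.ChartCoord (redSetupTwoVal Ri Rz hRπ) :=
  GaussInstChart.chartCoord Ri Rz hRπ hxi hxz hxb₁ hxb₂
    (valInfty_ne_valZero A π N ℓ hdeg hℓ hℓN hrk hπ) hs₁ hs₂ hdeg'

@[simp] theorem chartCoordMq_t :
    (chartCoordMq A π N ℓ hdeg hℓ hℓN hrk hπ Ri Rz hRπ hxi hxz hxb₁ hxb₂ hs₁ hs₂ hdeg').t = x :=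
  rfl

theorem chartCoordMq_T :
    (chartCoordMq A π N ℓ hdeg hℓ hℓN hrk hπ Ri Rz hRπ hxi hxz hxb₁ hxb₂ hs₁ hs₂ hdeg').T =
      (Ri.res ⟨x, hxi⟩, Rz.res ⟨x, hxz⟩) := rfl

theorem chartCoordMq_Ti :
    (chartCoordMq A π N ℓ hdeg hℓ hℓN hrk hπ Ri Rz hRπ hxi hxz hxb₁ hxb₂ hs₁ hs₂ hdeg').Ti =
      ((Ri.res ⟨x, hxi⟩)⁻¹, (Rz.res ⟨x, hxz⟩)⁻¹) :=
  GaussInstChart.chartCoord_Ti Ri Rz hRπ hxi hxz hxb₁ hxb₂ _ hs₁ hs₂ hdeg'

include hxb₁ hxb₂ hs₁ hs₂ hdeg' in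
/-- **(G0)**, `cartesian` of `CountData2`. -/
theorem cartesianMq (V : Submodule L (FL L (N * ℓ))) [FiniteDimensional L V] :
    ((redSetupTwoVal Ri Rz hRπ).lat V).FG :=
  GaussInstTwo.cartesian Ri Rz hRπ hxi hxz hxb₁ hxb₂
    (valInfty_ne_valZero A π N ℓ hdeg hℓ hℓN hrk hπ) hs₁ hs₂ hdeg' V

include hxb₁ hxb₂ hs₁ hs₂ hdeg' in
/-- **(G0)**: an `A`-basis of the lattice with `k`-independent reductions. -/
theorem exists_basis_latMq (V : Submodule L (FL L (N * ℓ))) [FiniteDimensional L V] :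
    ∃ (c : Fin (finrank L V) → FL L (N * ℓ))
      (hc : ∀ j, c j ∈ (twoVal (valInfty A π N ℓ hrk hπ hℓN)
        (valZero A π N ℓ hdeg hℓ hℓN hrk hπ)).O), (∀ j, c j ∈ V) ∧
      LinearIndependent L c ∧
      LinearIndependent k (fun j => (redSetupTwoVal Ri Rz hRπ).res ⟨c j, hc j⟩) ∧
      ∀ f ∈ (redSetupTwoVal Ri Rz hRπ).lat V,
        ∃ a : Fin (finrank L V) → A, f = ∑ j, (a j : L) • c j :=
  GaussInstTwo.exists_basis_lat Ri Rz hRπ hxi hxz hxb₁ hxb₂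
    (valInfty_ne_valZero A π N ℓ hdeg hℓ hℓN hrk hπ) hs₁ hs₂ hdeg' V

include hxb₁ hxb₂ hs₁ hs₂ hdeg' in
/-- **(G0), kernel of the reduction on the lattice.** -/
theorem exists_smul_of_res_eq_zeroMq (V : Submodule L (FL L (N * ℓ))) [FiniteDimensional L V]
    {f : FL L (N * ℓ)} (hfV : f ∈ V)
    (hfO : f ∈ (twoVal (valInfty A π N ℓ hrk hπ hℓN) (valZero A π N ℓ hdeg hℓ hℓN hrk hπ)).O)
    (h0 : (redSetupTwoVal Ri Rz hRπ).res ⟨f, hfO⟩ = 0) :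
    ∃ (a : A) (f' : FL L (N * ℓ)), a ∈ IsLocalRing.maximalIdeal A ∧
      f' ∈ (redSetupTwoVal Ri Rz hRπ).lat V ∧ f = (a : L) • f' :=
  GaussInstTwo.exists_smul_of_res_eq_zero Ri Rz hRπ hxi hxz hxb₁ hxb₂
    (valInfty_ne_valZero A π N ℓ hdeg hℓ hℓN hrk hπ) hs₁ hs₂ hdeg' V hfV hfO h0

end Level

/-! ### Surjectivity of the residue maps onto `Fk k N` -/

section Surj

variable {L : Type} [Field L] [Algebra ℚ L] [IsAlgClosed L] (A : ValuationSubring L)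
  {k : Type} [Field k] (π : A →+* k) [IsAlgClosed k]
variable (N ℓ : ℕ) [NeZero N] [NeZero ℓ] [Fact ℓ.Prime] [CharP k ℓ]
variable (hdeg : finrankAlong L (heckeAlphaBar L N ℓ) = ℓ + 1) (hℓ : ℓ.Prime) (hℓN : ¬ ℓ ∣ N)
  (hrk : ∀ x ∈ IsLocalRing.maximalIdeal A, ∀ c : A, c ≠ 0 → ∃ j : ℕ, c ∣ x ^ j)
  (hπ : Function.Surjective π)
  (Ri : RedSetup A (valInfty A π N ℓ hrk hπ hℓN) k (modularFunctionFieldFullC k N))
  (Rz : RedSetup A (valZero A π N ℓ hdeg hℓ hℓN hrk hπ) k (modularFunctionFieldFullC k N))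

include hπ hℓN in
/-- If `Ri.res` is given by `redV` then it is onto `Fk k N` (`red_∞ (α h) = h̄`). -/
theorem surjective_res_infty
    (hres : ∀ (f : FL L (N * ℓ)) (hf : f ∈ valInfty A π N ℓ hrk hπ hℓN),
      ((Ri.res ⟨f, hf⟩ : modularFunctionFieldFullC k N) : LaurentSeries k) =
        redV A π (FBar L (N * ℓ)) ⟨f, hf⟩) :
    Function.Surjective Ri.res := by
  intro y
  obtain ⟨h, hh⟩ := redV_surjective_Fk A π N ℓ hπ hℓN y.2
  have hmem : heckeAlphaBar L N ℓ (h : FBar L N) ∈ valInfty A π N ℓ hrk hπ hℓN :=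
    (alpha_mem_Ov_iff A π N ℓ (h : FBar L N)).mpr h.2
  refine ⟨⟨heckeAlphaBar L N ℓ (h : FBar L N), hmem⟩, Subtype.ext ?_⟩
  rw [hres, ← hh]
  exact redV_alpha A π N ℓ (h : FBar L N) h.2

include hπ hℓN in
/-- If `Rz.res` is given by `red0` then it is onto `Fk k N` (`red_0 (β h) = h̄`). -/
theorem surjective_res_zero
    (hres : ∀ (f : FL L (N * ℓ)) (hf : f ∈ valZero A π N ℓ hdeg hℓ hℓN hrk hπ),
      ((Rz.res ⟨f, hf⟩ : modularFunctionFieldFullC k N) : LaurentSeries k) =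
        red0 A π N ℓ hdeg hℓ hℓN ⟨f, hf⟩) :
    Function.Surjective Rz.res := by
  intro y
  obtain ⟨h, hh⟩ := redV_surjective_Fk A π N ℓ hπ hℓN y.2
  have hmem : heckeBetaBar L N ℓ (h : FBar L N) ∈ valZero A π N ℓ hdeg hℓ hℓN hrk hπ :=
    (beta_mem_Ov0_iff A π N ℓ hdeg hℓ hℓN (h : FBar L N)).mpr h.2
  refine ⟨⟨heckeBetaBar L N ℓ (h : FBar L N), hmem⟩, Subtype.ext ?_⟩
  rw [hres, ← hh]
  exact red0_beta A π N ℓ hdeg hℓ hℓN (h : FBar L N) h.2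

end Surj

end Fermat.Agent.S34x.Inst.GaussInstMq
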