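/-
helper46 (P-S34, WP3-inst (J5b)): the concrete `hpth` = hypothesis `hN1` of
`Lattice2.TwistFam.exists_sum_mul_eq_one / exists_one_of_glued` with `p = ℓ ^ 2`, on BOTH charts,
at level `M ℓ` (`ℓ ∤ M` the residue characteristic).

Setting: `R : RedSetup2 A S k (Fk k M × Fk k M)` with `S.O ⊇ Ov_∞ ∩ Ov0` and the two components of
`R.res` given by `redV` / `red0` (the bridge `IsL2Inst.Bridge` of helper44, discharged by
`Inst/RedSetupInst` + `Inst/BridgeInst`), a chart `C : ChartCoord R` with `C.t = α x` (`x ∈ F_M`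
the level-`M` chart function: `x = t'` for the chart `t ≠ ∞`, `x = t'⁻¹` for the chart `C.swap`),
`xb : Fk k M` with `C.T = (xb, xb ^ ℓ)`.

Inputs: (EQ) at level `M` for the chart `x` (`Inst.L2.LiftsIntegral`), (Y3) `β x` integral over
`L[α x]`, and (J5a): the integral closure of `k[xb]` in `Fk k M` is stable under the coefficientwise
inverse Frobenius `frobInvLS ℓ` (`FrobStable`; proved here from `frobInvLS ℓ xb = xb`).

Output: for every `g` in the coordinate ring `C.B₂` of the second component,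
`(0, g - (Φ² g) ^ (ℓ ^ 2)) ∈ C.BbarT` (`Φ = frobInvLS ℓ`; the element is the reduction of
`β h - (α h₁) ^ ℓ` of `TwoVal/NodeElt`), and the mirror statement
`(f - (Φ² f) ^ (ℓ ^ 2), 0) ∈ C.BbarT` for the first component.
-/
import Fermat.Agent.S34x.Inst.IsL2Inst
import Fermat.Agent.S34x.TwoVal.NodeElt

set_option autoImplicit false
set_option linter.style.haveILetI false
set_option linter.unusedSectionVars false

noncomputable section

namespace Fermat.Agent.S34x.Inst.HpthInst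

open Polynomial ModularCurve AlgebraicCurve IntermediateField Module
open Fermat.Agent.Gateway.Hecke Fermat.Agent.Gateway.ESC
open Fermat.Agent.Gateway.Red Fermat.Agent.Gateway.GoodRed
open Fermat.Agent.Gateway.GoodRed.ConjFamily
open Fermat.Agent.S34x.TwoVal Fermat.Agent.S34x.C0two Fermat.Agent.S34x.Lattice2
open Fermat.Agent.S34x.Inst.L2

/-! ### Generalities -/

section Gen

variable {R S : Type*} [CommRing R] [CommRing S] [Algebra R S]

/-- if `b = a ^ n`, `n > 0`, then integrality over `R[a]` and over `R[b]` agree (`⇐`) -/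
theorem isIntegral_adjoin_pow_self {a : S} {n : ℕ} (hn : 0 < n) :
    IsIntegral (Algebra.adjoin R {a ^ n}) a := by
  refine ⟨X ^ n - C (⟨a ^ n, Algebra.self_mem_adjoin_singleton R (a ^ n)⟩ : Algebra.adjoin R {a ^ n}),
    monic_X_pow_sub_C _ hn.ne', ?_⟩
  simp

end Gen


/-! ### (J5a): the statement -/

section Stable

variable {k : Type} [Field k] (M : ℕ) (ℓ : ℕ) [Fact ℓ.Prime] [CharP k ℓ] [PerfectRing k ℓ]

/-- **(J5a)**: the integral closure of `k[xb]` in `Fk k M` is stable under the coefficientwise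
inverse Frobenius. -/
def FrobStable (xb : Fk k M) : Prop :=
  ∀ y : Fk k M, IsIntegral (Algebra.adjoin k {xb}) y →
    ∃ y' : Fk k M, ((y' : Fk k M) : LaurentSeries k) =
        frobInvLS ℓ ((y : Fk k M) : LaurentSeries k) ∧
      IsIntegral (Algebra.adjoin k {xb}) y'

end Stable

/-! ### (J5a) from `Φ xb = xb`

(The same statements are in helper12's `Inst/FrobFk.lean`: `FrobFk.frobStable_of_fix ℓ M xb hfix`,
`FrobFk.frobStable_inv_of_fix` unfold to `FrobStable M ℓ xb`, `FrobStable M ℓ xb⁻¹`; this section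
keeps the present file independent of it.) -/

section Fix

variable {k : Type} [Field k] (M : ℕ) (ℓ : ℕ) [Fact ℓ.Prime] [CharP k ℓ] [PerfectRing k ℓ]

/-- the coefficientwise inverse Frobenius preserves `Fk k M` -/
theorem frobInvLS_mem_Fk (y : Fk k M) :
    frobInvLS ℓ ((y : Fk k M) : LaurentSeries k) ∈ Fk k M := by
  rw [frobInvLS_eq_frobC_inv ℓ M y]
  exact SetLike.coe_mem _

/-- the coefficientwise inverse Frobenius as a ring endomorphism of `Fk k M` -/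
def frobInvFk : Fk k M →+* Fk k M :=
  ((frobInvLS ℓ).comp (algebraMap (Fk k M) (LaurentSeries k))).codRestrict (Fk k M)
    (frobInvLS_mem_Fk M ℓ)

theorem coe_frobInvFk (y : Fk k M) :
    ((frobInvFk M ℓ y : Fk k M) : LaurentSeries k) = frobInvLS ℓ ((y : Fk k M) : LaurentSeries k) :=
  rfl

theorem frobInvFk_algebraMap (c : k) :
    frobInvFk M ℓ (algebraMap k (Fk k M) c) =
      algebraMap k (Fk k M) ((frobeniusEquiv k ℓ).symm c) := by
  apply Subtype.ext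
  rw [coe_frobInvFk]
  exact coeffMap_algebraMap _ c

/-- **(J5a)**: if `Φ xb = xb` (e.g. `xb` has coefficients in the prime field), the integral
closure of `k[xb]` in `Fk k M` is stable under `Φ`. -/
theorem frobStable_of_fix (xb : Fk k M)
    (hfix : frobInvLS ℓ ((xb : Fk k M) : LaurentSeries k) = xb) : FrobStable M ℓ xb := by
  have hψx : frobInvFk M ℓ xb = xb := Subtype.ext hfix
  have hstab : ∀ z ∈ Algebra.adjoin k {xb}, frobInvFk M ℓ z ∈ Algebra.adjoin k {xb} := by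
    intro z hz
    induction hz using Algebra.adjoin_induction with
    | mem u hu =>
      rw [Set.mem_singleton_iff] at hu
      subst hu
      rw [hψx]
      exact Algebra.subset_adjoin rfl
    | algebraMap c =>
      rw [frobInvFk_algebraMap]
      exact Subalgebra.algebraMap_mem _ _
    | add u v _ _ hu hv =>
      rw [map_add]
      exact add_mem hu hv
    | mul u v _ _ hu hv =>
      rw [map_mul]
      exact mul_mem hu hv
  let φ : Algebra.adjoin k {xb} →+* Algebra.adjoin k {xb} :=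
    { toFun := fun z => ⟨frobInvFk M ℓ z, hstab z z.2⟩
      map_one' := Subtype.ext (map_one _)
      map_mul' := fun z w => Subtype.ext (map_mul (frobInvFk M ℓ) (z : Fk k M) (w : Fk k M))
      map_zero' := Subtype.ext (map_zero _)
      map_add' := fun z w => Subtype.ext (map_add (frobInvFk M ℓ) (z : Fk k M) (w : Fk k M)) }
  intro y hy
  exact ⟨frobInvFk M ℓ y, coe_frobInvFk M ℓ y,
    IsIntegral.map_of_comp_eq φ (frobInvFk M ℓ) (RingHom.ext fun z => rfl) hy⟩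

/-- `Φ xb⁻¹ = xb⁻¹` from `Φ xb = xb` -/
theorem fix_inv (xb : Fk k M)
    (hfix : frobInvLS ℓ ((xb : Fk k M) : LaurentSeries k) = xb) :
    frobInvLS ℓ (((xb⁻¹ : Fk k M)) : LaurentSeries k) = ((xb⁻¹ : Fk k M) : LaurentSeries k) := by
  have h := congrArg (fun z : Fk k M => ((z : Fk k M) : LaurentSeries k))
    (map_inv₀ (frobInvFk M ℓ) xb)
  simp only [coe_frobInvFk] at h
  rw [h]
  congr 2
  exact Subtype.ext hfix

end Fix

/-! ### The bridge hypotheses and the main statements -/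

section Main

variable {L : Type} [Field L] [Algebra ℚ L] [IsAlgClosed L] (A : ValuationSubring L)
  {k : Type} [Field k] (π : A →+* k) [IsAlgClosed k] (M : ℕ) [NeZero M]
  (ℓ : ℕ) [NeZero ℓ] [Fact ℓ.Prime] [CharP k ℓ] [PerfectRing k ℓ]
variable (hdeg : finrankAlong L (heckeAlphaBar L M ℓ) = ℓ + 1) (hℓ : ℓ.Prime)
variable (hπ : Function.Surjective π) (hℓM : ¬ ℓ ∣ M)

variable {S : SmallRing (FL L (M * ℓ))} {R : RedSetup2 A S k (Fk k M × Fk k M)}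
  (hR : IsL2Inst.Bridge A π M ℓ hdeg hℓ hℓM R) (C : ChartCoord R) (x : FL L M) (xb : Fk k M)

set_option maxHeartbeats 1600000 in
include hR in
/-- **The second component**: for every `g ∈ B₂`, the pair `(0, g - (Φ² g) ^ (ℓ ^ 2))` lies in the
reduced chart ring; it is the reduction of `β h - (α h₁) ^ ℓ`. -/
theorem exists_zero_pair_mem (hCt : C.t = heckeAlphaBar L M ℓ x) (hT2 : C.T.2 = xb ^ ℓ)
    (hEQ : LiftsIntegral A π M ℓ hπ hℓM x xb)
    (hY3 : IsIntegral (Algebra.adjoin L {heckeAlphaBar L M ℓ x}) (heckeBetaBar L M ℓ x))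
    (hΦ : FrobStable M ℓ xb) (g : C.B₂) :
    ∃ g' : C.B₂, (((g' : Fk k M)) : LaurentSeries k) =
        frobInvLS ℓ (frobInvLS ℓ (((g : Fk k M)) : LaurentSeries k)) ∧
      ((0 : C.B₁), g - g' ^ (ℓ ^ 2)) ∈ C.BbarT := by
  have hℓpos : 0 < ℓ := Nat.pos_of_ne_zero (NeZero.ne ℓ)
  have hg : IsIntegral (Algebra.adjoin k {C.T.2}) (g : Fk k M) := g.2
  rw [hT2] at hg
  have hgx : IsIntegral (Algebra.adjoin k {xb}) (g : Fk k M) :=
    isIntegral_adjoin_trans (IsL2Inst.isIntegral_pow_self _ ℓ) hg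
  obtain ⟨y₁, hy₁, hy₁i⟩ := hΦ (g : Fk k M) hgx
  obtain ⟨y₂, hy₂, hy₂i⟩ := hΦ y₁ hy₁i
  have hy₂B : y₂ ∈ C.B₂ := by
    rw [ChartCoord.mem_B₂_iff, hT2]
    exact isIntegral_adjoin_trans (isIntegral_adjoin_pow_self hℓpos) hy₂i
  obtain ⟨h, hh, hhi, hres⟩ := hEQ (g : Fk k M) hgx
  obtain ⟨h₁, hh₁, hh₁i, hres₁⟩ := hEQ y₁ hy₁i
  have hh' : h ∈ Ov A π (FBar L M) := hh
  have hh₁' : h₁ ∈ Ov A π (FBar L M) := hh₁
  have hredh : redV A π (FBar L M) ⟨h, hh'⟩ = ((g : Fk k M) : LaurentSeries k) := by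
    rw [← hres, coe_resFk]
  have hredh₁ : redV A π (FBar L M) ⟨h₁, hh₁'⟩ = (y₁ : LaurentSeries k) := by
    rw [← hres₁, coe_resFk]
  have hrel : redV A π (FBar L M) ⟨h₁, hh₁'⟩ =
      frobInvLS ℓ (redV A π (FBar L M) ⟨h, hh'⟩) := by
    rw [hredh₁, hredh, hy₁]
  have hF1 := nodeEltInf_mem_Ov A π M ℓ h h₁ hh' hh₁'
  have hF0 := nodeEltInf_mem_Ov0 A π M ℓ hdeg hℓ hℓM h h₁ hh' hh₁'
  have hFS : nodeEltInf L M ℓ h h₁ ∈ S.O := (hR.mem_iff _).mpr ⟨hF1, hF0⟩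
  have hFi : IsIntegral (Algebra.adjoin L {C.t}) (nodeEltInf L M ℓ h h₁) := by
    rw [hCt]
    exact (isIntegral_adjoin_trans hY3 (isIntegral_adjoin_map (heckeBetaBar L M ℓ) hhi)).sub
      ((isIntegral_adjoin_map (heckeAlphaBar L M ℓ) hh₁i).pow ℓ)
  obtain ⟨b, hb⟩ := (isIntegral_iff_exists_mem_twoPole C.t_mul_tinv).mp hFi
  have hmem : R.res ⟨nodeEltInf L M ℓ h h₁, hFS⟩ ∈ C.Bbar := C.res_mem_Bbar hFS hb
  refine ⟨⟨y₂, hy₂B⟩, by rw [hy₂, hy₁], ?_⟩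
  rw [ChartCoord.mem_BbarT_iff]
  have e : C.incl ((0 : C.B₁), g - (⟨y₂, hy₂B⟩ : C.B₂) ^ (ℓ ^ 2)) =
      R.res ⟨nodeEltInf L M ℓ h h₁, hFS⟩ := by
    apply Prod.ext
    · apply Subtype.ext
      rw [hR.res_fst _ hFS hF1, redV_nodeEltInf_eq_zero A π M ℓ h h₁ hh' hh₁' hrel]
      rfl
    · apply Subtype.ext
      rw [hR.res_snd _ hFS hF0, red0_nodeEltInf_eq A π M ℓ hdeg hℓ hℓM h h₁ hh' hh₁' hrel, hredh,
        ← sq, ← hy₁, ← hy₂]
      rfl
  rw [e]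
  exact hmem

set_option maxHeartbeats 1600000 in
include hR in
/-- **The first component** (mirror statement): for every `f ∈ B₁`, the pair
`(f - (Φ² f) ^ (ℓ ^ 2), 0)` lies in the reduced chart ring; it is the reduction of
`α h - (β h₁) ^ ℓ`. -/
theorem exists_pair_zero_mem (hCt : C.t = heckeAlphaBar L M ℓ x) (hT1 : C.T.1 = xb)
    (hEQ : LiftsIntegral A π M ℓ hπ hℓM x xb)
    (hY3 : IsIntegral (Algebra.adjoin L {heckeAlphaBar L M ℓ x}) (heckeBetaBar L M ℓ x))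
    (hΦ : FrobStable M ℓ xb) (f : C.B₁) :
    ∃ f' : C.B₁, (((f' : Fk k M)) : LaurentSeries k) =
        frobInvLS ℓ (frobInvLS ℓ (((f : Fk k M)) : LaurentSeries k)) ∧
      (f - f' ^ (ℓ ^ 2), (0 : C.B₂)) ∈ C.BbarT := by
  have hfx : IsIntegral (Algebra.adjoin k {C.T.1}) (f : Fk k M) := f.2
  rw [hT1] at hfx
  obtain ⟨y₁, hy₁, hy₁i⟩ := hΦ (f : Fk k M) hfx
  obtain ⟨y₂, hy₂, hy₂i⟩ := hΦ y₁ hy₁i
  have hy₂B : y₂ ∈ C.B₁ := by
    rw [ChartCoord.mem_B₁_iff, hT1]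
    exact hy₂i
  obtain ⟨h, hh, hhi, hres⟩ := hEQ (f : Fk k M) hfx
  obtain ⟨h₁, hh₁, hh₁i, hres₁⟩ := hEQ y₁ hy₁i
  have hh' : h ∈ Ov A π (FBar L M) := hh
  have hh₁' : h₁ ∈ Ov A π (FBar L M) := hh₁
  have hredh : redV A π (FBar L M) ⟨h, hh'⟩ = ((f : Fk k M) : LaurentSeries k) := by
    rw [← hres, coe_resFk]
  have hredh₁ : redV A π (FBar L M) ⟨h₁, hh₁'⟩ = (y₁ : LaurentSeries k) := by
    rw [← hres₁, coe_resFk]
  have hrel : redV A π (FBar L M) ⟨h₁, hh₁'⟩ =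
      frobInvLS ℓ (redV A π (FBar L M) ⟨h, hh'⟩) := by
    rw [hredh₁, hredh, hy₁]
  have hF1 := nodeEltZero_mem_Ov A π M ℓ h h₁ hh' hh₁'
  have hF0 := nodeEltZero_mem_Ov0 A π M ℓ hdeg hℓ hℓM h h₁ hh' hh₁'
  have hFS : nodeEltZero L M ℓ h h₁ ∈ S.O := (hR.mem_iff _).mpr ⟨hF1, hF0⟩
  have hFi : IsIntegral (Algebra.adjoin L {C.t}) (nodeEltZero L M ℓ h h₁) := by
    rw [hCt]
    exact (isIntegral_adjoin_map (heckeAlphaBar L M ℓ) hhi).sub
      ((isIntegral_adjoin_trans hY3 (isIntegral_adjoin_map (heckeBetaBar L M ℓ) hh₁i)).pow ℓ)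
  obtain ⟨b, hb⟩ := (isIntegral_iff_exists_mem_twoPole C.t_mul_tinv).mp hFi
  have hmem : R.res ⟨nodeEltZero L M ℓ h h₁, hFS⟩ ∈ C.Bbar := C.res_mem_Bbar hFS hb
  refine ⟨⟨y₂, hy₂B⟩, by rw [hy₂, hy₁], ?_⟩
  rw [ChartCoord.mem_BbarT_iff]
  have e : C.incl (f - (⟨y₂, hy₂B⟩ : C.B₁) ^ (ℓ ^ 2), (0 : C.B₂)) =
      R.res ⟨nodeEltZero L M ℓ h h₁, hFS⟩ := by
    apply Prod.ext
    · apply Subtype.ext
      rw [hR.res_fst _ hFS hF1, redV_nodeEltZero_eq A π M ℓ h h₁ hh' hh₁' hrel, hredh,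
        ← sq, ← hy₁, ← hy₂]
      rfl
    · apply Subtype.ext
      rw [hR.res_snd _ hFS hF0,
        red0_nodeEltZero_eq_zero A π M ℓ hdeg hℓ hℓM h h₁ hh' hh₁' hrel]
      rfl
  rw [e]
  exact hmem

include hR in
/-- **`hpth` on the chart of `C`** (= `hN1` of `Lattice2.TwistFam.exists_sum_mul_eq_one` and
`exists_one_of_glued`, with `p = ℓ ^ 2`). -/
theorem hpth (hCt : C.t = heckeAlphaBar L M ℓ x) (hT2 : C.T.2 = xb ^ ℓ)
    (hEQ : LiftsIntegral A π M ℓ hπ hℓM x xb)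
    (hY3 : IsIntegral (Algebra.adjoin L {heckeAlphaBar L M ℓ x}) (heckeBetaBar L M ℓ x))
    (hΦ : FrobStable M ℓ xb) :
    ∀ g : C.B₂, ∃ g' : C.B₂, ((0 : C.B₁), g - g' ^ (ℓ ^ 2)) ∈ C.BbarT := by
  intro g
  obtain ⟨g', -, hg'⟩ :=
    exists_zero_pair_mem A π M ℓ hdeg hℓ hπ hℓM hR C x xb hCt hT2 hEQ hY3 hΦ g
  exact ⟨g', hg'⟩

include hR in
/-- the mirror of `hpth` for the first component -/
theorem hpth_fst (hCt : C.t = heckeAlphaBar L M ℓ x) (hT1 : C.T.1 = xb)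
    (hEQ : LiftsIntegral A π M ℓ hπ hℓM x xb)
    (hY3 : IsIntegral (Algebra.adjoin L {heckeAlphaBar L M ℓ x}) (heckeBetaBar L M ℓ x))
    (hΦ : FrobStable M ℓ xb) :
    ∀ f : C.B₁, ∃ f' : C.B₁, (f - f' ^ (ℓ ^ 2), (0 : C.B₂)) ∈ C.BbarT := by
  intro f
  obtain ⟨f', -, hf'⟩ :=
    exists_pair_zero_mem A π M ℓ hdeg hℓ hπ hℓM hR C x xb hCt hT1 hEQ hY3 hΦ f
  exact ⟨f', hf'⟩

/-! ### The reduction of the chart coordinate -/

include hR in
/-- `C.T.1 = red_∞ (α x) = x̄` -/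
theorem T_fst_eq (hCt : C.t = heckeAlphaBar L M ℓ x) (hx : x ∈ Ov A π (FBar L M))
    (hxb : redV A π (FBar L M) ⟨x, hx⟩ = ((xb : Fk k M) : LaurentSeries k)) : C.T.1 = xb := by
  apply Subtype.ext
  have hmem : heckeAlphaBar L M ℓ x ∈ S.O := hCt ▸ C.t_mem
  have e : C.T = R.res ⟨heckeAlphaBar L M ℓ x, hmem⟩ := res_congr R hCt C.t_mem hmem
  rw [e, hR.res_fst _ hmem ((alpha_mem_Ov_iff A π M ℓ x).mpr hx), redV_alpha A π M ℓ x hx, hxb]

include hR in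
/-- `C.T.2 = red_0 (α x) = x̄(s^ℓ) = x̄ ^ ℓ` when `Φ x̄ = x̄` -/
theorem T_snd_eq (hCt : C.t = heckeAlphaBar L M ℓ x) (hx : x ∈ Ov A π (FBar L M))
    (hxb : redV A π (FBar L M) ⟨x, hx⟩ = ((xb : Fk k M) : LaurentSeries k))
    (hfix : frobInvLS ℓ ((xb : Fk k M) : LaurentSeries k) = xb) : C.T.2 = xb ^ ℓ := by
  apply Subtype.ext
  have hmem : heckeAlphaBar L M ℓ x ∈ S.O := hCt ▸ C.t_mem
  have e : C.T = R.res ⟨heckeAlphaBar L M ℓ x, hmem⟩ := res_congr R hCt C.t_mem hmem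
  rw [e, hR.res_snd _ hmem (alpha_mem_Ov0 A π M ℓ hdeg hℓ hℓM x hx),
    red0_alpha A π M ℓ hdeg hℓ hℓM x hx, hxb, qExpand_eq_frobInvLS_pow ℓ, hfix]
  rfl

/-! ### The second chart `C.swap` (coordinate `t⁻¹ = α x⁻¹`) -/

theorem swap_t_eq (hCt : C.t = heckeAlphaBar L M ℓ x) :
    C.swap.t = heckeAlphaBar L M ℓ x⁻¹ := by
  rw [ChartCoord.swap_t, hCt, map_inv₀]

theorem swap_T_fst (hT1 : C.T.1 = xb) : C.swap.T.1 = xb⁻¹ := by
  have h := congrArg Prod.fst C.T_mul_Ti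
  rw [Prod.fst_mul, Prod.fst_one, hT1] at h
  rw [ChartCoord.swap_T]
  exact eq_inv_of_mul_eq_one_right h

theorem swap_T_snd (hT2 : C.T.2 = xb ^ ℓ) : C.swap.T.2 = xb⁻¹ ^ ℓ := by
  have h := congrArg Prod.snd C.T_mul_Ti
  rw [Prod.snd_mul, Prod.snd_one, hT2] at h
  rw [ChartCoord.swap_T, inv_pow]
  exact eq_inv_of_mul_eq_one_right h

include hR in
/-- **`hpth` on the chart of `C.swap`**: inputs = (EQ) for the chart `x⁻¹`, (Y3) for `x⁻¹`,
(J5a) for `xb⁻¹`. -/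
theorem hpth_swap (hCt : C.t = heckeAlphaBar L M ℓ x) (hT2 : C.T.2 = xb ^ ℓ)
    (hEQ : LiftsIntegral A π M ℓ hπ hℓM x⁻¹ xb⁻¹)
    (hY3 : IsIntegral (Algebra.adjoin L {(heckeAlphaBar L M ℓ x)⁻¹}) (heckeBetaBar L M ℓ x)⁻¹)
    (hΦ : FrobStable M ℓ xb⁻¹) :
    ∀ g : C.swap.B₂, ∃ g' : C.swap.B₂, ((0 : C.swap.B₁), g - g' ^ (ℓ ^ 2)) ∈ C.swap.BbarT := by
  have hY3' : IsIntegral (Algebra.adjoin L {heckeAlphaBar L M ℓ x⁻¹})
      (heckeBetaBar L M ℓ x⁻¹) := by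
    rw [map_inv₀, map_inv₀]
    exact hY3
  exact hpth A π M ℓ hdeg hℓ hπ hℓM hR C.swap x⁻¹ xb⁻¹ (swap_t_eq A M ℓ C x hCt)
    (swap_T_snd A M ℓ C xb hT2) hEQ hY3' hΦ

include hR in
/-- the mirror of `hpth_swap` for the first component -/
theorem hpth_fst_swap (hCt : C.t = heckeAlphaBar L M ℓ x) (hT1 : C.T.1 = xb)
    (hEQ : LiftsIntegral A π M ℓ hπ hℓM x⁻¹ xb⁻¹)
    (hY3 : IsIntegral (Algebra.adjoin L {(heckeAlphaBar L M ℓ x)⁻¹}) (heckeBetaBar L M ℓ x)⁻¹)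
    (hΦ : FrobStable M ℓ xb⁻¹) :
    ∀ f : C.swap.B₁, ∃ f' : C.swap.B₁, (f - f' ^ (ℓ ^ 2), (0 : C.swap.B₂)) ∈ C.swap.BbarT := by
  have hY3' : IsIntegral (Algebra.adjoin L {heckeAlphaBar L M ℓ x⁻¹})
      (heckeBetaBar L M ℓ x⁻¹) := by
    rw [map_inv₀, map_inv₀]
    exact hY3
  exact hpth_fst A π M ℓ hdeg hℓ hπ hℓM hR C.swap x⁻¹ xb⁻¹ (swap_t_eq A M ℓ C x hCt)
    (swap_T_fst A M ℓ C xb hT1) hEQ hY3' hΦ

end Main

end Fermat.Agent.S34x.Inst.HpthInst
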