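/-
helper45 (P-S34, WP3-inst, final discharge): the CONCRETE Theorem B at level `M q`.

For an integer series `x` (the Hauptmodul `x₄` if `4 ∣ M`, `z₉ = y₉ - 3` if `9 ∣ M`) with
`t' := tInt M x hx ∈ F_M` satisfying the good level facts `L2.GoodLevelFactsT`:

* `chart H hA x hx Hx : ChartCoord (redSetup2 H hA)` : the chart `t = α t'` of the concrete
  `RedSetup2` at level `M q` (`GaussInstMq.chartCoordMq`);
* `cartesian` : (G0) for `redSetup2 H hA`;
* `exists_const_mul_pow` : **Theorem B** for every inertia element `τ` and every normalised pair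
  `(w, D)`: `τ w / w = c v ^ m`, by ONE call of `Lattice2.exists_const_mul_pow_of_prod`;
  the only remaining hypotheses are the place-wise cusp hypothesis `OrdHyp` (landed for `x₄`, `z₉`)
  and (N1) on both charts (`Inst/HpthInst`).
-/
import Fermat.Agent.S34x.Lattice2.AssembleProd
import Fermat.Agent.S34x.Inst.GaussInstMq
import Fermat.Agent.S34x.Inst.BridgeInst
import Fermat.Agent.S34x.Inst.ElementYInt
import Fermat.Agent.S34x.Inst.GaloisInst
import Fermat.Agent.S34x.Inst.KSideFacts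
import Fermat.Agent.S34x.TwoVal.ResidueSurj
import Fermat.Agent.S34x.Inst.HpthInst

set_option autoImplicit false
set_option linter.style.haveILetI false
set_option linter.unusedSectionVars false

noncomputable section

namespace Fermat.Agent.S34x.Inst.TheoremBMq

open ModularCurve AlgebraicCurve IntermediateField IsLocalRing Module
open Fermat.Agent.Gateway.Hecke Fermat.Agent.Gateway.ESC
open Fermat.Agent.Gateway.Red Fermat.Agent.Gateway.GoodRed
open Fermat.Agent.Gateway.GoodRed.ConjFamily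
open Fermat.Agent.S34x.TwoVal Fermat.Agent.S34x.C0two Fermat.Agent.S34x.Lattice2
open Fermat.Agent.S34x.Inst.L2 Fermat.Agent.S34x.Inst.IsL2Inst
open Fermat.Agent.S34x.Inst.RedSetupInst Fermat.Agent.S34x.Inst.ElementYRed
open Fermat.Agent.S34x.Inst.ElementYInt Fermat.Agent.S34x.Inst.Charts

attribute [-instance] IsScalarTower.of_algHom

variable {L : Type} [Field L] [Algebra ℚ L] [IsAlgClosed L] [Algebra.IsAlgebraic ℚ L]
  {A : ValuationSubring L} {k : Type} [Field k] {π : A →+* k} [IsAlgClosed k]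
variable {M q : ℕ} [NeZero M] [NeZero q] [Fact q.Prime] [CharP k q]
variable {hdeg : finrankAlong L (heckeAlphaBar L M q) = q + 1} {hq : q.Prime} {hqM : ¬ q ∣ M}
variable {hrk : ∀ x ∈ maximalIdeal A, ∀ c : A, c ≠ 0 → ∃ j : ℕ, c ∣ x ^ j}
  {hπ : Function.Surjective π}
variable (H : ResidueFacts A π M q hdeg hq hqM hrk hπ) (hA : A.LiesOverPrime q)
  (x : LaurentSeries ℤ) (hx : coeffMap (Int.castRingHom L) x ∈ FBar L M)
  (Hx : GoodLevelFactsT A π M q hπ hqM (tInt M x hx))

/-- **(Y1)-(Y3)**: the four integrality facts for `y = (α t')^q / β t'` and `β t'` (landed for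
`x₄`: `ElementYInt`, and `z₉`: `ElementYInt9`). -/
structure YFacts {L : Type} [Field L] [Algebra ℚ L] [IsAlgClosed L] (M q : ℕ) [NeZero M] [NeZero q]
    (x : LaurentSeries ℤ) (hx : coeffMap (Int.castRingHom L) x ∈ FBar L M) : Prop where
  y1 : IsIntegral (Algebra.adjoin L {tA M q x hx}) (elY M q x hx)
  y2 : IsIntegral (Algebra.adjoin L {(tA M q x hx)⁻¹}) (elY M q x hx)⁻¹
  y3 : IsIntegral (Algebra.adjoin L {tA M q x hx}) (tB M q x hx)
  y3' : IsIntegral (Algebra.adjoin L {(tA M q x hx)⁻¹}) (tB M q x hx)⁻¹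

/-! ### The reductions of `t = α t'` -/

theorem tA_mem_valInfty : tA M q x hx ∈ valInfty A π M q hrk hπ hqM :=
  tA_mem_Ov A π M q x hx

theorem tA_mem_valZero : tA M q x hx ∈ valZero A π M q hdeg hq hqM hrk hπ :=
  tA_mem_Ov0 A π M q hdeg hq hqM x hx

include Hx in
theorem res_infty_tA :
    (redSetupInfty H hA).res ⟨tA M q x hx, tA_mem_valInfty x hx⟩ =
      resFk A π M q hπ hqM ⟨tInt M x hx, Hx.mem⟩ := by
  apply Subtype.ext
  rw [coe_resFk]
  exact (redV_tA A π M q x hx).trans (redV_tInt A π M x hx).symm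

include Hx in
theorem res_zero_tA :
    (redSetupZero H hA).res ⟨tA M q x hx, tA_mem_valZero x hx⟩ =
      (resFk A π M q hπ hqM ⟨tInt M x hx, Hx.mem⟩) ^ q := by
  apply Subtype.ext
  rw [SubmonoidClass.coe_pow, coe_resFk, redV_tInt A π M x hx]
  exact red0_tA A π M q hdeg hq hqM x hx

/-! ### The chart `t = α t'` -/

include Hx in
theorem transcendental_res_infty :
    Transcendental k ((redSetupInfty H hA).res ⟨tA M q x hx, tA_mem_valInfty x hx⟩) := by
  rw [res_infty_tA H hA x hx Hx]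
  exact Hx.trans_res

include Hx in
theorem transcendental_res_zero :
    Transcendental k ((redSetupZero H hA).res ⟨tA M q x hx, tA_mem_valZero x hx⟩) := by
  rw [res_zero_tA H hA x hx Hx]
  exact Hx.trans_res.pow (Fact.out : q.Prime).pos

include Hx in
theorem finiteDimensional_tA : FiniteDimensional L⟮tA M q x hx⟯ (FL L (M * q)) :=
  haveI := Hx.finite
  Charts.finiteDimensional_tα L M q (tInt M x hx)

include Hx hA in
/-- the degree hypothesis of `GaussInstTwo` -/
theorem finrank_tA_le :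
    finrank L⟮tA M q x hx⟯ (FL L (M * q)) ≤
      finrank k⟮(redSetupInfty H hA).res ⟨tA M q x hx, tA_mem_valInfty x hx⟩⟯ (Fk k M) +
        finrank k⟮(redSetupZero H hA).res ⟨tA M q x hx, tA_mem_valZero x hx⟩⟯ (Fk k M) := by
  haveI := Hx.finite
  have h2 := (KSideFacts.genusFF_eq_and_finrank_eq_of_facts hA Hx).2
  refine GaussInstMq.hdeg_of (n' := finrank L⟮tInt M x hx⟯ (FL L M)) (ℓ := q)
    (y := resFk A π M q hπ hqM ⟨tInt M x hx, Hx.mem⟩) ?_ ?_ Hx.trans_res
    (res_zero_tA H hA x hx Hx) h2.ge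
  · exact (Charts.finrank_tα L M q (tInt M x hx) hdeg).le
  · rw [res_infty_tA H hA x hx Hx]
    exact h2.ge

/-- **The concrete chart** `t = α t'` of `redSetup2 H hA`. -/
def chart : ChartCoord (redSetup2 H hA) :=
  haveI := finiteDimensional_tA x hx Hx
  GaussInstMq.chartCoordMq A π M q hdeg hq hqM hrk hπ (redSetupInfty H hA) (redSetupZero H hA) rfl
    (tA_mem_valInfty x hx) (tA_mem_valZero x hx) (transcendental_res_infty H hA x hx Hx)
    (transcendental_res_zero H hA x hx Hx) (ResidueInst.redSetupInfty_res_surjective H hA)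
    (ResidueInst.redSetupZero_res_surjective H hA) (finrank_tA_le H hA x hx Hx)

theorem chart_t : (chart H hA x hx Hx).t = tA M q x hx := rfl

include Hx in
/-- **(G0)** for the concrete `redSetup2 H hA`. -/
theorem cartesian (V : Submodule L (FL L (M * q))) (hV : FiniteDimensional L V) :
    ((redSetup2 H hA).lat V).FG :=
  haveI := finiteDimensional_tA x hx Hx
  GaussInstMq.cartesianMq A π M q hdeg hq hqM hrk hπ (redSetupInfty H hA) (redSetupZero H hA) rfl
    (tA_mem_valInfty x hx) (tA_mem_valZero x hx) (transcendental_res_infty H hA x hx Hx)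
    (transcendental_res_zero H hA x hx Hx) (ResidueInst.redSetupInfty_res_surjective H hA)
    (ResidueInst.redSetupZero_res_surjective H hA) (finrank_tA_le H hA x hx Hx) V

/-! ### Theorem B at level `M q` -/

section TheoremB

variable (C : ChartCoord (redSetup2 H hA)) (hCt : C.t = tA M q x hx)

include Hx hCt in
theorem T_fst_eq : C.T.1 = resFk A π M q hπ hqM ⟨tInt M x hx, Hx.mem⟩ :=
  IsL2Inst.T_fst_eq C (BridgeInst.bridge H hA) Hx.mem hCt

include Hx hCt in
theorem T_eq : C.T = (C.T.1, C.T.1 ^ q) :=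
  Prod.ext rfl (BridgeInst.T_snd_eq_pow H hA C hCt x rfl)

include Hx hCt hA in
theorem finrank_eq :
    finrank L⟮C.t⟯ (FL L (M * q)) = (q + 1) * finrank k⟮C.T.1⟯ (Fk k M) := by
  haveI := Hx.finite
  rw [T_fst_eq H hA x hx Hx C hCt, (KSideFacts.genusFF_eq_and_finrank_eq_of_facts hA Hx).2, hCt]
  exact (Charts.finrank_tα L M q (tInt M x hx) hdeg).trans (Nat.mul_comm _ _)

include Hx hCt hA in
/-- **Theorem B at level `M q`**: for `τ` in the inertia group of `A`, `q ∤ m`, `2 ≤ m` and every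
normalised pair `(w, D)` (`w` a unit of `O_∞ ⊓ O_0` with both reductions `1`, `m D = div w`),
`τ w / w = c v ^ m`. -/
theorem exists_const_mul_pow (hxk : tbar k x ≠ 0) (hY : YFacts M q x hx)
    {m : ℕ} (hqm : ¬ q ∣ m) (hm2 : 2 ≤ m)
    {τ : L ≃ₐ[ℚ] L} (hτ : τ ∈ A.inertiaSubgroupIn ℚ)
    {p : ℕ} (hp : 2 ≤ p)
    (hN1 : ∀ g : C.B₂, ∃ g' : C.B₂, ((0 : C.B₁), g - g' ^ p) ∈ C.BbarT)
    {p₀ : ℕ} (hp₀ : 2 ≤ p₀)
    (hN1₀ : ∀ g : C.swap.B₂, ∃ g' : C.swap.B₂, ((0 : C.swap.B₁), g - g' ^ p₀) ∈ C.swap.BbarT)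
    {w : FL L (M * q)} (hw0 : w ≠ 0)
    (hwO : w ∈ (twoVal (valInfty A π M q hrk hπ hqM) (valZero A π M q hdeg hq hqM hrk hπ)).O)
    (hwiO : w⁻¹ ∈ (twoVal (valInfty A π M q hrk hπ hqM) (valZero A π M q hdeg hq hqM hrk hπ)).O)
    (hw1 : (redSetup2 H hA).res ⟨w, hwO⟩ = 1)
    {D : Divisor L (FL L (M * q))}
    (hD : ∀ v : Place L (FL L (M * q)), (m : ℤ) * D v = v.ord w) :
    ∃ (c : L) (v : FL L (M * q)),
      arithmeticGalois (modularFunctionFieldFull (M * q)) τ • w / w =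
        algebraMap L (FL L (M * q)) c * v ^ m := by
  haveI : CharZero L := algebraRat.charZero L
  haveI := Hx.finite
  have hqpos : 0 < q := (Fact.out : q.Prime).pos
  have hB := BridgeInst.bridge H hA
  -- the `k`-side coordinate
  have hT1 := T_fst_eq H hA x hx Hx C hCt
  have hxtr : Transcendental k C.T.1 := by rw [hT1]; exact Hx.trans_res
  haveI hxfin : FiniteDimensional k⟮C.T.1⟯ (Fk k M) := by rw [hT1]; exact Hx.finite_res
  haveI hxsep : Algebra.IsSeparable k⟮C.T.1⟯ (Fk k M) := by rw [hT1]; exact Hx.sep_res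
  -- the `L`-side coordinate
  have ht : Transcendental L C.t := by
    rw [hCt]; exact Charts.transcendental_tα L M q Hx.trans
  haveI htfin : FiniteDimensional L⟮C.t⟯ (FL L (M * q)) := by
    rw [hCt]; exact finiteDimensional_tA x hx Hx
  -- (L2) on both charts
  obtain ⟨hL2, hL2₀⟩ := BridgeInst.isL2_both H hA C Hx hCt hY.y3 hY.y3' x rfl
  -- the separating elements
  have he := exists_he C x hx hB hCt hxk hY.y1 hY.y3'
  have he₀ := exists_he' C x hx hB hCt hxk hY.y2 hY.y3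
  -- the Galois inputs
  have hgt : arithmeticGalois (modularFunctionFieldFull (M * q)) τ • C.t = C.t := by
    rw [hCt]
    exact GaloisInst.gal_smul_alpha_eq_self_int M q τ (tInt M x hx) x rfl
  exact exists_const_mul_pow_of_prod hxtr hqpos C (T_eq H hA x hx Hx C hCt) ht
    (Charts.divT_apply ht) (finrank_eq H hA x hx Hx C hCt)
    (fun V hV => cartesian H hA x hx Hx V hV) hL2 hL2₀ he he₀
    (GaloisInst.isUnit_natCast A π hπ q hqm) hm2
    (arithmeticGalois (modularFunctionFieldFull (M * q)) τ) hgt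
    (fun f hf => GaloisInst.gal_smul_mem_S2 A π M q hdeg hq hqM hrk hπ
      (GaloisInst.mem_decomposition_of_mem_inertia A hτ) hf)
    (GaloisInst.res_gal_smul A π M q hdeg hq hqM hrk hπ (redSetup2 H hA) hτ)
    hp hN1 hp₀ hN1₀ hw0 hwO hwiO hw1 hD

end TheoremB

/-! ### (N1) on both charts and the final form -/

section Hpth

variable [PerfectRing k q] (C : ChartCoord (redSetup2 H hA)) (hCt : C.t = tA M q x hx)

include Hx in
theorem frobInvLS_resFk :
    frobInvLS q ((resFk A π M q hπ hqM ⟨tInt M x hx, Hx.mem⟩ : Fk k M) : LaurentSeries k) =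
      (resFk A π M q hπ hqM ⟨tInt M x hx, Hx.mem⟩ : Fk k M) := by
  rw [coe_resFk]
  have h : redV A π (FBar L M) ⟨tInt M x hx, Hx.mem⟩ = coeffMap (Int.castRingHom k) x :=
    redV_tInt A π M x hx
  rw [h]
  exact frobInvLS_coeffMap_int q x

include Hx hCt hA in
/-- **(N1)** on the chart `t ≠ ∞`, `p = q ^ 2`. -/
theorem hN1 (hY : YFacts M q x hx) :
    ∀ g : C.B₂, ∃ g' : C.B₂, ((0 : C.B₁), g - g' ^ (q ^ 2)) ∈ C.BbarT := by
  have hT2 : C.T.2 = (resFk A π M q hπ hqM ⟨tInt M x hx, Hx.mem⟩) ^ q := by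
    rw [BridgeInst.T_snd_eq_pow H hA C hCt x rfl, T_fst_eq H hA x hx Hx C hCt]
  exact HpthInst.hpth A π M q hdeg hq hπ hqM (BridgeInst.bridge H hA) C (tInt M x hx) _ hCt hT2
    (liftsIntegral_of_facts A π M q hπ hqM hA Hx) hY.y3
    (HpthInst.frobStable_of_fix M q _ (frobInvLS_resFk x hx Hx))

include Hx hCt hA in
/-- **(N1)** on the chart `t ≠ 0`, `p = q ^ 2`. -/
theorem hN1₀ (hY : YFacts M q x hx) :
    ∀ g : C.swap.B₂, ∃ g' : C.swap.B₂,
      ((0 : C.swap.B₁), g - g' ^ (q ^ 2)) ∈ C.swap.BbarT := by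
  have hT2 : C.T.2 = (resFk A π M q hπ hqM ⟨tInt M x hx, Hx.mem⟩) ^ q := by
    rw [BridgeInst.T_snd_eq_pow H hA C hCt x rfl, T_fst_eq H hA x hx Hx C hCt]
  exact HpthInst.hpth_swap A π M q hdeg hq hπ hqM (BridgeInst.bridge H hA) C (tInt M x hx) _ hCt
    hT2 (liftsIntegral_inv_of_facts A π M q hπ hqM hA Hx) hY.y3'
    (HpthInst.frobStable_of_fix M q _ (HpthInst.fix_inv M q _ (frobInvLS_resFk x hx Hx)))

include Hx hA in
/-- **Theorem B at level `M q`, final form**: for the concrete chart, with (N1) discharged. -/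
theorem exists_const_mul_pow_chart (hxk : tbar k x ≠ 0) (hY : YFacts M q x hx)
    {m : ℕ} (hqm : ¬ q ∣ m) (hm2 : 2 ≤ m)
    {τ : L ≃ₐ[ℚ] L} (hτ : τ ∈ A.inertiaSubgroupIn ℚ)
    {w : FL L (M * q)} (hw0 : w ≠ 0)
    (hwO : w ∈ (twoVal (valInfty A π M q hrk hπ hqM) (valZero A π M q hdeg hq hqM hrk hπ)).O)
    (hwiO : w⁻¹ ∈ (twoVal (valInfty A π M q hrk hπ hqM) (valZero A π M q hdeg hq hqM hrk hπ)).O)
    (hw1 : (redSetup2 H hA).res ⟨w, hwO⟩ = 1)
    {D : Divisor L (FL L (M * q))}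
    (hD : ∀ v : Place L (FL L (M * q)), (m : ℤ) * D v = v.ord w) :
    ∃ (c : L) (v : FL L (M * q)),
      arithmeticGalois (modularFunctionFieldFull (M * q)) τ • w / w =
        algebraMap L (FL L (M * q)) c * v ^ m := by
  have hq2 : 2 ≤ q ^ 2 := by
    have := (Fact.out : q.Prime).two_le
    nlinarith
  exact exists_const_mul_pow H hA x hx Hx (chart H hA x hx Hx) (chart_t H hA x hx Hx) hxk hY
    hqm hm2 hτ hq2 (hN1 H hA x hx Hx _ (chart_t H hA x hx Hx) hY) hq2
    (hN1₀ H hA x hx Hx _ (chart_t H hA x hx Hx) hY) hw0 hwO hwiO hw1 hD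

end Hpth

end Fermat.Agent.S34x.Inst.TheoremBMq
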