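/-
Copyright (c) 2026. Released under Apache 2.0 license as described in the file LICENSE.
-/
import Fermat.Agent.Gateway.C0.DivSide
import Fermat.Prelude.Def_AlgebraicCurve_BaseChangeGalois

/-!
# P-S34 (T4), divisor computations with a semilinear automorphism

`g : SemilinearAut K F` fixing the chart function `t` (so fixing `C₀ = (t)_0`, `C∞ = (t)_∞`),
`w ≠ 0` with `div w = m D`.  Put `E := g • D - D`, `u := (g • w) / w`.  Then

* `m E = div u`, `deg E = 0` (`ord_smul_div`, `degree_smul_sub`);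
* **(N3) divisor count** (`smul_mul_mul_mem_LM`): for `f ∈ L(D + a C₀ + b C∞)`,
  `f' ∈ L((m-1) D + a' C₀ + b' C∞)` the product `(g • f) * f' * w` lies in
  `L(E + (a+a') C₀ + (b+b') C∞)`.

This is the hypothesis `hprod` of `ExistsOne.exists_one` and the data `u, E, hE, hdegE` of
`TheoremB.exists_const_mul_pow`.
-/

set_option autoImplicit false

noncomputable section

namespace Fermat.Agent.S34x.Inst.DivGalois

open AlgebraicCurve Fermat.Agent.Gateway.C0

variable {K F : Type*} [Field K] [Field F] [Algebra K F]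

/-- `ord_w (g • f) = ord_{g⁻¹ w} f`. -/
theorem ord_smul_eq (g : SemilinearAut K F) (w : Place K F) (f : F) :
    w.ord (g • f) = (g⁻¹ • w).ord f := by
  have h := SemilinearAut.ord_smul g (g⁻¹ • w) f
  rwa [smul_inv_smul] at h

/-- The Riemann-Roch spaces are permuted by semilinear automorphisms. -/
theorem smul_mem_rrs (g : SemilinearAut K F) {D : Divisor K F} {f : F}
    (hf : f ∈ riemannRochSpace D) : g • f ∈ riemannRochSpace (g • D) := by
  rw [mem_riemannRochSpace_iff] at hf ⊢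
  intro w
  rcases hf (g⁻¹ • w) with h0 | h
  · left
    rw [h0, smul_zero]
  · right
    rw [SemilinearAut.divisor_smul_apply, ord_smul_eq]
    exact h

/-- A divisor `Dt = div t` of a `g`-fixed function is `g`-fixed. -/
theorem smul_divisor_eq_of_smul_eq (g : SemilinearAut K F) {t : F} (hgt : g • t = t)
    {Dt : Divisor K F} (hDt : ∀ v : Place K F, Dt v = v.ord t) : g • Dt = Dt := by
  ext w
  rw [SemilinearAut.divisor_smul_apply, hDt, hDt, ← ord_smul_eq, hgt]

/-- The cuspidal divisors `a C₀ + b C∞` of a `g`-fixed chart function are `g`-fixed. -/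
theorem smul_dv_eq (g : SemilinearAut K F) {Dt : Divisor K F} (hg : g • Dt = Dt) (a b : ℕ) :
    g • (TwoCharts.ofDivisor Dt).dv a b = (TwoCharts.ofDivisor Dt).dv a b := by
  ext w
  have h1 : Dt (g⁻¹ • w) = Dt w := by
    rw [← SemilinearAut.divisor_smul_apply, hg]
  rw [SemilinearAut.divisor_smul_apply, TwoCharts.dv_apply, TwoCharts.dv_apply,
    TwoCharts.ofDivisor_Czero_apply, TwoCharts.ofDivisor_Cinf_apply,
    TwoCharts.ofDivisor_Czero_apply, TwoCharts.ofDivisor_Cinf_apply, h1]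

/-- `g` preserves the untwisted spaces `L(a C₀ + b C∞)`. -/
theorem smul_mem_LN (g : SemilinearAut K F) {Dt : Divisor K F} (hg : g • Dt = Dt) {a b : ℕ}
    {f : F} (hf : f ∈ (TwoCharts.ofDivisor Dt).LN a b) :
    g • f ∈ (TwoCharts.ofDivisor Dt).LN a b := by
  have := smul_mem_rrs g hf
  rwa [smul_dv_eq g hg] at this

/-- `g` maps `L(D + a C₀ + b C∞)` to `L(g • D + a C₀ + b C∞)`. -/
theorem smul_mem_LM (g : SemilinearAut K F) {Dt : Divisor K F} (hg : g • Dt = Dt)
    (D : Divisor K F) {a b : ℕ} {f : F} (hf : f ∈ (TwoCharts.ofDivisor Dt).LM D a b) :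
    g • f ∈ (TwoCharts.ofDivisor Dt).LM (g • D) a b := by
  have := smul_mem_rrs g hf
  rwa [smul_add, smul_dv_eq g hg] at this

/-- `w ∈ L(-(m D))` when `div w = m D`. -/
theorem mem_rrs_neg_of_ord {m : ℕ} {w : F} {D : Divisor K F}
    (hD : ∀ v : Place K F, (m : ℤ) * D v = v.ord w) : w ∈ riemannRochSpace (-(m • D)) := by
  rw [mem_riemannRochSpace_iff]
  intro v
  right
  rw [Finsupp.neg_apply, Finsupp.smul_apply, nsmul_eq_mul, neg_neg, hD v]

/-- **(N3), the divisor count.** -/
theorem smul_mul_mul_mem_LM (g : SemilinearAut K F) {Dt : Divisor K F} (hg : g • Dt = Dt)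
    {m : ℕ} (hm : 0 < m) {w : F} {D : Divisor K F}
    (hD : ∀ v : Place K F, (m : ℤ) * D v = v.ord w) {a b a' b' : ℕ} {f f' : F}
    (hf : f ∈ (TwoCharts.ofDivisor Dt).LM D a b)
    (hf' : f' ∈ (TwoCharts.ofDivisor Dt).LM ((m - 1) • D) a' b') :
    g • f * f' * w ∈ (TwoCharts.ofDivisor Dt).LM (g • D - D) (a + a') (b + b') := by
  have h1 := smul_mem_LM g hg D hf
  have h2 := mul_mem_rrs (mul_mem_rrs h1 hf') (mem_rrs_neg_of_ord hD)
  rw [TwoCharts.LM, TwoCharts.dv_add]
  convert h2 using 2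
  obtain ⟨n, rfl⟩ : ∃ n, m = n + 1 := ⟨m - 1, by omega⟩
  rw [Nat.add_sub_cancel, succ_nsmul]
  abel

/-- `div ((g • w) / w) = m (g • D - D)`. -/
theorem ord_smul_div (g : SemilinearAut K F) {m : ℕ} {w : F} (hw : w ≠ 0) {D : Divisor K F}
    (hD : ∀ v : Place K F, (m : ℤ) * D v = v.ord w) (v : Place K F) :
    (m : ℤ) * (g • D - D) v = v.ord (g • w / w) := by
  have hgw : g • w ≠ 0 := by simpa using hw
  rw [div_eq_mul_inv, v.ord_mul hgw (inv_ne_zero hw), v.ord_inv, ord_smul_eq, ← hD, ← hD,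
    Finsupp.sub_apply, SemilinearAut.divisor_smul_apply]
  ring

/-- `deg (g • D - D) = 0`. -/
theorem degree_smul_sub (g : SemilinearAut K F) (D : Divisor K F) :
    Divisor.degree (g • D - D) = 0 := by
  rw [map_sub, SemilinearAut.degree_smul, sub_self]

/-- `(g • w) / w ≠ 0`. -/
theorem smul_div_ne_zero (g : SemilinearAut K F) {w : F} (hw : w ≠ 0) : g • w / w ≠ 0 := by
  have hgw : g • w ≠ 0 := by simpa using hw
  exact div_ne_zero hgw hw

end Fermat.Agent.S34x.Inst.DivGalois
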