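/-
helper64 (P-S34, WP3-inst, file (J9'), level 9): the packaged memberships `he`, `he'` of
`Lattice2/UBBridge.codim_main_of_isL2` and (Y1)-(Y3) in the vocabulary of `Inst/ElementYRed`
(`tA`, `tB`, `elY`) for `t' = z₉ = y₉ - 3`, `9 ∣ M`, `q = 2`, from helper8's
`Cusp/Y9Inst.isIntegral_eltY9`; and the same for level 4 from `Cusp/Y4Inst.isIntegral_eltY4`
(an alternative to `ElementYInt.exists_he_x4`).
-/
import Fermat.Agent.S34x.Inst.ElementYInt
import Fermat.Agent.S34x.Cusp.Y9Inst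

set_option autoImplicit false
set_option linter.style.haveILetI false
set_option linter.unusedSectionVars false

noncomputable section

namespace Fermat.Agent.S34x.Inst.ElementYInt9

open ModularCurve AlgebraicCurve IntermediateField
open Fermat.Agent.Gateway.Hecke Fermat.Agent.Gateway.ESC
open Fermat.Agent.Gateway.Red Fermat.Agent.Gateway.GoodRed
open Fermat.Agent.Gateway.GoodRed.ConjFamily Fermat.Agent.Gateway.AuxLevel
open Fermat.Agent.S34x.TwoVal Fermat.Agent.S34x.C0two Fermat.Agent.S34x.Lattice2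
open Fermat.Agent.S34x.Inst.IsL2Inst Fermat.Agent.S34x.Inst.ElementYRed
open Fermat.Agent.S34x.Inst.ElementYInt Fermat.Agent.S34x.Cusp

attribute [-instance] IsScalarTower.of_algHom

section Level9

variable {L : Type} [Field L] [Algebra ℚ L] [IsAlgClosed L] {M : ℕ} [NeZero M]

/-- `z₉ ∈ F_M` for `9 ∣ M` -/
theorem z9_mem_FBar (h9M : 9 ∣ M) : coeffMap (Int.castRingHom L) L9.z9 ∈ FBar L M := by
  haveI : CharZero L := algebraRat.charZero L
  rw [FBar_eq_fullC]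
  exact L9.z9k_mem h9M (Nat.cast_ne_zero.mpr (NeZero.ne M))

variable (hx : coeffMap (Int.castRingHom L) L9.z9 ∈ FBar L M) (h9M : 9 ∣ M)

include h9M

/-- **(Y1)** for `z₉` -/
theorem isIntegral_elY_z9 :
    IsIntegral (Algebra.adjoin L {tA M 2 L9.z9 hx}) (elY M 2 L9.z9 hx) := by
  have h := (isIntegral_eltY9 L M h9M (tInt M L9.z9 hx) rfl).1
  rwa [div_eq_mul_inv] at h

/-- **(Y2)** for `z₉` -/
theorem isIntegral_elY_inv_z9 :
    IsIntegral (Algebra.adjoin L {(tA M 2 L9.z9 hx)⁻¹}) (elY M 2 L9.z9 hx)⁻¹ := by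
  have h := (isIntegral_eltY9 L M h9M (tInt M L9.z9 hx) rfl).2.1
  rw [elY_inv_eq]
  rwa [div_eq_mul_inv] at h

/-- **(Y3)** for `z₉`, chart `t ≠ ∞` (the hypothesis `hY3` of `IsL2Inst.isL2`) -/
theorem isIntegral_tB_z9 :
    IsIntegral (Algebra.adjoin L {tA M 2 L9.z9 hx}) (tB M 2 L9.z9 hx) :=
  (isIntegral_eltY9 L M h9M (tInt M L9.z9 hx) rfl).2.2.1

/-- **(Y3)** for `z₉`, chart `t ≠ 0` (the hypothesis `hY3` of `IsL2Inst.isL2_swap`) -/
theorem isIntegral_tB_inv_z9 :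
    IsIntegral (Algebra.adjoin L {(tA M 2 L9.z9 hx)⁻¹}) (tB M 2 L9.z9 hx)⁻¹ :=
  (isIntegral_eltY9 L M h9M (tInt M L9.z9 hx) rfl).2.2.2

variable {A : ValuationSubring L} {k : Type} [Field k] {π : A →+* k} [IsAlgClosed k]
  [CharP k 2]
  {hdeg : finrankAlong L (heckeAlphaBar L M 2) = 2 + 1} {hqM : ¬ 2 ∣ M}
  {S : SmallRing (FL L (M * 2))} {R : RedSetup2 A S k (Fk k M × Fk k M)}
  (C : ChartCoord R) (hB : Bridge A π M 2 hdeg Nat.prime_two hqM R)
  (hCt : C.t = tA M 2 L9.z9 hx)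

include hB hCt

/-- **`he`** of `Lattice2/UBBridge.codim_main_of_isL2` for `z₉` -/
theorem exists_he_z9 :
    ∃ c : Fk k M, IsIntegral (Algebra.adjoin k {C.T.2}) c ∧
      ((1 : Fk k M), c * C.T.2) ∈ C.Bbar :=
  exists_he C L9.z9 hx hB hCt (L9.z9k_ne_zero k) (isIntegral_elY_z9 hx h9M)
    (isIntegral_tB_inv_z9 hx h9M)

/-- **`he'`** of `Lattice2/UBBridge.codim_main_of_isL2` for `z₉` -/
theorem exists_he'_z9 :
    ∃ c : Fk k M, IsIntegral (Algebra.adjoin k {C.Ti.2}) c ∧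
      ((1 : Fk k M), c * C.Ti.2) ∈ C.swap.Bbar :=
  exists_he' C L9.z9 hx hB hCt (L9.z9k_ne_zero k) (isIntegral_elY_inv_z9 hx h9M)
    (isIntegral_tB_z9 hx h9M)

omit h9M in
/-- `T₂ = T₁^2` for `z₉` (the hypothesis `hT` of `IsL2Inst.isIntegral_T_snd`) -/
theorem T_snd_eq_pow_z9 : C.T.2 = C.T.1 ^ 2 := T_snd_eq_pow C L9.z9 hx hB hCt

end Level9

end Fermat.Agent.S34x.Inst.ElementYInt9
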