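import Fermat.Agent.Gateway.C0.Instantiate

/-!
# P-S34, WP3-inst: the level facts of (C0) for a chart function `t'`

`GoodLevelFactsT A π M ℓ hπ hℓM t'` collects the hypotheses of
`Gateway/C0/Main.exists_countData_spec` for the reduction setup
`C0.gaussRedSetup A π M ℓ hπ hℓM hA` (Gauss valuation ring `OvVal` of the modular function field
`FBar Qbar M`, residue map `resFk` to `Fk k M`) and the chart function `x := t'` (instead of `j`,
for which they are `C0.GoodLevelFacts` + `C0/LevelFacts`): transcendence of `t'` and of its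
reduction, finiteness and separability over the rational subfields, preservation of integrality
over `Qbar[t']` and `Qbar[1/t']` under reduction, the degree inequality and the genus inequality.
(The remaining hypothesis `hcart` of `exists_countData_spec` is unconditional:
`GoodRed.fg_inf_OvVal`.)
-/

set_option autoImplicit false
set_option linter.unusedSectionVars false

noncomputable section

namespace Fermat.Agent.S34x.Inst.LevelFactsT

open ModularCurve AlgebraicCurve IntermediateField Module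
open Fermat.Agent.Gateway.GoodRed Fermat.Agent.Gateway.GoodRed.ConjFamily Fermat.Agent.Gateway.Red
  Fermat.Agent.Gateway.C0

variable (A : ValuationSubring (AlgebraicClosure ℚ))
  {k : Type} [Field k] (π : A →+* k) [IsAlgClosed k] (M : ℕ) [NeZero M]
  (ℓ : ℕ) [Fact ℓ.Prime] [CharP k ℓ]

/-- The level facts of (C0) at level `M` for the chart function `t'` (the hypotheses of
`C0.exists_countData_spec` for `x := t'`, `xb := resFk ⟨t', hxO⟩`). -/
structure GoodLevelFactsT (hπ : Function.Surjective π) (hℓM : ¬ ℓ ∣ M)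
    (t' : FBar (AlgebraicClosure ℚ) M) : Prop where
  /-- `t'` is transcendental over the constants -/
  hx : Transcendental (AlgebraicClosure ℚ) t'
  /-- the function field is finite over `Qbar(t')` -/
  hfin : FiniteDimensional (AlgebraicClosure ℚ)⟮t'⟯ (FBar (AlgebraicClosure ℚ) M)
  /-- `t'` is integral for the Gauss valuation -/
  hxO : t' ∈ OvVal A π M ℓ hπ hℓM
  /-- the reduction of `t'` is transcendental -/
  hxbt : Transcendental k (resFk A π M ℓ hπ hℓM ⟨t', hxO⟩)
  /-- the residue field is finite over `k(t̄')` -/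
  hfink : FiniteDimensional k⟮resFk A π M ℓ hπ hℓM ⟨t', hxO⟩⟯ (Fk k M)
  /-- the residue field is separable over `k(t̄')` -/
  hsepk : Algebra.IsSeparable k⟮resFk A π M ℓ hπ hℓM ⟨t', hxO⟩⟯ (Fk k M)
  /-- reduction preserves integrality over `Qbar[t']` -/
  hint1 : ∀ (f : FBar (AlgebraicClosure ℚ) M) (hf : f ∈ OvVal A π M ℓ hπ hℓM),
    IsIntegral (Algebra.adjoin (AlgebraicClosure ℚ) {t'}) f →
      IsIntegral (Algebra.adjoin k {resFk A π M ℓ hπ hℓM ⟨t', hxO⟩})
        (resFk A π M ℓ hπ hℓM ⟨f, hf⟩)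
  /-- reduction preserves integrality over `Qbar[1/t']` -/
  hint2 : ∀ (f : FBar (AlgebraicClosure ℚ) M) (hf : f ∈ OvVal A π M ℓ hπ hℓM),
    IsIntegral (Algebra.adjoin (AlgebraicClosure ℚ) {t'⁻¹}) f →
      IsIntegral (Algebra.adjoin k {(resFk A π M ℓ hπ hℓM ⟨t', hxO⟩)⁻¹})
        (resFk A π M ℓ hπ hℓM ⟨f, hf⟩)
  /-- the degree does not grow under reduction -/
  hdeg : finrank k⟮resFk A π M ℓ hπ hℓM ⟨t', hxO⟩⟯ (Fk k M) ≤
    finrank (AlgebraicClosure ℚ)⟮t'⟯ (FBar (AlgebraicClosure ℚ) M)
  /-- the genus does not drop under reduction -/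
  hgenus : genusFF (AlgebraicClosure ℚ) (FBar (AlgebraicClosure ℚ) M) ≤ genusFF k (Fk k M)

variable {A π M ℓ}

/-- The reduction of the chart function. -/
def GoodLevelFactsT.tbar {hπ : Function.Surjective π} {hℓM : ¬ ℓ ∣ M}
    {t' : FBar (AlgebraicClosure ℚ) M} (H : GoodLevelFactsT A π M ℓ hπ hℓM t') : Fk k M :=
  resFk A π M ℓ hπ hℓM ⟨t', H.hxO⟩

lemma GoodLevelFactsT.tbar_def {hπ : Function.Surjective π} {hℓM : ¬ ℓ ∣ M}
    {t' : FBar (AlgebraicClosure ℚ) M} (H : GoodLevelFactsT A π M ℓ hπ hℓM t') :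
    H.tbar = resFk A π M ℓ hπ hℓM ⟨t', H.hxO⟩ := rfl

end Fermat.Agent.S34x.Inst.LevelFactsT
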