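import Fermat.Agent.S34x.Inst.L2
import Fermat.Agent.S34x.Inst.LevelFactsT
import Fermat.Agent.Gateway.GoodRed.Instantiate.TLineHaupt
import Fermat.Agent.Gateway.GoodRed.Instantiate.GenusFinal

/-!
# P-S34, WP3-inst: `GoodLevelFactsT` for the Hauptmoduln `x₄` (`4 ∣ M`), `y₉ - 3`, `y₉` (`9 ∣ M`)

Unconditional instances of helper44's `L2.GoodLevelFactsT` and helper78's
`LevelFactsT.GoodLevelFactsT`, from `GoodRed/Instantiate/TLineHaupt.TParamFacts` (helper61) and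
`GoodRed/Instantiate/GenusFinal` (helper22).
-/

set_option autoImplicit false
set_option linter.unusedSectionVars false

noncomputable section

namespace Fermat.Agent.S34x.Inst.LevelFactsTHaupt

open ModularCurve AlgebraicCurve IntermediateField Module
open Fermat.Agent.Gateway.GoodRed Fermat.Agent.Gateway.GoodRed.ConjFamily Fermat.Agent.Gateway.Red
  Fermat.Agent.Gateway.C0 Fermat.Agent.Gateway.GoodRed.TLineHaupt Fermat.Agent.S24.Setup

variable (A : ValuationSubring Kbar)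
  {k : Type} [Field k] (π : A →+* k) [IsAlgClosed k] (M : ℕ) [NeZero M]
  (ℓ : ℕ) [Fact ℓ.Prime] [CharP k ℓ] (hπ : Function.Surjective π) (hℓM : ¬ ℓ ∣ M)

/-- `TParamFacts` + the genus inequality give helper44's `L2.GoodLevelFactsT`. -/
theorem l2Facts_of_tParamFacts {xF : FBar Kbar M} {xk : Fk k M}
    (H : TParamFacts A π M ℓ hπ hℓM xF xk)
    (hg : genusFF Kbar (FBar Kbar M) ≤ genusFF k (Fk k M)) :
    L2.GoodLevelFactsT A π M ℓ hπ hℓM xF := by
  have hres := H.res H.mem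
  exact
    { trans := H.transcendental
      finite := H.finite
      mem := H.mem
      trans_res := by rw [hres]; exact H.transcendental_k
      finite_res := by rw [hres]; exact H.finite_k
      sep_res := by rw [hres]; exact H.separable_k
      integral := by rw [hres]; exact H.integral
      integral_inv := by rw [hres]; exact H.integral_inv
      finrank_le := by rw [hres]; exact H.finrank_le
      genus_le := hg }

/-- `TParamFacts` + the genus inequality give helper78's `LevelFactsT.GoodLevelFactsT`. -/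
theorem facts_of_tParamFacts {xF : FBar Kbar M} {xk : Fk k M}
    (H : TParamFacts A π M ℓ hπ hℓM xF xk)
    (hg : genusFF Kbar (FBar Kbar M) ≤ genusFF k (Fk k M)) :
    LevelFactsT.GoodLevelFactsT A π M ℓ hπ hℓM xF := by
  have hres := H.res H.mem
  exact
    { hx := H.transcendental
      hfin := H.finite
      hxO := H.mem
      hxbt := by rw [hres]; exact H.transcendental_k
      hfink := by rw [hres]; exact H.finite_k
      hsepk := by rw [hres]; exact H.separable_k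
      hint1 := by rw [hres]; exact H.integral
      hint2 := by rw [hres]; exact H.integral_inv
      hdeg := by rw [hres]; exact H.finrank_le
      hgenus := hg }

/-! ### Level 4 (`ℓ` odd automatically) -/

/-- **`L2.GoodLevelFactsT` for `x₄`**, `4 ∣ M`, `ℓ ∤ M`. -/
theorem l2Facts_x4 (h4 : 4 ∣ M) :
    L2.GoodLevelFactsT A π M ℓ hπ hℓM (HauptRed.x4F M h4) :=
  l2Facts_of_tParamFacts A π M ℓ hπ hℓM (tParamFacts_x4 A π M ℓ hπ hℓM h4)
    (genusFF_le_of_four_dvd ℓ A π hπ hℓM h4)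

theorem facts_x4 (h4 : 4 ∣ M) :
    LevelFactsT.GoodLevelFactsT A π M ℓ hπ hℓM (HauptRed.x4F M h4) :=
  facts_of_tParamFacts A π M ℓ hπ hℓM (tParamFacts_x4 A π M ℓ hπ hℓM h4)
    (genusFF_le_of_four_dvd ℓ A π hπ hℓM h4)

/-- the reduction of `x₄` is `t4 = ⟨x4k, _⟩`. -/
theorem resFk_x4F (h4 : 4 ∣ M) (h : HauptRed.x4F M h4 ∈ OvVal A π M ℓ hπ hℓM) :
    resFk A π M ℓ hπ hℓM ⟨HauptRed.x4F M h4, h⟩ = HauptRed.t4 A π M ℓ hπ hℓM h4 :=
  (tParamFacts_x4 A π M ℓ hπ hℓM h4).res h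

/-! ### Level 9 (`ℓ ≠ 3` automatically) -/

/-- **`L2.GoodLevelFactsT` for `y₉ - 3`**, `9 ∣ M`, `ℓ ∤ M`. -/
theorem l2Facts_z9 (h9 : 9 ∣ M) :
    L2.GoodLevelFactsT A π M ℓ hπ hℓM (HauptRed.y9F M h9 - 3) :=
  l2Facts_of_tParamFacts A π M ℓ hπ hℓM (tParamFacts_z9 A π M ℓ hπ hℓM h9)
    (genusFF_le_of_nine_dvd ℓ A π hπ hℓM h9)

theorem facts_z9 (h9 : 9 ∣ M) :
    LevelFactsT.GoodLevelFactsT A π M ℓ hπ hℓM (HauptRed.y9F M h9 - 3) :=
  facts_of_tParamFacts A π M ℓ hπ hℓM (tParamFacts_z9 A π M ℓ hπ hℓM h9)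
    (genusFF_le_of_nine_dvd ℓ A π hπ hℓM h9)

/-- the reduction of `y₉ - 3` is `t9 - 3`. -/
theorem resFk_z9F (h9 : 9 ∣ M) (h : HauptRed.y9F M h9 - 3 ∈ OvVal A π M ℓ hπ hℓM) :
    resFk A π M ℓ hπ hℓM ⟨HauptRed.y9F M h9 - 3, h⟩ = HauptRed.t9 A π M ℓ hπ hℓM h9 - 3 :=
  (tParamFacts_z9 A π M ℓ hπ hℓM h9).res h

/-- **`L2.GoodLevelFactsT` for `y₉`**, `9 ∣ M`, `ℓ ∤ M`. -/
theorem l2Facts_y9 (h9 : 9 ∣ M) :
    L2.GoodLevelFactsT A π M ℓ hπ hℓM (HauptRed.y9F M h9) :=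
  l2Facts_of_tParamFacts A π M ℓ hπ hℓM (tParamFacts_y9 A π M ℓ hπ hℓM h9)
    (genusFF_le_of_nine_dvd ℓ A π hπ hℓM h9)

theorem facts_y9 (h9 : 9 ∣ M) :
    LevelFactsT.GoodLevelFactsT A π M ℓ hπ hℓM (HauptRed.y9F M h9) :=
  facts_of_tParamFacts A π M ℓ hπ hℓM (tParamFacts_y9 A π M ℓ hπ hℓM h9)
    (genusFF_le_of_nine_dvd ℓ A π hπ hℓM h9)

end Fermat.Agent.S34x.Inst.LevelFactsTHaupt
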