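/-
helper45 (P-S34, WP3-inst, final discharge): Theorem B at the good levels `M q`, closed form.

* `exists_const_mul_pow_x4` : `4 ∣ M`, `q` an odd prime, chart function `t' = x₄`;
* `exists_const_mul_pow_z9` : `9 ∣ M`, `q = 2`, chart function `t' = z₉ = y₉ - 3`;

over `Kbar = AlgebraicClosure ℚ`, for ANY `A`, `π : A →+* k` onto an algebraically closed field of
characteristic `q`: no hypotheses besides `H : ResidueFacts` (landed: `ResidueInst.residueFacts`)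
and `hA : A.LiesOverPrime q`.
-/
import Fermat.Agent.S34x.Inst.TheoremBMq
import Fermat.Agent.S34x.Inst.ElementYInt9
import Fermat.Agent.S34x.Inst.LevelFactsTHaupt
import Fermat.Agent.Gateway.AuxLevel.Shifted9Red

set_option autoImplicit false
set_option linter.style.haveILetI false
set_option linter.unusedSectionVars false

noncomputable section

namespace Fermat.Agent.S34x.Inst.TheoremBHaupt

open ModularCurve AlgebraicCurve IntermediateField IsLocalRing Module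
open Fermat.Agent.Gateway.Hecke Fermat.Agent.Gateway.ESC
open Fermat.Agent.Gateway.Red Fermat.Agent.Gateway.GoodRed Fermat.Agent.Gateway.AuxLevel
open Fermat.Agent.Gateway.GoodRed.ConjFamily Fermat.Agent.S24.Setup
open Fermat.Agent.S34x.TwoVal Fermat.Agent.S34x.C0two Fermat.Agent.S34x.Lattice2
open Fermat.Agent.S34x.Inst.L2 Fermat.Agent.S34x.Inst.IsL2Inst
open Fermat.Agent.S34x.Inst.RedSetupInst Fermat.Agent.S34x.Inst.ElementYRed
open Fermat.Agent.S34x.Inst.ElementYInt Fermat.Agent.S34x.Inst.ElementYInt9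
open Fermat.Agent.S34x.Inst.TheoremBMq

attribute [-instance] IsScalarTower.of_algHom

variable {A : ValuationSubring Kbar} {k : Type} [Field k] {π : A →+* k} [IsAlgClosed k]
variable {M : ℕ} [NeZero M]

section Four

variable {q : ℕ} [NeZero q] [Fact q.Prime] [CharP k q] [PerfectRing k q]
variable {hdeg : finrankAlong Kbar (heckeAlphaBar Kbar M q) = q + 1} {hq : q.Prime}
  {hqM : ¬ q ∣ M}
variable {hrk : ∀ x ∈ maximalIdeal A, ∀ c : A, c ≠ 0 → ∃ j : ℕ, c ∣ x ^ j}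
  {hπ : Function.Surjective π}

/-- **Theorem B at level `M q`, `4 ∣ M`, `q` odd.** -/
theorem exists_const_mul_pow_x4 (h4 : 4 ∣ M) (hq2 : q ≠ 2)
    (H : ResidueFacts A π M q hdeg hq hqM hrk hπ) (hA : A.LiesOverPrime q)
    {m : ℕ} (hqm : ¬ q ∣ m) (hm2 : 2 ≤ m)
    {τ : Kbar ≃ₐ[ℚ] Kbar} (hτ : τ ∈ A.inertiaSubgroupIn ℚ)
    {w : FL Kbar (M * q)} (hw0 : w ≠ 0)
    (hwO : w ∈ (twoVal (valInfty A π M q hrk hπ hqM) (valZero A π M q hdeg hq hqM hrk hπ)).O)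
    (hwiO : w⁻¹ ∈ (twoVal (valInfty A π M q hrk hπ hqM) (valZero A π M q hdeg hq hqM hrk hπ)).O)
    (hw1 : (redSetup2 H hA).res ⟨w, hwO⟩ = 1)
    {D : Divisor Kbar (FL Kbar (M * q))}
    (hD : ∀ v : Place Kbar (FL Kbar (M * q)), (m : ℤ) * D v = v.ord w) :
    ∃ (c : Kbar) (v : FL Kbar (M * q)),
      arithmeticGalois (modularFunctionFieldFull (M * q)) τ • w / w =
        algebraMap Kbar (FL Kbar (M * q)) c * v ^ m := by
  haveI : Algebra.IsAlgebraic ℚ Kbar := AlgebraicClosure.isAlgebraic ℚ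
  have hx : coeffMap (Int.castRingHom Kbar) L4.x4 ∈ FBar Kbar M := x4_mem_FBar M h4
  have Hx : GoodLevelFactsT A π M q hπ hqM (tInt M L4.x4 hx) :=
    LevelFactsTHaupt.l2Facts_x4 A π M q hπ hqM h4
  have hY : YFacts M q L4.x4 hx :=
    ⟨isIntegral_elY_x4 hx h4 hq hq2, isIntegral_elY_inv_x4 hx h4 hq hq2,
      isIntegral_tB_x4 hx h4 hq hq2, isIntegral_tB_inv_x4 hx h4 hq hq2⟩
  exact exists_const_mul_pow_chart H hA L4.x4 hx Hx (L4.x4k_ne_zero k) hY hqm hm2 hτ hw0 hwO hwiO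
    hw1 hD

end Four

section Nine

variable [CharP k 2] [PerfectRing k 2]
variable {hdeg : finrankAlong Kbar (heckeAlphaBar Kbar M 2) = 2 + 1} {hq : Nat.Prime 2}
  {hqM : ¬ 2 ∣ M}
variable {hrk : ∀ x ∈ maximalIdeal A, ∀ c : A, c ≠ 0 → ∃ j : ℕ, c ∣ x ^ j}
  {hπ : Function.Surjective π}

/-- **Theorem B at level `M 2`, `9 ∣ M`.** -/
theorem exists_const_mul_pow_z9 (h9 : 9 ∣ M)
    (H : ResidueFacts A π M 2 hdeg hq hqM hrk hπ) (hA : A.LiesOverPrime 2)
    {m : ℕ} (hqm : ¬ 2 ∣ m) (hm2 : 2 ≤ m)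
    {τ : Kbar ≃ₐ[ℚ] Kbar} (hτ : τ ∈ A.inertiaSubgroupIn ℚ)
    {w : FL Kbar (M * 2)} (hw0 : w ≠ 0)
    (hwO : w ∈ (twoVal (valInfty A π M 2 hrk hπ hqM) (valZero A π M 2 hdeg hq hqM hrk hπ)).O)
    (hwiO : w⁻¹ ∈ (twoVal (valInfty A π M 2 hrk hπ hqM) (valZero A π M 2 hdeg hq hqM hrk hπ)).O)
    (hw1 : (redSetup2 H hA).res ⟨w, hwO⟩ = 1)
    {D : Divisor Kbar (FL Kbar (M * 2))}
    (hD : ∀ v : Place Kbar (FL Kbar (M * 2)), (m : ℤ) * D v = v.ord w) :
    ∃ (c : Kbar) (v : FL Kbar (M * 2)),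
      arithmeticGalois (modularFunctionFieldFull (M * 2)) τ • w / w =
        algebraMap Kbar (FL Kbar (M * 2)) c * v ^ m := by
  haveI : Algebra.IsAlgebraic ℚ Kbar := AlgebraicClosure.isAlgebraic ℚ
  have hx : coeffMap (Int.castRingHom Kbar) L9.z9 ∈ FBar Kbar M := z9_mem_FBar h9
  have Hx : GoodLevelFactsT A π M 2 hπ hqM (tInt M L9.z9 hx) := by
    have h := LevelFactsTHaupt.l2Facts_z9 A π M 2 hπ hqM h9
    rw [← HauptRed.z9F_eq] at h
    exact h
  have hY : YFacts M 2 L9.z9 hx :=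
    ⟨isIntegral_elY_z9 hx h9, isIntegral_elY_inv_z9 hx h9, isIntegral_tB_z9 hx h9,
      isIntegral_tB_inv_z9 hx h9⟩
  exact exists_const_mul_pow_chart H hA L9.z9 hx Hx (L9.z9k_ne_zero k) hY hqm hm2 hτ hw0 hwO hwiO
    hw1 hD

end Nine

end Fermat.Agent.S34x.Inst.TheoremBHaupt
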