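/-
helper37 (P-S34, WP3-inst, the small generic pieces of the final discharge at a good level;
requested by helper45 for `Inst/FinalSkeleton`):

* (a) base data for `A : ValuationSubring ℚ̄` over `q`: the residue field is algebraically closed of
  characteristic `q`, `A` has rank one (in the exact shapes of the variables of `Inst/RedSetupInst`);
* (b) integers prime to `q` are units of `A`;
* (c) `Target.KummerSemistable N A 1` (trivial);
* (d) `exists_divisor_of_dvd_ord` : if `m` divides all orders of `z ≠ 0` there is a divisor `D`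
  with `m D = div z`;
* (e) `hB_of_forall_divisor` : the adapter from the `w`-uniform output of
  `Lattice2/AssembleCounts.exists_const_mul_pow_of_counts` (which takes a divisor `D` with
  `m D = div w`) to the hypothesis `hB` of `Target.kummerSemistable_of_steps`.
-/
import Fermat.Agent.S34x.Target
import Fermat.Agent.Gateway.C0.RankOne
import Fermat.Agent.Gateway.ES.ResidueField
import Fermat.Agent.Gateway.Hecke.Inputs

set_option autoImplicit false
set_option linter.unusedSectionVars false

noncomputable section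

namespace Fermat.Agent.S34x.Inst.FinalBase

open ModularCurve AlgebraicCurve Fermat.Agent.Gateway.Kummer

local notation "Qb" => AlgebraicClosure ℚ

/-! ### (a) base data -/

section Base

variable (A : ValuationSubring Qb) {q : ℕ}

/-- the residue map of `A` is surjective -/
theorem residue_surjective : Function.Surjective (IsLocalRing.residue A) :=
  IsLocalRing.residue_surjective

/-- the residue field of `A` is algebraically closed -/
theorem isAlgClosed_residueField : IsAlgClosed (IsLocalRing.ResidueField A) :=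
  Fermat.Agent.Gateway.ES.isAlgClosed_residueField A

/-- the residue field of `A` over `q` has characteristic `q` -/
theorem charP_residueField [Fact q.Prime] (hA : A.LiesOverPrime q) :
    CharP (IsLocalRing.ResidueField A) q :=
  Fermat.Agent.Gateway.ES.charP_residueField_of_liesOverPrime A hA

/-- `A` has rank one (shape of `C0.RedSetup.rank_one` / the variable `hrk` of
`Inst/RedSetupInst`) -/
theorem rank_one (hq : q.Prime) (hA : A.LiesOverPrime q) :
    ∀ x ∈ IsLocalRing.maximalIdeal A, ∀ c : A, c ≠ 0 → ∃ j : ℕ, c ∣ x ^ j :=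
  haveI : Algebra.IsAlgebraic ℚ Qb := AlgebraicClosure.isAlgebraic ℚ
  Fermat.Agent.Gateway.C0.rank_one_of_isAlgebraic A hq hA

/-! ### (b) integers prime to `q` are units -/

/-- **(b)** a natural number prime to `q` is a unit of `A` -/
theorem isUnit_natCast (hq : q.Prime) (hA : A.LiesOverPrime q) {m : ℕ} (hm : ¬ q ∣ m) :
    IsUnit ((m : ℕ) : A) := by
  have hv : A.valuation ((m : ℤ) : Qb) = 1 :=
    Fermat.Agent.Gateway.C0.valuation_intCast_eq_one A hq hA (by exact_mod_cast hm)
  have hv' : A.valuation (((m : ℕ) : A) : Qb) = 1 := by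
    simpa using hv
  exact (A.valuation_eq_one_iff _).mpr hv'

end Base

/-! ### (c) the exponent `1` -/

/-- **(c)** the Kummer form of Theorem B is trivial for `m = 1` -/
theorem kummerSemistable_one (N : ℕ) (A : ValuationSubring Qb) :
    Target.KummerSemistable N A 1 := by
  intro τ _ u _ _
  exact ⟨1, (arithmeticGalois (modularFunctionFieldFull N) τ •
      arithmeticGalois (modularFunctionFieldFull N) τ • u) * u /
    (arithmeticGalois (modularFunctionFieldFull N) τ • u) ^ 2, by rw [map_one, one_mul, pow_one]⟩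

/-! ### (d) division of a principal divisor by `m` -/

section Divisor

variable {K F : Type*} [Field K] [Field F] [Algebra K F]

/-- **(d)**, general form: if `m > 0` divides all the orders of `z ≠ 0` and `z` has a divisor,
there is a divisor `D` with `m D = div z` (no positivity of `m` needed). -/
theorem exists_divisor_of_dvd_ord_of_divisor {m : ℕ} {z : F}
    (D₀ : Divisor K F) (hD₀ : ∀ v : Place K F, D₀ v = v.ord z)
    (hdiv : ∀ P : Place K F, (m : ℤ) ∣ P.ord z) :
    ∃ D : Divisor K F, ∀ v : Place K F, (m : ℤ) * D v = v.ord z := by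
  refine ⟨D₀.mapRange (fun n => n / (m : ℤ)) (Int.zero_ediv _), fun v => ?_⟩
  rw [Finsupp.mapRange_apply, hD₀ v]
  exact Int.mul_ediv_cancel' (hdiv v)

/-- **(d)** with `HasPrincipalDivisors` -/
theorem exists_divisor_of_dvd_ord' [HasPrincipalDivisors K F] {m : ℕ} {z : F}
    (hz : z ≠ 0) (hdiv : ∀ P : Place K F, (m : ℤ) ∣ P.ord z) :
    ∃ D : Divisor K F, ∀ v : Place K F, (m : ℤ) * D v = v.ord z := by
  obtain ⟨D₀, hD₀, -⟩ := HasPrincipalDivisors.exists_divisor (K := K) z hz
  exact exists_divisor_of_dvd_ord_of_divisor D₀ hD₀ hdiv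

end Divisor

/-- **(d)** for the modular function field of level `N` over `ℚ̄` -/
theorem exists_divisor_of_dvd_ord {N : ℕ} [NeZero N] {m : ℕ} {z : FF Qb N}
    (hdiv : ∀ P : Place Qb (FF Qb N), (m : ℤ) ∣ P.ord z) (hz : z ≠ 0) (_hm : 0 < m) :
    ∃ D : Divisor Qb (FF Qb N), ∀ v : Place Qb (FF Qb N), (m : ℤ) * D v = v.ord z :=
  haveI : HasPrincipalDivisors Qb (FF Qb N) :=
    Fermat.Agent.Gateway.Hecke.hasPrincipalDivisors_full Qb N
  exists_divisor_of_dvd_ord' hz hdiv

/-! ### (e) the adapter to `Target.kummerSemistable_of_steps` -/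

/-- **(e)** from the `w`-uniform output of `Lattice2/AssembleCounts` (quantified over a divisor
`D` with `m D = div w`) to the hypothesis `hB` of `Target.kummerSemistable_of_steps`; `Red1` is
arbitrary (in the application: `Red1 z := ∃ hz : z ∈ S.O, z⁻¹ ∈ S.O ∧ R.res ⟨z, hz⟩ = 1`). -/
theorem hB_of_forall_divisor {N : ℕ} [NeZero N] {A : ValuationSubring Qb} {m : ℕ} (hm : 0 < m)
    (Red1 : FF Qb N → Prop)
    (h : ∀ τ ∈ A.inertiaSubgroupIn ℚ, ∀ w : FF Qb N, w ≠ 0 → Red1 w →
      ∀ D : Divisor Qb (FF Qb N), (∀ v : Place Qb (FF Qb N), (m : ℤ) * D v = v.ord w) →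
        ∃ (c : Qb) (v : FF Qb N),
          arithmeticGalois (modularFunctionFieldFull N) τ • w / w
            = algebraMap Qb (FF Qb N) c * v ^ m) :
    ∀ τ ∈ A.inertiaSubgroupIn ℚ, ∀ z : FF Qb N, z ≠ 0 →
      (∀ P : Place Qb (FF Qb N), (m : ℤ) ∣ P.ord z) → Red1 z →
      ∃ (c : Qb) (w : FF Qb N),
        arithmeticGalois (modularFunctionFieldFull N) τ • z / z
          = algebraMap Qb (FF Qb N) c * w ^ m := by
  intro τ hτ z hz hdiv hred
  obtain ⟨D, hD⟩ := exists_divisor_of_dvd_ord hdiv hz hm
  exact h τ hτ z hz hred D hD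

end Fermat.Agent.S34x.Inst.FinalBase
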