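/-
helper45 (P-S34, final discharge): **the Kummer form of Theorem B at the good levels**,
`Target.KummerSemistableAtGoodLevels`, unconditionally.

For `A ⊆ ℚ̄` over `q`, `k := ResidueField A`, `π := residue A`, `H := ResidueInst.residueFacts`,
`R := RedSetupInst.redSetup2 H hA` at level `M₀ q`:
`Target.kummerSemistable_of_steps` with
* `RedC := StepsAbs.ConstRed (redSetupInfty H hA) (redSetupZero H hA)`,
  `Red1 := StepsAbs.OneRed (redSetupInfty H hA) (redSetupZero H hA) rfl`,
* (I) `FinalStepsI.hI`, (N) `FinalStepsN.hN` (helper44, on helper70's `StepsAbs`),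
* (B) `TheoremBHaupt.exists_const_mul_pow_x4` (`q` odd, `4 ∣ M₀`) resp. `_z9` (`q = 2`, `9 ∣ M₀`)
  through `FinalBase.hB_of_forall_divisor` (helper37);
the exponent `m = 1` is `FinalBase.kummerSemistable_one`.
-/
import Fermat.Agent.S34x.Inst.TheoremBHaupt
import Fermat.Agent.S34x.Inst.FinalBase
import Fermat.Agent.S34x.Inst.FinalStepsI
import Fermat.Agent.S34x.Inst.FinalStepsN
import Fermat.Agent.S34x.TwoVal.ResidueInst
import Fermat.Agent.Gateway.Descent.HeckeSq

set_option autoImplicit false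
set_option linter.style.haveILetI false
set_option linter.unusedSectionVars false

noncomputable section

namespace Fermat.Agent.S34x.Inst.FinalMq

open ModularCurve AlgebraicCurve IntermediateField IsLocalRing
open Fermat.Agent.Gateway.Hecke Fermat.Agent.Gateway.ESC Fermat.Agent.Gateway.Kummer
open Fermat.Agent.Gateway.Red Fermat.Agent.Gateway.GoodRed Fermat.Agent.Gateway.Descent
open Fermat.Agent.S34x.TwoVal Fermat.Agent.S34x.C0two
open Fermat.Agent.S34x.Inst.RedSetupInst

local notation "Qb" => AlgebraicClosure ℚ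

attribute [-instance] IsScalarTower.of_algHom

/-- `[F_{Mq} : α F_M] = q + 1` over `ℚ̄`. -/
theorem hdeg_Qb (M q : ℕ) [NeZero M] [NeZero q] (hq : q.Prime) (hqM : ¬ q ∣ M) :
    finrankAlong Qb (heckeAlphaBar Qb M q) = q + 1 :=
  HeckeSq.finrank_mul_prime M q hq hqM

/-- **The Kummer form of Theorem B at a good level `M₀ q`.** -/
theorem kummerSemistable_good (M₀ q m : ℕ) [NeZero M₀] [NeZero q] (hm : 0 < m) (hq : q.Prime)
    (hqm : ¬ q ∣ m) (hqM : ¬ q ∣ M₀) (hgood : (q ≠ 2 ∧ 4 ∣ M₀) ∨ (q = 2 ∧ 9 ∣ M₀))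
    (A : ValuationSubring Qb) (hA : A.LiesOverPrime q) :
    Target.KummerSemistable (M₀ * q) A m := by
  rcases Nat.lt_or_ge m 2 with h1 | hm2
  · have hm1 : m = 1 := by omega
    subst hm1
    exact FinalBase.kummerSemistable_one _ A
  haveI : Algebra.IsAlgebraic ℚ Qb := AlgebraicClosure.isAlgebraic ℚ
  haveI : Fact q.Prime := ⟨hq⟩
  haveI : IsAlgClosed (ResidueField A) := FinalBase.isAlgClosed_residueField A
  haveI : CharP (ResidueField A) q := FinalBase.charP_residueField A hA
  haveI : PerfectRing (ResidueField A) q := inferInstance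
  have hπ : Function.Surjective (residue A) := FinalBase.residue_surjective A
  have hrk := FinalBase.rank_one A hq hA
  have hdeg := hdeg_Qb M₀ q hq hqM
  have H : ResidueFacts A (residue A) M₀ q hdeg hq hqM hrk hπ :=
    ResidueInst.residueFacts A (residue A) M₀ q hdeg hq hqM hrk hπ
  refine Target.kummerSemistable_of_steps
    (StepsAbs.ConstRed (redSetupInfty H hA) (redSetupZero H hA))
    (StepsAbs.OneRed (redSetupInfty H hA) (redSetupZero H hA) rfl)
    (FinalStepsI.hI H hA) (FinalStepsN.hN H hA hm) ?_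
  refine FinalBase.hB_of_forall_divisor hm _ ?_
  rintro τ hτ w hw0 ⟨hwO, hwiO, hw1⟩ D hD
  rcases hgood with ⟨hq2, h4⟩ | ⟨hq2, h9⟩
  · exact TheoremBHaupt.exists_const_mul_pow_x4 h4 hq2 H hA hqm hm2 hτ hw0 hwO hwiO hw1 hD
  · subst hq2
    exact TheoremBHaupt.exists_const_mul_pow_z9 h9 H hA hqm hm2 hτ hw0 hwO hwiO hw1 hD

/-- **The single remaining input of S34 is a theorem.** -/
theorem kummerSemistableAtGoodLevels : Target.KummerSemistableAtGoodLevels :=
  fun M₀ q m _ _ hm hq hqm hqM hgood A hA =>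
    kummerSemistable_good M₀ q m hm hq hqm hqM hgood A hA

end Fermat.Agent.S34x.Inst.FinalMq
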