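/-
P-S34, (I5) support (helper30): the base hypotheses of `S34x/Gauss2G0` (`exists_basis_inf_ball_pow`)
for the Gauss valuation ring of a rational function field,
`(Kx, Ox, kx, πx) := (RatFunc L, GaussRing.Ox hπ hord hlc, k⟮redA A π ξ⟯, GaussRing.redOx hπ hord hlc)`
and `t := RatFunc.X` (helper61's `Gateway/GoodRed/GaussRing`).
-/
import Mathlib
import Fermat.Agent.Gateway.GoodRed.GaussRing
import Fermat.Agent.S34x.Gauss2G0

set_option autoImplicit false
set_option linter.unusedSectionVars false

namespace Fermat.Agent.S34x.Inst.GaussBase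

open Polynomial IntermediateField Fermat.Agent.Gateway.GoodRed Fermat.Agent.Gateway.Red

variable {L : Type*} [Field L] {A : ValuationSubring L} {k : Type*} [Field k] {π : A →+* k}
  {ξ : LaurentSeries A}
  (hπ : Function.Surjective π) (hord : ξ.order < 0) (hlc : IsUnit ξ.leadingCoeff)

/-- constants of `A` lie in the Gauss ring -/
theorem algebraMap_mem_Ox (a : A) :
    algebraMap L (RatFunc L) (a : L) ∈ GaussRing.Ox hπ hord hlc := by
  rw [RatFunc.algebraMap_eq_C]
  exact (GaussRing.C_mem_Ox_iff hπ hord hlc _).mpr a.2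

/-- the reduction of the Gauss ring restricts to `π` on the constants -/
theorem redOx_algebraMap (a : A) :
    GaussRing.redOx hπ hord hlc ⟨algebraMap L (RatFunc L) (a : L), algebraMap_mem_Ox hπ hord hlc a⟩ =
      algebraMap k (k⟮redA A π ξ⟯) (π a) := by
  apply Subtype.ext
  have h1 : (⟨algebraMap L (RatFunc L) (a : L), algebraMap_mem_Ox hπ hord hlc a⟩ :
      GaussRing.Ox hπ hord hlc) =
      ⟨RatFunc.C (a : L), (GaussRing.C_mem_Ox_iff hπ hord hlc _).mpr a.2⟩ :=
    Subtype.ext (congrFun (congrArg DFunLike.coe RatFunc.algebraMap_eq_C) (a : L))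
  rw [h1, GaussRing.redOx_C]
  exact (GaussRing.algebraMap_eq_C k (π a)).symm

/-- the reduction kills the maximal ideal -/
theorem redOx_eq_zero_of_mem (c : GaussRing.Ox hπ hord hlc)
    (hc : c ∈ IsLocalRing.maximalIdeal (GaussRing.Ox hπ hord hlc)) :
    GaussRing.redOx hπ hord hlc c = 0 :=
  (GaussRing.redOx_eq_zero_iff hπ hord hlc c).mpr hc

/-- the reduction of `X` is transcendental over `k` -/
theorem transcendental_redOx_X :
    Transcendental k
      (GaussRing.redOx hπ hord hlc ⟨RatFunc.X, GaussRing.X_mem_Ox hπ hord hlc⟩) := by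
  have h : Transcendental k (redA A π ξ) := GaussRing.transcendental_redA hord hlc
  rw [← GaussRing.redOx_X hπ hord hlc] at h
  exact (transcendental_algebraMap_iff
    (algebraMap (k⟮redA A π ξ⟯) (LaurentSeries k)).injective).mp h

/-- `L(X)` is the fraction field of `L[X]` -/
theorem exists_num_denom (x : RatFunc L) :
    ∃ p q : L[X], aeval (RatFunc.X : RatFunc L) q ≠ 0 ∧
      aeval (RatFunc.X : RatFunc L) q * x = aeval (RatFunc.X : RatFunc L) p := by
  refine ⟨x.num, x.denom, ?_, ?_⟩
  · rw [RatFunc.aeval_X_left_eq_algebraMap]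
    exact RatFunc.algebraMap_ne_zero x.denom_ne_zero
  · rw [RatFunc.aeval_X_left_eq_algebraMap, RatFunc.aeval_X_left_eq_algebraMap]
    have h := RatFunc.num_div_denom x
    have h0 : algebraMap L[X] (RatFunc L) x.denom ≠ 0 :=
      RatFunc.algebraMap_ne_zero x.denom_ne_zero
    calc algebraMap L[X] (RatFunc L) x.denom * x
        = algebraMap L[X] (RatFunc L) x.denom *
          (algebraMap L[X] (RatFunc L) x.num / algebraMap L[X] (RatFunc L) x.denom) := by rw [h]
      _ = algebraMap L[X] (RatFunc L) x.num := mul_div_cancel₀ _ h0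

/-- **Gauss normalisation**: every nonzero polynomial has a constant multiple which is a unit of
the Gauss ring. -/
theorem exists_unit_smul (q : L[X]) (hq : aeval (RatFunc.X : RatFunc L) q ≠ 0) :
    ∃ c : L, c ≠ 0 ∧ c • aeval (RatFunc.X : RatFunc L) q ∈ GaussRing.Ox hπ hord hlc ∧
      (c • aeval (RatFunc.X : RatFunc L) q)⁻¹ ∈ GaussRing.Ox hπ hord hlc := by
  have hq0 : q ≠ 0 := by
    rintro rfl
    exact hq (map_zero _)
  obtain ⟨c, P, hc, hP, hn⟩ := GaussRing.exists_primitive_normalisation A hq0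
  have hP' := GaussRing.map_pi_ne_zero_of_coeff_eq_one A π hn
  have key : c⁻¹ • aeval (RatFunc.X : RatFunc L) q =
      algebraMap L[X] (RatFunc L) (P.map A.subtype) := by
    rw [RatFunc.aeval_X_left_eq_algebraMap]
    conv_lhs => rw [hP]
    rw [map_mul, RatFunc.algebraMap_C, Algebra.smul_def, RatFunc.algebraMap_eq_C, ← mul_assoc,
      ← map_mul, inv_mul_cancel₀ hc, map_one, one_mul]
  refine ⟨c⁻¹, inv_ne_zero hc, ?_, ?_⟩
  · rw [key, GaussRing.algebraMap_mem_Ox_iff]
    intro n
    rw [Polynomial.coeff_map]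
    exact (P.coeff n).2
  · rw [key]
    have h1 : (algebraMap L[X] (RatFunc L) (P.map A.subtype))⁻¹ = GaussRing.nf A 1 1 P := by
      rw [GaussRing.nf]
      simp
    rw [h1]
    refine (GaussRing.nf_mem_Ox_iff hπ hord hlc 1 ?_ hP').mpr A.one_mem
    rw [Polynomial.map_one]
    exact one_ne_zero

end Fermat.Agent.S34x.Inst.GaussBase
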