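/-
P-S34, (I5) support (helper30): valuation rings of a function field `F / K(t)` over a valuation
ring `A` of `K`, with `t` integral and of transcendental reduction, lie over THE Gauss valuation
ring of `K(X)`; instance-free packaging of `S34x/Gauss2Val` + `S34x/Gauss2G0`.

* `section Canonical`: `OxK hπ` (the Gauss valuation ring of `RatFunc K`, via the auxiliary series
  `z⁻¹`), `redK hπ : OxK hπ →+* RatFunc k`, `redK_nf`, and the base hypotheses of `Gauss2G0`.
* `section Abstract`: for a valuation subring `V` of `F` with reduction `res : V →+* κ` extending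
  `π` on the constants and killing the non-units, `t ∈ V` with `res t` transcendental over `k`:
  `evalRF_mem` (`c ∈ OxK → c(t) ∈ V`), `res_evalRF` (`res (c(t)) = (redK c)(res t)`).
* `section Family`: INSTANCE-FREE statements for a finite family `V i` with the separation
  property and `[F : K(t)] ≤ ∑ [κ i : k(res i t)]`: **(G0)** `exists_basis_inf_ball_of_param`,
  `exists_smul_of_redAll_eq_zero_of_param`, **(L0)** `exists_basis_of_param`
  (`hRx_of_param`, `hbasex_of_param`, `hdeg_of_param` are the hypotheses of `Gauss2Val`/`Gauss2G0`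
  for the local instances `algRF`).
-/
import Mathlib
import Fermat.Agent.Gateway.GoodRed.GaussRing
import Fermat.Agent.S34x.Gauss2G0
import Fermat.Agent.S34x.Gauss2Inc
import Fermat.Agent.S34x.Inst.GaussBase

set_option autoImplicit false
set_option linter.unusedSectionVars false

noncomputable section

namespace Fermat.Agent.S34x.Inst.GaussAbs

open Polynomial IntermediateField Fermat.Agent.Gateway.GoodRed Fermat.Agent.Gateway.Red
open Fermat.Agent.S34x

section Canonical

variable {K : Type*} [Field K] (A : ValuationSubring K) {k : Type*} [Field k] {π : A →+* k}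

/-- the auxiliary series `z⁻¹` -/
def xi0 : LaurentSeries A := HahnSeries.single (-1 : ℤ) (1 : A)

theorem xi0_order : (xi0 A).order < 0 := by
  rw [xi0, HahnSeries.order_single one_ne_zero]
  norm_num

theorem xi0_lc : IsUnit (xi0 A).leadingCoeff := by
  rw [xi0, HahnSeries.leadingCoeff_of_single]
  exact isUnit_one

variable {A} (hπ : Function.Surjective π)

/-- **the Gauss valuation ring of `K(X)`** over the valuation ring `A` of `K` -/
abbrev OxK : ValuationSubring (RatFunc K) := GaussRing.Ox hπ (xi0_order A) (xi0_lc A)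

theorem mem_OxK_iff {c : RatFunc K} :
    c ∈ OxK hπ ↔
      ∃ (e : A) (P Q : A[X]), P.map π ≠ 0 ∧ Q.map π ≠ 0 ∧ c = GaussRing.nf A (e : K) P Q :=
  GaussRing.mem_Ox_iff hπ (xi0_order A) (xi0_lc A)

/-- the reduction of the Gauss valuation ring, with values in `k(X)` -/
def redK : OxK hπ →+* RatFunc k :=
  ((RatFunc.algEquivOfTranscendental (redA A π (xi0 A))
      (GaussRing.transcendental_redA (xi0_order A) (xi0_lc A))).symm :
        k⟮redA A π (xi0 A)⟯ →+* RatFunc k).comp
    (GaussRing.redOx hπ (xi0_order A) (xi0_lc A))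

theorem evalRF_redK (c : OxK hπ) :
    GaussRing.evalRF (redA A π (xi0 A)) (GaussRing.transcendental_redA (xi0_order A) (xi0_lc A))
      (redK hπ c) = GaussRing.redOxHom hπ (xi0_order A) (xi0_lc A) c := by
  show ((RatFunc.algEquivOfTranscendental (redA A π (xi0 A))
      (GaussRing.transcendental_redA (xi0_order A) (xi0_lc A)))
    ((RatFunc.algEquivOfTranscendental (redA A π (xi0 A))
      (GaussRing.transcendental_redA (xi0_order A) (xi0_lc A))).symm _) : LaurentSeries k) = _
  rw [AlgEquiv.apply_symm_apply]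
  rfl

/-- the value of `redK` on a normal form -/
theorem redK_nf (e : A) (P : A[X]) {Q : A[X]} (hQ : Q.map π ≠ 0)
    (hmem : GaussRing.nf A (e : K) P Q ∈ OxK hπ) :
    redK hπ ⟨_, hmem⟩ =
      RatFunc.C (π e) * algebraMap k[X] (RatFunc k) (P.map π) /
        algebraMap k[X] (RatFunc k) (Q.map π) := by
  apply GaussRing.evalRF_injective (redA A π (xi0 A))
    (GaussRing.transcendental_redA (xi0_order A) (xi0_lc A))
  rw [evalRF_redK, GaussRing.redOxHom_nf hπ (xi0_order A) (xi0_lc A) e P hQ, map_div₀, map_mul,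
    GaussRing.evalRF_C, GaussRing.evalRF_algebraMap, GaussRing.evalRF_algebraMap,
    GaussRing.algebraMap_eq_C, mul_div_assoc]

theorem redK_eq_zero_iff (c : OxK hπ) :
    redK hπ c = 0 ↔ c ∈ IsLocalRing.maximalIdeal (OxK hπ) := by
  rw [← GaussRing.redOx_eq_zero_iff hπ (xi0_order A) (xi0_lc A)]
  show (RatFunc.algEquivOfTranscendental _ _).symm _ = 0 ↔ _
  exact map_eq_zero_iff _ (AlgEquiv.injective _)

theorem redK_surjective : Function.Surjective (redK hπ) := by
  intro g
  obtain ⟨c, hc⟩ := GaussRing.redOx_surjective hπ (xi0_order A) (xi0_lc A)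
    ((RatFunc.algEquivOfTranscendental (redA A π (xi0 A))
      (GaussRing.transcendental_redA (xi0_order A) (xi0_lc A))) g)
  refine ⟨c, ?_⟩
  show (RatFunc.algEquivOfTranscendental _ _).symm _ = g
  rw [hc, AlgEquiv.symm_apply_apply]

/-- `hπA` -/
theorem redK_algebraMap (a : A) :
    redK hπ ⟨algebraMap K (RatFunc K) (a : K),
      GaussBase.algebraMap_mem_Ox hπ (xi0_order A) (xi0_lc A) a⟩ =
      algebraMap k (RatFunc k) (π a) := by
  show (RatFunc.algEquivOfTranscendental _ _).symm _ = _
  rw [GaussBase.redOx_algebraMap hπ (xi0_order A) (xi0_lc A) a, AlgEquiv.commutes]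

theorem X_mem_OxK : (RatFunc.X : RatFunc K) ∈ OxK hπ :=
  GaussRing.X_mem_Ox hπ (xi0_order A) (xi0_lc A)

theorem redK_X : redK hπ ⟨RatFunc.X, X_mem_OxK hπ⟩ = RatFunc.X := by
  apply GaussRing.evalRF_injective (redA A π (xi0 A))
    (GaussRing.transcendental_redA (xi0_order A) (xi0_lc A))
  rw [evalRF_redK, GaussRing.evalRF_X, ← GaussRing.redOx_X hπ (xi0_order A) (xi0_lc A),
    GaussRing.redOx_coe]

theorem transcendental_redK_X : Transcendental k (redK hπ ⟨RatFunc.X, X_mem_OxK hπ⟩) := by
  rw [redK_X]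
  exact RatFunc.transcendental_X

end Canonical

/-- the `K(X)`-algebra structure `X ↦ x` attached to a transcendental element -/
@[reducible] def algRF {K E : Type*} [Field K] [Field E] [Algebra K E] (x : E)
    (hx : Transcendental K x) : Algebra (RatFunc K) E :=
  (GaussRing.evalRF x hx).toRingHom.toAlgebra

theorem algRF_algebraMap {K E : Type*} [Field K] [Field E] [Algebra K E] (x : E)
    (hx : Transcendental K x) (g : RatFunc K) :
    @algebraMap (RatFunc K) E _ _ (algRF x hx) g = GaussRing.evalRF x hx g := rfl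

theorem algRF_isScalarTower {K E : Type*} [Field K] [Field E] [Algebra K E] (x : E)
    (hx : Transcendental K x) :
    @IsScalarTower K (RatFunc K) E _ (algRF x hx).toSMul _ :=
  letI := algRF x hx
  IsScalarTower.of_algebraMap_eq fun c => ((GaussRing.evalRF x hx).commutes c).symm

theorem algRF_finrank {K E : Type*} [Field K] [Field E] [Algebra K E] (x : E)
    (hx : Transcendental K x) :
    @Module.finrank (RatFunc K) E _ _ (algRF x hx).toModule = Module.finrank K⟮x⟯ E := by
  letI := algRF x hx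
  refine Algebra.finrank_eq_of_equiv_equiv
    (RatFunc.algEquivOfTranscendental x hx).toRingEquiv (RingEquiv.refl E) ?_
  ext g
  rfl

theorem algRF_finite {K E : Type*} [Field K] [Field E] [Algebra K E] (x : E)
    (hx : Transcendental K x) [FiniteDimensional K⟮x⟯ E] :
    @Module.Finite (RatFunc K) E _ _ (algRF x hx).toModule := by
  letI := algRF x hx
  apply Module.finite_of_finrank_pos
  rw [algRF_finrank x hx]
  exact Module.finrank_pos

section Abstract

variable {K : Type*} [Field K] {A : ValuationSubring K} {k : Type*} [Field k] {π : A →+* k}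
  (hπ : Function.Surjective π)
  {F : Type*} [Field F] [Algebra K F] (V : ValuationSubring F)
  {κ : Type*} [Field κ] [Algebra k κ] (res : V →+* κ)
  (hRA : ∀ a : A, algebraMap K F (a : K) ∈ V)
  (hresA : ∀ a : A, res ⟨algebraMap K F (a : K), hRA a⟩ = algebraMap k κ (π a))
  (hker : ∀ f : V, V.valuation (f : F) < 1 → res f = 0)
  (t : F) (ht : t ∈ V)

/-- the constants `A → V` -/
def cstHom : A →+* V := (algebraMap K F).restrict A V fun x hx => hRA ⟨x, hx⟩

theorem coe_eval₂_cst (P : A[X]) :
    ((P.eval₂ (cstHom V hRA) ⟨t, ht⟩ : V) : F) = aeval t (P.map A.subtype) := by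
  have h := hom_eval₂ P (cstHom V hRA) V.subtype ⟨t, ht⟩
  rw [aeval_def, eval₂_map]
  exact h

include hresA in
theorem res_eval₂_cst (P : A[X]) :
    res (P.eval₂ (cstHom V hRA) ⟨t, ht⟩) = aeval (res ⟨t, ht⟩) (P.map π) := by
  rw [hom_eval₂, aeval_def, eval₂_map]
  congr 1
  ext a
  exact hresA a

include hRA ht in
theorem aeval_mem (P : A[X]) : aeval t (P.map A.subtype) ∈ V := by
  rw [← coe_eval₂_cst V hRA t ht]
  exact Subtype.mem _

include hresA in
theorem res_aeval (P : A[X]) :
    res ⟨aeval t (P.map A.subtype), aeval_mem V hRA t ht P⟩ = aeval (res ⟨t, ht⟩) (P.map π) := by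
  rw [← res_eval₂_cst V res hRA hresA t ht P]
  congr 1
  exact Subtype.ext (coe_eval₂_cst V hRA t ht P).symm

include hker in
theorem inv_mem_of_res_ne_zero (f : V) (hf : res f ≠ 0) : (f : F)⁻¹ ∈ V := by
  by_contra h
  exact hf (hker f (Gauss2Inc.valuation_lt_one_of_mem_of_inv_notMem V f.2 h))

theorem res_inv (f : V) (hf' : (f : F)⁻¹ ∈ V) (hf0 : (f : F) ≠ 0) :
    res ⟨(f : F)⁻¹, hf'⟩ = (res f)⁻¹ := by
  have h1 : f * ⟨(f : F)⁻¹, hf'⟩ = 1 := Subtype.ext (mul_inv_cancel₀ hf0)
  have h2 := congrArg res h1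
  rw [map_mul, map_one] at h2
  exact eq_inv_of_mul_eq_one_right h2

variable (htK : Transcendental K t) (htr : Transcendental k (res ⟨t, ht⟩))

theorem evalRF_nf (e : K) (P Q : A[X]) :
    GaussRing.evalRF t htK (GaussRing.nf A e P Q) =
      algebraMap K F e * (aeval t (P.map A.subtype) * (aeval t (Q.map A.subtype))⁻¹) := by
  rw [GaussRing.nf, map_div₀, map_mul, GaussRing.evalRF_C, GaussRing.evalRF_algebraMap,
    GaussRing.evalRF_algebraMap, mul_div_assoc, div_eq_mul_inv]

include hresA hker htr in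
theorem aeval_inv_mem {Q : A[X]} (hQ : Q.map π ≠ 0) : (aeval t (Q.map A.subtype))⁻¹ ∈ V := by
  refine inv_mem_of_res_ne_zero V res hker ⟨_, aeval_mem V hRA t ht Q⟩ ?_
  rw [res_aeval V res hRA hresA t ht Q]
  exact fun h => hQ (transcendental_iff.mp htr _ h)

include hresA hker htr in
/-- **the Gauss ring is integral at `V`**: `c ∈ OxK → c(t) ∈ V`. -/
theorem evalRF_mem (c : RatFunc K) (hc : c ∈ OxK hπ) : GaussRing.evalRF t htK c ∈ V := by
  obtain ⟨e, P, Q, -, hQ, rfl⟩ := (mem_OxK_iff hπ).mp hc
  rw [evalRF_nf t htK]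
  exact V.mul_mem _ _ (hRA e) (V.mul_mem _ _ (aeval_mem V hRA t ht P)
    (aeval_inv_mem V res hRA hresA hker t ht htr hQ))

include hresA hker htr in
/-- **compatibility of the reductions**: `res (c(t)) = (redK c)(res t)`. -/
theorem res_evalRF (c : OxK hπ) :
    res ⟨GaussRing.evalRF t htK (c : RatFunc K),
        evalRF_mem hπ V res hRA hresA hker t ht htK htr c c.2⟩ =
      GaussRing.evalRF (res ⟨t, ht⟩) htr (redK hπ c) := by
  obtain ⟨c, hc⟩ := c
  obtain ⟨e, P, Q, -, hQ, rfl⟩ := (mem_OxK_iff hπ).mp hc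
  rw [redK_nf hπ e P hQ hc]
  have hQinv := aeval_inv_mem V res hRA hresA hker t ht htr hQ
  have hQ0 : aeval t (Q.map A.subtype) ≠ 0 := by
    intro h0
    have h1 := res_aeval V res hRA hresA t ht Q
    have h2 : (⟨aeval t (Q.map A.subtype), aeval_mem V hRA t ht Q⟩ : V) = 0 := Subtype.ext h0
    rw [h2, map_zero] at h1
    exact hQ (transcendental_iff.mp htr _ h1.symm)
  have h1 : (⟨GaussRing.evalRF t htK (GaussRing.nf A (e : K) P Q),
      evalRF_mem hπ V res hRA hresA hker t ht htK htr _ hc⟩ : V) =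
      ⟨algebraMap K F (e : K), hRA e⟩ * (⟨aeval t (P.map A.subtype), aeval_mem V hRA t ht P⟩ *
        ⟨(aeval t (Q.map A.subtype))⁻¹, hQinv⟩) :=
    Subtype.ext (evalRF_nf t htK (e : K) P Q)
  rw [h1, map_mul, map_mul, hresA,
    res_inv V res ⟨aeval t (Q.map A.subtype), aeval_mem V hRA t ht Q⟩ hQinv hQ0,
    res_aeval V res hRA hresA t ht P, res_aeval V res hRA hresA t ht Q, map_div₀, map_mul,
    GaussRing.evalRF_C, GaussRing.evalRF_algebraMap, GaussRing.evalRF_algebraMap, mul_div_assoc,
    div_eq_mul_inv]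

end Abstract

section Family

open Gauss2Val

variable {K : Type*} [Field K] (A : ValuationSubring K) {k : Type*} [Field k] (π : A →+* k)
  (hπ : Function.Surjective π)
  {F : Type*} [Field F] [Algebra K F] (t : F) (htK : Transcendental K t)
  {ι : Type*} (V : ι → ValuationSubring F)
  {κ : ι → Type*} [∀ i, Field (κ i)] [∀ i, Algebra k (κ i)]
  (res : ∀ i, V i →+* κ i)
  (hRA : ∀ (i : ι) (a : A), algebraMap K F (a : K) ∈ V i)
  (hresA : ∀ (i : ι) (a : A), res i ⟨algebraMap K F (a : K), hRA i a⟩ = algebraMap k (κ i) (π a))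
  (hker : ∀ (i : ι) (f : V i), (V i).valuation (f : F) < 1 → res i f = 0)
  (ht : ∀ i, t ∈ V i) (htr : ∀ i, Transcendental k (res i ⟨t, ht i⟩))

include hπ htK hresA hker htr in
/-- the Gauss ring of `K(X)` is integral at every `V i` (`hRx` of `Gauss2G0`) -/
theorem hRx_of_param (i : ι) (c : OxK hπ) :
    @algebraMap (RatFunc K) F _ _ (algRF t htK) (c : RatFunc K) ∈ V i :=
  evalRF_mem hπ (V i) (res i) (hRA i) (hresA i) (hker i) t (ht i) htK (htr i) c c.2

include hπ htK hresA hker htr in
/-- compatibility of the reductions (`hbasex` of `Gauss2G0`) -/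
theorem hbasex_of_param (i : ι) (c : OxK hπ) :
    res i ⟨@algebraMap (RatFunc K) F _ _ (algRF t htK) (c : RatFunc K),
        hRx_of_param A π hπ t htK V res hRA hresA hker ht htr i c⟩ =
      @algebraMap (RatFunc k) (κ i) _ _ (algRF (res i ⟨t, ht i⟩) (htr i)) (redK hπ c) :=
  res_evalRF hπ (V i) (res i) (hRA i) (hresA i) (hker i) t (ht i) htK (htr i) c

include hπ htK hresA hker htr in
/-- the degree hypothesis of `Gauss2G0`, from the instance-free one -/
theorem hdeg_of_param [Fintype ι] [FiniteDimensional K⟮t⟯ F]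
    (hsep : Sep V) (hsurj : ∀ i, Function.Surjective (res i))
    (hdeg : Module.finrank K⟮t⟯ F ≤ ∑ i, Module.finrank k⟮res i ⟨t, ht i⟩⟯ (κ i)) :
    @Module.finrank (RatFunc K) F _ _ (algRF t htK).toModule ≤
      @Module.finrank (RatFunc k) (∀ i, κ i) _ _
        (@Pi.module ι κ (RatFunc k) _ _ fun i => (algRF (res i ⟨t, ht i⟩) (htr i)).toModule) := by
  letI : Algebra (RatFunc K) F := algRF t htK
  haveI : FiniteDimensional (RatFunc K) F := algRF_finite t htK
  letI : ∀ i, Algebra (RatFunc k) (κ i) := fun i => algRF (res i ⟨t, ht i⟩) (htr i)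
  have hfin : ∀ i, Module.Finite (RatFunc k) (κ i) :=
    finite_residue (OxK hπ) V (hRx_of_param A π hπ t htK V res hRA hresA hker ht htr) res
      (redK hπ) (hbasex_of_param A π hπ t htK V res hRA hresA hker ht htr) hker hsep hsurj
  rw [Module.finrank_pi_fintype (RatFunc k), algRF_finrank t htK]
  refine hdeg.trans (le_of_eq (Finset.sum_congr rfl fun i _ => ?_))
  exact (algRF_finrank _ (htr i)).symm

include hπ htK hresA hker htr in
/-- **(G0), instance-free form.**  `F / K(t)` finite, `V i` finitely many valuation rings of `F`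
over the valuation ring `A` of `K` with the separation property, with reductions `res i` onto
fields `κ i`, `t ∈ V i` with `res i t` transcendental over `k`, and
`[F : K(t)] ≤ ∑ [κ i : k(res i t)]`.  Then for every finite-dimensional `K`-subspace `W` of `F`
the lattice `W ∩ ⋂ V i` is `A`-free on `dim_K W` elements which are `K`-independent and whose joint
reductions are `k`-independent. -/
theorem exists_basis_inf_ball_of_param [Fintype ι] [FiniteDimensional K⟮t⟯ F]
    (hsep : Sep V) (hsurj : ∀ i, Function.Surjective (res i))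
    (hdeg : Module.finrank K⟮t⟯ F ≤ ∑ i, Module.finrank k⟮res i ⟨t, ht i⟩⟯ (κ i))
    (W : Submodule K F) [FiniteDimensional K W] :
    ∃ c : Fin (Module.finrank K W) → ball A V hRA, (∀ i, (c i : F) ∈ W) ∧
      LinearIndependent K (fun i => (c i : F)) ∧
      LinearIndependent k (fun i => redAll A V hRA res (c i)) ∧
      ∀ f : ball A V hRA, (f : F) ∈ W →
        ∃ a : Fin (Module.finrank K W) → A, f = ∑ i, a i • c i := by
  letI : Algebra (RatFunc K) F := algRF t htK
  haveI : IsScalarTower K (RatFunc K) F := algRF_isScalarTower t htK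
  haveI : FiniteDimensional (RatFunc K) F := algRF_finite t htK
  letI : ∀ i, Algebra (RatFunc k) (κ i) := fun i => algRF (res i ⟨t, ht i⟩) (htr i)
  haveI : ∀ i, IsScalarTower k (RatFunc k) (κ i) := fun i => algRF_isScalarTower _ (htr i)
  exact Gauss2G0.exists_basis_inf_ball_pow A π (OxK hπ) (redK hπ) V
    (hRx_of_param A π hπ t htK V res hRA hresA hker ht htr) hRA
    (GaussBase.algebraMap_mem_Ox hπ (xi0_order A) (xi0_lc A)) res
    (hbasex_of_param A π hπ t htK V res hRA hresA hker ht htr) (redK_algebraMap hπ)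
    (fun a ha => (GaussRing.pi_eq_zero_iff hπ a).mpr ha)
    (fun c hc => (redK_eq_zero_iff hπ c).mpr hc) hker RatFunc.X (X_mem_OxK hπ)
    (transcendental_redK_X hπ) GaussBase.exists_num_denom
    (GaussBase.exists_unit_smul hπ (xi0_order A) (xi0_lc A)) hπ hsep hsurj
    (hdeg_of_param A π hπ t htK V res hRA hresA hker ht htr hsep hsurj hdeg) W

include hπ htK hresA hker htr in
/-- **(G0), kernel of the joint reduction, instance-free form.** -/
theorem exists_smul_of_redAll_eq_zero_of_param [Fintype ι] [FiniteDimensional K⟮t⟯ F]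
    (hsep : Sep V) (hsurj : ∀ i, Function.Surjective (res i))
    (hdeg : Module.finrank K⟮t⟯ F ≤ ∑ i, Module.finrank k⟮res i ⟨t, ht i⟩⟯ (κ i))
    (W : Submodule K F) [FiniteDimensional K W]
    (f : ball A V hRA) (hfW : (f : F) ∈ W) (h0 : redAll A V hRA res f = 0) :
    ∃ (a : A) (f' : ball A V hRA), a ∈ IsLocalRing.maximalIdeal A ∧ f = a • f' ∧
      (f' : F) ∈ W := by
  letI : Algebra (RatFunc K) F := algRF t htK
  haveI : IsScalarTower K (RatFunc K) F := algRF_isScalarTower t htK
  haveI : FiniteDimensional (RatFunc K) F := algRF_finite t htK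
  letI : ∀ i, Algebra (RatFunc k) (κ i) := fun i => algRF (res i ⟨t, ht i⟩) (htr i)
  haveI : ∀ i, IsScalarTower k (RatFunc k) (κ i) := fun i => algRF_isScalarTower _ (htr i)
  exact Gauss2G0.exists_smul_of_redAll_eq_zero_pow A π (OxK hπ) (redK hπ) V
    (hRx_of_param A π hπ t htK V res hRA hresA hker ht htr) hRA
    (GaussBase.algebraMap_mem_Ox hπ (xi0_order A) (xi0_lc A)) res
    (hbasex_of_param A π hπ t htK V res hRA hresA hker ht htr) (redK_algebraMap hπ)
    (fun a ha => (GaussRing.pi_eq_zero_iff hπ a).mpr ha)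
    (fun c hc => (redK_eq_zero_iff hπ c).mpr hc) hker RatFunc.X (X_mem_OxK hπ)
    (transcendental_redK_X hπ) GaussBase.exists_num_denom
    (GaussBase.exists_unit_smul hπ (xi0_order A) (xi0_lc A)) hsep hsurj
    (hdeg_of_param A π hπ t htK V res hRA hresA hker ht htr hsep hsurj hdeg) W f hfW h0

include hπ htK hresA hker htr in
/-- **(L0), instance-free form**: `⋂ V i` is free over the Gauss ring on `n = [F : K(t)]` elements
`b j` which form a `K(t)`-basis of `F` and whose joint reductions are independent over `k(X)`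
(acting on `κ i` through `X ↦ res i t`). -/
theorem exists_basis_of_param [Fintype ι] [FiniteDimensional K⟮t⟯ F]
    (hsep : Sep V) (hsurj : ∀ i, Function.Surjective (res i))
    (hdeg : Module.finrank K⟮t⟯ F ≤ ∑ i, Module.finrank k⟮res i ⟨t, ht i⟩⟯ (κ i)) :
    ∃ (n : ℕ) (_ : n = Module.finrank K⟮t⟯ F) (b : Fin n → F) (hb : ∀ j i, b j ∈ V i),
      LinearIndependent K⟮t⟯ b ∧
      (∀ f : F, (∀ i, f ∈ V i) → ∃ c : Fin n → RatFunc K,
        (∀ j, c j ∈ OxK hπ) ∧ f = ∑ j, GaussRing.evalRF t htK (c j) * b j) ∧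
      (∀ g : Fin n → RatFunc k,
        (∀ i, ∑ j, GaussRing.evalRF (res i ⟨t, ht i⟩) (htr i) (g j) * res i ⟨b j, hb j i⟩ = 0) →
        ∀ j, g j = 0) := by
  classical
  letI : Algebra (RatFunc K) F := algRF t htK
  haveI : IsScalarTower K (RatFunc K) F := algRF_isScalarTower t htK
  haveI : FiniteDimensional (RatFunc K) F := algRF_finite t htK
  letI : ∀ i, Algebra (RatFunc k) (κ i) := fun i => algRF (res i ⟨t, ht i⟩) (htr i)
  obtain ⟨b, hbK, -, hbk, -, hgen⟩ := exists_basis_ball (OxK hπ) V
    (hRx_of_param A π hπ t htK V res hRA hresA hker ht htr) res (redK hπ)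
    (hbasex_of_param A π hπ t htK V res hRA hresA hker ht htr) hker
    (fun c hc => (redK_eq_zero_iff hπ c).mpr hc) hsep hsurj
    (hdeg_of_param A π hπ t htK V res hRA hresA hker ht htr hsep hsurj hdeg)
  refine ⟨_, algRF_finrank t htK, fun j => (b j : F), fun j i => (b j).2 i, ?_, ?_, ?_⟩
  · rw [Fintype.linearIndependent_iff]
    intro c hc
    choose g hg using fun j =>
      GaussRing.exists_evalRF_eq_of_mem_adjoin t htK (c j).2
    have h1 : ∑ j, g j • (b j : F) = 0 := by
      rw [← hc]
      refine Finset.sum_congr rfl fun j _ => ?_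
      rw [Algebra.smul_def, algRF_algebraMap, hg j]
      rfl
    have h2 := Fintype.linearIndependent_iff.mp hbK g h1
    intro j
    apply Subtype.ext
    rw [← hg j, h2 j, map_zero]
    rfl
  · intro f hf
    obtain ⟨c, hc⟩ := hgen ⟨f, hf⟩
    refine ⟨fun j => (c j : RatFunc K), fun j => (c j).2, ?_⟩
    have h1 := congrArg (fun x : ball (OxK hπ) V _ => (x : F)) hc
    simp only [Gauss2.coe_sum_smul] at h1
    rw [h1]
    refine Finset.sum_congr rfl fun j _ => ?_
    rw [Algebra.smul_def, algRF_algebraMap]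
  · intro g hg
    apply Fintype.linearIndependent_iff.mp hbk g
    funext i
    rw [Finset.sum_apply, Pi.zero_apply, ← hg i]
    refine Finset.sum_congr rfl fun j _ => ?_
    rw [Pi.smul_apply, Algebra.smul_def, algRF_algebraMap]
    rfl

end Family

end Fermat.Agent.S34x.Inst.GaussAbs
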