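import Fermat.Agent.S34x.Inst.KSideInst
import Fermat.Agent.S34x.Inst.L2
import Fermat.Agent.Gateway.C0.Exports

/-!
# P-S34, WP3-inst (J3): the `k`-side package from the level facts of a chart function

helper26.  From `H : L2.GoodLevelFactsT A π M ℓ hπ hℓM x` (helper44's hypothesis structure: the
deep GoodRed inputs at level `M` for a chart function `x ∈ F_M`):

* `coordOfFacts H : SepCoord k (Fk k M)` with coordinate `t̄' = resFk ⟨x, H.mem⟩`;
* `genusFF_eq_of_facts`, `finrank_eq_of_facts` : the genus and the degree are PRESERVED by reduction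
  (the reverse inequalities come from the (C0) counting data);
* `KSidePackage` : the `k`-side filtration package in the shapes consumed by `UBMain.ubMain`
  (`hPmono hTP hPfin hP`), `TheoremB.exists_global` (`hgen hrad`) and `Counts.exists_counts`
  (`hP` with `n := (q+1) n'`, `cP := 2 - 2 g'`);
* `SepCoord.package_inf`, `SepCoord.package_zero` : the package for ANY separating coordinate;
* `package_inf_of_facts`, `package_zero_of_facts` : the package with `n'`, `g'` the
  characteristic-0 degree `[F_M : L(x)]` and genus of `F_M`.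
-/

set_option autoImplicit false
set_option linter.unusedSectionVars false
set_option linter.style.haveILetI false

noncomputable section

namespace Fermat.Agent.S34x.Inst.KSideFacts

open AlgebraicCurve Polynomial IntermediateField Module ModularCurve
open Fermat.Agent.Gateway.Red Fermat.Agent.Gateway.GoodRed Fermat.Agent.Gateway.C0
open Fermat.Agent.Gateway.GoodRed.ConjFamily
open Fermat.Agent.S34x.Lattice2 Fermat.Agent.S34x.Inst.KSideInst Fermat.Agent.S34x.Inst.L2

section Package

/-- **The `k`-side filtration package** for a filtration `P` of a `k`-algebra `κ` and the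
multiplier `T`: monotone, `T P b ≤ P (b+1)`, finite-dimensional, radical, generated in degree one
and of dimension `n b + cP` from some `b₀` on. -/
structure KSidePackage (k : Type*) {κ : Type*} [Field k] [CommRing κ] [Algebra k κ] (T : κ)
    (P : ℕ → Submodule k κ) (n : ℕ) (cP : ℤ) : Prop where
  mono : Monotone P
  mul_mem : ∀ b, ∀ p ∈ P b, T * p ∈ P (b + 1)
  finite : ∀ b, Module.Finite k (P b)
  radical : ∀ m : ℕ, 0 < m → ∀ (b : ℕ) (x : κ), x ^ m ∈ P (m * b) → x ∈ P b
  gen : ∃ b₀ : ℕ,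
    (∀ b, b₀ ≤ b → ∀ p ∈ P (b + 1), ∃ p₁ ∈ P b, ∃ p₂ ∈ P b, p = p₁ + T * p₂) ∧
    (∀ b, b₀ ≤ b → (finrank k (P b) : ℤ) = n * b + cP)

variable {k E : Type*} [Field k] [IsAlgClosed k] [Field E] [Algebra k E] (c : SepCoord k E)

/-- The package of chart `∞` : `P b = twoPole k T Ti 0 b`, multiplier `T = (x, x ^ q)`. -/
theorem _root_.Fermat.Agent.S34x.Inst.KSideInst.SepCoord.package_inf {q : ℕ} (hq : 0 < q) :
    KSidePackage k (c.T q) (fun b => twoPole k (c.T q) (c.Ti q) 0 b) ((q + 1) * c.deg)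
      (2 - 2 * (genusFF k E : ℤ)) := by
  obtain ⟨hfin, hrad, b₀, hgen, hdim⟩ := c.kside_inf hq
  refine ⟨fun b b' hbb' => twoPole_mono _ _ le_rfl hbb', fun b p hp => ?_, hfin, hrad, b₀, hgen,
    hdim⟩
  exact (T_mul_mem_twoPole_iff (c.T_mul_Ti q)).mpr
    (twoPole_mono _ _ (Nat.zero_le 1) le_rfl hp)

/-- The package of chart `0` : `P' a = twoPole k T Ti a 0`, multiplier `Ti = T⁻¹`. -/
theorem _root_.Fermat.Agent.S34x.Inst.KSideInst.SepCoord.package_zero {q : ℕ} (hq : 0 < q) :
    KSidePackage k (c.Ti q) (fun a => twoPole k (c.T q) (c.Ti q) a 0) ((q + 1) * c.deg)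
      (2 - 2 * (genusFF k E : ℤ)) := by
  obtain ⟨hfin, hrad, a₀, hgen, hdim⟩ := c.kside_zero hq
  refine ⟨fun a a' haa' => twoPole_mono _ _ haa' le_rfl, fun a p hp => ?_, hfin, hrad, a₀, hgen,
    hdim⟩
  -- `Ti p ∈ L((a+1) C₀)` : `T (Ti p) = p ∈ L(a C₀ + C∞)`
  rw [← T_mul_mem_twoPole_iff (c.T_mul_Ti q), ← mul_assoc, c.T_mul_Ti q, one_mul]
  exact twoPole_mono _ _ le_rfl (Nat.zero_le 1) hp

end Package

section Facts

variable {L : Type} [Field L] [Algebra ℚ L] [IsAlgClosed L] [Algebra.IsAlgebraic ℚ L]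
  {A : ValuationSubring L} {k : Type} [Field k] {π : A →+* k} [IsAlgClosed k] {M : ℕ} [NeZero M]
  {ℓ : ℕ} [Fact ℓ.Prime] [CharP k ℓ] {hπ : Function.Surjective π} {hℓM : ¬ ℓ ∣ M}
  {x : FBar L M}

/-- The separating coordinate `t̄' = resFk ⟨x, _⟩` of `Fk k M` given by the level facts. -/
def coordOfFacts (H : GoodLevelFactsT A π M ℓ hπ hℓM x) : SepCoord k (Fk k M) where
  x := resFk A π M ℓ hπ hℓM ⟨x, H.mem⟩
  transcendental := H.trans_res
  finite := H.finite_res
  separable := H.sep_res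

theorem coordOfFacts_x (H : GoodLevelFactsT A π M ℓ hπ hℓM x) :
    (coordOfFacts H).x = resFk A π M ℓ hπ hℓM ⟨x, H.mem⟩ := rfl

/-- **The genus and the degree are preserved by reduction** (chart function `x`). -/
theorem genusFF_eq_and_finrank_eq_of_facts (hA : A.LiesOverPrime ℓ)
    (H : GoodLevelFactsT A π M ℓ hπ hℓM x) :
    genusFF k (Fk k M) = genusFF L (FBar L M) ∧
      finrank k⟮resFk A π M ℓ hπ hℓM ⟨x, H.mem⟩⟯ (Fk k M) = finrank L⟮x⟯ (FBar L M) := by
  haveI : CharZero L := algebraRat.charZero L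
  haveI := H.finite
  haveI := H.finite_res
  haveI := H.sep_res
  exact genusFF_eq_and_finrank_eq (gaussRedSetup A π M ℓ hπ hℓM hA) H.trans H.mem
    (xb := resFk A π M ℓ hπ hℓM ⟨x, H.mem⟩) rfl H.trans_res H.integral H.integral_inv
    H.finrank_le H.genus_le
    (fun V hV => fg_inf_OvVal A π ℓ hπ hℓM V _ (fun f => Iff.rfl))

theorem genusFF_eq_of_facts (hA : A.LiesOverPrime ℓ) (H : GoodLevelFactsT A π M ℓ hπ hℓM x) :
    genusFF k (Fk k M) = genusFF L (FBar L M) :=
  (genusFF_eq_and_finrank_eq_of_facts hA H).1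

theorem deg_coordOfFacts (hA : A.LiesOverPrime ℓ) (H : GoodLevelFactsT A π M ℓ hπ hℓM x) :
    (coordOfFacts H).deg = finrank L⟮x⟯ (FBar L M) :=
  (genusFF_eq_and_finrank_eq_of_facts hA H).2

/-- **The `k`-side package of chart `∞` at the concrete special fibre**, with the
characteristic-0 numerics: `n = (q+1) [F_M : L(x)]`, `cP = 2 - 2 g(F_M)`. -/
theorem package_inf_of_facts (hA : A.LiesOverPrime ℓ) (H : GoodLevelFactsT A π M ℓ hπ hℓM x)
    {q : ℕ} (hq : 0 < q) :
    KSidePackage k ((coordOfFacts H).T q)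
      (fun b => twoPole k ((coordOfFacts H).T q) ((coordOfFacts H).Ti q) 0 b)
      ((q + 1) * finrank L⟮x⟯ (FBar L M)) (2 - 2 * (genusFF L (FBar L M) : ℤ)) := by
  have h := (coordOfFacts H).package_inf hq
  rwa [deg_coordOfFacts hA H, genusFF_eq_of_facts hA H] at h

/-- **The `k`-side package of chart `0` at the concrete special fibre.** -/
theorem package_zero_of_facts (hA : A.LiesOverPrime ℓ) (H : GoodLevelFactsT A π M ℓ hπ hℓM x)
    {q : ℕ} (hq : 0 < q) :
    KSidePackage k ((coordOfFacts H).Ti q)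
      (fun a => twoPole k ((coordOfFacts H).T q) ((coordOfFacts H).Ti q) a 0)
      ((q + 1) * finrank L⟮x⟯ (FBar L M)) (2 - 2 * (genusFF L (FBar L M) : ℤ)) := by
  have h := (coordOfFacts H).package_zero hq
  rwa [deg_coordOfFacts hA H, genusFF_eq_of_facts hA H] at h

end Facts

end Fermat.Agent.S34x.Inst.KSideFacts
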