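import Fermat.Agent.S34x.Inst.GaussInstMq
import Fermat.Agent.S34x.Inst.RedSetupInst
import Fermat.Agent.S34x.TwoVal.ResidueSurj
import Fermat.Agent.S34x.Inst.KSideFacts
import Fermat.Agent.S34x.Inst.Charts
import Fermat.Agent.S34x.TwoVal.IntCoeff

/-!
# P-S34, WP3-inst (J4, concrete): the chart coordinate `t = α x` at level `M q` (helper57)

For `H : RedSetupInst.ResidueFacts …`, `hA : A.LiesOverPrime q`, a chart function `x ∈ F_M` with
the level facts `Hx : L2.GoodLevelFactsT A π M q hπ hqM x` and an INTEGER expansion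
`hz : (x : L((t))) = coeffMap (Int.castRingHom L) z`:

* `chart H hA Hx z hz : Lattice2.ChartCoord (RedSetupInst.redSetup2 H hA)` with
  `chart_t : (chart …).t = heckeAlphaBar L M q x` (rfl), `chart_T : (chart …).T = (x̄, x̄ ^ q)`,
  `chart_Ti`;
* `hcart H hA Hx z hz : ∀ V, FiniteDimensional L V → ((redSetup2 H hA).lat V).FG`;
* `exists_basis_lat`, `exists_smul_of_res_eq_zero` : the finer forms of (G0).

No hypothesis besides `H`, `hA`, `Hx`, `hz` (and the standing `hdeg : finrankAlong … = q + 1`).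
-/

set_option autoImplicit false
set_option linter.unusedSectionVars false
set_option linter.style.haveILetI false

noncomputable section

namespace Fermat.Agent.S34x.Inst.ChartInst

open Polynomial ModularCurve AlgebraicCurve IntermediateField Module IsLocalRing
open Fermat.Agent.S28 Fermat.Agent.S28.Tower Fermat.Agent.Gateway.Hecke
open Fermat.Agent.Gateway.Red Fermat.Agent.Gateway.GoodRed Fermat.Agent.Gateway.ESC
open Fermat.Agent.Gateway.GoodRed.ConjFamily
open Fermat.Agent.Gateway.C0 Fermat.Agent.S34x Fermat.Agent.S34x.C0two Fermat.Agent.S34x.TwoVal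
open Fermat.Agent.S34x.Inst.RedSetupInst Fermat.Agent.S34x.Inst.L2
open Fermat.Agent.S34x.Inst.GaussInstMq

/-- shortcut (the generic search for this instance takes more than a second) -/
local instance (priority := 100000) algebraFLShortcut' (L : Type) [Field L] [Algebra ℚ L] (M : ℕ)
    [NeZero M] : Algebra L (FL L M) := inferInstance

variable {L : Type} [Field L] [Algebra ℚ L] [IsAlgClosed L] [Algebra.IsAlgebraic ℚ L]
  {A : ValuationSubring L} {k : Type} [Field k] {π : A →+* k} [IsAlgClosed k]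
  {M q : ℕ} [NeZero M] [Fact q.Prime] [CharP k q]
  {hdeg : finrankAlong L (heckeAlphaBar L M q) = q + 1} {hq : q.Prime} {hqM : ¬ q ∣ M}
  {hrk : ∀ x ∈ maximalIdeal A, ∀ c : A, c ≠ 0 → ∃ j : ℕ, c ∣ x ^ j}
  {hπ : Function.Surjective π}
  (H : ResidueFacts A π M q hdeg hq hqM hrk hπ) (hA : A.LiesOverPrime q)
  {x : FBar L M} (Hx : GoodLevelFactsT A π M q hπ hqM x) (z : LaurentSeries ℤ)
  (hz : (x : LaurentSeries L) = coeffMap (Int.castRingHom L) z)

include Hx in
theorem alpha_mem_valInfty : heckeAlphaBar L M q x ∈ valInfty A π M q hrk hπ hqM :=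
  (alpha_mem_valInfty_iff A π M q hrk hπ hqM x).mpr Hx.mem

include Hx in
theorem alpha_mem_valZero : heckeAlphaBar L M q x ∈ valZero A π M q hdeg hq hqM hrk hπ :=
  (alpha_mem_valZero_iff A π M q hdeg hq hqM hrk hπ x).mpr Hx.mem

/-- `red_∞ (α x) = x̄`. -/
theorem res_infty_alpha :
    (redSetupInfty H hA).res ⟨heckeAlphaBar L M q x, alpha_mem_valInfty Hx⟩ =
      resFk A π M q hπ hqM ⟨x, Hx.mem⟩ :=
  Subtype.ext (redV_alpha A π M q x Hx.mem)

include hz in
/-- `red_0 (α x) = x̄ ^ q` for `x` with integer expansion. -/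
theorem res_zero_alpha :
    (redSetupZero H hA).res ⟨heckeAlphaBar L M q x, alpha_mem_valZero Hx⟩ =
      (resFk A π M q hπ hqM ⟨x, Hx.mem⟩) ^ q := by
  haveI : NeZero q := ⟨(Fact.out : q.Prime).ne_zero⟩
  apply Subtype.ext
  rw [SubmonoidClass.coe_pow]
  show red0 A π M q hdeg hq hqM ⟨heckeAlphaBar L M q x, _⟩ =
    (redV A π (FBar L M) ⟨x, Hx.mem⟩) ^ q
  have h1 := red0_alpha_of_int A π M q hdeg hq hqM x z hz
  have h2 := redV_of_int A π M x z hz
  rw [h2]
  exact h1

include Hx in
theorem transcendental_res_infty :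
    Transcendental k ((redSetupInfty H hA).res ⟨heckeAlphaBar L M q x, alpha_mem_valInfty Hx⟩) := by
  rw [res_infty_alpha H hA Hx]
  exact Hx.trans_res

include hz in
theorem transcendental_res_zero :
    Transcendental k ((redSetupZero H hA).res ⟨heckeAlphaBar L M q x, alpha_mem_valZero Hx⟩) := by
  rw [res_zero_alpha H hA Hx z hz]
  exact Hx.trans_res.pow (Fact.out : q.Prime).pos

include Hx in
theorem finiteDimensional_alpha :
    FiniteDimensional L⟮heckeAlphaBar L M q x⟯ (FL L (M * q)) := by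
  haveI : NeZero q := ⟨(Fact.out : q.Prime).ne_zero⟩
  haveI : FiniteDimensional L⟮x⟯ (Gateway.HK1.FL L M) := Hx.finite
  exact Charts.finiteDimensional_tα L M q x

include hz in
/-- the degree hypothesis: `(q + 1) n' ≤ n' + q n'`. -/
theorem hdeg_alpha :
    finrank L⟮heckeAlphaBar L M q x⟯ (FL L (M * q)) ≤
      finrank k⟮(redSetupInfty H hA).res ⟨heckeAlphaBar L M q x, alpha_mem_valInfty Hx⟩⟯
          (modularFunctionFieldFullC k M) +
        finrank k⟮(redSetupZero H hA).res ⟨heckeAlphaBar L M q x, alpha_mem_valZero Hx⟩⟯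
          (modularFunctionFieldFullC k M) := by
  haveI : NeZero q := ⟨(Fact.out : q.Prime).ne_zero⟩
  haveI : FiniteDimensional L⟮x⟯ (Gateway.HK1.FL L M) := Hx.finite
  have hfin := (KSideFacts.genusFF_eq_and_finrank_eq_of_facts hA Hx).2
  refine hdeg_of (n' := finrank L⟮x⟯ (FBar L M)) (ℓ := q)
    (y := resFk A π M q hπ hqM ⟨x, Hx.mem⟩) ?_ ?_ Hx.trans_res
    (res_zero_alpha H hA Hx z hz) (le_of_eq hfin.symm)
  · exact le_of_eq (Charts.finrank_tα L M q x hdeg)
  · rw [res_infty_alpha H hA Hx]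
    exact le_of_eq hfin.symm

/-- **The concrete chart coordinate `t = α x` of `redSetup2 H hA`.** -/
def chart : Lattice2.ChartCoord (redSetup2 H hA) :=
  haveI : NeZero q := ⟨(Fact.out : q.Prime).ne_zero⟩
  haveI := finiteDimensional_alpha (q := q) Hx
  chartCoordMq A π M q hdeg hq hqM hrk hπ (redSetupInfty H hA) (redSetupZero H hA) rfl
    (alpha_mem_valInfty Hx) (alpha_mem_valZero Hx) (transcendental_res_infty H hA Hx)
    (transcendental_res_zero H hA Hx z hz)
    (ResidueInst.redSetupInfty_res_surjective H hA)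
    (ResidueInst.redSetupZero_res_surjective H hA) (hdeg_alpha H hA Hx z hz)

@[simp] theorem chart_t : (chart H hA Hx z hz).t = heckeAlphaBar L M q x := rfl

theorem chart_T :
    (chart H hA Hx z hz).T =
      (resFk A π M q hπ hqM ⟨x, Hx.mem⟩, (resFk A π M q hπ hqM ⟨x, Hx.mem⟩) ^ q) :=
  Prod.ext (res_infty_alpha H hA Hx) (res_zero_alpha H hA Hx z hz)

theorem chart_Ti :
    (chart H hA Hx z hz).Ti =
      ((resFk A π M q hπ hqM ⟨x, Hx.mem⟩)⁻¹, ((resFk A π M q hπ hqM ⟨x, Hx.mem⟩) ^ q)⁻¹) := by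
  haveI : NeZero q := ⟨(Fact.out : q.Prime).ne_zero⟩
  haveI := finiteDimensional_alpha (q := q) Hx
  have h := chartCoordMq_Ti A π M q hdeg hq hqM hrk hπ (redSetupInfty H hA) (redSetupZero H hA)
    rfl (alpha_mem_valInfty Hx) (alpha_mem_valZero Hx) (transcendental_res_infty H hA Hx)
    (transcendental_res_zero H hA Hx z hz)
    (ResidueInst.redSetupInfty_res_surjective H hA)
    (ResidueInst.redSetupZero_res_surjective H hA) (hdeg_alpha H hA Hx z hz)
  rw [res_infty_alpha H hA Hx, res_zero_alpha H hA Hx z hz] at h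
  exact h

include Hx hz in
/-- **(G0), `hcart`**: the lattice `V ∩ Ov_∞ ∩ Ov_0` of every finite dimensional `V` is finitely
generated over `A`. -/
theorem hcart (V : Submodule L (FL L (M * q))) (hV : FiniteDimensional L V) :
    ((redSetup2 H hA).lat V).FG := by
  haveI : NeZero q := ⟨(Fact.out : q.Prime).ne_zero⟩
  haveI := finiteDimensional_alpha (q := q) Hx
  exact cartesianMq A π M q hdeg hq hqM hrk hπ (redSetupInfty H hA) (redSetupZero H hA) rfl
    (alpha_mem_valInfty Hx) (alpha_mem_valZero Hx) (transcendental_res_infty H hA Hx)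
    (transcendental_res_zero H hA Hx z hz)
    (ResidueInst.redSetupInfty_res_surjective H hA)
    (ResidueInst.redSetupZero_res_surjective H hA) (hdeg_alpha H hA Hx z hz) V

include Hx hz in
/-- **(G0)**: an `A`-basis of the lattice with `k`-independent reductions. -/
theorem exists_basis_lat (V : Submodule L (FL L (M * q))) [FiniteDimensional L V] :
    ∃ (c : Fin (finrank L V) → FL L (M * q))
      (hc : ∀ j, c j ∈ (twoVal (valInfty A π M q hrk hπ hqM)
        (valZero A π M q hdeg hq hqM hrk hπ)).O), (∀ j, c j ∈ V) ∧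
      LinearIndependent L c ∧
      LinearIndependent k (fun j => (redSetup2 H hA).res ⟨c j, hc j⟩) ∧
      ∀ f ∈ (redSetup2 H hA).lat V, ∃ a : Fin (finrank L V) → A, f = ∑ j, (a j : L) • c j := by
  haveI : NeZero q := ⟨(Fact.out : q.Prime).ne_zero⟩
  haveI := finiteDimensional_alpha (q := q) Hx
  exact exists_basis_latMq A π M q hdeg hq hqM hrk hπ (redSetupInfty H hA) (redSetupZero H hA)
    rfl (alpha_mem_valInfty Hx) (alpha_mem_valZero Hx) (transcendental_res_infty H hA Hx)
    (transcendental_res_zero H hA Hx z hz)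
    (ResidueInst.redSetupInfty_res_surjective H hA)
    (ResidueInst.redSetupZero_res_surjective H hA) (hdeg_alpha H hA Hx z hz) V

include Hx hz in
/-- **(G0), kernel of the reduction on the lattice.** -/
theorem exists_smul_of_res_eq_zero (V : Submodule L (FL L (M * q))) [FiniteDimensional L V]
    {f : FL L (M * q)} (hfV : f ∈ V)
    (hfO : f ∈ (twoVal (valInfty A π M q hrk hπ hqM) (valZero A π M q hdeg hq hqM hrk hπ)).O)
    (h0 : (redSetup2 H hA).res ⟨f, hfO⟩ = 0) :
    ∃ (a : A) (f' : FL L (M * q)), a ∈ maximalIdeal A ∧ f' ∈ (redSetup2 H hA).lat V ∧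
      f = (a : L) • f' := by
  haveI : NeZero q := ⟨(Fact.out : q.Prime).ne_zero⟩
  haveI := finiteDimensional_alpha (q := q) Hx
  exact exists_smul_of_res_eq_zeroMq A π M q hdeg hq hqM hrk hπ (redSetupInfty H hA)
    (redSetupZero H hA) rfl (alpha_mem_valInfty Hx) (alpha_mem_valZero Hx)
    (transcendental_res_infty H hA Hx) (transcendental_res_zero H hA Hx z hz)
    (ResidueInst.redSetupInfty_res_surjective H hA)
    (ResidueInst.redSetupZero_res_surjective H hA) (hdeg_alpha H hA Hx z hz) V hfV hfO h0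

end Fermat.Agent.S34x.Inst.ChartInst
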