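import Fermat.Agent.S34x.Lattice2.Dim
import Fermat.Agent.S34x.C0two.Count
import Fermat.Agent.S34x.Gauss2

/-!
# P-S34, WP3-inst: the dimension inputs `hdimN` / `hdimS` of the node count (helper53)

Abstract form of the two dimension hypotheses of `UB.finrank_quotient_le_finrank_quotient`.

* `RedSetup2.finrank_redLat_le` : for every finite-dimensional `K`-subspace `V ≤ F` the reduction
  `redLat V` of the lattice `V ∩ O` is finite-dimensional over `k` of dimension `≤ dim_K V`
  (lifts of `k`-independent reductions are `K`-independent; no cartesian hypothesis);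
* `RedSetup2.finrank_redLat_eq` : equality when `V ∩ O` is a finitely generated `A`-module;
* `le_finrank_redLat_add`, `finrank_eq_finrank_redLat_add`, `exists_counts` : the counts.
-/

set_option autoImplicit false
set_option linter.unusedSectionVars false

noncomputable section

namespace Fermat.Agent.S34x.Inst.Counts

open Module IntermediateField AlgebraicCurve
open Fermat.Agent.S34x.C0two Fermat.Agent.S34x.Lattice2.Dim
open Fermat.Agent.Lib.RiemannRoch Fermat.Agent.Lib.RiemannRoch.FunctionFieldRR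

section Red

variable {K : Type*} [Field K] {A : ValuationSubring K} {F : Type*} [Field F] [Algebra K F]
  {S : SmallRing F} {k κ : Type*} [Field k] [CommRing κ] [Algebra k κ]
  (R : RedSetup2 A S k κ)

/-- The reduction of `V ∩ O` is finite-dimensional of dimension at most `dim_K V`. -/
theorem finite_and_finrank_redLat_le (V : Submodule K F) [FiniteDimensional K V] :
    FiniteDimensional k (R.redLat V) ∧ finrank k (R.redLat V) ≤ finrank K V := by
  classical
  -- the semilinear reduction map on the lattice `V ∩ O`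
  let ρ : R.lat V →+ κ :=
    { toFun := fun x => R.res ⟨(x : F), x.2.2⟩
      map_zero' := map_zero R.res
      map_add' := fun x y => map_add R.res ⟨(x : F), x.2.2⟩ ⟨(y : F), y.2.2⟩ }
  have hρ : ∀ (a : A) (x : R.lat V), ρ (a • x) = R.π a • ρ x := fun a x => R.res_smul a x.2.2
  have key : ∀ s : Finset (R.redLat V),
      LinearIndependent k (fun i : s => (i : R.redLat V)) → s.card ≤ finrank K V := by
    intro s hs
    have hlift : ∀ y : R.redLat V, ∃ x : R.lat V, ρ x = (y : κ) := by
      rintro ⟨y, x, hx, hxV, rfl⟩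
      exact ⟨⟨x, hxV, hx⟩, rfl⟩
    choose lift hlift using hlift
    let b : s → R.lat V := fun i => lift i.1
    have hb : LinearIndependent k (fun i : s => ρ (b i)) := by
      have h1 : (fun i : s => ρ (b i)) = fun i : s => (((i : R.redLat V)) : κ) :=
        funext fun i => hlift i.1
      rw [h1]
      exact hs.map' (R.redLat V).subtype (Submodule.ker_subtype _)
    have hli : LinearIndependent K (fun i : s => ((b i : R.lat V) : F)) :=
      Gauss2.linearIndependent_of_reduction A R.π (R.lat V) ρ hρ b hb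
    have hli' : LinearIndependent K (fun i : s => (⟨((b i : R.lat V) : F), (b i).2.1⟩ : V)) :=
      LinearIndependent.of_comp V.subtype hli
    have h2 := hli'.fintype_card_le_finrank
    simpa using h2
  have hrank : Module.rank k (R.redLat V) ≤ (finrank K V : Cardinal) := rank_le key
  have hfin : FiniteDimensional k (R.redLat V) :=
    Module.rank_lt_aleph0_iff.mp (lt_of_le_of_lt hrank (Cardinal.natCast_lt_aleph0))
  exact ⟨hfin, Module.finrank_le_of_rank_le hrank⟩

theorem finite_redLat (V : Submodule K F) [FiniteDimensional K V] :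
    FiniteDimensional k (R.redLat V) := (finite_and_finrank_redLat_le R V).1

theorem finrank_redLat_le (V : Submodule K F) [FiniteDimensional K V] :
    finrank k (R.redLat V) ≤ finrank K V := (finite_and_finrank_redLat_le R V).2

/-- **Cartesian lattices keep their dimension under reduction.** -/
theorem finrank_redLat_eq (V : Submodule K F) [FiniteDimensional K V] (hfg : (R.lat V).FG) :
    finrank k (R.redLat V) = finrank K V := by
  have := finite_redLat R V
  exact le_antisymm (finrank_redLat_le R V)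
    (R.finrank_le_of_fg V (R.lat V) (fun f => Iff.rfl) hfg (R.redLat V)
      (fun x hx => ⟨x, hx.2, hx.1, rfl⟩))

end Red

section Counts

variable {K : Type*} [Field K] [IsAlgClosed K] {A : ValuationSubring K} {F : Type*} [Field F]
  [Algebra K F] {S : SmallRing F} {k κ : Type*} [Field k] [CommRing κ] [Algebra k κ]
  (R : RedSetup2 A S k κ)
  {t : F} (ht : Transcendental K t) [FiniteDimensional K⟮t⟯ F] [Algebra.IsSeparable K⟮t⟯ F]
  {C : Divisor K F} (hCdeg : Divisor.degree C = (finrank K⟮t⟯ F : ℤ))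
  (P : ℕ → Submodule k κ) (n : ℕ) (hn : n = finrank K⟮t⟯ F) (cP : ℤ) (b₀ : ℕ)
  (hP : ∀ b, b₀ ≤ b → (finrank k (P b) : ℤ) = n * b + cP)

include ht hCdeg hn hP in
/-- `hdimN`, integer form: for every divisor `D` with `L(D + b C∞) ∩ O` finitely generated,
`dim P b ≤ dim red Λ(D + b C∞) + (g - 1 + c_P - deg D)` for `b ≥ b₀`. -/
theorem le_finrank_redLat_add (D : Divisor K F) (b : ℕ) (hb : b₀ ≤ b)
    (hfg : (R.lat (Lb D C b)).FG) :
    (finrank k (P b) : ℤ) ≤
      finrank k (R.redLat (Lb D C b)) + (genusFF K F - 1 + cP - Divisor.degree D) := by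
  subst hn
  have := finite_Lb ht D C b
  have h1 := le_finrank_Lb ht hCdeg D b
  have h2 := finrank_redLat_eq R (Lb D C b) hfg
  have h3 := hP b hb
  rw [h2]
  linarith [mul_comm ((finrank K⟮t⟯ F : ℕ) : ℤ) (b : ℤ)]

include ht hCdeg hn hP in
/-- `hdimS`, integer form: for `b ≥ b₀` with `b n > 2 g - 2`,
`dim P b = dim red Λ(D + b C∞) + (g - 1 + c_P - deg D)`. -/
theorem finrank_eq_finrank_redLat_add (D : Divisor K F) (b : ℕ) (hb : b₀ ≤ b)
    (hb' : 2 * (genusFF K F : ℤ) - 2 < Divisor.degree D + b * (finrank K⟮t⟯ F : ℤ))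
    (hfg : (R.lat (Lb D C b)).FG) :
    (finrank k (P b) : ℤ) =
      finrank k (R.redLat (Lb D C b)) + (genusFF K F - 1 + cP - Divisor.degree D) := by
  subst hn
  have := finite_Lb ht D C b
  have h1 := finrank_Lb ht hCdeg D hb'
  have h2 := finrank_redLat_eq R (Lb D C b) hfg
  have h3 := hP b hb
  rw [h2]
  linarith [mul_comm ((finrank K⟮t⟯ F : ℕ) : ℤ) (b : ℤ)]

include ht hCdeg hn hP in
/-- **The two dimension inputs of the node count**, in the shape of
`UB.finrank_quotient_le_finrank_quotient`: with `δ = g - 1 + c_P` (`= g - 2 g' + 1` for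
`c_P = 2 - 2 g'`), there is `b₁` such that for `b ≥ b₁`
`dim P b ≤ dim red Λ(D + b C∞) + δ` for every `D` of degree `0`, with equality for `D = 0`. -/
theorem exists_counts (hn0 : 0 < n)
    (hcart : ∀ (D : Divisor K F), Divisor.degree D = 0 → ∀ b, (R.lat (Lb D C b)).FG)
    (δ : ℕ) (hδ : (δ : ℤ) = genusFF K F - 1 + cP) :
    ∃ b₁, b₀ ≤ b₁ ∧
      (∀ D : Divisor K F, Divisor.degree D = 0 → ∀ b, b₁ ≤ b →
        finrank k (P b) ≤ finrank k (R.redLat (Lb D C b)) + δ) ∧
      (∀ b, b₁ ≤ b → finrank k (P b) = finrank k (R.redLat (Lb 0 C b)) + δ) := by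
  refine ⟨max b₀ (2 * genusFF K F), le_max_left _ _, fun D hD b hb => ?_, fun b hb => ?_⟩
  · have h := le_finrank_redLat_add R ht hCdeg P n hn cP b₀ hP D b ((le_max_left _ _).trans hb)
      (hcart D hD b)
    rw [hD] at h
    have h' : (finrank k (P b) : ℤ) ≤ ((finrank k (R.redLat (Lb D C b)) + δ : ℕ) : ℤ) := by
      push_cast
      linarith
    exact_mod_cast h'
  · have hdeg0 : Divisor.degree (0 : Divisor K F) = 0 := map_zero _
    have hb2 : 2 * genusFF K F ≤ b := (le_max_right _ _).trans hb
    have hn1 : (1 : ℤ) ≤ (finrank K⟮t⟯ F : ℤ) := by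
      rw [← hn]
      exact_mod_cast hn0
    have hb' : 2 * (genusFF K F : ℤ) - 2 <
        Divisor.degree (0 : Divisor K F) + b * (finrank K⟮t⟯ F : ℤ) := by
      rw [hdeg0, zero_add]
      have h4 : (2 * genusFF K F : ℤ) ≤ (b : ℤ) := by exact_mod_cast hb2
      have h5 : (0 : ℤ) ≤ (b : ℤ) := Int.natCast_nonneg _
      nlinarith
    have h := finrank_eq_finrank_redLat_add R ht hCdeg P n hn cP b₀ hP 0 b
      ((le_max_left _ _).trans hb) hb' (hcart 0 hdeg0 b)
    rw [hdeg0] at h
    have h' : (finrank k (P b) : ℤ) = ((finrank k (R.redLat (Lb 0 C b)) + δ : ℕ) : ℤ) := by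
      push_cast
      linarith
    exact_mod_cast h'

include ht hCdeg hn hP in
/-- `δ = g - 1 + c_P` is a natural number as soon as `red Λ(b C∞) ≤ P b` for large `b`. -/
theorem exists_delta (hn0 : 0 < n)
    (hcart : ∀ b, (R.lat (Lb 0 C b)).FG) [∀ b, FiniteDimensional k (P b)]
    (hSP : ∀ b, R.redLat (Lb 0 C b) ≤ P b) :
    ∃ δ : ℕ, (δ : ℤ) = genusFF K F - 1 + cP := by
  set b := max b₀ (2 * genusFF K F) with hbdef
  have hdeg0 : Divisor.degree (0 : Divisor K F) = 0 := map_zero _
  have hb2 : 2 * genusFF K F ≤ b := le_max_right _ _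
  have hn1 : (1 : ℤ) ≤ (finrank K⟮t⟯ F : ℤ) := by
    rw [← hn]
    exact_mod_cast hn0
  have hb' : 2 * (genusFF K F : ℤ) - 2 <
      Divisor.degree (0 : Divisor K F) + b * (finrank K⟮t⟯ F : ℤ) := by
    rw [hdeg0, zero_add]
    have h4 : (2 * genusFF K F : ℤ) ≤ (b : ℤ) := by exact_mod_cast hb2
    have h5 : (0 : ℤ) ≤ (b : ℤ) := Int.natCast_nonneg _
    nlinarith
  have h := finrank_eq_finrank_redLat_add R ht hCdeg P n hn cP b₀ hP 0 b (le_max_left _ _) hb'
    (hcart b)
  rw [hdeg0] at h
  have hle : finrank k (R.redLat (Lb 0 C b)) ≤ finrank k (P b) := Submodule.finrank_mono (hSP b)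
  have hle' : (finrank k (R.redLat (Lb 0 C b)) : ℤ) ≤ finrank k (P b) := by exact_mod_cast hle
  refine ⟨(genusFF K F - 1 + cP : ℤ).toNat, Int.toNat_of_nonneg ?_⟩
  linarith

end Counts

end Fermat.Agent.S34x.Inst.Counts
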