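import Fermat.Agent.S34x.Inst.CountsInst
import Fermat.Agent.S34x.Inst.KSideFacts
import Fermat.Agent.S34x.Inst.Charts

/-!
# P-S34 WP3-inst (J8'): the counts `hdimS` / `hdimN` at level `M q`

helper72.  `CountsInst.exists_counts_prod` at the concrete special fibre `κ = Fk k M × Fk k M`,
chart coordinate `C.t = α x` (`x ∈ F_M` a chart function with `H : L2.GoodLevelFactsT .. x`),
`C.T = (x̄, x̄ ^ q)` (`x̄ = resFk x`): the degree `[F_{Mq} : L(α x)] = (q+1) [F_M : L(x)]`
(`Charts.finrank_tα`) and the `k`-side degree / genus are those of characteristic `0`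
(`KSideFacts`), so `δ = g(F_{Mq}) - 2 g(F_M) + 1`.
-/

set_option autoImplicit false
set_option linter.unusedSectionVars false
set_option linter.style.haveILetI false

noncomputable section

namespace Fermat.Agent.S34x.Inst.CountsMq

open AlgebraicCurve IntermediateField Module ModularCurve
open Fermat.Agent.Gateway Fermat.Agent.Gateway.C0 Fermat.Agent.Gateway.GoodRed
open Fermat.Agent.Gateway.GoodRed.ConjFamily
open Fermat.Agent.S34x.C0two Fermat.Agent.S34x.Lattice2
open Fermat.Agent.S34x.Inst.KSideInst Fermat.Agent.S34x.Inst.KSideFacts Fermat.Agent.S34x.Inst.L2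

variable {L : Type} [Field L] [Algebra ℚ L] [IsAlgClosed L] [Algebra.IsAlgebraic ℚ L]
  {A : ValuationSubring L} {k : Type} [Field k] {π : A →+* k} [IsAlgClosed k] {M : ℕ} [NeZero M]
  {q : ℕ} [Fact q.Prime] [CharP k q] {hπ : Function.Surjective π} {hqM : ¬ q ∣ M}
  {x : FBar L M}

/-- `[F_{Mq} : L(α x)] = (q + 1) [Fk k M : k(x̄)]`. -/
theorem finrank_alpha_eq (hA : A.LiesOverPrime q) (H : GoodLevelFactsT A π M q hπ hqM x)
    (hdeg : finrankAlong L (heckeAlphaBar L M q) = q + 1) :
    haveI := H.finite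
    finrank L⟮heckeAlphaBar L M q x⟯ (HK1.FL L (M * q)) = (q + 1) * (coordOfFacts H).deg := by
  haveI := H.finite
  have h1 := deg_coordOfFacts hA H
  have h2 := Charts.finrank_tα L M q x hdeg
  rw [h1]
  exact h2.trans (Nat.mul_comm _ _)

variable {S : SmallRing (HK1.FL L (M * q))} {R : RedSetup2 A S k (Fk k M × Fk k M)}
  (C : ChartCoord R)

/-- the chart coordinate `α x` is transcendental -/
theorem transcendental_t (H : GoodLevelFactsT A π M q hπ hqM x)
    (hCt : C.t = heckeAlphaBar L M q x) : Transcendental L C.t := by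
  rw [hCt]
  exact Charts.transcendental_tα L M q H.trans

theorem finiteDimensional_t (H : GoodLevelFactsT A π M q hπ hqM x)
    (hCt : C.t = heckeAlphaBar L M q x) : FiniteDimensional L⟮C.t⟯ (HK1.FL L (M * q)) := by
  haveI := H.finite
  rw [hCt]
  exact Charts.finiteDimensional_tα L M q x

theorem isSeparable_t (H : GoodLevelFactsT A π M q hπ hqM x)
    (hCt : C.t = heckeAlphaBar L M q x) :
    haveI := finiteDimensional_t C H hCt
    Algebra.IsSeparable L⟮C.t⟯ (HK1.FL L (M * q)) := by
  haveI := finiteDimensional_t C H hCt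
  haveI : CharZero L := algebraRat.charZero L
  exact Charts.isSeparable_adjoin_of_charZero _

/-- `hn` of `CountsInst.exists_counts_prod` / `Lattice2.exists_const_mul_pow_of_prod`. -/
theorem finrank_t_eq (hA : A.LiesOverPrime q) (H : GoodLevelFactsT A π M q hπ hqM x)
    (hdeg : finrankAlong L (heckeAlphaBar L M q) = q + 1)
    (hCt : C.t = heckeAlphaBar L M q x) :
    haveI := (coordOfFacts H).finite
    finrank L⟮C.t⟯ (HK1.FL L (M * q)) = (q + 1) * finrank k⟮(coordOfFacts H).x⟯ (Fk k M) := by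
  rw [hCt]
  exact finrank_alpha_eq hA H hdeg

/-- **`hdimS` / `hdimN` at level `M q`** with the characteristic-`0` numerics:
`δ = g(F_{Mq}) - 2 g(F_M) + 1`. -/
theorem exists_counts_of_facts (hA : A.LiesOverPrime q) (H : GoodLevelFactsT A π M q hπ hqM x)
    (hdeg : finrankAlong L (heckeAlphaBar L M q) = q + 1)
    (hCt : C.t = heckeAlphaBar L M q x) (hT : C.T = (coordOfFacts H).T q)
    {Dt : Divisor L (HK1.FL L (M * q))}
    (hDt : ∀ v : Place L (HK1.FL L (M * q)), Dt v = v.ord C.t)
    (hcart : ∀ E' : Divisor L (HK1.FL L (M * q)), Divisor.degree E' = 0 → ∀ b,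
      (R.lat ((TwoCharts.ofDivisor Dt).LM E' 0 b)).FG) :
    ∃ δ : ℕ, (δ : ℤ) = genusFF L (HK1.FL L (M * q)) - 2 * genusFF L (FBar L M) + 1 ∧ ∃ b₁,
      (∀ b, b₁ ≤ b → finrank k (C.Pk 0 b) = finrank k (R.redLat (C.LN 0 b)) + δ) ∧
      (∀ E' : Divisor L (HK1.FL L (M * q)), Divisor.degree E' = 0 → ∀ b, b₁ ≤ b →
        finrank k (C.Pk 0 b) ≤
          finrank k (R.redLat ((TwoCharts.ofDivisor Dt).LM E' 0 b)) + δ) := by
  haveI := finiteDimensional_t C H hCt
  haveI := isSeparable_t C H hCt
  haveI := (coordOfFacts H).finite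
  haveI := (coordOfFacts H).separable
  have hq0 : 0 < q := (Fact.out : q.Prime).pos
  have h := CountsInst.exists_counts_prod (coordOfFacts H).transcendental hq0 C hT
    (transcendental_t C H hCt) hDt (finrank_t_eq C hA H hdeg hCt) hcart
  rwa [genusFF_eq_of_facts hA H] at h

end Fermat.Agent.S34x.Inst.CountsMq
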