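import Fermat.Agent.Gateway.C0.Main
import Fermat.Agent.Gateway.Red.Filtered

/-!
# P-S34 WP3-inst: (EQ) on a chart from the abstract (C0) counting data (helper58)

Setting of `Gateway/C0/Main.lean`: `F / K` a function field over an algebraically closed field of
characteristic `0`, `x : F` transcendental, `R : RedSetup A O k κ`, `xb = res x` transcendental
over `k`, `κ / k(xb)` finite separable, and the good-level hypotheses `hint1 hint2 hdeg hgenus
hcart` of `C0.exists_countData_spec`.  Then **every element of the reduced chart ring lifts**: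

* `exists_lift_LN` : every `y ∈ L_k(a (xb)_0 + b (xb)_∞)` (`2 g_k ≤ a` or `2 g_k ≤ b`) is the
  reduction of an `f ∈ O ∩ L(a (x)_0 + b (x)_∞)`, both spaces in the integrality description;
* `exists_lift_poleFil` : the same for `poleFil` (`a = 0`);
* `exists_lift_isIntegral` : every `y` integral over `k[xb]` is the reduction of an `f ∈ O`
  integral over `K[x]`;
* `exists_lift_isIntegral_inv` : the same for the chart `x⁻¹`.

This is (EQ) for the chart function `x` (to be used with `x := t'`, the Hauptmodul at level `M`).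
-/

set_option autoImplicit false
set_option linter.unusedSectionVars false

noncomputable section

namespace Fermat.Agent.S34x.Inst.EQChart

open Module IntermediateField AlgebraicCurve
open Fermat.Agent.Gateway.C0 Fermat.Agent.Gateway.Red Fermat.Agent.Lib.RiemannRoch

variable {K : Type*} [Field K] [IsAlgClosed K] [CharZero K] {A : ValuationSubring K}
  {F : Type*} [Field F] [Algebra K F] {O : ValuationSubring F}
  {k κ : Type*} [Field k] [IsAlgClosed k] [Field κ] [Algebra k κ]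
  (R : RedSetup A O k κ)
  {x : F} (hx : Transcendental K x) [FiniteDimensional K⟮x⟯ F]
  (hxO : x ∈ O) {xb : κ} (hxb : R.res ⟨x, hxO⟩ = xb) (hxbt : Transcendental k xb)
  [FiniteDimensional k⟮xb⟯ κ] [Algebra.IsSeparable k⟮xb⟯ κ]

include hx hxbt hxb in
/-- **(EQ)**, two-sided form: lifting of `L_k(a (xb)_0 + b (xb)_∞)`. -/
theorem exists_lift_LN
    (hint1 : ∀ (f : F) (hf : f ∈ O), IsIntegral (Algebra.adjoin K {x}) f →
      IsIntegral (Algebra.adjoin k {xb}) (R.res ⟨f, hf⟩))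
    (hint2 : ∀ (f : F) (hf : f ∈ O), IsIntegral (Algebra.adjoin K {x⁻¹}) f →
      IsIntegral (Algebra.adjoin k {xb⁻¹}) (R.res ⟨f, hf⟩))
    (hdeg : finrank k⟮xb⟯ κ ≤ finrank K⟮x⟯ F)
    (hgenus : genusFF K F ≤ genusFF k κ)
    (hcart : ∀ V : Submodule K F, FiniteDimensional K V → (R.lat V).FG)
    {a b : ℕ} (hab : 2 * genusFF k κ ≤ a ∨ 2 * genusFF k κ ≤ b) {y : κ}
    (hy1 : IsIntegral (Algebra.adjoin k {xb}) (xb ^ a * y))
    (hy2 : IsIntegral (Algebra.adjoin k {xb⁻¹}) (xb⁻¹ ^ b * y)) :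
    ∃ (f : F) (hf : f ∈ O), IsIntegral (Algebra.adjoin K {x}) (x ^ a * f) ∧
      IsIntegral (Algebra.adjoin K {x⁻¹}) (x⁻¹ ^ b * f) ∧ R.res ⟨f, hf⟩ = y := by
  have hD₀ : ∀ v : Place K F, ((1 : ℕ) : ℤ) * (0 : Divisor K F) v = v.ord (1 : F) := by
    intro v
    rw [v.ord_one]
    simp
  obtain ⟨D, -, hLN, hLbar, hLM, hm₀, -⟩ :=
    exists_countData_spec R hx hxO hxb hxbt hint1 hint2 hdeg hgenus hcart
      (m := 1) one_pos (z := 1) one_ne_zero (D₀ := 0) hD₀ (map_zero _)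
  have h1O : (1 : F) ∈ O := O.one_mem
  have h11 : R.res ⟨1, h1O⟩ = 1 := map_one R.res
  have hy : y ∈ D.Lbar a b := (hLbar a b y).2 ⟨hy1, hy2⟩
  obtain ⟨f, hf, hfM, hfy⟩ := D.exists_lift h1O h11 (by rw [hm₀]; exact hab) hy
  rw [hLM rfl a b] at hfM
  obtain ⟨h1, h2⟩ := (hLN a b f).1 hfM
  exact ⟨f, hf, h1, h2, hfy⟩

include hx hxbt hxb in
/-- **(EQ)** for `poleFil`: every element of `L_k(b (xb)_∞)` is the reduction of an element of
`O ∩ L(b (x)_∞)`, for `b ≥ 2 g_k`. -/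
theorem exists_lift_poleFil
    (hint1 : ∀ (f : F) (hf : f ∈ O), IsIntegral (Algebra.adjoin K {x}) f →
      IsIntegral (Algebra.adjoin k {xb}) (R.res ⟨f, hf⟩))
    (hint2 : ∀ (f : F) (hf : f ∈ O), IsIntegral (Algebra.adjoin K {x⁻¹}) f →
      IsIntegral (Algebra.adjoin k {xb⁻¹}) (R.res ⟨f, hf⟩))
    (hdeg : finrank k⟮xb⟯ κ ≤ finrank K⟮x⟯ F)
    (hgenus : genusFF K F ≤ genusFF k κ)
    (hcart : ∀ V : Submodule K F, FiniteDimensional K V → (R.lat V).FG)
    {b : ℕ} (hb : 2 * genusFF k κ ≤ b) {y : κ} (hy : y ∈ poleFil k xb b) :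
    ∃ (f : F) (hf : f ∈ O), f ∈ poleFil K x b ∧ R.res ⟨f, hf⟩ = y := by
  obtain ⟨hy1, hy2⟩ := hy
  obtain ⟨f, hf, h1, h2, h3⟩ := exists_lift_LN R hx hxO hxb hxbt hint1 hint2 hdeg hgenus hcart
    (a := 0) (b := b) (Or.inr hb) (y := y) (by rwa [pow_zero, one_mul])
    (by rwa [mul_comm])
  refine ⟨f, hf, ⟨?_, ?_⟩, h3⟩
  · rwa [pow_zero, one_mul] at h1
  · rwa [mul_comm]

include hx hxbt hxb in
/-- **(EQ)** for the chart ring of `x`: every `y` integral over `k[xb]` is the reduction of an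
`f ∈ O` integral over `K[x]`. -/
theorem exists_lift_isIntegral
    (hint1 : ∀ (f : F) (hf : f ∈ O), IsIntegral (Algebra.adjoin K {x}) f →
      IsIntegral (Algebra.adjoin k {xb}) (R.res ⟨f, hf⟩))
    (hint2 : ∀ (f : F) (hf : f ∈ O), IsIntegral (Algebra.adjoin K {x⁻¹}) f →
      IsIntegral (Algebra.adjoin k {xb⁻¹}) (R.res ⟨f, hf⟩))
    (hdeg : finrank k⟮xb⟯ κ ≤ finrank K⟮x⟯ F)
    (hgenus : genusFF K F ≤ genusFF k κ)
    (hcart : ∀ V : Submodule K F, FiniteDimensional K V → (R.lat V).FG)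
    {y : κ} (hy : IsIntegral (Algebra.adjoin k {xb}) y) :
    ∃ (f : F) (hf : f ∈ O), IsIntegral (Algebra.adjoin K {x}) f ∧ R.res ⟨f, hf⟩ = y := by
  have hxb0 : xb ≠ 0 := by
    rintro rfl
    exact hxbt isAlgebraic_zero
  obtain ⟨m₀, hm₀⟩ := exists_mem_poleFil hxb0 hy
  obtain ⟨f, hf, hfP, hfy⟩ := exists_lift_poleFil R hx hxO hxb hxbt hint1 hint2 hdeg hgenus hcart
    (b := max m₀ (2 * genusFF k κ)) (le_max_right _ _) (hm₀ _ (le_max_left _ _))
  exact ⟨f, hf, hfP.1, hfy⟩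

include hx hxbt hxb in
/-- **(EQ)** for the chart ring of `x⁻¹`: every `y` integral over `k[xb⁻¹]` is the reduction of
an `f ∈ O` integral over `K[x⁻¹]`. -/
theorem exists_lift_isIntegral_inv
    (hint1 : ∀ (f : F) (hf : f ∈ O), IsIntegral (Algebra.adjoin K {x}) f →
      IsIntegral (Algebra.adjoin k {xb}) (R.res ⟨f, hf⟩))
    (hint2 : ∀ (f : F) (hf : f ∈ O), IsIntegral (Algebra.adjoin K {x⁻¹}) f →
      IsIntegral (Algebra.adjoin k {xb⁻¹}) (R.res ⟨f, hf⟩))
    (hdeg : finrank k⟮xb⟯ κ ≤ finrank K⟮x⟯ F)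
    (hgenus : genusFF K F ≤ genusFF k κ)
    (hcart : ∀ V : Submodule K F, FiniteDimensional K V → (R.lat V).FG)
    {y : κ} (hy : IsIntegral (Algebra.adjoin k {xb⁻¹}) y) :
    ∃ (f : F) (hf : f ∈ O), IsIntegral (Algebra.adjoin K {x⁻¹}) f ∧ R.res ⟨f, hf⟩ = y := by
  have hxb0 : xb ≠ 0 := by
    rintro rfl
    exact hxbt isAlgebraic_zero
  obtain ⟨m₀, hm₀⟩ := exists_isIntegral_mul_inv_pow (inv_ne_zero hxb0) hy
  set a := max m₀ (2 * genusFF k κ) with ha
  have h1 : IsIntegral (Algebra.adjoin k {xb}) (xb ^ a * y) := by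
    have := hm₀ a (le_max_left _ _)
    rwa [inv_inv, mul_comm] at this
  obtain ⟨f, hf, -, h2, h3⟩ := exists_lift_LN R hx hxO hxb hxbt hint1 hint2 hdeg hgenus hcart
    (a := a) (b := 0) (Or.inl (le_max_right _ _)) (y := y) h1 (by rwa [pow_zero, one_mul])
  refine ⟨f, hf, ?_, h3⟩
  rwa [pow_zero, one_mul] at h2

end Fermat.Agent.S34x.Inst.EQChart

end
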