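import Fermat.Agent.S34x.Inst.KSideFacts
import Fermat.Agent.S34x.Lattice2.Swap

/-!
# P-S34, WP3-inst: the `k`-side hypotheses in `ChartCoord` language

helper26.  `R : RedSetup2 A S k (E × E)`, `C : ChartCoord R`, `c : SepCoord k E` a separating
coordinate of the function field `E / k` (`k` algebraically closed) with

  `hT : C.T = c.T q`   (i.e. `res t = (x, x ^ q)`).

Then `C.Ti = c.Ti q`, `C.Pk a b = twoPole k (c.T q) (c.Ti q) a b`, and the `k`-side hypotheses
`hPfin`, `hgen` of `Lattice2.exists_const_mul_pow_of_counts` / `UBBridge` / `TheoremB` hold, together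
with the dimension formula `dim C.Pk a b = (q+1) n' (a+b) + 2 - 2 g'` (input `hP` of the counts),
on both charts (`C` and `C.swap`).
-/

set_option autoImplicit false
set_option linter.unusedSectionVars false
set_option linter.style.haveILetI false

noncomputable section

namespace Fermat.Agent.S34x.Inst.PkInst

open AlgebraicCurve Module IntermediateField
open Fermat.Agent.S34x.C0two Fermat.Agent.S34x.Lattice2
open Fermat.Agent.S34x.Inst.KSideInst Fermat.Agent.S34x.Inst.KSideFacts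

variable {K : Type*} [Field K] {A : ValuationSubring K} {F : Type*} [Field F] [Algebra K F]
  {S : SmallRing F} {k E : Type*} [Field k] [Field E] [Algebra k E]
  {R : RedSetup2 A S k (E × E)} (C : ChartCoord R) (c : SepCoord k E) {q : ℕ}
  (hT : C.T = c.T q)

include hT in
/-- the inverse of `res t = (x, x ^ q)` is `(x⁻¹, (x ^ q)⁻¹)`. -/
theorem Ti_eq : C.Ti = c.Ti q := by
  have h1 : c.Ti q * (C.T * C.Ti) = c.Ti q := by rw [C.T_mul_Ti, mul_one]
  rw [hT, ← mul_assoc, c.Ti_mul_T q, one_mul] at h1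
  exact h1

include hT in
theorem Pk_eq (a b : ℕ) : C.Pk a b = twoPole k (c.T q) (c.Ti q) a b := by
  show twoPole k C.T C.Ti a b = _
  rw [Ti_eq C c hT, hT]

include hT in
theorem swap_T_eq : C.swap.T = c.Ti q := by rw [C.swap_T, Ti_eq C c hT]

include hT in
theorem swap_Pk_eq (a b : ℕ) : C.swap.Pk a b = twoPole k (c.T q) (c.Ti q) b a := by
  rw [C.swap_Pk, Pk_eq C c hT]

variable [IsAlgClosed k]

include hT in
theorem finite_Pk (hq : 0 < q) (a b : ℕ) : FiniteDimensional k (C.Pk a b) := by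
  rw [Pk_eq C c hT]
  exact c.finite_twoPole hq a b

include hT in
/-- **Riemann-Roch for `C.Pk`** : `dim = (q+1) n' (a+b) + 2 - 2 g'` for `(a+b) n' > 2 g' - 2`. -/
theorem finrank_Pk (hq : 0 < q) {a b : ℕ}
    (hab : 2 * (genusFF k E : ℤ) - 2 < ((a + b : ℕ) : ℤ) * (c.deg : ℤ)) :
    (finrank k (C.Pk a b) : ℤ) =
      (((q + 1) * c.deg : ℕ) : ℤ) * ((a + b : ℕ) : ℤ) + (2 - 2 * (genusFF k E : ℤ)) := by
  rw [Pk_eq C c hT]
  exact c.finrank_twoPole hq hab

include hT in
/-- **The `k`-side package of the chart `C` (`t ≠ ∞`)** : `P b = C.Pk 0 b`, multiplier `C.T`. -/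
theorem package (hq : 0 < q) :
    KSidePackage k C.T (fun b => C.Pk 0 b) ((q + 1) * c.deg) (2 - 2 * (genusFF k E : ℤ)) := by
  have h := c.package_inf hq
  have e : (fun b => C.Pk 0 b) = fun b => twoPole k (c.T q) (c.Ti q) 0 b :=
    funext fun b => Pk_eq C c hT 0 b
  rw [e, hT]
  exact h

include hT in
/-- **The `k`-side package of the chart `C.swap` (`t ≠ 0`)** : `P a = C.swap.Pk 0 a`,
multiplier `C.swap.T = C.Ti`. -/
theorem package_swap (hq : 0 < q) :
    KSidePackage k C.swap.T (fun a => C.swap.Pk 0 a) ((q + 1) * c.deg)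
      (2 - 2 * (genusFF k E : ℤ)) := by
  have h := c.package_zero hq
  have e : (fun a => C.swap.Pk 0 a) = fun a => twoPole k (c.T q) (c.Ti q) a 0 :=
    funext fun a => swap_Pk_eq C c hT 0 a
  rw [e, swap_T_eq C c hT]
  exact h

include hT in
/-- `hPfin` of `exists_const_mul_pow_of_counts`. -/
theorem hPfin (hq : 0 < q) : ∀ b, FiniteDimensional k (C.Pk 0 b) := fun b => finite_Pk C c hT hq 0 b

include hT in
/-- `hgen` of `exists_const_mul_pow_of_counts` / `TheoremB.exists_global`, with the dimension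
formula (`hP` of the counts) from the same threshold on. -/
theorem exists_hgen (hq : 0 < q) :
    ∃ b₀ : ℕ,
      (∀ b, b₀ ≤ b → ∀ x ∈ C.Pk 0 (b + 1), ∃ y ∈ C.Pk 0 b, ∃ z ∈ C.Pk 0 b, x = y + C.T * z) ∧
      (∀ b, b₀ ≤ b → (finrank k (C.Pk 0 b) : ℤ) =
        (((q + 1) * c.deg : ℕ) : ℤ) * b + (2 - 2 * (genusFF k E : ℤ))) :=
  (package C c hT hq).gen

include hT in
/-- `hgen` for the second chart. -/
theorem exists_hgen_swap (hq : 0 < q) :
    ∃ a₀ : ℕ,
      (∀ a, a₀ ≤ a → ∀ x ∈ C.swap.Pk 0 (a + 1), ∃ y ∈ C.swap.Pk 0 a, ∃ z ∈ C.swap.Pk 0 a,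
        x = y + C.swap.T * z) ∧
      (∀ a, a₀ ≤ a → (finrank k (C.swap.Pk 0 a) : ℤ) =
        (((q + 1) * c.deg : ℕ) : ℤ) * a + (2 - 2 * (genusFF k E : ℤ))) :=
  (package_swap C c hT hq).gen

include hT in
/-- `hrad` of `TheoremB.exists_global`. -/
theorem hrad {m : ℕ} (hm : 0 < m) (b : ℕ) (x : E × E) (hx : x ^ m ∈ C.Pk 0 (m * b)) :
    x ∈ C.Pk 0 b := by
  have := twoPole_radical (k := k) (T := C.T) (Ti := C.Ti) hm 0 b x (by rwa [mul_zero])
  exact this

end Fermat.Agent.S34x.Inst.PkInst
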