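/-
helper70 (P-S34, assembly slice (A3)): the CONCRETE end of the chain at a good level `M q`
(`q ∤ M` the residue characteristic), on top of helper45's `Inst/RedSetupInst`.  This file does not
depend on `S34x/Target`; the conclusions in the language of `Target.KummerSemistable` are in
`Inst/FinalTarget`.

PART I: the steps (I) and (N) of `Target.kummerSemistable_of_steps` at level `M q`.
* `exists_divisor_of_dvd_ord` : `m ∣ ord_P z` for all `P` gives `D` with `m D = div z`.
* `exists_sep` : the separating element `(0, 1)` (from `TwoVal.exists_separating`).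
* `constRed_gal` : step (I), `τ u / u` has nonzero constant reductions at `v_∞` and `v_0` for
  every inertia element `τ` (from `TwoVal.GaloisRed` and `UnitQuot`).
* `exists_oneRed` : step (N) (from `Normalise`).

PART II: Theorem B at level `M q`.
* `TheoremBAt H hA m` : Theorem B for normalised pairs `(w, D)` (`w` a unit of `O_∞ ⊓ O_0` with
  reduction `(1, 1)`, `m D = div w`) and all inertia elements: `τ w / w = c v ^ m`.
* `theoremBAt_of_counts` : from a chart coordinate `C` of `redSetup2 H hA` fixed by inertia and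
  the `w`-independent hypotheses of `Lattice2.exists_const_mul_pow_of_counts` (the Galois inputs
  `hm, hgO, hgres` are discharged by `Inst/GaloisInst`).
* `theoremBAt_of_chart` : the same with the divisor `Dt`, the `k`-side (`Inst/PkInst`) and the
  counts (`Inst/CountsInst`) discharged from a separating coordinate `c` of `Fk k M` with
  `C.T = (c.x, c.x ^ q)` and the degree formula `[F_{Mq} : L(t)] = (q + 1) [Fk k M : k(x)]`.
-/
import Fermat.Agent.S34x.Inst.RedSetupInst
import Fermat.Agent.S34x.Inst.GaloisInst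
import Fermat.Agent.S34x.Inst.StepsAbs
import Fermat.Agent.S34x.Inst.UnitQuot
import Fermat.Agent.S34x.TwoVal.Separating
import Fermat.Agent.S34x.Lattice2.AssembleCounts
import Fermat.Agent.S34x.Inst.PkInst
import Fermat.Agent.S34x.Inst.CountsInst

set_option autoImplicit false
set_option linter.style.haveILetI false
set_option linter.unusedSectionVars false

noncomputable section

namespace Fermat.Agent.S34x.Inst.FinalSkeleton

open ModularCurve AlgebraicCurve IntermediateField IsLocalRing Module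
open Fermat.Agent.Gateway.Hecke Fermat.Agent.Gateway.ESC
open Fermat.Agent.Gateway.Red Fermat.Agent.Gateway.GoodRed
open Fermat.Agent.S34x.TwoVal Fermat.Agent.S34x.C0two Fermat.Agent.S34x.Lattice2
open Fermat.Agent.S34x.Inst.RedSetupInst Fermat.Agent.S34x.Inst.GaloisInst
open Fermat.Agent.S34x.Inst.StepsAbs Fermat.Agent.Gateway.C0

/-! ## Divisors -/

section Divisor

variable {K F : Type*} [Field K] [Field F] [Algebra K F]

/-- if `m` divides all orders of `z ≠ 0` then `div z = m D` for a divisor `D` -/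
theorem exists_divisor_of_dvd_ord [HasPrincipalDivisors K F] {m : ℕ} {z : F} (hz : z ≠ 0)
    (hdiv : ∀ P : Place K F, (m : ℤ) ∣ P.ord z) :
    ∃ D : Divisor K F, ∀ v : Place K F, (m : ℤ) * D v = v.ord z := by
  obtain ⟨Dz, hDz, -⟩ := HasPrincipalDivisors.exists_divisor (K := K) z hz
  refine ⟨Dz.mapRange (fun n => n / (m : ℤ)) (by simp), fun v => ?_⟩
  rw [Finsupp.mapRange_apply, hDz v]
  exact Int.mul_ediv_cancel' (hdiv v)

end Divisor

section Generic

variable {L : Type} [Field L] [Algebra ℚ L] [IsAlgClosed L] {A : ValuationSubring L}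
  {k : Type} [Field k] {π : A →+* k} [IsAlgClosed k]
variable {M q : ℕ} [NeZero M] [Fact q.Prime] [CharP k q]
variable {hdeg : finrankAlong L (heckeAlphaBar L M q) = q + 1} {hq : q.Prime} {hqM : ¬ q ∣ M}
variable {hrk : ∀ x ∈ maximalIdeal A, ∀ c : A, c ≠ 0 → ∃ j : ℕ, c ∣ x ^ j}
  {hπ : Function.Surjective π}
variable (H : ResidueFacts A π M q hdeg hq hqM hrk hπ) (hA : A.LiesOverPrime q)

/-! ## Part I: the steps (I) and (N) at level `M q` -/

/-- the separating element: reductions `(0, 1)` -/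
theorem exists_sep :
    ∃ s : (twoVal (valInfty A π M q hrk hπ hqM) (valZero A π M q hdeg hq hqM hrk hπ)).O,
      (redSetupTwoVal (redSetupInfty H hA) (redSetupZero H hA) rfl).res s = (0, 1) := by
  obtain ⟨s, hs, hs0, h1, h2⟩ := exists_separating A π M q hdeg hq hqM hπ
  refine ⟨⟨s, ⟨hs, hs0⟩⟩, ?_⟩
  apply prod_ext_coe
  · exact h1
  · exact h2

/-- **Step (I)**: for `τ` in the inertia group and `u ≠ 0`, the quotient `τ u / u` has nonzero
constant reductions at both valuations. -/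
theorem constRed_gal [Algebra.IsAlgebraic ℚ L] {τ : L ≃ₐ[ℚ] L}
    (hτ : τ ∈ A.inertiaSubgroupIn ℚ) {u : FL L (M * q)} (hu : u ≠ 0) :
    ConstRed (redSetupInfty H hA) (redSetupZero H hA)
      (arithmeticGalois (modularFunctionFieldFull (M * q)) τ • u / u) := by
  have hτd : τ ∈ A.decompositionSubgroup ℚ := mem_decomposition_of_mem_inertia A hτ
  refine constRed_smul_div (redSetupInfty H hA) (redSetupZero H hA)
    (arithmeticGalois (modularFunctionFieldFull (M * q)) τ)
    (fun f hf => (smul_mem_Ov_iff A π (M * q) hπ hτd f).mpr hf)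
    (fun f hf => (smul_mem_Ov0_iff A π M q hdeg hq hqM hπ hτd f).mpr hf) ?_ ?_ ?_ hu
  · intro f hf
    obtain ⟨h, e⟩ := redV_smul_of_mem_inertia A π (M * q) hπ hτ hf
    exact Subtype.ext e
  · intro f hf
    obtain ⟨h, e⟩ := red0_smul_of_mem_inertia A π M q hdeg hq hqM hπ hτ hf
    exact Subtype.ext e
  · intro d hd
    exact UnitQuot.exists_unit_eq_apply_div A hτd hd

/-- **Step (N)**: a function with nonzero constant reductions becomes a unit of `O_∞ ⊓ O_0` with
reductions `(1, 1)` after multiplication by an `m`-th power. -/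
theorem exists_oneRed {m : ℕ} (hm : 0 < m) {z : FL L (M * q)}
    (hz : ConstRed (redSetupInfty H hA) (redSetupZero H hA) z) :
    ∃ f : FL L (M * q), f ≠ 0 ∧
      OneRed (redSetupInfty H hA) (redSetupZero H hA) rfl (z * f ^ m) :=
  exists_oneRed_mul_pow (redSetupInfty H hA) (redSetupZero H hA) rfl (exists_sep H hA) hm hz

/-! ## Part II: Theorem B at level `M q` from a chart and the counts -/

/-- **Theorem B at level `M q`** for normalised pairs `(w, D)`: `w` a unit of `O_∞ ⊓ O_0` with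
reduction `(1, 1)` and `m D = div w`; for every inertia element `τ`, `τ w / w = c v ^ m`. -/
def TheoremBAt (m : ℕ) : Prop :=
  ∀ τ ∈ A.inertiaSubgroupIn ℚ, ∀ w : FL L (M * q), w ≠ 0 →
    ∀ hwO : w ∈ (S2 A π M q hdeg hq hqM hrk hπ).O, w⁻¹ ∈ (S2 A π M q hdeg hq hqM hrk hπ).O →
    (redSetup2 H hA).res ⟨w, hwO⟩ = 1 →
    ∀ D : Divisor L (FL L (M * q)),
      (∀ v : Place L (FL L (M * q)), (m : ℤ) * D v = v.ord w) →
    ∃ (c : L) (v : FL L (M * q)),
      arithmeticGalois (modularFunctionFieldFull (M * q)) τ • w / w =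
        algebraMap L (FL L (M * q)) c * v ^ m

/-- **Theorem B at level `M q`** (`2 ≤ m`, `q ∤ m`) from a chart coordinate `C` of the concrete
`redSetup2 H hA` fixed by the inertia group, and the `w`-independent hypotheses of
`Lattice2.exists_const_mul_pow_of_counts`.  The Galois inputs `hm, hgO, hgres` of that theorem are
discharged by `Inst/GaloisInst`. -/
theorem theoremBAt_of_counts (C : ChartCoord (redSetup2 H hA))
    (ht : Transcendental L C.t) [FiniteDimensional L⟮C.t⟯ (FL L (M * q))]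
    {Dt : Divisor L (FL L (M * q))}
    (hDt : ∀ v : Place L (FL L (M * q)), Dt v = v.ord C.t)
    (hcart : ∀ V : Submodule L (FL L (M * q)), FiniteDimensional L V →
      ((redSetup2 H hA).lat V).FG)
    [hPfin : ∀ b, FiniteDimensional k (C.Pk 0 b)] {b₀ : ℕ}
    (hgen : ∀ b, b₀ ≤ b → ∀ x ∈ C.Pk 0 (b + 1), ∃ y ∈ C.Pk 0 b, ∃ z ∈ C.Pk 0 b,
      x = y + C.T * z)
    (hL2 : C.IsL2) (hL2₀ : C.swap.IsL2)
    (he : ∃ e : modularFunctionFieldFullC k M,
      IsIntegral (Algebra.adjoin k {C.T.2}) e ∧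
        ((1 : modularFunctionFieldFullC k M), e * C.T.2) ∈ C.Bbar)
    (he₀ : ∃ e : modularFunctionFieldFullC k M,
      IsIntegral (Algebra.adjoin k {C.Ti.2}) e ∧
        ((1 : modularFunctionFieldFullC k M), e * C.Ti.2) ∈ C.swap.Bbar)
    (δ b₂ : ℕ)
    (hdimS : ∀ b, b₂ ≤ b →
      finrank k (C.Pk 0 b) = finrank k ((redSetup2 H hA).redLat (C.LN 0 b)) + δ)
    {m : ℕ} (hqm : ¬ q ∣ m) (hm2 : 2 ≤ m)
    (hgt : ∀ τ ∈ A.inertiaSubgroupIn ℚ,
      arithmeticGalois (modularFunctionFieldFull (M * q)) τ • C.t = C.t)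
    {p : ℕ} (hp : 2 ≤ p)
    (hN1 : ∀ g : C.B₂, ∃ g' : C.B₂, ((0 : C.B₁), g - g' ^ p) ∈ C.BbarT)
    {p₀ : ℕ} (hp₀ : 2 ≤ p₀)
    (hN1₀ : ∀ g : C.swap.B₂, ∃ g' : C.swap.B₂,
      ((0 : C.swap.B₁), g - g' ^ p₀) ∈ C.swap.BbarT)
    (hdimN : ∀ E : Divisor L (FL L (M * q)), Divisor.degree E = 0 → ∀ b, b₂ ≤ b →
      finrank k (C.Pk 0 b) ≤
        finrank k ((redSetup2 H hA).redLat ((TwoCharts.ofDivisor Dt).LM E 0 b)) + δ) :
    TheoremBAt H hA m := by
  haveI : CharZero L := algebraRat.charZero L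
  intro τ hτ w hw0 hwO hwiO hw1 D hD
  exact exists_const_mul_pow_of_counts C ht hDt hcart hgen hL2 hL2₀ he he₀ δ b₂ hdimS
    (isUnit_natCast A π hπ q hqm) hm2
    (arithmeticGalois (modularFunctionFieldFull (M * q)) τ) (hgt τ hτ)
    (fun f hf => gal_smul_mem_S2 A π M q hdeg hq hqM hrk hπ
      (mem_decomposition_of_mem_inertia A hτ) hf)
    (fun f hf => res_gal_smul A π M q hdeg hq hqM hrk hπ (redSetup2 H hA) hτ f hf)
    hp hN1 hp₀ hN1₀ hdimN hw0 hwO hwiO hw1 hD

/-- **Theorem B at level `M q` from a chart with `res t = (x, x ^ q)`**: as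
`theoremBAt_of_counts`, with the divisor `Dt`, the `k`-side (`hPfin`, `hgen`: `Inst/PkInst`) and
the counts (`δ`, `b₂`, `hdimS`, `hdimN`: `Inst/CountsInst`) discharged from a separating
coordinate `c` of `Fk k M` with `C.T = (c.x, c.x ^ q)` and the degree formula
`[F_{Mq} : L(t)] = (q + 1) [Fk k M : k(x)]`. -/
theorem theoremBAt_of_chart (C : ChartCoord (redSetup2 H hA))
    (c : KSideInst.SepCoord k (modularFunctionFieldFullC k M)) (hT : C.T = c.T q)
    (ht : Transcendental L C.t) [FiniteDimensional L⟮C.t⟯ (FL L (M * q))]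
    (hn : finrank L⟮C.t⟯ (FL L (M * q)) = (q + 1) * c.deg)
    (hcart : ∀ V : Submodule L (FL L (M * q)), FiniteDimensional L V →
      ((redSetup2 H hA).lat V).FG)
    (hL2 : C.IsL2) (hL2₀ : C.swap.IsL2)
    (he : ∃ e : modularFunctionFieldFullC k M,
      IsIntegral (Algebra.adjoin k {C.T.2}) e ∧
        ((1 : modularFunctionFieldFullC k M), e * C.T.2) ∈ C.Bbar)
    (he₀ : ∃ e : modularFunctionFieldFullC k M,
      IsIntegral (Algebra.adjoin k {C.Ti.2}) e ∧
        ((1 : modularFunctionFieldFullC k M), e * C.Ti.2) ∈ C.swap.Bbar)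
    {m : ℕ} (hqm : ¬ q ∣ m) (hm2 : 2 ≤ m)
    (hgt : ∀ τ ∈ A.inertiaSubgroupIn ℚ,
      arithmeticGalois (modularFunctionFieldFull (M * q)) τ • C.t = C.t)
    {p : ℕ} (hp : 2 ≤ p)
    (hN1 : ∀ g : C.B₂, ∃ g' : C.B₂, ((0 : C.B₁), g - g' ^ p) ∈ C.BbarT)
    {p₀ : ℕ} (hp₀ : 2 ≤ p₀)
    (hN1₀ : ∀ g : C.swap.B₂, ∃ g' : C.swap.B₂,
      ((0 : C.swap.B₁), g - g' ^ p₀) ∈ C.swap.BbarT) :
    TheoremBAt H hA m := by
  haveI : CharZero L := algebraRat.charZero L
  haveI : HasPrincipalDivisors L (FL L (M * q)) := hasPrincipalDivisors_full L (M * q)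
  have hq0 : 0 < q := (Fact.out : q.Prime).pos
  obtain ⟨Dt, hDt, -⟩ := HasPrincipalDivisors.exists_divisor (K := L) C.t C.t_ne
  haveI : Algebra.IsSeparable L⟮C.t⟯ (FL L (M * q)) := isSeparable_adjoin_of_charZero C.t
  haveI hPfin : ∀ b, FiniteDimensional k (C.Pk 0 b) := PkInst.hPfin C c hT hq0
  obtain ⟨b₀, hgen, -⟩ := PkInst.exists_hgen C c hT hq0
  haveI := c.finite
  haveI := c.separable
  obtain ⟨δ, -, b₂, hdimS, hdimN⟩ :=
    CountsInst.exists_counts_prod c.transcendental hq0 C hT ht hDt hn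
      (fun E' _ b => hcart _ (CountsInst.finite_LM ht (TwoCharts.ofDivisor Dt) E' b))
  exact theoremBAt_of_counts H hA C ht hDt hcart hgen hL2 hL2₀ he he₀ δ b₂ hdimS hqm hm2
    hgt hp hN1 hp₀ hN1₀ hdimN

end Generic

end Fermat.Agent.S34x.Inst.FinalSkeleton
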