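/-
helper70 (P-S34, assembly slice (A3)): the conclusions of `Inst/FinalSkeleton` in the language of
helper54's `S34x/Target`.

* `kummerSemistable_of_theoremBAt` : `Target.KummerSemistable (M q) A m` from `ResidueFacts` and
  Theorem B for normalised pairs (`FinalSkeleton.TheoremBAt`), through
  `Target.kummerSemistable_of_steps` with `RedC = StepsAbs.ConstRed`, `Red1 = StepsAbs.OneRed`
  and the steps (I), (N) of `Inst/FinalSkeleton`.
* `kummerSemistable_of_counts`, `kummerSemistable_of_chart` : the same from the hypotheses of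
  `FinalSkeleton.theoremBAt_of_counts`, `FinalSkeleton.theoremBAt_of_chart`.
* `kummerSemistable_one` : the case `m = 1`.
* `kummerSemistableAtGoodLevels_of_two_le` : the single remaining input of S34
  (`Target.KummerSemistableAtGoodLevels`) from the Kummer form for `2 ≤ m` at the good levels.
-/
import Fermat.Agent.S34x.Target
import Fermat.Agent.S34x.Inst.FinalSkeleton

set_option autoImplicit false
set_option linter.style.haveILetI false
set_option linter.unusedSectionVars false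

noncomputable section

namespace Fermat.Agent.S34x.Inst.FinalTarget

open ModularCurve AlgebraicCurve IntermediateField IsLocalRing Module
open Fermat.Agent.Gateway.Hecke Fermat.Agent.Gateway.ESC
open Fermat.Agent.Gateway.Red Fermat.Agent.Gateway.GoodRed
open Fermat.Agent.S34x.TwoVal Fermat.Agent.S34x.C0two Fermat.Agent.S34x.Lattice2
open Fermat.Agent.S34x.Inst.RedSetupInst Fermat.Agent.S34x.Inst.GaloisInst
open Fermat.Agent.S34x.Inst.StepsAbs Fermat.Agent.S34x.Inst.FinalSkeleton Fermat.Agent.Gateway.C0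

local notation "Qb" => AlgebraicClosure ℚ

section AtQb

variable {A : ValuationSubring Qb} {k : Type} [Field k] {π : A →+* k} [IsAlgClosed k]
variable {M q : ℕ} [NeZero M] [Fact q.Prime] [CharP k q]
variable {hdeg : finrankAlong Qb (heckeAlphaBar Qb M q) = q + 1} {hq : q.Prime} {hqM : ¬ q ∣ M}
variable {hrk : ∀ x ∈ maximalIdeal A, ∀ c : A, c ≠ 0 → ∃ j : ℕ, c ∣ x ^ j}
  {hπ : Function.Surjective π}
variable (H : ResidueFacts A π M q hdeg hq hqM hrk hπ) (hA : A.LiesOverPrime q)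

/-- **The Kummer form at level `M q` from Theorem B for normalised pairs** `(w, D)`. -/
theorem kummerSemistable_of_theoremBAt {m : ℕ} (hm : 0 < m) (hB : TheoremBAt H hA m) :
    Target.KummerSemistable (M * q) A m := by
  haveI : HasPrincipalDivisors Qb (FL Qb (M * q)) := hasPrincipalDivisors_full Qb (M * q)
  haveI : Algebra.IsAlgebraic ℚ Qb := AlgebraicClosure.isAlgebraic ℚ
  refine Target.kummerSemistable_of_steps
    (ConstRed (redSetupInfty H hA) (redSetupZero H hA))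
    (OneRed (redSetupInfty H hA) (redSetupZero H hA) rfl) ?_ ?_ ?_
  · intro τ hτ u hu
    exact constRed_gal H hA hτ hu
  · intro z _ hred
    exact exists_oneRed H hA hm hred
  · rintro τ hτ z hz hdiv ⟨hzO, hziO, hres⟩
    obtain ⟨D, hD⟩ := exists_divisor_of_dvd_ord (K := Qb) hz hdiv
    exact hB τ hτ z hz hzO hziO hres D hD

/-- **The Kummer form at level `M q`** (`2 ≤ m`, `q ∤ m`) from the hypotheses of
`FinalSkeleton.theoremBAt_of_counts`. -/
theorem kummerSemistable_of_counts (C : ChartCoord (redSetup2 H hA))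
    (ht : Transcendental Qb C.t) [FiniteDimensional Qb⟮C.t⟯ (FL Qb (M * q))]
    {Dt : Divisor Qb (FL Qb (M * q))}
    (hDt : ∀ v : Place Qb (FL Qb (M * q)), Dt v = v.ord C.t)
    (hcart : ∀ V : Submodule Qb (FL Qb (M * q)), FiniteDimensional Qb V →
      ((redSetup2 H hA).lat V).FG)
    [hPfin : ∀ b, FiniteDimensional k (C.Pk 0 b)] {b₀ : ℕ}
    (hgen : ∀ b, b₀ ≤ b → ∀ x ∈ C.Pk 0 (b + 1), ∃ y ∈ C.Pk 0 b, ∃ z ∈ C.Pk 0 b,
      x = y + C.T * z)
    (hL2 : C.IsL2) (hL2₀ : C.swap.IsL2)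
    (he : ∃ e : modularFunctionFieldFullC k M,
      IsIntegral (Algebra.adjoin k {C.T.2}) e ∧
        ((1 : modularFunctionFieldFullC k M), e * C.T.2) ∈ C.Bbar)
    (he₀ : ∃ e : modularFunctionFieldFullC k M,
      IsIntegral (Algebra.adjoin k {C.Ti.2}) e ∧
        ((1 : modularFunctionFieldFullC k M), e * C.Ti.2) ∈ C.swap.Bbar)
    (δ b₂ : ℕ)
    (hdimS : ∀ b, b₂ ≤ b →
      finrank k (C.Pk 0 b) = finrank k ((redSetup2 H hA).redLat (C.LN 0 b)) + δ)
    {m : ℕ} (hqm : ¬ q ∣ m) (hm2 : 2 ≤ m)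
    (hgt : ∀ τ ∈ A.inertiaSubgroupIn ℚ,
      arithmeticGalois (modularFunctionFieldFull (M * q)) τ • C.t = C.t)
    {p : ℕ} (hp : 2 ≤ p)
    (hN1 : ∀ g : C.B₂, ∃ g' : C.B₂, ((0 : C.B₁), g - g' ^ p) ∈ C.BbarT)
    {p₀ : ℕ} (hp₀ : 2 ≤ p₀)
    (hN1₀ : ∀ g : C.swap.B₂, ∃ g' : C.swap.B₂,
      ((0 : C.swap.B₁), g - g' ^ p₀) ∈ C.swap.BbarT)
    (hdimN : ∀ E : Divisor Qb (FL Qb (M * q)), Divisor.degree E = 0 → ∀ b, b₂ ≤ b →
      finrank k (C.Pk 0 b) ≤
        finrank k ((redSetup2 H hA).redLat ((TwoCharts.ofDivisor Dt).LM E 0 b)) + δ) :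
    Target.KummerSemistable (M * q) A m :=
  kummerSemistable_of_theoremBAt H hA (by omega)
    (theoremBAt_of_counts H hA C ht hDt hcart hgen hL2 hL2₀ he he₀ δ b₂ hdimS hqm hm2 hgt hp hN1
      hp₀ hN1₀ hdimN)

/-- **The Kummer form at level `M q`** (`2 ≤ m`, `q ∤ m`) from a chart with
`res t = (x, x ^ q)`: the hypotheses of `FinalSkeleton.theoremBAt_of_chart`. -/
theorem kummerSemistable_of_chart (C : ChartCoord (redSetup2 H hA))
    (c : KSideInst.SepCoord k (modularFunctionFieldFullC k M)) (hT : C.T = c.T q)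
    (ht : Transcendental Qb C.t) [FiniteDimensional Qb⟮C.t⟯ (FL Qb (M * q))]
    (hn : finrank Qb⟮C.t⟯ (FL Qb (M * q)) = (q + 1) * c.deg)
    (hcart : ∀ V : Submodule Qb (FL Qb (M * q)), FiniteDimensional Qb V →
      ((redSetup2 H hA).lat V).FG)
    (hL2 : C.IsL2) (hL2₀ : C.swap.IsL2)
    (he : ∃ e : modularFunctionFieldFullC k M,
      IsIntegral (Algebra.adjoin k {C.T.2}) e ∧
        ((1 : modularFunctionFieldFullC k M), e * C.T.2) ∈ C.Bbar)
    (he₀ : ∃ e : modularFunctionFieldFullC k M,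
      IsIntegral (Algebra.adjoin k {C.Ti.2}) e ∧
        ((1 : modularFunctionFieldFullC k M), e * C.Ti.2) ∈ C.swap.Bbar)
    {m : ℕ} (hqm : ¬ q ∣ m) (hm2 : 2 ≤ m)
    (hgt : ∀ τ ∈ A.inertiaSubgroupIn ℚ,
      arithmeticGalois (modularFunctionFieldFull (M * q)) τ • C.t = C.t)
    {p : ℕ} (hp : 2 ≤ p)
    (hN1 : ∀ g : C.B₂, ∃ g' : C.B₂, ((0 : C.B₁), g - g' ^ p) ∈ C.BbarT)
    {p₀ : ℕ} (hp₀ : 2 ≤ p₀)
    (hN1₀ : ∀ g : C.swap.B₂, ∃ g' : C.swap.B₂,
      ((0 : C.swap.B₁), g - g' ^ p₀) ∈ C.swap.BbarT) :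
    Target.KummerSemistable (M * q) A m :=
  kummerSemistable_of_theoremBAt H hA (by omega)
    (theoremBAt_of_chart H hA C c hT ht hn hcart hL2 hL2₀ he he₀ hqm hm2 hgt hp hN1 hp₀ hN1₀)

end AtQb

/-! ## The case `m = 1` and the reduction of the good-level statement to `2 ≤ m` -/

section Final

/-- the Kummer form is trivial for `m = 1` -/
theorem kummerSemistable_one (N : ℕ) (A : ValuationSubring Qb) :
    Target.KummerSemistable N A 1 := by
  intro τ _ u _ _
  exact ⟨1, _, by rw [map_one, one_mul, pow_one]⟩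

/-- **The single remaining input of S34 from the Kummer form for `2 ≤ m`** at the good levels,
with the residue characteristic as a `Fact`. -/
theorem kummerSemistableAtGoodLevels_of_two_le
    (h : ∀ (M₀ q m : ℕ) [NeZero M₀] [Fact q.Prime], 2 ≤ m → ¬ q ∣ m → ¬ q ∣ M₀ →
      ((q ≠ 2 ∧ 4 ∣ M₀) ∨ (q = 2 ∧ 9 ∣ M₀)) →
      ∀ A : ValuationSubring Qb, A.LiesOverPrime q → Target.KummerSemistable (M₀ * q) A m) :
    Target.KummerSemistableAtGoodLevels := by
  intro M₀ q m _ _ hm hq hqm hqM hgood A hA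
  haveI : Fact q.Prime := ⟨hq⟩
  rcases Nat.lt_or_ge m 2 with h1 | h2
  · have hm1 : m = 1 := by omega
    subst hm1
    exact kummerSemistable_one _ A
  · exact h M₀ q m h2 hqm hqM hgood A hA

end Final

end Fermat.Agent.S34x.Inst.FinalTarget
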