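/-
P-S34, WP3-inst (J5a) (helper12): the reduced function field `Fk k M` and its chart rings are stable
under the coefficientwise inverse Frobenius `Φ = frobInvLS ℓ` of `k((t))`.

* `frobInvLS_mem_Fk` : `f ∈ Fk k M → Φ f ∈ Fk k M` (the generators `j(t^d)` have integer
  coefficients, and `Φ` is semilinear over `k`);
* `frobFk` : the induced ring endomorphism of `Fk k M`, `coe_frobFk`, `frobFk_algebraMap`;
* `frobFk_eq_self_of_int` : elements with integer coefficients are fixed;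
* `isIntegral_frobFk` : if `Φ xb = xb` then `Φ` preserves the integral closure of `k[xb]` in
  `Fk k M` (also for `xb⁻¹`: `frobFk_inv_eq_self`);
* `frobStable_of_fix`, `frobStable_inv_of_fix` : the same statement in the exact shape consumed by
  `Inst/HpthInst` (both charts);
* `exists_lift_frobFk`, `exists_redV_lift_frobFk` : with (EQ) (`Inst/L2.LiftsIntegral`) and
  reduction-preserves-integrality, every `Φ (red f)`, `f` in the chart ring at level `M`, is again
  the reduction of an element of the chart ring: the hypothesis `hΦ` of `NodeInst.exists_glue` /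
  `NodeInst.forall_exists_pow_mem`.
-/
import Fermat.Agent.S34x.Inst.L2
import Fermat.Agent.S34x.TwoVal.IntCoeff

set_option autoImplicit false
set_option linter.style.haveILetI false
set_option linter.unusedSectionVars false

noncomputable section

namespace Fermat.Agent.S34x.Inst.FrobFk

open ModularCurve IntermediateField
open Fermat.Agent.Gateway.Red Fermat.Agent.Gateway.GoodRed
open Fermat.Agent.Gateway.GoodRed.ConjFamily
open Fermat.Agent.S34x.TwoVal Fermat.Agent.S34x.Inst.L2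

/-! ### The `k`-side: `Φ` on `Fk k M` -/

section KSide

variable {k : Type} [Field k] (ℓ : ℕ) [Fact ℓ.Prime] [CharP k ℓ] [PerfectRing k ℓ]
  (M : ℕ) [NeZero M]

/-- `Φ` on constants. -/
theorem frobInvLS_algebraMap (c : k) :
    frobInvLS ℓ (algebraMap k (LaurentSeries k) c) =
      algebraMap k (LaurentSeries k) ((frobeniusEquiv k ℓ).symm c) := by
  rw [algebraMap_laurentSeries_eq_single, algebraMap_laurentSeries_eq_single, frobInvLS,
    coeffMap_single]
  rfl

/-- `Φ` fixes the generators `j(t^d)` of `Fk k M`. -/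
theorem frobInvLS_qExpand_jqModC (d : ℕ) [NeZero d] :
    frobInvLS ℓ (qExpand k d (jqModC k)) = qExpand k d (jqModC k) := by
  rw [frobInvLS, coeffMap_qExpand, coeffMap_jqModC]

/-- **The reduced function field is stable under the coefficientwise inverse Frobenius.** -/
theorem frobInvLS_mem_Fk {f : LaurentSeries k} (hf : f ∈ Fk k M) : frobInvLS ℓ f ∈ Fk k M := by
  let E : IntermediateField k (LaurentSeries k) :=
    Subfield.toIntermediateField ((Fk k M).toSubfield.comap (frobInvLS ℓ)) (fun c => by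
      show frobInvLS ℓ (algebraMap k _ c) ∈ (Fk k M).toSubfield
      rw [frobInvLS_algebraMap]
      exact (Fk k M).algebraMap_mem _)
  have hle : Fk k M ≤ E := by
    rw [Fk, modularFunctionFieldFullC, IntermediateField.adjoin_le_iff]
    rintro _ ⟨d, hd0, hd, rfl⟩
    show frobInvLS ℓ _ ∈ (Fk k M).toSubfield
    rw [frobInvLS_qExpand_jqModC]
    exact jqModCd_mem_full k M hd
  exact hle hf

/-- the ring endomorphism of `Fk k M` induced by `Φ = frobInvLS ℓ` -/
def frobFk : Fk k M →+* Fk k M where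
  toFun y := ⟨frobInvLS ℓ (y : LaurentSeries k), frobInvLS_mem_Fk ℓ M y.2⟩
  map_one' := Subtype.ext (map_one (frobInvLS ℓ))
  map_mul' a b := Subtype.ext (map_mul (frobInvLS ℓ) (a : LaurentSeries k) (b : LaurentSeries k))
  map_zero' := Subtype.ext (map_zero (frobInvLS ℓ))
  map_add' a b := Subtype.ext (map_add (frobInvLS ℓ) (a : LaurentSeries k) (b : LaurentSeries k))

theorem coe_frobFk (y : Fk k M) :
    ((frobFk ℓ M y : Fk k M) : LaurentSeries k) = frobInvLS ℓ (y : LaurentSeries k) := rfl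

theorem frobFk_algebraMap (c : k) :
    frobFk ℓ M (algebraMap k (Fk k M) c) =
      algebraMap k (Fk k M) ((frobeniusEquiv k ℓ).symm c) :=
  Subtype.ext (frobInvLS_algebraMap ℓ c)

/-- `frobFk xb = xb` is the statement `Φ xb = xb` in `k((t))` -/
theorem frobFk_eq_self_iff {xb : Fk k M} :
    frobFk ℓ M xb = xb ↔ frobInvLS ℓ (xb : LaurentSeries k) = xb :=
  ⟨fun h => congrArg Subtype.val h, fun h => Subtype.ext h⟩

/-- elements of `Fk k M` with integer coefficients are fixed by `Φ` -/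
theorem frobFk_eq_self_of_int {xb : Fk k M} {z : LaurentSeries ℤ}
    (hz : (xb : LaurentSeries k) = coeffMap (Int.castRingHom k) z) : frobFk ℓ M xb = xb := by
  apply Subtype.ext
  rw [coe_frobFk, hz, frobInvLS_coeffMap_int]

theorem frobFk_inv_eq_self {xb : Fk k M} (h : frobFk ℓ M xb = xb) :
    frobFk ℓ M xb⁻¹ = xb⁻¹ := by
  rw [map_inv₀, h]

/-- `Φ` maps `k[xb]` into itself when it fixes `xb` -/
theorem frobFk_mem_adjoin {xb : Fk k M} (hxb : frobFk ℓ M xb = xb) {z : Fk k M}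
    (hz : z ∈ Algebra.adjoin k {xb}) : frobFk ℓ M z ∈ Algebra.adjoin k {xb} := by
  induction hz using Algebra.adjoin_induction with
  | mem x hx =>
    rw [Set.mem_singleton_iff] at hx
    subst hx
    rw [hxb]
    exact Algebra.self_mem_adjoin_singleton k _
  | algebraMap r =>
    rw [frobFk_algebraMap]
    exact Subalgebra.algebraMap_mem _ _
  | add x y _ _ hx hy =>
    rw [map_add]
    exact Subalgebra.add_mem _ hx hy
  | mul x y _ _ hx hy =>
    rw [map_mul]
    exact Subalgebra.mul_mem _ hx hy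

/-- **`Φ` preserves the integral closure of `k[xb]` in `Fk k M`** when it fixes `xb`. -/
theorem isIntegral_frobFk {xb y : Fk k M} (hxb : frobFk ℓ M xb = xb)
    (hy : IsIntegral (Algebra.adjoin k {xb}) y) :
    IsIntegral (Algebra.adjoin k {xb}) (frobFk ℓ M y) := by
  let φ : Algebra.adjoin k {xb} →+* Algebra.adjoin k {xb} :=
    { toFun := fun z => ⟨frobFk ℓ M z, frobFk_mem_adjoin ℓ M hxb z.2⟩
      map_one' := Subtype.ext (map_one (frobFk ℓ M))
      map_mul' := fun z w => Subtype.ext (map_mul (frobFk ℓ M) (z : Fk k M) (w : Fk k M))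
      map_zero' := Subtype.ext (map_zero (frobFk ℓ M))
      map_add' := fun z w => Subtype.ext (map_add (frobFk ℓ M) (z : Fk k M) (w : Fk k M)) }
  exact IsIntegral.map_of_comp_eq φ (frobFk ℓ M) (RingHom.ext fun z => rfl) hy

/-- the chart ring of `xb` (integral closure of `k[xb]` in `Fk k M`) is stable under `Φ` -/
def FrobStable (xb : Fk k M) : Prop :=
  ∀ y : Fk k M, IsIntegral (Algebra.adjoin k {xb}) y →
    ∃ y' : Fk k M, ((y' : Fk k M) : LaurentSeries k) =
        frobInvLS ℓ ((y : Fk k M) : LaurentSeries k) ∧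
      IsIntegral (Algebra.adjoin k {xb}) y'

/-- **(J5a), chart `xb`**, in the shape consumed by `Inst/HpthInst`. -/
theorem frobStable_of_fix (xb : Fk k M) (hfix : frobInvLS ℓ (xb : LaurentSeries k) = xb) :
    ∀ y : Fk k M, IsIntegral (Algebra.adjoin k {xb}) y →
      ∃ y' : Fk k M, ((y' : Fk k M) : LaurentSeries k) =
          frobInvLS ℓ ((y : Fk k M) : LaurentSeries k) ∧
        IsIntegral (Algebra.adjoin k {xb}) y' :=
  fun y hy => ⟨frobFk ℓ M y, rfl, isIntegral_frobFk ℓ M (Subtype.ext hfix) hy⟩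

/-- **(J5a), chart `xb⁻¹`**, in the shape consumed by `Inst/HpthInst`. -/
theorem frobStable_inv_of_fix (xb : Fk k M) (hfix : frobInvLS ℓ (xb : LaurentSeries k) = xb) :
    ∀ y : Fk k M, IsIntegral (Algebra.adjoin k {xb⁻¹}) y →
      ∃ y' : Fk k M, ((y' : Fk k M) : LaurentSeries k) =
          frobInvLS ℓ ((y : Fk k M) : LaurentSeries k) ∧
        IsIntegral (Algebra.adjoin k {xb⁻¹}) y' :=
  fun y hy => ⟨frobFk ℓ M y, rfl,
    isIntegral_frobFk ℓ M (frobFk_inv_eq_self ℓ M (Subtype.ext hfix)) hy⟩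

theorem frobStable_iff (xb : Fk k M) :
    FrobStable ℓ M xb ↔ ∀ y : Fk k M, IsIntegral (Algebra.adjoin k {xb}) y →
      ∃ y' : Fk k M, ((y' : Fk k M) : LaurentSeries k) =
          frobInvLS ℓ ((y : Fk k M) : LaurentSeries k) ∧
        IsIntegral (Algebra.adjoin k {xb}) y' := Iff.rfl

/-- integer-coefficient chart functions: both charts are `Φ`-stable -/
theorem frobStable_of_int (xb : Fk k M) {z : LaurentSeries ℤ}
    (hz : (xb : LaurentSeries k) = coeffMap (Int.castRingHom k) z) :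
    FrobStable ℓ M xb ∧ FrobStable ℓ M xb⁻¹ := by
  have hfix : frobInvLS ℓ (xb : LaurentSeries k) = xb := by
    rw [hz, frobInvLS_coeffMap_int]
  exact ⟨frobStable_of_fix ℓ M xb hfix, frobStable_inv_of_fix ℓ M xb hfix⟩

end KSide

/-! ### The `L`-side: `Φ` lifts to the chart ring at level `M` -/

section LSide

variable {L : Type} [Field L] [Algebra ℚ L] (A : ValuationSubring L)
  {k : Type} [Field k] (π : A →+* k) [IsAlgClosed k] (M : ℕ) [NeZero M]
  (ℓ : ℕ) [Fact ℓ.Prime] [CharP k ℓ] [PerfectRing k ℓ]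
  (hπ : Function.Surjective π) (hℓM : ¬ ℓ ∣ M)

/-- **`hΦ` (resFk form)**: with (EQ) for the chart `x` (reduction `xb`, fixed by `Φ`) and
reduction-preserves-integrality, `Φ (res f)` is the reduction of an element of the chart ring. -/
theorem exists_lift_frobFk {x : FBar L M} {xb : Fk k M}
    (hEQ : LiftsIntegral A π M ℓ hπ hℓM x xb)
    (hfix : frobInvLS ℓ (xb : LaurentSeries k) = xb)
    (hint : ∀ (f : FBar L M) (hf : f ∈ OvVal A π M ℓ hπ hℓM),
      IsIntegral (Algebra.adjoin L {x}) f →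
        IsIntegral (Algebra.adjoin k {xb}) (resFk A π M ℓ hπ hℓM ⟨f, hf⟩))
    (f : FBar L M) (hf : f ∈ OvVal A π M ℓ hπ hℓM) (hfi : IsIntegral (Algebra.adjoin L {x}) f) :
    ∃ (f₁ : FBar L M) (hf₁ : f₁ ∈ OvVal A π M ℓ hπ hℓM),
      IsIntegral (Algebra.adjoin L {x}) f₁ ∧
        resFk A π M ℓ hπ hℓM ⟨f₁, hf₁⟩ = frobFk ℓ M (resFk A π M ℓ hπ hℓM ⟨f, hf⟩) :=
  hEQ _ (isIntegral_frobFk ℓ M (Subtype.ext hfix) (hint f hf hfi))

/-- **`hΦ` (redV form)**: the same with the Gauss reduction `redV` to `k((t))`. -/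
theorem exists_redV_lift_frobFk {x : FBar L M} {xb : Fk k M}
    (hEQ : LiftsIntegral A π M ℓ hπ hℓM x xb)
    (hfix : frobInvLS ℓ (xb : LaurentSeries k) = xb)
    (hint : ∀ (f : FBar L M) (hf : f ∈ OvVal A π M ℓ hπ hℓM),
      IsIntegral (Algebra.adjoin L {x}) f →
        IsIntegral (Algebra.adjoin k {xb}) (resFk A π M ℓ hπ hℓM ⟨f, hf⟩))
    (f : FBar L M) (hf : f ∈ Ov A π (FBar L M)) (hfi : IsIntegral (Algebra.adjoin L {x}) f) :
    ∃ (f₁ : FBar L M) (hf₁ : f₁ ∈ Ov A π (FBar L M)),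
      IsIntegral (Algebra.adjoin L {x}) f₁ ∧
        redV A π (FBar L M) ⟨f₁, hf₁⟩ = frobInvLS ℓ (redV A π (FBar L M) ⟨f, hf⟩) := by
  obtain ⟨f₁, hf₁, hi, hres⟩ := exists_lift_frobFk A π M ℓ hπ hℓM hEQ hfix hint f hf hfi
  refine ⟨f₁, hf₁, hi, ?_⟩
  have := congrArg (fun y : Fk k M => (y : LaurentSeries k)) hres
  simpa only [coe_frobFk, coe_resFk] using this

/-- `hΦ` for the chart `x` of a `GoodLevelFactsT` whose reduction is fixed by `Φ`. -/
theorem exists_redV_lift_of_facts {x : FBar L M} (H : GoodLevelFactsT A π M ℓ hπ hℓM x)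
    (hEQ : LiftsIntegral A π M ℓ hπ hℓM x (resFk A π M ℓ hπ hℓM ⟨x, H.mem⟩))
    (hfix : frobInvLS ℓ (redV A π (FBar L M) ⟨x, H.mem⟩) = redV A π (FBar L M) ⟨x, H.mem⟩)
    (f : FBar L M) (hf : f ∈ Ov A π (FBar L M)) (hfi : IsIntegral (Algebra.adjoin L {x}) f) :
    ∃ (f₁ : FBar L M) (hf₁ : f₁ ∈ Ov A π (FBar L M)),
      IsIntegral (Algebra.adjoin L {x}) f₁ ∧
        redV A π (FBar L M) ⟨f₁, hf₁⟩ = frobInvLS ℓ (redV A π (FBar L M) ⟨f, hf⟩) :=
  exists_redV_lift_frobFk A π M ℓ hπ hℓM hEQ hfix H.integral f hf hfi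

/-- `hΦ` for the chart `x⁻¹` of a `GoodLevelFactsT` whose reduction is fixed by `Φ`. -/
theorem exists_redV_lift_inv_of_facts {x : FBar L M} (H : GoodLevelFactsT A π M ℓ hπ hℓM x)
    (hEQ : LiftsIntegral A π M ℓ hπ hℓM x⁻¹ (resFk A π M ℓ hπ hℓM ⟨x, H.mem⟩)⁻¹)
    (hfix : frobInvLS ℓ (redV A π (FBar L M) ⟨x, H.mem⟩) = redV A π (FBar L M) ⟨x, H.mem⟩)
    (f : FBar L M) (hf : f ∈ Ov A π (FBar L M)) (hfi : IsIntegral (Algebra.adjoin L {x⁻¹}) f) :
    ∃ (f₁ : FBar L M) (hf₁ : f₁ ∈ Ov A π (FBar L M)),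
      IsIntegral (Algebra.adjoin L {x⁻¹}) f₁ ∧
        redV A π (FBar L M) ⟨f₁, hf₁⟩ = frobInvLS ℓ (redV A π (FBar L M) ⟨f, hf⟩) := by
  have hfix' : frobInvLS ℓ (((resFk A π M ℓ hπ hℓM ⟨x, H.mem⟩)⁻¹ : Fk k M) : LaurentSeries k) =
      (((resFk A π M ℓ hπ hℓM ⟨x, H.mem⟩)⁻¹ : Fk k M) : LaurentSeries k) :=
    congrArg Subtype.val (frobFk_inv_eq_self ℓ M
      (xb := resFk A π M ℓ hπ hℓM ⟨x, H.mem⟩) (Subtype.ext hfix))
  exact exists_redV_lift_frobFk A π M ℓ hπ hℓM hEQ hfix' H.integral_inv f hf hfi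

end LSide

end Fermat.Agent.S34x.Inst.FrobFk
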