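import Fermat.Agent.S34x.TwoVal.IntCoeff
import Fermat.Agent.Gateway.AuxLevel.Shifted9Red

/-!
# P-S34 WP3-inst (J2): Frobenius-stability of the reduced Hauptmoduln (helper58)

In residue characteristic `ℓ`, `f(t^ℓ) = (Fc⁻¹ f)^ℓ` (`TwoVal.qExpand_eq_frobInvLS_pow`), where
`Fc⁻¹ = frobInvLS ℓ` is the coefficientwise inverse Frobenius of `k((t))`.  A series whose
coefficients lie in the prime field is fixed by `Fc⁻¹`, so `f(t^ℓ) = f^ℓ` for it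
(`TwoVal.qExpand_coeffMap_int`, helper44).  Here:

* `frobFixed ℓ` : the subring of `k((t))` of series fixed by `frobInvLS ℓ`, closed under
  inverses; `qExpand_eq_pow_of_mem` : `qExpand k ℓ f = f ^ ℓ` on it;
* `resFk_int_mem_frobFixed`, `qExpand_resFk_int` : residues in `Fk k N` of integral series;
* the concrete Hauptmoduln over `ℚ̄`: `x₄` (`4 ∣ N`), `y₉`, `z₉ = y₉ - 3` (`9 ∣ N`):
  `coe_x4F_eq`, `coe_z9F_eq` (the hypothesis `hz` of `TwoVal/IntCoeff.lean`), `qExpand_t4`,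
  `qExpand_t9`, `qExpand_tz9`, and **(K1) for the chart function** `t = α t'`:
  `redV_alpha_x4F = t̄`, `red0_alpha_x4F = t̄^ℓ`, `redV_beta_x4F = t̄^ℓ`, `red0_beta_x4F = t̄`
  (same for `z9F`), i.e. `C.T = (t̄', t̄'^ℓ)` in the concrete chart.
-/

set_option autoImplicit false
set_option linter.unusedSectionVars false
set_option linter.style.haveILetI false

noncomputable section

namespace Fermat.Agent.S34x.Inst.FrobStable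

open ModularCurve AlgebraicCurve
open Fermat.Agent.Gateway.Hecke Fermat.Agent.Gateway.ESC
open Fermat.Agent.Gateway.GoodRed Fermat.Agent.Gateway.Red Fermat.Agent.Gateway.AuxLevel
  Fermat.Agent.Gateway.GoodRed.HauptRed Fermat.Agent.S34x.TwoVal Fermat.Agent.S24
  Fermat.Agent.S24.Setup

section Fixed

variable {k : Type*} [Field k] (ℓ : ℕ) [Fact ℓ.Prime] [CharP k ℓ] [PerfectRing k ℓ]

/-- The subring of `k((t))` of series fixed by the coefficientwise inverse Frobenius (= series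
with coefficients in the prime field). -/
def frobFixed : Subring (LaurentSeries k) :=
  RingHom.eqLocus (frobInvLS ℓ) (RingHom.id (LaurentSeries k))

theorem mem_frobFixed_iff {f : LaurentSeries k} : f ∈ frobFixed ℓ ↔ frobInvLS ℓ f = f :=
  Iff.rfl

theorem inv_mem_frobFixed {f : LaurentSeries k} (hf : f ∈ frobFixed ℓ) : f⁻¹ ∈ frobFixed ℓ := by
  rw [mem_frobFixed_iff] at hf ⊢
  rw [map_inv₀, hf]

theorem div_mem_frobFixed {f g : LaurentSeries k} (hf : f ∈ frobFixed ℓ)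
    (hg : g ∈ frobFixed ℓ) : f / g ∈ frobFixed ℓ := by
  rw [div_eq_mul_inv]
  exact (frobFixed ℓ).mul_mem hf (inv_mem_frobFixed ℓ hg)

/-- Reductions of series with integer coefficients are fixed by the inverse Frobenius. -/
theorem coeffMap_int_mem_frobFixed (x : LaurentSeries ℤ) :
    coeffMap (Int.castRingHom k) x ∈ frobFixed ℓ :=
  frobInvLS_coeffMap_int ℓ x

/-- **`f(t^ℓ) = f^ℓ`** for series fixed by the inverse Frobenius. -/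
theorem qExpand_eq_pow_of_mem {f : LaurentSeries k} (hf : f ∈ frobFixed ℓ) :
    haveI : NeZero ℓ := ⟨(Fact.out : ℓ.Prime).ne_zero⟩
    qExpand k ℓ f = f ^ ℓ := by
  haveI : NeZero ℓ := ⟨(Fact.out : ℓ.Prime).ne_zero⟩
  rw [qExpand_eq_frobInvLS_pow, (mem_frobFixed_iff ℓ).1 hf]

end Fixed

section Level

variable {L : Type*} [Field L] [Algebra ℚ L] (A : ValuationSubring L)
  {k : Type} [Field k] (π : A →+* k) (N : ℕ)
  [IsAlgClosed k] (ℓ : ℕ) [Fact ℓ.Prime] [CharP k ℓ] [NeZero N]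

/-- The residue in `Fk k N` of a series with integer coefficients lying in `FBar L N` is fixed by
the inverse Frobenius. -/
theorem resFk_int_mem_frobFixed (hπ : Function.Surjective π) (hℓN : ¬ ℓ ∣ N)
    (x : LaurentSeries ℤ) (hx : coeffMap (Int.castRingHom L) x ∈ FBar L N) :
    ((resFk A π N ℓ hπ hℓN ⟨⟨coeffMap (Int.castRingHom L) x, hx⟩,
      int_mem_OvVal A π N ℓ hπ hℓN x hx⟩ : modularFunctionFieldFullC k N) : LaurentSeries k) ∈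
      frobFixed ℓ := by
  rw [coe_resFk_int A π N ℓ hπ hℓN x hx]
  exact coeffMap_int_mem_frobFixed ℓ x

/-- **`x̄(t^ℓ) = x̄^ℓ`** for the residue in `Fk k N` of a series with integer coefficients. -/
theorem qExpand_resFk_int (hπ : Function.Surjective π) (hℓN : ¬ ℓ ∣ N)
    (x : LaurentSeries ℤ) (hx : coeffMap (Int.castRingHom L) x ∈ FBar L N) :
    haveI : NeZero ℓ := ⟨(Fact.out : ℓ.Prime).ne_zero⟩
    qExpand k ℓ ((resFk A π N ℓ hπ hℓN ⟨⟨coeffMap (Int.castRingHom L) x, hx⟩,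
      int_mem_OvVal A π N ℓ hπ hℓN x hx⟩ : modularFunctionFieldFullC k N) : LaurentSeries k) =
    ((resFk A π N ℓ hπ hℓN ⟨⟨coeffMap (Int.castRingHom L) x, hx⟩,
      int_mem_OvVal A π N ℓ hπ hℓN x hx⟩ : modularFunctionFieldFullC k N) : LaurentSeries k) ^ ℓ :=
  qExpand_eq_pow_of_mem ℓ (resFk_int_mem_frobFixed A π N ℓ hπ hℓN x hx)

end Level

section Haupt

variable (A : ValuationSubring Kbar) {k : Type} [Field k] (π : A →+* k) (N : ℕ)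
  [IsAlgClosed k] (ℓ : ℕ) [Fact ℓ.Prime] [CharP k ℓ] [NeZero N]

/-- the hypothesis `hz` of `TwoVal/IntCoeff.lean` for `x₄` -/
theorem coe_x4F_eq (h4 : 4 ∣ N) :
    ((x4F N h4 : FBar Kbar N) : LaurentSeries Kbar) = coeffMap (Int.castRingHom Kbar) L4.x4 :=
  rfl

/-- the hypothesis `hz` of `TwoVal/IntCoeff.lean` for `y₉` -/
theorem coe_y9F_eq (h9 : 9 ∣ N) :
    ((y9F N h9 : FBar Kbar N) : LaurentSeries Kbar) = coeffMap (Int.castRingHom Kbar) L9.y9 :=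
  rfl

/-- the hypothesis `hz` of `TwoVal/IntCoeff.lean` for `z₉ = y₉ - 3` -/
theorem coe_z9F_eq (h9 : 9 ∣ N) :
    ((z9F N h9 : FBar Kbar N) : LaurentSeries Kbar) = coeffMap (Int.castRingHom Kbar) L9.z9 :=
  rfl

theorem coe_t4_eq (hπ : Function.Surjective π) (hℓN : ¬ ℓ ∣ N) (h4 : 4 ∣ N) :
    ((t4 A π N ℓ hπ hℓN h4 : modularFunctionFieldFullC k N) : LaurentSeries k) =
      coeffMap (Int.castRingHom k) L4.x4 := rfl

theorem coe_t9_eq (hπ : Function.Surjective π) (hℓN : ¬ ℓ ∣ N) (h9 : 9 ∣ N) :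
    ((t9 A π N ℓ hπ hℓN h9 : modularFunctionFieldFullC k N) : LaurentSeries k) =
      coeffMap (Int.castRingHom k) L9.y9 := rfl

theorem coe_tz9_eq (hπ : Function.Surjective π) (hℓN : ¬ ℓ ∣ N) (h9 : 9 ∣ N) :
    ((tz9 A π N ℓ hπ hℓN h9 : modularFunctionFieldFullC k N) : LaurentSeries k) =
      coeffMap (Int.castRingHom k) L9.z9 := rfl

theorem t4_mem_frobFixed (hπ : Function.Surjective π) (hℓN : ¬ ℓ ∣ N) (h4 : 4 ∣ N) :
    ((t4 A π N ℓ hπ hℓN h4 : modularFunctionFieldFullC k N) : LaurentSeries k) ∈ frobFixed ℓ :=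
  coeffMap_int_mem_frobFixed ℓ L4.x4

theorem t9_mem_frobFixed (hπ : Function.Surjective π) (hℓN : ¬ ℓ ∣ N) (h9 : 9 ∣ N) :
    ((t9 A π N ℓ hπ hℓN h9 : modularFunctionFieldFullC k N) : LaurentSeries k) ∈ frobFixed ℓ :=
  coeffMap_int_mem_frobFixed ℓ L9.y9

theorem tz9_mem_frobFixed (hπ : Function.Surjective π) (hℓN : ¬ ℓ ∣ N) (h9 : 9 ∣ N) :
    ((tz9 A π N ℓ hπ hℓN h9 : modularFunctionFieldFullC k N) : LaurentSeries k) ∈ frobFixed ℓ :=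
  coeffMap_int_mem_frobFixed ℓ L9.z9

/-- **`t̄₄(t^ℓ) = t̄₄^ℓ`** for the reduced level-4 Hauptmodul. -/
theorem qExpand_t4 (hπ : Function.Surjective π) (hℓN : ¬ ℓ ∣ N) (h4 : 4 ∣ N) :
    haveI : NeZero ℓ := ⟨(Fact.out : ℓ.Prime).ne_zero⟩
    qExpand k ℓ ((t4 A π N ℓ hπ hℓN h4 : modularFunctionFieldFullC k N) : LaurentSeries k) =
      ((t4 A π N ℓ hπ hℓN h4 : modularFunctionFieldFullC k N) : LaurentSeries k) ^ ℓ :=
  qExpand_eq_pow_of_mem ℓ (t4_mem_frobFixed A π N ℓ hπ hℓN h4)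

/-- **`t̄₉(t^ℓ) = t̄₉^ℓ`** for the reduced level-9 Hauptmodul `y₉`. -/
theorem qExpand_t9 (hπ : Function.Surjective π) (hℓN : ¬ ℓ ∣ N) (h9 : 9 ∣ N) :
    haveI : NeZero ℓ := ⟨(Fact.out : ℓ.Prime).ne_zero⟩
    qExpand k ℓ ((t9 A π N ℓ hπ hℓN h9 : modularFunctionFieldFullC k N) : LaurentSeries k) =
      ((t9 A π N ℓ hπ hℓN h9 : modularFunctionFieldFullC k N) : LaurentSeries k) ^ ℓ :=
  qExpand_eq_pow_of_mem ℓ (t9_mem_frobFixed A π N ℓ hπ hℓN h9)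

/-- **`z̄₉(t^ℓ) = z̄₉^ℓ`** for the reduced shifted level-9 Hauptmodul `z₉ = y₉ - 3`. -/
theorem qExpand_tz9 (hπ : Function.Surjective π) (hℓN : ¬ ℓ ∣ N) (h9 : 9 ∣ N) :
    haveI : NeZero ℓ := ⟨(Fact.out : ℓ.Prime).ne_zero⟩
    qExpand k ℓ ((tz9 A π N ℓ hπ hℓN h9 : modularFunctionFieldFullC k N) : LaurentSeries k) =
      ((tz9 A π N ℓ hπ hℓN h9 : modularFunctionFieldFullC k N) : LaurentSeries k) ^ ℓ :=
  qExpand_eq_pow_of_mem ℓ (tz9_mem_frobFixed A π N ℓ hπ hℓN h9)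

end Haupt

/-! ### (K1) for the chart function `t = α t'`, `t'` a Hauptmodul with integer expansion -/

section K1

variable (A : ValuationSubring Kbar) {k : Type} [Field k] (π : A →+* k) (N : ℕ)
  [IsAlgClosed k] (ℓ : ℕ) [NeZero ℓ] [Fact ℓ.Prime] [CharP k ℓ] [NeZero N]
variable (hdeg : finrankAlong Kbar (heckeAlphaBar Kbar N ℓ) = ℓ + 1) (hℓ : ℓ.Prime)
  (hℓN : ¬ ℓ ∣ N)

/-- generic form: `h ∈ F_N` with integer expansion `z` -/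
theorem redV_alpha_int (h : FL Kbar N) (z : LaurentSeries ℤ)
    (hz : (h : LaurentSeries Kbar) = coeffMap (Int.castRingHom Kbar) z)
    (hm : heckeAlphaBar Kbar N ℓ h ∈ Ov A π (FBar Kbar (N * ℓ))) :
    redV A π (FBar Kbar (N * ℓ)) ⟨heckeAlphaBar Kbar N ℓ h, hm⟩ =
      coeffMap (Int.castRingHom k) z :=
  redV_alpha_of_int A π N ℓ h z hz

theorem redV_beta_int (h : FL Kbar N) (z : LaurentSeries ℤ)
    (hz : (h : LaurentSeries Kbar) = coeffMap (Int.castRingHom Kbar) z)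
    (hm : heckeBetaBar Kbar N ℓ h ∈ Ov A π (FBar Kbar (N * ℓ))) :
    redV A π (FBar Kbar (N * ℓ)) ⟨heckeBetaBar Kbar N ℓ h, hm⟩ =
      (coeffMap (Int.castRingHom k) z) ^ ℓ :=
  redV_beta_of_int A π N ℓ h z hz

theorem red0_beta_int (h : FL Kbar N) (z : LaurentSeries ℤ)
    (hz : (h : LaurentSeries Kbar) = coeffMap (Int.castRingHom Kbar) z)
    (hm : heckeBetaBar Kbar N ℓ h ∈ Ov0 A π N ℓ hdeg hℓ hℓN) :
    red0 A π N ℓ hdeg hℓ hℓN ⟨heckeBetaBar Kbar N ℓ h, hm⟩ = coeffMap (Int.castRingHom k) z :=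
  red0_beta_of_int A π N ℓ hdeg hℓ hℓN h z hz

theorem red0_alpha_int (h : FL Kbar N) (z : LaurentSeries ℤ)
    (hz : (h : LaurentSeries Kbar) = coeffMap (Int.castRingHom Kbar) z)
    (hm : heckeAlphaBar Kbar N ℓ h ∈ Ov0 A π N ℓ hdeg hℓ hℓN) :
    red0 A π N ℓ hdeg hℓ hℓN ⟨heckeAlphaBar Kbar N ℓ h, hm⟩ =
      (coeffMap (Int.castRingHom k) z) ^ ℓ :=
  red0_alpha_of_int A π N ℓ hdeg hℓ hℓN h z hz

/-! #### level 4: `t' = x₄` -/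

theorem alpha_x4F_mem_Ov (h4 : 4 ∣ N) :
    heckeAlphaBar Kbar N ℓ (x4F N h4) ∈ Ov A π (FBar Kbar (N * ℓ)) :=
  (alpha_mem_Ov_iff A π N ℓ _).mpr (mem_Ov_of_int A π N (x4F N h4) L4.x4 (coe_x4F_eq N h4))

theorem alpha_x4F_mem_Ov0 (h4 : 4 ∣ N) :
    heckeAlphaBar Kbar N ℓ (x4F N h4) ∈ Ov0 A π N ℓ hdeg hℓ hℓN :=
  alpha_mem_Ov0 A π N ℓ hdeg hℓ hℓN _
    (mem_Ov_of_int A π N (x4F N h4) L4.x4 (coe_x4F_eq N h4))

/-- `red_∞ (α x₄) = t̄₄` -/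
theorem redV_alpha_x4F (h4 : 4 ∣ N)
    (hm : heckeAlphaBar Kbar N ℓ (x4F N h4) ∈ Ov A π (FBar Kbar (N * ℓ))) :
    redV A π (FBar Kbar (N * ℓ)) ⟨heckeAlphaBar Kbar N ℓ (x4F N h4), hm⟩ = TLine4.x4k k :=
  redV_alpha_int A π N ℓ (x4F N h4) L4.x4 (coe_x4F_eq N h4) hm

/-- `red_0 (α x₄) = t̄₄^ℓ` -/
theorem red0_alpha_x4F (h4 : 4 ∣ N)
    (hm : heckeAlphaBar Kbar N ℓ (x4F N h4) ∈ Ov0 A π N ℓ hdeg hℓ hℓN) :
    red0 A π N ℓ hdeg hℓ hℓN ⟨heckeAlphaBar Kbar N ℓ (x4F N h4), hm⟩ = (TLine4.x4k k) ^ ℓ :=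
  red0_alpha_int A π N ℓ hdeg hℓ hℓN (x4F N h4) L4.x4 (coe_x4F_eq N h4) hm

/-- `red_∞ (β x₄) = t̄₄^ℓ` -/
theorem redV_beta_x4F (h4 : 4 ∣ N)
    (hm : heckeBetaBar Kbar N ℓ (x4F N h4) ∈ Ov A π (FBar Kbar (N * ℓ))) :
    redV A π (FBar Kbar (N * ℓ)) ⟨heckeBetaBar Kbar N ℓ (x4F N h4), hm⟩ = (TLine4.x4k k) ^ ℓ :=
  redV_beta_int A π N ℓ (x4F N h4) L4.x4 (coe_x4F_eq N h4) hm

/-- `red_0 (β x₄) = t̄₄` -/
theorem red0_beta_x4F (h4 : 4 ∣ N)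
    (hm : heckeBetaBar Kbar N ℓ (x4F N h4) ∈ Ov0 A π N ℓ hdeg hℓ hℓN) :
    red0 A π N ℓ hdeg hℓ hℓN ⟨heckeBetaBar Kbar N ℓ (x4F N h4), hm⟩ = TLine4.x4k k :=
  red0_beta_int A π N ℓ hdeg hℓ hℓN (x4F N h4) L4.x4 (coe_x4F_eq N h4) hm

/-! #### level 9: `t' = z₉ = y₉ - 3` -/

theorem alpha_z9F_mem_Ov (h9 : 9 ∣ N) :
    heckeAlphaBar Kbar N ℓ (z9F N h9) ∈ Ov A π (FBar Kbar (N * ℓ)) :=
  (alpha_mem_Ov_iff A π N ℓ _).mpr (mem_Ov_of_int A π N (z9F N h9) L9.z9 (coe_z9F_eq N h9))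

theorem alpha_z9F_mem_Ov0 (h9 : 9 ∣ N) :
    heckeAlphaBar Kbar N ℓ (z9F N h9) ∈ Ov0 A π N ℓ hdeg hℓ hℓN :=
  alpha_mem_Ov0 A π N ℓ hdeg hℓ hℓN _
    (mem_Ov_of_int A π N (z9F N h9) L9.z9 (coe_z9F_eq N h9))

/-- `red_∞ (α z₉) = z̄₉` -/
theorem redV_alpha_z9F (h9 : 9 ∣ N)
    (hm : heckeAlphaBar Kbar N ℓ (z9F N h9) ∈ Ov A π (FBar Kbar (N * ℓ))) :
    redV A π (FBar Kbar (N * ℓ)) ⟨heckeAlphaBar Kbar N ℓ (z9F N h9), hm⟩ = L9.z9k k :=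
  redV_alpha_int A π N ℓ (z9F N h9) L9.z9 (coe_z9F_eq N h9) hm

/-- `red_0 (α z₉) = z̄₉^ℓ` -/
theorem red0_alpha_z9F (h9 : 9 ∣ N)
    (hm : heckeAlphaBar Kbar N ℓ (z9F N h9) ∈ Ov0 A π N ℓ hdeg hℓ hℓN) :
    red0 A π N ℓ hdeg hℓ hℓN ⟨heckeAlphaBar Kbar N ℓ (z9F N h9), hm⟩ = (L9.z9k k) ^ ℓ :=
  red0_alpha_int A π N ℓ hdeg hℓ hℓN (z9F N h9) L9.z9 (coe_z9F_eq N h9) hm

/-- `red_∞ (β z₉) = z̄₉^ℓ` -/
theorem redV_beta_z9F (h9 : 9 ∣ N)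
    (hm : heckeBetaBar Kbar N ℓ (z9F N h9) ∈ Ov A π (FBar Kbar (N * ℓ))) :
    redV A π (FBar Kbar (N * ℓ)) ⟨heckeBetaBar Kbar N ℓ (z9F N h9), hm⟩ = (L9.z9k k) ^ ℓ :=
  redV_beta_int A π N ℓ (z9F N h9) L9.z9 (coe_z9F_eq N h9) hm

/-- `red_0 (β z₉) = z̄₉` -/
theorem red0_beta_z9F (h9 : 9 ∣ N)
    (hm : heckeBetaBar Kbar N ℓ (z9F N h9) ∈ Ov0 A π N ℓ hdeg hℓ hℓN) :
    red0 A π N ℓ hdeg hℓ hℓN ⟨heckeBetaBar Kbar N ℓ (z9F N h9), hm⟩ = L9.z9k k :=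
  red0_beta_int A π N ℓ hdeg hℓ hℓN (z9F N h9) L9.z9 (coe_z9F_eq N h9) hm

end K1

end Fermat.Agent.S34x.Inst.FrobStable

end
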