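import Fermat.Agent.S34x.Inst.IntegralRed2
import Fermat.Agent.S34x.Gauss2G0
import Fermat.Agent.Gateway.GoodRed.GaussRing

/-!
# P-S34, WP3-inst (I5): the Gauss package for a finite family of valuation rings over the Gauss
valuation of `K(x)` (helper57)

Abstract instantiation of helper30's `Gauss2Val` / `Gauss2G0` at
`(K₀, R, k₀) := (K(x), Gauss ring of K(x), k(X))`.

Setting: `A` a valuation subring of `K`, `F / K` a field extension, `x : F` transcendental over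
`K` with `F / K(x)` finite; `O i` (`i : ι`, `ι` finite) valuation subrings of `F` with residue data
`R i : C0.RedSetup A (O i) k (κ i)` (all with the same `π : A → k`), `x ∈ O i` with residue `x̄ᵢ`
transcendental over `k`.  (At a prime `q ∥ N`: `ι = Bool`, `O = ![O_∞, O_0]`, `κ_∞ = κ_0 = Fk k M`,
`x = t`, `x̄_∞ = t̄'`, `x̄_0 = t̄'^q`.)

* `gaussOx K O x i₀ : ValuationSubring K⟮x⟯` the Gauss ring, `gaussOx_eq` (independent of `i₀`);
* `exists_reduction`: every element of the Gauss ring has a reduction in `k(X)`, the same for all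
  `i`; `redX : gaussOx → k(X)` the reduction of the Gauss ring, `res_eq_evalRF_redX`;
* under `hsep : Gauss2Val.Sep O`, `hsurj` (the residue maps are onto) and
  `hdeg : [F : K(x)] ≤ ∑ i, [κ i : k(x̄ᵢ)]`:
  * `isIntegral_gaussOx_of_mem` : `⋂ i, O i` is integral over the Gauss ring;
  * `isIntegral_res`, `isIntegral_res_inv` : **(L1)** for `f ∈ ⋂ i, O i`;
  * `exists_basis_inf`, `exists_smul_of_redAll_eq_zero` : **(G0)** for every finite dimensional
    `K`-subspace `V` of `F`.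
-/

set_option autoImplicit false
set_option linter.unusedSectionVars false
set_option linter.style.haveILetI false

noncomputable section

namespace Fermat.Agent.S34x.Inst.GaussInst

open Polynomial IntermediateField IsLocalRing Module
open Fermat.Agent.Gateway.C0 Fermat.Agent.Gateway.GoodRed Fermat.Agent.Gateway.GoodRed.GaussRing
open Fermat.Agent.S34x Fermat.Agent.S34x.IntegralRed2

/-! ### Normal form of an element of `K(x)` -/

section NormalForm

variable {K : Type*} [Field K] (A : ValuationSubring K) {F : Type*} [Field F] [Algebra K F]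
  {x : F}

/-- Every nonzero element of `K(x)` is `e · P₀(x) / Q₀(x)` with `e ∈ Kˣ` and `P₀, Q₀ ∈ A[X]`
primitive. -/
theorem exists_normal_form {k : Type*} [Field k] (π : A →+* k)
    (hπ : ∀ a : A, π a = 0 ↔ a ∈ maximalIdeal A) {c : F} (hc : c ∈ K⟮x⟯) (hc0 : c ≠ 0) :
    ∃ (e : K) (P₀ Q₀ : A[X]), e ≠ 0 ∧ (∃ n, P₀.coeff n ∉ maximalIdeal A) ∧
      (∃ n, Q₀.coeff n ∉ maximalIdeal A) ∧
      c * aeval x (Q₀.map A.subtype) = algebraMap K F e * aeval x (P₀.map A.subtype) := by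
  obtain ⟨P, Q, hPQ⟩ := (IntermediateField.mem_adjoin_simple_iff K c).mp hc
  have hP0 : aeval x P ≠ 0 := by
    intro h
    rw [hPQ, h, zero_div] at hc0
    exact hc0 rfl
  have hQ0 : aeval x Q ≠ 0 := by
    intro h
    rw [hPQ, h, div_zero] at hc0
    exact hc0 rfl
  have hP0' : P ≠ 0 := by
    rintro rfl
    exact hP0 (map_zero _)
  have hQ0' : Q ≠ 0 := by
    rintro rfl
    exact hQ0 (map_zero _)
  obtain ⟨cP, hcP0, P₀, hP₀, hPu⟩ := exists_content_unit π hπ hP0'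
  obtain ⟨cQ, hcQ0, Q₀, hQ₀, hQu⟩ := exists_content_unit π hπ hQ0'
  refine ⟨cP / cQ, P₀, Q₀, div_ne_zero hcP0 hcQ0, hPu, hQu, ?_⟩
  rw [hP₀, hQ₀, map_mul, map_mul, aeval_C, aeval_C, hPQ, map_div₀, map_inv₀, map_inv₀]
  have h1 : algebraMap K F cP ≠ 0 := (_root_.map_ne_zero _).mpr hcP0
  have h2 : algebraMap K F cQ ≠ 0 := (_root_.map_ne_zero _).mpr hcQ0
  field_simp

end NormalForm

/-! ### One valuation ring: membership and residue in terms of the normal form -/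

section One

variable {K : Type*} [Field K] {A : ValuationSubring K} {F : Type*} [Field F] [Algebra K F]
  {O : ValuationSubring F} {k κ : Type*} [Field k] [Field κ] [Algebra k κ]
  (R : RedSetup A O k κ) {x : F} (hxO : x ∈ O) (hxbt : Transcendental k (R.res ⟨x, hxO⟩))

include hxbt in
/-- A primitive polynomial in `x` is a unit of `O`. -/
theorem res_eval₂_ne_zero (Q₀ : A[X]) (hQu : ∃ n, Q₀.coeff n ∉ maximalIdeal A) :
    R.res (Polynomial.eval₂ (cst R) ⟨x, hxO⟩ Q₀) ≠ 0 := by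
  have hQπ : Q₀.map R.π ≠ 0 := by
    obtain ⟨n, hn⟩ := hQu
    intro h0
    have h1 := congrArg (fun p => Polynomial.coeff p n) h0
    simp only [Polynomial.coeff_map, Polynomial.coeff_zero] at h1
    exact hn ((R.π_eq_zero_iff _).mp h1)
  rw [res_eval₂_cst]
  exact fun h0 => hQπ ((transcendental_iff.mp hxbt) _ h0)

include hxbt in
/-- Membership in `O` in terms of the normal form. -/
theorem mem_iff_of_normal_form {c : F} {e : K} {P₀ Q₀ : A[X]}
    (hPu : ∃ n, P₀.coeff n ∉ maximalIdeal A) (hQu : ∃ n, Q₀.coeff n ∉ maximalIdeal A)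
    (h : c * aeval x (Q₀.map A.subtype) = algebraMap K F e * aeval x (P₀.map A.subtype)) :
    c ∈ O ↔ e ∈ A := by
  have hP1 := valuation_eq_one_of_res_ne_zero R _ (res_eval₂_ne_zero R hxO hxbt P₀ hPu)
  have hQ1 := valuation_eq_one_of_res_ne_zero R _ (res_eval₂_ne_zero R hxO hxbt Q₀ hQu)
  rw [coe_eval₂_cst] at hP1 hQ1
  have hv := congrArg O.valuation h
  rw [map_mul, map_mul, hP1, hQ1, mul_one, mul_one] at hv
  rw [← algebraMap_mem_iff R e, ← O.valuation_le_one_iff, ← O.valuation_le_one_iff, hv]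

include hxbt in
/-- The residue of an element of `O ∩ K(x)` in terms of the normal form. -/
theorem res_of_normal_form {c : F} (hcO : c ∈ O) {e : K} (he : e ∈ A) {P₀ Q₀ : A[X]}
    (hQu : ∃ n, Q₀.coeff n ∉ maximalIdeal A)
    (h : c * aeval x (Q₀.map A.subtype) = algebraMap K F e * aeval x (P₀.map A.subtype)) :
    R.res ⟨c, hcO⟩ = evalRF (R.res ⟨x, hxO⟩) hxbt (RatFunc.C (R.π ⟨e, he⟩) *
      (algebraMap k[X] (RatFunc k) (P₀.map R.π) / algebraMap k[X] (RatFunc k) (Q₀.map R.π))) := by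
  have hQne := res_eval₂_ne_zero R hxO hxbt Q₀ hQu
  have h1 : (⟨c, hcO⟩ : O) * Polynomial.eval₂ (cst R) ⟨x, hxO⟩ Q₀ =
      cst R ⟨e, he⟩ * Polynomial.eval₂ (cst R) ⟨x, hxO⟩ P₀ := by
    apply Subtype.ext
    rw [MulMemClass.coe_mul, MulMemClass.coe_mul, coe_eval₂_cst, coe_eval₂_cst]
    exact h
  have h2 := congrArg R.res h1
  rw [map_mul, map_mul, res_cst] at h2
  rw [map_mul, map_div₀, evalRF_C, evalRF_algebraMap, evalRF_algebraMap, ← res_eval₂_cst,
    ← res_eval₂_cst, mul_div_assoc', ← h2, mul_div_assoc, div_self hQne, mul_one]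

include hxbt in
/-- `x` is transcendental over `K` as soon as its residue is transcendental over `k`. -/
theorem transcendental_of_res : Transcendental K x := by
  rw [transcendental_iff]
  intro P hP
  by_contra hP0
  obtain ⟨c, hc0, Q', hQ', hQu⟩ := exists_content_unit R.π R.π_eq_zero_iff hP0
  apply res_eval₂_ne_zero R hxO hxbt Q' hQu
  have h0 : Polynomial.eval₂ (cst R) ⟨x, hxO⟩ Q' = 0 := by
    apply Subtype.ext
    rw [coe_eval₂_cst, hQ', map_mul, hP, mul_zero]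
    rfl
  rw [h0, map_zero]

end One

/-! ### A family of valuation rings over the Gauss valuation of `K(x)` -/

section Family

variable {K : Type*} [Field K] {A : ValuationSubring K} {F : Type*} [Field F] [Algebra K F]
  {k : Type*} [Field k] {ι : Type*} (O : ι → ValuationSubring F)
  {κ : ι → Type*} [∀ i, Field (κ i)] [∀ i, Algebra k (κ i)]
  (R : ∀ i, RedSetup A (O i) k (κ i)) (π : A →+* k) (hRπ : ∀ i, (R i).π = π)
  {x : F} (hxO : ∀ i, x ∈ O i)
  (hxbt : ∀ i, Transcendental k ((R i).res ⟨x, hxO i⟩))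

/-- The Gauss ring of `K(x)` (as the trace of `O i₀`; independent of `i₀`: `gaussOx_eq`). -/
def gaussOx (K : Type*) [Field K] {F : Type*} [Field F] [Algebra K F] {ι : Type*}
    (O : ι → ValuationSubring F) (x : F) (i₀ : ι) : ValuationSubring K⟮x⟯ :=
  (O i₀).comap (algebraMap K⟮x⟯ F)

theorem mem_gaussOx_iff {i₀ : ι} (c : K⟮x⟯) : c ∈ gaussOx K O x i₀ ↔ (c : F) ∈ O i₀ := Iff.rfl

include hxbt in
theorem gaussOx_eq (i j : ι) : gaussOx K O x i = gaussOx K O x j :=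
  comap_eq_comap (R i) (R j) (hxO i) (hxbt i) (hxO j) (hxbt j)

include R hxbt in
theorem mem_of_mem_gaussOx (i₀ i : ι) (c : gaussOx K O x i₀) : algebraMap K⟮x⟯ F (c : K⟮x⟯) ∈ O i := by
  have h1 : (c : K⟮x⟯) ∈ gaussOx K O x i := by
    rw [gaussOx_eq O R hxO hxbt i i₀]
    exact c.2
  exact h1

/-- The inclusions of the Gauss ring in the `O i`. -/
def inclO (i₀ i : ι) : gaussOx K O x i₀ →+* O i :=
  (algebraMap K⟮x⟯ F).restrict (gaussOx K O x i₀) (O i)
    fun c hc => mem_of_mem_gaussOx O R hxO hxbt i₀ i ⟨c, hc⟩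

@[simp] theorem coe_inclO (i₀ i : ι) (c : gaussOx K O x i₀) :
    ((inclO O R hxO hxbt i₀ i c : O i) : F) = ((c : K⟮x⟯) : F) := rfl

include hRπ in
/-- Every element of the Gauss ring has a reduction in `k(X)`, the same for all `i`. -/
theorem exists_reduction (i₀ : ι) (c : gaussOx K O x i₀) :
    ∃ g : RatFunc k, ∀ i, (R i).res (inclO O R hxO hxbt i₀ i c) =
      evalRF ((R i).res ⟨x, hxO i⟩) (hxbt i) g := by
  by_cases hc0 : ((c : K⟮x⟯) : F) = 0
  · refine ⟨0, fun i => ?_⟩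
    have : inclO O R hxO hxbt i₀ i c = 0 := Subtype.ext hc0
    rw [this, map_zero, map_zero]
  have hπ : ∀ a : A, π a = 0 ↔ a ∈ maximalIdeal A := fun a => by
    rw [← hRπ i₀]
    exact (R i₀).π_eq_zero_iff a
  obtain ⟨e, P₀, Q₀, -, hPu, hQu, h⟩ := exists_normal_form A π hπ ((c : K⟮x⟯)).2 hc0
  have he : e ∈ A :=
    (mem_iff_of_normal_form (R i₀) (hxO i₀) (hxbt i₀) hPu hQu h).mp c.2
  refine ⟨RatFunc.C (π ⟨e, he⟩) * (algebraMap k[X] (RatFunc k) (P₀.map π) /
    algebraMap k[X] (RatFunc k) (Q₀.map π)), fun i => ?_⟩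
  have h1 := res_of_normal_form (R i) (hxO i) (hxbt i)
    (mem_of_mem_gaussOx O R hxO hxbt i₀ i c) he hQu h
  rw [hRπ i] at h1
  exact h1

include hRπ in
/-- The reduction of the Gauss ring, `gaussOx → k(X)`. -/
theorem exists_redX [Nonempty ι] (i₀ : ι) :
    ∃ τ : gaussOx K O x i₀ →+* RatFunc k, ∀ (c : gaussOx K O x i₀) (i : ι),
      (R i).res (inclO O R hxO hxbt i₀ i c) =
        evalRF ((R i).res ⟨x, hxO i⟩) (hxbt i) (τ c) := by
  choose f hf using exists_reduction O R π hRπ hxO hxbt i₀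
  have hinj := evalRF_injective ((R i₀).res ⟨x, hxO i₀⟩) (hxbt i₀)
  refine ⟨{ toFun := f, map_one' := ?_, map_mul' := ?_, map_zero' := ?_, map_add' := ?_ }, hf⟩
  · apply hinj
    rw [← hf 1 i₀, map_one, map_one, map_one]
  · intro a b
    apply hinj
    rw [← hf (a * b) i₀, map_mul, map_mul, map_mul, hf a i₀, hf b i₀]
  · apply hinj
    rw [← hf 0 i₀, map_zero, map_zero, map_zero]
  · intro a b
    apply hinj
    rw [← hf (a + b) i₀, map_add, map_add, map_add, hf a i₀, hf b i₀]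

/-- The reduction of the Gauss ring. -/
def redX [Nonempty ι] (i₀ : ι) : gaussOx K O x i₀ →+* RatFunc k :=
  (exists_redX O R π hRπ hxO hxbt i₀).choose

theorem res_eq_evalRF_redX [Nonempty ι] (i₀ : ι) (c : gaussOx K O x i₀) (i : ι) :
    (R i).res (inclO O R hxO hxbt i₀ i c) =
      evalRF ((R i).res ⟨x, hxO i⟩) (hxbt i) (redX O R π hRπ hxO hxbt i₀ c) :=
  (exists_redX O R π hRπ hxO hxbt i₀).choose_spec c i

/-- `κ i` as a `k(X)`-algebra, `X ↦ x̄ᵢ`. -/
@[reducible] def algRF (i : ι) : Algebra (RatFunc k) (κ i) :=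
  (evalRF ((R i).res ⟨x, hxO i⟩) (hxbt i)).toRingHom.toAlgebra

theorem isScalarTower_algRF (i : ι) :
    letI := algRF O R hxO hxbt i
    IsScalarTower k (RatFunc k) (κ i) := by
  letI := algRF O R hxO hxbt i
  exact IsScalarTower.of_algebraMap_eq fun a =>
    ((evalRF ((R i).res ⟨x, hxO i⟩) (hxbt i)).commutes a).symm

end Family

/-! ### The hypotheses of `Gauss2Val` / `Gauss2G0` -/

section Hyps

variable {K : Type*} [Field K] {A : ValuationSubring K} {F : Type*} [Field F] [Algebra K F]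
  {k : Type*} [Field k] {ι : Type*} [Nonempty ι] (O : ι → ValuationSubring F)
  {κ : ι → Type*} [∀ i, Field (κ i)] [∀ i, Algebra k (κ i)]
  (R : ∀ i, RedSetup A (O i) k (κ i)) (π : A →+* k) (hRπ : ∀ i, (R i).π = π)
  {x : F} (hxO : ∀ i, x ∈ O i)
  (hxbt : ∀ i, Transcendental k ((R i).res ⟨x, hxO i⟩)) (i₀ : ι)

include R in
/-- `hA`: the constants of `A` lie in the Gauss ring. -/
theorem algebraMap_mem_gaussOx (a : A) : algebraMap K K⟮x⟯ (a : K) ∈ gaussOx K O x i₀ := by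
  show algebraMap K⟮x⟯ F (algebraMap K K⟮x⟯ (a : K)) ∈ O i₀
  rw [← IsScalarTower.algebraMap_apply]
  exact (R i₀).algebraMap_mem a

/-- `hπA`: the reduction of the Gauss ring extends `π`. -/
theorem redX_algebraMap (a : A) :
    redX O R π hRπ hxO hxbt i₀ ⟨algebraMap K K⟮x⟯ (a : K), algebraMap_mem_gaussOx O R i₀ a⟩ =
      algebraMap k (RatFunc k) (π a) := by
  apply evalRF_injective ((R i₀).res ⟨x, hxO i₀⟩) (hxbt i₀)
  rw [← res_eq_evalRF_redX O R π hRπ hxO hxbt i₀ _ i₀, AlgHom.commutes, ← hRπ i₀,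
    ← (R i₀).res_algebraMap a]
  rfl

include hxO in
/-- `ht`: the generator lies in the Gauss ring. -/
theorem gen_mem_gaussOx : AdjoinSimple.gen K x ∈ gaussOx K O x i₀ := hxO i₀

/-- the reduction of the generator is `X`. -/
theorem redX_gen :
    redX O R π hRπ hxO hxbt i₀ ⟨AdjoinSimple.gen K x, gen_mem_gaussOx O hxO i₀⟩ = RatFunc.X := by
  apply evalRF_injective ((R i₀).res ⟨x, hxO i₀⟩) (hxbt i₀)
  rw [← res_eq_evalRF_redX O R π hRπ hxO hxbt i₀ _ i₀, evalRF_X]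
  rfl

/-- `htr`. -/
theorem transcendental_redX_gen :
    Transcendental k (redX O R π hRπ hxO hxbt i₀ ⟨AdjoinSimple.gen K x, gen_mem_gaussOx O hxO i₀⟩) := by
  rw [redX_gen]
  exact RatFunc.transcendental_X

/-- `hπx`: the reduction of the Gauss ring kills its maximal ideal. -/
theorem redX_eq_zero_of_mem (c : gaussOx K O x i₀) (hc : c ∈ maximalIdeal (gaussOx K O x i₀)) :
    redX O R π hRπ hxO hxbt i₀ c = 0 := by
  apply evalRF_injective ((R i₀).res ⟨x, hxO i₀⟩) (hxbt i₀)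
  rw [← res_eq_evalRF_redX O R π hRπ hxO hxbt i₀ c i₀, map_zero]
  by_contra hne
  have h1 := valuation_eq_one_of_res_ne_zero (R i₀) _ hne
  rw [coe_inclO] at h1
  have hinv : (((c : K⟮x⟯) : F))⁻¹ ∈ O i₀ := by
    rw [← (O i₀).valuation_le_one_iff, map_inv₀, h1, inv_one]
  have hc0 : (c : K⟮x⟯) ≠ 0 := by
    intro h0
    rw [h0] at h1
    simp at h1
  have hunit : IsUnit c := by
    rw [isUnit_iff_exists_inv]
    refine ⟨⟨(c : K⟮x⟯)⁻¹, ?_⟩, Subtype.ext (mul_inv_cancel₀ hc0)⟩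
    show algebraMap K⟮x⟯ F ((c : K⟮x⟯)⁻¹) ∈ O i₀
    rw [map_inv₀]
    exact hinv
  exact (IsLocalRing.mem_maximalIdeal c).mp hc hunit

omit [Nonempty ι] in
theorem coe_aeval_gen (p : K[X]) : ((aeval (AdjoinSimple.gen K x) p : K⟮x⟯) : F) = aeval x p :=
  (IntermediateField.aeval_coe K⟮x⟯ (AdjoinSimple.gen K x) p).symm

/-- `hfrac`. -/
theorem exists_num_denom (y : K⟮x⟯) :
    ∃ p q : K[X], aeval (AdjoinSimple.gen K x) q ≠ 0 ∧
      aeval (AdjoinSimple.gen K x) q * y = aeval (AdjoinSimple.gen K x) p := by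
  obtain ⟨P, Q, hPQ⟩ := (IntermediateField.mem_adjoin_simple_iff K (y : F)).mp y.2
  have hcoe : ∀ p : K[X], ((aeval (AdjoinSimple.gen K x) p : K⟮x⟯) : F) = aeval x p :=
    coe_aeval_gen
  by_cases hQ0 : aeval x Q = 0
  · refine ⟨0, 1, by simp, ?_⟩
    apply Subtype.ext
    rw [map_one, one_mul, map_zero, hPQ, hQ0, div_zero]
    rfl
  · refine ⟨P, Q, ?_, ?_⟩
    · intro h0
      apply hQ0
      rw [← hcoe, h0]
      rfl
    · apply Subtype.ext
      rw [MulMemClass.coe_mul, hcoe, hcoe, hPQ, mul_div_cancel₀ _ hQ0]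

include R hRπ hxbt in
/-- `hnorm`. -/
theorem exists_unit_smul (q : K[X]) (hq : aeval (AdjoinSimple.gen K x) q ≠ 0) :
    ∃ c : K, c ≠ 0 ∧ c • aeval (AdjoinSimple.gen K x) q ∈ gaussOx K O x i₀ ∧
      (c • aeval (AdjoinSimple.gen K x) q)⁻¹ ∈ gaussOx K O x i₀ := by
  have hq0 : q ≠ 0 := by
    rintro rfl
    exact hq (map_zero _)
  have hcoe : ∀ p : K[X], ((aeval (AdjoinSimple.gen K x) p : K⟮x⟯) : F) = aeval x p :=
    coe_aeval_gen
  obtain ⟨c, hc0, Q', hQ', hQu⟩ := exists_content_unit (R i₀).π (R i₀).π_eq_zero_iff hq0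
  have hres := res_eval₂_ne_zero (R i₀) (hxO i₀) (hxbt i₀) Q' hQu
  have h1 := valuation_eq_one_of_res_ne_zero (R i₀) _ hres
  rw [coe_eval₂_cst, hQ', map_mul, aeval_C] at h1
  have hval : ((c⁻¹ • aeval (AdjoinSimple.gen K x) q : K⟮x⟯) : F) =
      algebraMap K F c⁻¹ * aeval x q := by
    rw [Algebra.smul_def, MulMemClass.coe_mul, hcoe]
    rfl
  refine ⟨c⁻¹, inv_ne_zero hc0, ?_, ?_⟩
  · show algebraMap K⟮x⟯ F (c⁻¹ • aeval (AdjoinSimple.gen K x) q) ∈ O i₀
    rw [← (O i₀).valuation_le_one_iff]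
    exact le_of_eq (by rw [← h1]; exact congrArg _ hval)
  · show algebraMap K⟮x⟯ F ((c⁻¹ • aeval (AdjoinSimple.gen K x) q)⁻¹) ∈ O i₀
    rw [map_inv₀, ← (O i₀).valuation_le_one_iff, map_inv₀]
    have : (O i₀).valuation (algebraMap K⟮x⟯ F (c⁻¹ • aeval (AdjoinSimple.gen K x) q)) = 1 := by
      rw [← h1]
      exact congrArg _ hval
    rw [this, inv_one]

end Hyps

/-! ### The outputs: integrality, (L1) and (G0) -/

section Main

variable {K : Type*} [Field K] {A : ValuationSubring K} {F : Type*} [Field F] [Algebra K F]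
  {k : Type*} [Field k] {ι : Type*} [Fintype ι] [Nonempty ι] (O : ι → ValuationSubring F)
  {κ : ι → Type*} [∀ i, Field (κ i)] [∀ i, Algebra k (κ i)]
  (R : ∀ i, RedSetup A (O i) k (κ i)) (π : A →+* k) (hRπ : ∀ i, (R i).π = π)
  {x : F} (hxO : ∀ i, x ∈ O i)
  (hxbt : ∀ i, Transcendental k ((R i).res ⟨x, hxO i⟩))
  [FiniteDimensional K⟮x⟯ F] (hsep : Gauss2Val.Sep O)
  (hsurj : ∀ i, Function.Surjective (R i).res)

omit [Fintype ι] [Nonempty ι] [FiniteDimensional K⟮x⟯ F] in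
/-- The degree of `κ i` over `k(X)` (acting through `X ↦ x̄ᵢ`) is its degree over `k(x̄ᵢ)`. -/
theorem finrank_algRF (i : ι) :
    letI := algRF O R hxO hxbt i
    finrank (RatFunc k) (κ i) = finrank k⟮(R i).res ⟨x, hxO i⟩⟯ (κ i) := by
  letI := algRF O R hxO hxbt i
  refine Algebra.finrank_eq_of_equiv_equiv
    (RatFunc.algEquivOfTranscendental _ (hxbt i)).toRingEquiv (RingEquiv.refl (κ i)) ?_
  ext g
  rfl

omit [Fintype ι] [FiniteDimensional K⟮x⟯ F] in
/-- `hbasex`. -/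
theorem res_algebraMap_eq (i₀ i : ι) (c : gaussOx K O x i₀) :
    letI := algRF O R hxO hxbt i
    (R i).res ⟨algebraMap K⟮x⟯ F (c : K⟮x⟯), mem_of_mem_gaussOx O R hxO hxbt i₀ i c⟩ =
      algebraMap (RatFunc k) (κ i) (redX O R π hRπ hxO hxbt i₀ c) :=
  res_eq_evalRF_redX O R π hRπ hxO hxbt i₀ c i

include hRπ hsep hsurj in
/-- The residue fields are finite over `k(X)`. -/
theorem finite_algRF (i : ι) :
    letI := algRF O R hxO hxbt i
    Module.Finite (RatFunc k) (κ i) := by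
  letI : ∀ i, Algebra (RatFunc k) (κ i) := fun i => algRF O R hxO hxbt i
  obtain ⟨i₀⟩ := ‹Nonempty ι›
  exact Gauss2Val.finite_residue (gaussOx K O x i₀) O (mem_of_mem_gaussOx O R hxO hxbt i₀)
    (fun i => (R i).res) (redX O R π hRπ hxO hxbt i₀)
    (fun i c => res_algebraMap_eq O R π hRπ hxO hxbt i₀ i c)
    (fun i f h => ((R i).res_ker f).mpr h) hsep hsurj i

include hRπ hsep hsurj in
/-- The degree hypothesis `hdeg` of `Gauss2Val` / `Gauss2G0`, from the classical form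
`[F : K(x)] ≤ ∑ i, [κ i : k(x̄ᵢ)]`. -/
theorem finrank_le_finrank_pi
    (hdeg : finrank K⟮x⟯ F ≤ ∑ i, finrank k⟮(R i).res ⟨x, hxO i⟩⟯ (κ i)) :
    letI : ∀ i, Algebra (RatFunc k) (κ i) := fun i => algRF O R hxO hxbt i
    finrank K⟮x⟯ F ≤ finrank (RatFunc k) (∀ i, κ i) := by
  letI : ∀ i, Algebra (RatFunc k) (κ i) := fun i => algRF O R hxO hxbt i
  haveI : ∀ i, Module.Finite (RatFunc k) (κ i) :=
    fun i => finite_algRF O R π hRπ hxO hxbt hsep hsurj i
  rw [Module.finrank_pi_fintype (RatFunc k)]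
  refine hdeg.trans (le_of_eq (Finset.sum_congr rfl fun i _ => ?_))
  exact (finrank_algRF O R hxO hxbt i).symm

include hRπ hxbt hsep hsurj in
/-- **`⋂ i, O i` is integral over the Gauss ring of `K(x)`.** -/
theorem isIntegral_gaussOx_of_mem
    (hdeg : finrank K⟮x⟯ F ≤ ∑ i, finrank k⟮(R i).res ⟨x, hxO i⟩⟯ (κ i)) (i₀ : ι)
    {f : F} (hf : ∀ i, f ∈ O i) : IsIntegral (gaussOx K O x i₀) f := by
  letI : ∀ i, Algebra (RatFunc k) (κ i) := fun i => algRF O R hxO hxbt i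
  exact Gauss2Val.isIntegral_of_mem_ball (gaussOx K O x i₀) O
    (mem_of_mem_gaussOx O R hxO hxbt i₀) (fun i => (R i).res) (redX O R π hRπ hxO hxbt i₀)
    (fun i c => res_algebraMap_eq O R π hRπ hxO hxbt i₀ i c)
    (fun i f h => ((R i).res_ker f).mpr h)
    (redX_eq_zero_of_mem O R π hRπ hxO hxbt i₀) hsep hsurj
    (finrank_le_finrank_pi O R π hRπ hxO hxbt hsep hsurj hdeg) hf

include hRπ hxbt hsep hsurj in
/-- **(L1), chart `x ≠ ∞`**: if `f ∈ ⋂ i, O i` is integral over `K[x]` then its residue at `O i` is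
integral over `k[x̄ᵢ]`. -/
theorem isIntegral_res
    (hdeg : finrank K⟮x⟯ F ≤ ∑ i, finrank k⟮(R i).res ⟨x, hxO i⟩⟯ (κ i))
    {f : F} (hf : ∀ i, f ∈ O i) (hfi : IsIntegral (Algebra.adjoin K {x}) f) (i : ι) :
    IsIntegral (Algebra.adjoin k {(R i).res ⟨x, hxO i⟩}) ((R i).res ⟨f, hf i⟩) :=
  isIntegral_res_of_isIntegral (R i) (transcendental_of_res (R i) (hxO i) (hxbt i)) (hxO i)
    (hxbt i) (hf i) (isIntegral_gaussOx_of_mem O R π hRπ hxO hxbt hsep hsurj hdeg i hf) hfi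

include hRπ hxbt hsep hsurj in
/-- **(L1), chart `x ≠ 0`**: if `f ∈ ⋂ i, O i` is integral over `K[1/x]` then its residue at `O i`
is integral over `k[1/x̄ᵢ]`. -/
theorem isIntegral_res_inv
    (hdeg : finrank K⟮x⟯ F ≤ ∑ i, finrank k⟮(R i).res ⟨x, hxO i⟩⟯ (κ i))
    {f : F} (hf : ∀ i, f ∈ O i) (hfi : IsIntegral (Algebra.adjoin K {x⁻¹}) f) (i : ι) :
    IsIntegral (Algebra.adjoin k {((R i).res ⟨x, hxO i⟩)⁻¹}) ((R i).res ⟨f, hf i⟩) :=
  isIntegral_res_inv_of_isIntegral (R i) (transcendental_of_res (R i) (hxO i) (hxbt i)) (hxO i)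
    (hxbt i) (hf i) (isIntegral_gaussOx_of_mem O R π hRπ hxO hxbt hsep hsurj hdeg i hf) hfi

include hRπ hxbt hsep hsurj in
/-- **(G0)**: for every finite dimensional `K`-subspace `V` of `F`, the lattice `V ∩ ⋂ i, O i` is
free over `A` on `dim_K V` elements, `K`-linearly independent and with `k`-linearly independent
joint reductions (`Gauss2Val.ball` / `Gauss2Val.redAll` form). -/
theorem exists_basis_inf
    (hdeg : finrank K⟮x⟯ F ≤ ∑ i, finrank k⟮(R i).res ⟨x, hxO i⟩⟯ (κ i))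
    (V : Submodule K F) [FiniteDimensional K V] :
    ∃ c : Fin (finrank K V) → Gauss2Val.ball A O (fun i a => (R i).algebraMap_mem a),
      (∀ j, (c j : F) ∈ V) ∧ LinearIndependent K (fun j => (c j : F)) ∧
      LinearIndependent k (fun j => Gauss2Val.redAll A O (fun i a => (R i).algebraMap_mem a)
        (fun i => (R i).res) (c j)) ∧
      ∀ f : Gauss2Val.ball A O (fun i a => (R i).algebraMap_mem a), (f : F) ∈ V →
        ∃ a : Fin (finrank K V) → A, f = ∑ j, a j • c j := by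
  letI : ∀ i, Algebra (RatFunc k) (κ i) := fun i => algRF O R hxO hxbt i
  haveI : ∀ i, IsScalarTower k (RatFunc k) (κ i) := fun i => isScalarTower_algRF O R hxO hxbt i
  obtain ⟨i₀⟩ := ‹Nonempty ι›
  have hπ : ∀ a : A, a ∈ maximalIdeal A → π a = 0 := fun a ha => by
    rw [← hRπ i₀]
    exact ((R i₀).π_eq_zero_iff a).mpr ha
  have hπs : Function.Surjective π := by
    rw [← hRπ i₀]
    exact (R i₀).π_surj
  exact Gauss2G0.exists_basis_inf_ball_pow A π (gaussOx K O x i₀) (redX O R π hRπ hxO hxbt i₀) O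
    (mem_of_mem_gaussOx O R hxO hxbt i₀) (fun i a => (R i).algebraMap_mem a)
    (algebraMap_mem_gaussOx O R i₀) (fun i => (R i).res)
    (fun i c => res_algebraMap_eq O R π hRπ hxO hxbt i₀ i c)
    (redX_algebraMap O R π hRπ hxO hxbt i₀) hπ
    (redX_eq_zero_of_mem O R π hRπ hxO hxbt i₀)
    (fun i f h => ((R i).res_ker f).mpr h)
    (AdjoinSimple.gen K x) (gen_mem_gaussOx O hxO i₀)
    (transcendental_redX_gen O R π hRπ hxO hxbt i₀)
    exists_num_denom (exists_unit_smul O R π hRπ hxO hxbt i₀)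
    hπs hsep hsurj (finrank_le_finrank_pi O R π hRπ hxO hxbt hsep hsurj hdeg) V

include hRπ hxbt hsep hsurj in
/-- **(G0), kernel of the joint reduction** (`Gauss2Val.ball` / `Gauss2Val.redAll` form). -/
theorem exists_smul_of_redAll_eq_zero
    (hdeg : finrank K⟮x⟯ F ≤ ∑ i, finrank k⟮(R i).res ⟨x, hxO i⟩⟯ (κ i))
    (V : Submodule K F) [FiniteDimensional K V]
    (f : Gauss2Val.ball A O (fun i a => (R i).algebraMap_mem a)) (hfV : (f : F) ∈ V)
    (h0 : Gauss2Val.redAll A O (fun i a => (R i).algebraMap_mem a) (fun i => (R i).res) f = 0) :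
    ∃ (a : A) (f' : Gauss2Val.ball A O (fun i a => (R i).algebraMap_mem a)),
      a ∈ maximalIdeal A ∧ f = a • f' ∧ (f' : F) ∈ V := by
  letI : ∀ i, Algebra (RatFunc k) (κ i) := fun i => algRF O R hxO hxbt i
  haveI : ∀ i, IsScalarTower k (RatFunc k) (κ i) := fun i => isScalarTower_algRF O R hxO hxbt i
  obtain ⟨i₀⟩ := ‹Nonempty ι›
  have hπ : ∀ a : A, a ∈ maximalIdeal A → π a = 0 := fun a ha => by
    rw [← hRπ i₀]
    exact ((R i₀).π_eq_zero_iff a).mpr ha
  exact Gauss2G0.exists_smul_of_redAll_eq_zero_pow A π (gaussOx K O x i₀)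
    (redX O R π hRπ hxO hxbt i₀) O
    (mem_of_mem_gaussOx O R hxO hxbt i₀) (fun i a => (R i).algebraMap_mem a)
    (algebraMap_mem_gaussOx O R i₀) (fun i => (R i).res)
    (fun i c => res_algebraMap_eq O R π hRπ hxO hxbt i₀ i c)
    (redX_algebraMap O R π hRπ hxO hxbt i₀) hπ
    (redX_eq_zero_of_mem O R π hRπ hxO hxbt i₀)
    (fun i f h => ((R i).res_ker f).mpr h)
    (AdjoinSimple.gen K x) (gen_mem_gaussOx O hxO i₀)
    (transcendental_redX_gen O R π hRπ hxO hxbt i₀)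
    exists_num_denom (exists_unit_smul O R π hRπ hxO hxbt i₀)
    hsep hsurj (finrank_le_finrank_pi O R π hRπ hxO hxbt hsep hsurj hdeg) V f hfV h0

include hRπ hxbt hsep hsurj in
/-- **(G0)**, plain form. -/
theorem exists_basis_inf'
    (hdeg : finrank K⟮x⟯ F ≤ ∑ i, finrank k⟮(R i).res ⟨x, hxO i⟩⟯ (κ i))
    (V : Submodule K F) [FiniteDimensional K V] :
    ∃ (c : Fin (finrank K V) → F) (hc : ∀ j i, c j ∈ O i), (∀ j, c j ∈ V) ∧
      LinearIndependent K c ∧
      LinearIndependent k (fun j => (fun i => (R i).res ⟨c j, hc j i⟩ : ∀ i, κ i)) ∧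
      ∀ f ∈ V, (∀ i, f ∈ O i) → ∃ a : Fin (finrank K V) → A, f = ∑ j, (a j : K) • c j := by
  obtain ⟨c, hcV, hcK, hck, hgen⟩ := exists_basis_inf O R π hRπ hxO hxbt hsep hsurj hdeg V
  refine ⟨fun j => (c j : F), fun j i => (c j).2 i, hcV, hcK, hck, fun f hfV hf => ?_⟩
  obtain ⟨a, ha⟩ := hgen ⟨f, hf⟩ hfV
  refine ⟨a, ?_⟩
  have h2 := congrArg (fun y : Gauss2Val.ball A O (fun i a => (R i).algebraMap_mem a) => (y : F)) ha
  simp only [Gauss2.coe_sum_smul] at h2
  exact h2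

include hRπ hxbt hsep hsurj in
/-- **(G0)**: every `A`-submodule of `F` with underlying set `V ∩ ⋂ i, O i` is finitely
generated. -/
theorem fg_of_mem_iff
    (hdeg : finrank K⟮x⟯ F ≤ ∑ i, finrank k⟮(R i).res ⟨x, hxO i⟩⟯ (κ i))
    (V : Submodule K F) [FiniteDimensional K V] (L : Submodule A F)
    (hL : ∀ f : F, f ∈ L ↔ f ∈ V ∧ ∀ i, f ∈ O i) : L.FG := by
  obtain ⟨c, hc, hcV, -, -, hgen⟩ := exists_basis_inf' O R π hRπ hxO hxbt hsep hsurj hdeg V
  have : L = Submodule.span A (Set.range c) := by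
    apply le_antisymm
    · intro f hf
      obtain ⟨hfV, hfO⟩ := (hL f).mp hf
      obtain ⟨a, ha⟩ := hgen f hfV hfO
      rw [ha]
      exact Submodule.sum_mem _ fun j _ =>
        Submodule.smul_mem _ (a j) (Submodule.subset_span ⟨j, rfl⟩)
    · rw [Submodule.span_le]
      rintro _ ⟨j, rfl⟩
      exact (hL _).mpr ⟨hcV j, hc j⟩
  rw [this]
  exact Submodule.fg_span (Set.finite_range c)

include hRπ hxbt hsep hsurj in
/-- **(G0), kernel of the joint reduction**, plain form. -/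
theorem exists_smul_of_res_eq_zero
    (hdeg : finrank K⟮x⟯ F ≤ ∑ i, finrank k⟮(R i).res ⟨x, hxO i⟩⟯ (κ i))
    (V : Submodule K F) [FiniteDimensional K V] {f : F} (hfV : f ∈ V) (hf : ∀ i, f ∈ O i)
    (h0 : ∀ i, (R i).res ⟨f, hf i⟩ = 0) :
    ∃ (a : A) (f' : F), a ∈ maximalIdeal A ∧ f' ∈ V ∧ (∀ i, f' ∈ O i) ∧ f = (a : K) • f' := by
  obtain ⟨a, f', ha, hff', hf'V⟩ := exists_smul_of_redAll_eq_zero O R π hRπ hxO hxbt hsep hsurj
    hdeg V ⟨f, hf⟩ hfV (funext h0)
  exact ⟨a, (f' : F), ha, hf'V, f'.2, congrArg Subtype.val hff'⟩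

end Main

end Fermat.Agent.S34x.Inst.GaussInst
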