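import Fermat.Agent.S34x.Inst.GaussInstTwo
import Fermat.Agent.S34x.Lattice2.Setup
import Fermat.Agent.S34x.Lattice2.ProdIntegral

/-!
# P-S34, WP3-inst (J4, abstract half): the chart coordinate of two valuation rings (helper57)

In the setting of `Inst/GaussInstTwo.lean` (two valuation rings `O₁ ≠ O₂` of `F` over `A` with
residue data `R₁`, `R₂`, an element `x ∈ O₁ ⊓ O₂` with transcendental residues, `F / K(x)` finite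
with `[F : K(x)] ≤ [κ₁ : k(x̄₁)] + [κ₂ : k(x̄₂)]`), `x` is a chart coordinate in the sense of
helper50's `Lattice2.ChartCoord` for `R := redSetupTwoVal R₁ R₂ hπ`: integrality over `K[x]` and
`K[x⁻¹]` survives the reduction to `κ₁ × κ₂` (`hint1`, `hint2` = (L1)).

* `chartCoord … : Lattice2.ChartCoord (redSetupTwoVal R₁ R₂ hπ)` with `t = x`,
  `T = (x̄₁, x̄₂)`, `Ti = (x̄₁⁻¹, x̄₂⁻¹)`.
-/

set_option autoImplicit false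
set_option linter.unusedSectionVars false
set_option linter.style.haveILetI false

noncomputable section

namespace Fermat.Agent.S34x.Inst.GaussInstChart

open Polynomial IntermediateField IsLocalRing Module
open Fermat.Agent.Gateway.C0 Fermat.Agent.S34x Fermat.Agent.S34x.C0two
open Fermat.Agent.S34x.IntegralRed2 Fermat.Agent.S34x.Inst.GaussInstTwo

universe u

variable {K : Type*} [Field K] {A : ValuationSubring K} {F : Type*} [Field F] [Algebra K F]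
  {k : Type*} [Field k] {O₁ O₂ : ValuationSubring F} {κ₁ κ₂ : Type u} [Field κ₁] [Field κ₂]
  [Algebra k κ₁] [Algebra k κ₂]
  (R₁ : RedSetup A O₁ k κ₁) (R₂ : RedSetup A O₂ k κ₂) (hπ : R₁.π = R₂.π)
  {x : F} (hx₁ : x ∈ O₁) (hx₂ : x ∈ O₂)
  (hxb₁ : Transcendental k (R₁.res ⟨x, hx₁⟩)) (hxb₂ : Transcendental k (R₂.res ⟨x, hx₂⟩))

omit [Algebra K F] in
theorem res_ne_zero_of_transcendental {κ : Type*} [Field κ] [Algebra k κ] {y : κ}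
    (hy : Transcendental k y) : y ≠ 0 := by
  rintro rfl
  exact hy isAlgebraic_zero

include hxb₁ hxb₂ in
theorem inv_mem_twoVal : x⁻¹ ∈ (twoVal O₁ O₂).O :=
  ⟨inv_mem_of_res_ne_zero R₁ hx₁ (res_ne_zero_of_transcendental hxb₁),
    inv_mem_of_res_ne_zero R₂ hx₂ (res_ne_zero_of_transcendental hxb₂)⟩

/-- the reduction of `x` in `κ₁ × κ₂` -/
theorem res_x :
    (redSetupTwoVal R₁ R₂ hπ).res ⟨x, ⟨hx₁, hx₂⟩⟩ = (R₁.res ⟨x, hx₁⟩, R₂.res ⟨x, hx₂⟩) := rfl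

/-- the reduction of `x⁻¹` in `κ₁ × κ₂` -/
theorem res_x_inv :
    (redSetupTwoVal R₁ R₂ hπ).res ⟨x⁻¹, inv_mem_twoVal R₁ R₂ hx₁ hx₂ hxb₁ hxb₂⟩ =
      ((R₁.res ⟨x, hx₁⟩)⁻¹, (R₂.res ⟨x, hx₂⟩)⁻¹) := by
  refine Prod.ext ?_ ?_
  · exact res_inv R₁ hx₁ (res_ne_zero_of_transcendental hxb₁)
  · exact res_inv R₂ hx₂ (res_ne_zero_of_transcendental hxb₂)

variable [FiniteDimensional K⟮x⟯ F] (hne : O₁ ≠ O₂)
  (hs₁ : Function.Surjective R₁.res) (hs₂ : Function.Surjective R₂.res)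
  (hdeg : finrank K⟮x⟯ F ≤
    finrank k⟮R₁.res ⟨x, hx₁⟩⟯ κ₁ + finrank k⟮R₂.res ⟨x, hx₂⟩⟯ κ₂)

/-- **The chart coordinate `x`** of `redSetupTwoVal R₁ R₂ hπ` ((L1) = `hint1`, `hint2`). -/
def chartCoord : Lattice2.ChartCoord (redSetupTwoVal R₁ R₂ hπ) where
  t := x
  t_ne := by
    rintro rfl
    exact res_ne_zero_of_transcendental hxb₁ (map_zero R₁.res)
  t_mem := ⟨hx₁, hx₂⟩
  tinv_mem := inv_mem_twoVal R₁ R₂ hx₁ hx₂ hxb₁ hxb₂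
  hint1 f hf hfi := by
    have h1 := isIntegral_res_fst R₁ R₂ hπ hx₁ hx₂ hxb₁ hxb₂ hne hs₁ hs₂ hdeg hf.1 hf.2 hfi
    have h2 := isIntegral_res_snd R₁ R₂ hπ hx₁ hx₂ hxb₁ hxb₂ hne hs₁ hs₂ hdeg hf.1 hf.2 hfi
    exact (Lattice2.isIntegral_adjoin_prod_iff _ _ _ _).mpr ⟨h1, h2⟩
  hint2 f hf hfi := by
    have h1 := isIntegral_res_inv_fst R₁ R₂ hπ hx₁ hx₂ hxb₁ hxb₂ hne hs₁ hs₂ hdeg hf.1 hf.2 hfi
    have h2 := isIntegral_res_inv_snd R₁ R₂ hπ hx₁ hx₂ hxb₁ hxb₂ hne hs₁ hs₂ hdeg hf.1 hf.2 hfi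
    rw [res_x_inv R₁ R₂ hπ hx₁ hx₂ hxb₁ hxb₂]
    exact (Lattice2.isIntegral_adjoin_prod_iff _ _ _ _).mpr ⟨h1, h2⟩

@[simp] theorem chartCoord_t :
    (chartCoord R₁ R₂ hπ hx₁ hx₂ hxb₁ hxb₂ hne hs₁ hs₂ hdeg).t = x := rfl

theorem chartCoord_T :
    (chartCoord R₁ R₂ hπ hx₁ hx₂ hxb₁ hxb₂ hne hs₁ hs₂ hdeg).T =
      (R₁.res ⟨x, hx₁⟩, R₂.res ⟨x, hx₂⟩) := rfl

theorem chartCoord_Ti :
    (chartCoord R₁ R₂ hπ hx₁ hx₂ hxb₁ hxb₂ hne hs₁ hs₂ hdeg).Ti =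
      ((R₁.res ⟨x, hx₁⟩)⁻¹, (R₂.res ⟨x, hx₂⟩)⁻¹) :=
  res_x_inv R₁ R₂ hπ hx₁ hx₂ hxb₁ hxb₂

end Fermat.Agent.S34x.Inst.GaussInstChart
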