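import Fermat.Agent.S34x.Inst.GaussInst
import Fermat.Agent.S34x.Gauss2Inc
import Fermat.Agent.S34x.C0two.Pair

/-!
# P-S34, WP3-inst (I5'): the Gauss package for TWO valuation rings (helper57)

Specialisation of `Inst/GaussInst.lean` to a pair `O₁ O₂` of valuation subrings of `F` with
residue data `R₁ : C0.RedSetup A O₁ k κ₁`, `R₂ : C0.RedSetup A O₂ k κ₂` (same `π`), in the shapes
of the consumers (`C0two.redSetupTwoVal R₁ R₂ hπ : RedSetup2 A (twoVal O₁ O₂) k (κ₁ × κ₂)`).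

Hypotheses: `x ∈ O₁ ⊓ O₂` with both residues `x̄₁`, `x̄₂` transcendental over `k`, `F / K(x)`
finite, `O₁ ≠ O₂`, both residue maps onto, and
`hdeg : [F : K(x)] ≤ [κ₁ : k(x̄₁)] + [κ₂ : k(x̄₂)]`.

Outputs:
* `sep_of_ne` : the separation property of the pair;
* `isIntegral_of_mem` : `O₁ ⊓ O₂` is integral over the Gauss ring of `K(x)`;
* `isIntegral_res_fst/snd`, `isIntegral_res_inv_fst/snd` : **(L1)**;
* `cartesian` : `((redSetupTwoVal R₁ R₂ hπ).lat V).FG` for every finite dimensional `V`;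
* `exists_basis_lat` : an `A`-basis of the lattice with `k`-independent reductions;
* `exists_smul_of_res_eq_zero` : the kernel of the reduction on the lattice is `𝔪_A` times it.
-/

set_option autoImplicit false
set_option linter.unusedSectionVars false
set_option linter.style.haveILetI false

noncomputable section

namespace Fermat.Agent.S34x.Inst.GaussInstTwo

open Polynomial IntermediateField IsLocalRing Module
open Fermat.Agent.Gateway.C0 Fermat.Agent.S34x Fermat.Agent.S34x.C0two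

universe u

/-! ### The `Bool`-indexed family -/

section Family

variable {F : Type*} [Field F]

/-- the pair as a `Bool`-indexed family (`true ↦ O₁`, `false ↦ O₂`) -/
def OB (O₁ O₂ : ValuationSubring F) : Bool → ValuationSubring F := fun b => cond b O₁ O₂

/-- the residue fields as a `Bool`-indexed family -/
def κB (κ₁ κ₂ : Type u) : Bool → Type u := fun b => cond b κ₁ κ₂

instance fieldκB (κ₁ κ₂ : Type u) [h₁ : Field κ₁] [h₂ : Field κ₂] : ∀ b, Field (κB κ₁ κ₂ b)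
  | true => h₁
  | false => h₂

instance algebraκB (k : Type*) [Field k] (κ₁ κ₂ : Type u) [Field κ₁] [Field κ₂]
    [h₁ : Algebra k κ₁] [h₂ : Algebra k κ₂] : ∀ b, Algebra k (κB κ₁ κ₂ b)
  | true => h₁
  | false => h₂

variable {K : Type*} [Field K] {A : ValuationSubring K} [Algebra K F]
  {k : Type*} [Field k] {O₁ O₂ : ValuationSubring F} {κ₁ κ₂ : Type u} [Field κ₁] [Field κ₂]
  [Algebra k κ₁] [Algebra k κ₂]

/-- the two residue data as a `Bool`-indexed family -/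
def RB (R₁ : RedSetup A O₁ k κ₁) (R₂ : RedSetup A O₂ k κ₂) :
    ∀ b, RedSetup A (OB O₁ O₂ b) k (κB κ₁ κ₂ b)
  | true => R₁
  | false => R₂

theorem forall_mem_OB {f : F} : (∀ b, f ∈ OB O₁ O₂ b) ↔ f ∈ O₁ ∧ f ∈ O₂ :=
  ⟨fun h => ⟨h true, h false⟩, fun h b => by cases b; exacts [h.2, h.1]⟩

end Family

section Main

variable {K : Type*} [Field K] {A : ValuationSubring K} {F : Type*} [Field F] [Algebra K F]
  {k : Type*} [Field k] {O₁ O₂ : ValuationSubring F} {κ₁ κ₂ : Type u} [Field κ₁] [Field κ₂]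
  [Algebra k κ₁] [Algebra k κ₂]
  (R₁ : RedSetup A O₁ k κ₁) (R₂ : RedSetup A O₂ k κ₂) (hπ : R₁.π = R₂.π)
  {x : F} (hx₁ : x ∈ O₁) (hx₂ : x ∈ O₂)
  (hxb₁ : Transcendental k (R₁.res ⟨x, hx₁⟩)) (hxb₂ : Transcendental k (R₂.res ⟨x, hx₂⟩))

include hπ in
theorem hRπB : ∀ b, (RB R₁ R₂ b).π = R₁.π
  | true => rfl
  | false => hπ.symm

include hx₁ hx₂ in
theorem hxOB : ∀ b, x ∈ OB O₁ O₂ b
  | true => hx₁
  | false => hx₂

include hxb₁ hxb₂ in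
theorem hxbtB : ∀ b, Transcendental k ((RB R₁ R₂ b).res ⟨x, hxOB hx₁ hx₂ b⟩)
  | true => hxb₁
  | false => hxb₂

theorem hsurjB (hs₁ : Function.Surjective R₁.res) (hs₂ : Function.Surjective R₂.res) :
    ∀ b, Function.Surjective (RB R₁ R₂ b).res
  | true => hs₁
  | false => hs₂

include R₁ R₂ hxb₁ hxb₂ in
/-- **Separation**: two distinct valuation rings over the Gauss ring of `K(x)` (`F / K(x)`
algebraic) have the separation property. -/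
theorem sep_of_ne [Algebra.IsAlgebraic K⟮x⟯ F] (hne : O₁ ≠ O₂) :
    Gauss2Val.Sep (OB O₁ O₂) := by
  have h := Gauss2Inc.not_le_of_ne_of_liesOver (O₁.comap (algebraMap K⟮x⟯ F)) O₁ O₂
    (fun e => Iff.rfl)
    (fun e => by
      rw [IntegralRed2.comap_eq_comap R₁ R₂ hx₁ hxb₁ hx₂ hxb₂]
      exact Iff.rfl) hne
  exact Gauss2Inc.sep_bool O₁ O₂ h.1 h.2

variable [FiniteDimensional K⟮x⟯ F] (hne : O₁ ≠ O₂)
  (hs₁ : Function.Surjective R₁.res) (hs₂ : Function.Surjective R₂.res)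
  (hdeg : finrank K⟮x⟯ F ≤
    finrank k⟮R₁.res ⟨x, hx₁⟩⟯ κ₁ + finrank k⟮R₂.res ⟨x, hx₂⟩⟯ κ₂)

include hdeg in
theorem hdegB : finrank K⟮x⟯ F ≤
    ∑ b, finrank k⟮(RB R₁ R₂ b).res ⟨x, hxOB hx₁ hx₂ b⟩⟯ (κB κ₁ κ₂ b) := by
  rw [Fintype.sum_bool]
  exact hdeg

include hπ hxb₁ hxb₂ hne hs₁ hs₂ hdeg in
/-- **`O₁ ⊓ O₂` is integral over the Gauss ring of `K(x)`.** -/
theorem isIntegral_of_mem {f : F} (hf₁ : f ∈ O₁) (hf₂ : f ∈ O₂) :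
    IsIntegral (O₁.comap (algebraMap K⟮x⟯ F)) f :=
  GaussInst.isIntegral_gaussOx_of_mem (OB O₁ O₂) (RB R₁ R₂) R₁.π (hRπB R₁ R₂ hπ)
    (hxOB hx₁ hx₂) (hxbtB R₁ R₂ hx₁ hx₂ hxb₁ hxb₂)
    (sep_of_ne R₁ R₂ hx₁ hx₂ hxb₁ hxb₂ hne) (hsurjB R₁ R₂ hs₁ hs₂)
    (hdegB R₁ R₂ hx₁ hx₂ hdeg) true (forall_mem_OB.mpr ⟨hf₁, hf₂⟩)

include hπ hxb₁ hxb₂ hne hs₁ hs₂ hdeg in
/-- **(L1), chart `x ≠ ∞`, first component.** -/
theorem isIntegral_res_fst {f : F} (hf₁ : f ∈ O₁) (hf₂ : f ∈ O₂)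
    (hfi : IsIntegral (Algebra.adjoin K {x}) f) :
    IsIntegral (Algebra.adjoin k {R₁.res ⟨x, hx₁⟩}) (R₁.res ⟨f, hf₁⟩) :=
  GaussInst.isIntegral_res (OB O₁ O₂) (RB R₁ R₂) R₁.π (hRπB R₁ R₂ hπ)
    (hxOB hx₁ hx₂) (hxbtB R₁ R₂ hx₁ hx₂ hxb₁ hxb₂)
    (sep_of_ne R₁ R₂ hx₁ hx₂ hxb₁ hxb₂ hne) (hsurjB R₁ R₂ hs₁ hs₂)
    (hdegB R₁ R₂ hx₁ hx₂ hdeg) (forall_mem_OB.mpr ⟨hf₁, hf₂⟩) hfi true

include hπ hxb₁ hxb₂ hne hs₁ hs₂ hdeg in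
/-- **(L1), chart `x ≠ ∞`, second component.** -/
theorem isIntegral_res_snd {f : F} (hf₁ : f ∈ O₁) (hf₂ : f ∈ O₂)
    (hfi : IsIntegral (Algebra.adjoin K {x}) f) :
    IsIntegral (Algebra.adjoin k {R₂.res ⟨x, hx₂⟩}) (R₂.res ⟨f, hf₂⟩) :=
  GaussInst.isIntegral_res (OB O₁ O₂) (RB R₁ R₂) R₁.π (hRπB R₁ R₂ hπ)
    (hxOB hx₁ hx₂) (hxbtB R₁ R₂ hx₁ hx₂ hxb₁ hxb₂)
    (sep_of_ne R₁ R₂ hx₁ hx₂ hxb₁ hxb₂ hne) (hsurjB R₁ R₂ hs₁ hs₂)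
    (hdegB R₁ R₂ hx₁ hx₂ hdeg) (forall_mem_OB.mpr ⟨hf₁, hf₂⟩) hfi false

include hπ hxb₁ hxb₂ hne hs₁ hs₂ hdeg in
/-- **(L1), chart `x ≠ 0`, first component.** -/
theorem isIntegral_res_inv_fst {f : F} (hf₁ : f ∈ O₁) (hf₂ : f ∈ O₂)
    (hfi : IsIntegral (Algebra.adjoin K {x⁻¹}) f) :
    IsIntegral (Algebra.adjoin k {(R₁.res ⟨x, hx₁⟩)⁻¹}) (R₁.res ⟨f, hf₁⟩) :=
  GaussInst.isIntegral_res_inv (OB O₁ O₂) (RB R₁ R₂) R₁.π (hRπB R₁ R₂ hπ)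
    (hxOB hx₁ hx₂) (hxbtB R₁ R₂ hx₁ hx₂ hxb₁ hxb₂)
    (sep_of_ne R₁ R₂ hx₁ hx₂ hxb₁ hxb₂ hne) (hsurjB R₁ R₂ hs₁ hs₂)
    (hdegB R₁ R₂ hx₁ hx₂ hdeg) (forall_mem_OB.mpr ⟨hf₁, hf₂⟩) hfi true

include hπ hxb₁ hxb₂ hne hs₁ hs₂ hdeg in
/-- **(L1), chart `x ≠ 0`, second component.** -/
theorem isIntegral_res_inv_snd {f : F} (hf₁ : f ∈ O₁) (hf₂ : f ∈ O₂)
    (hfi : IsIntegral (Algebra.adjoin K {x⁻¹}) f) :
    IsIntegral (Algebra.adjoin k {(R₂.res ⟨x, hx₂⟩)⁻¹}) (R₂.res ⟨f, hf₂⟩) :=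
  GaussInst.isIntegral_res_inv (OB O₁ O₂) (RB R₁ R₂) R₁.π (hRπB R₁ R₂ hπ)
    (hxOB hx₁ hx₂) (hxbtB R₁ R₂ hx₁ hx₂ hxb₁ hxb₂)
    (sep_of_ne R₁ R₂ hx₁ hx₂ hxb₁ hxb₂ hne) (hsurjB R₁ R₂ hs₁ hs₂)
    (hdegB R₁ R₂ hx₁ hx₂ hdeg) (forall_mem_OB.mpr ⟨hf₁, hf₂⟩) hfi false

include hxb₁ hxb₂ hne hs₁ hs₂ hdeg in
/-- **(G0), `cartesian` of `CountData2`**: the lattice `V ∩ O₁ ∩ O₂` of a finite dimensional
`K`-subspace `V` of `F` is finitely generated over `A`. -/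
theorem cartesian (V : Submodule K F) [FiniteDimensional K V] :
    ((redSetupTwoVal R₁ R₂ hπ).lat V).FG :=
  GaussInst.fg_of_mem_iff (OB O₁ O₂) (RB R₁ R₂) R₁.π (hRπB R₁ R₂ hπ)
    (hxOB hx₁ hx₂) (hxbtB R₁ R₂ hx₁ hx₂ hxb₁ hxb₂)
    (sep_of_ne R₁ R₂ hx₁ hx₂ hxb₁ hxb₂ hne) (hsurjB R₁ R₂ hs₁ hs₂)
    (hdegB R₁ R₂ hx₁ hx₂ hdeg) V _ fun f => by
      rw [RedSetup2.mem_lat, forall_mem_OB]
      exact Iff.rfl

include hxb₁ hxb₂ hne hs₁ hs₂ hdeg in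
/-- **(G0)**: the lattice `V ∩ O₁ ∩ O₂` is free over `A` on `dim_K V` elements which are
`K`-linearly independent and whose reductions in `κ₁ × κ₂` are `k`-linearly independent. -/
theorem exists_basis_lat (V : Submodule K F) [FiniteDimensional K V] :
    ∃ (c : Fin (finrank K V) → F) (hc : ∀ j, c j ∈ (twoVal O₁ O₂).O), (∀ j, c j ∈ V) ∧
      LinearIndependent K c ∧
      LinearIndependent k (fun j => (redSetupTwoVal R₁ R₂ hπ).res ⟨c j, hc j⟩) ∧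
      ∀ f ∈ (redSetupTwoVal R₁ R₂ hπ).lat V,
        ∃ a : Fin (finrank K V) → A, f = ∑ j, (a j : K) • c j := by
  obtain ⟨c, hc, hcV, hcK, hck, hgen⟩ :=
    GaussInst.exists_basis_inf' (OB O₁ O₂) (RB R₁ R₂) R₁.π (hRπB R₁ R₂ hπ)
      (hxOB hx₁ hx₂) (hxbtB R₁ R₂ hx₁ hx₂ hxb₁ hxb₂)
      (sep_of_ne R₁ R₂ hx₁ hx₂ hxb₁ hxb₂ hne) (hsurjB R₁ R₂ hs₁ hs₂)
      (hdegB R₁ R₂ hx₁ hx₂ hdeg) V
  refine ⟨c, fun j => ⟨hc j true, hc j false⟩, hcV, hcK, ?_, fun f hf => ?_⟩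
  · -- transport the independence along the `k`-linear injection `κ₁ × κ₂ → ∏ b, κB b`
    let φ : (κ₁ × κ₂) →ₗ[k] (∀ b, κB κ₁ κ₂ b) :=
      { toFun := fun p b => Bool.rec (motive := fun b => κB κ₁ κ₂ b) p.2 p.1 b
        map_add' := fun p p' => by
          funext b
          cases b <;> rfl
        map_smul' := fun a p => by
          funext b
          cases b <;> rfl }
    have hφ : (fun j => (fun b => (RB R₁ R₂ b).res ⟨c j, hc j b⟩ : ∀ b, κB κ₁ κ₂ b)) =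
        φ ∘ fun j => (redSetupTwoVal R₁ R₂ hπ).res ⟨c j, ⟨hc j true, hc j false⟩⟩ := by
      funext j b
      cases b <;> rfl
    rw [hφ] at hck
    exact LinearIndependent.of_comp φ hck
  · obtain ⟨hfV, hfO⟩ := (RedSetup2.mem_lat _).mp hf
    exact hgen f hfV (forall_mem_OB.mpr hfO)

include hxb₁ hxb₂ hne hs₁ hs₂ hdeg in
/-- **(G0), kernel of the reduction**: an element of the lattice `V ∩ O₁ ∩ O₂` with zero
reduction in `κ₁ × κ₂` is `a • f'` with `a ∈ 𝔪_A` and `f'` in the lattice. -/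
theorem exists_smul_of_res_eq_zero (V : Submodule K F) [FiniteDimensional K V] {f : F}
    (hfV : f ∈ V) (hfO : f ∈ (twoVal O₁ O₂).O)
    (h0 : (redSetupTwoVal R₁ R₂ hπ).res ⟨f, hfO⟩ = 0) :
    ∃ (a : A) (f' : F), a ∈ maximalIdeal A ∧ f' ∈ (redSetupTwoVal R₁ R₂ hπ).lat V ∧
      f = (a : K) • f' := by
  have h01 : R₁.res ⟨f, hfO.1⟩ = 0 := congrArg Prod.fst h0
  have h02 : R₂.res ⟨f, hfO.2⟩ = 0 := congrArg Prod.snd h0
  obtain ⟨a, f', ha, hf'V, hf'O, hff'⟩ :=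
    GaussInst.exists_smul_of_res_eq_zero (OB O₁ O₂) (RB R₁ R₂) R₁.π (hRπB R₁ R₂ hπ)
      (hxOB hx₁ hx₂) (hxbtB R₁ R₂ hx₁ hx₂ hxb₁ hxb₂)
      (sep_of_ne R₁ R₂ hx₁ hx₂ hxb₁ hxb₂ hne) (hsurjB R₁ R₂ hs₁ hs₂)
      (hdegB R₁ R₂ hx₁ hx₂ hdeg) V hfV (forall_mem_OB.mpr hfO)
      (fun b => by cases b; exacts [h02, h01])
  exact ⟨a, f', ha, (RedSetup2.mem_lat _).mpr ⟨hf'V, forall_mem_OB.mp hf'O⟩, hff'⟩

end Main

end Fermat.Agent.S34x.Inst.GaussInstTwo
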