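/-
helper82 (P-S34, WP3-inst): the degree (in)equality `hdeg` consumed by `Inst/GaussInst`,
`Inst/GaussAbs` at the good level `M q` (`q ∤ M` the residue characteristic).

For the chart function `t' ∈ F_M` with integer `q`-expansion `x₄` (`4 ∣ M`) resp.
`z₉ = y₉ - 3` (`9 ∣ M`), `t := α t' ∈ F_{M q}` and its two reductions `t̄'`, `t̄' ^ q ∈ Fk k M`:

  `[F_{M q} : L(t)] = [Fk k M : k(t̄')] + [Fk k M : k(t̄' ^ q)]`.

Ingredients: `[F_{M q} : α F_M] = q + 1` (here for every algebraically closed `L` of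
characteristic zero, `finrankAlong_alpha`), `[F_M : L(t')] ψ(r₀) = ψ(M) = [Fk k M : k(t̄')] ψ(r₀)`
(`GoodRed/TLineHurwitz`, used over `L` and over `k`), and `[F : K(y ^ q)] = q [F : K(y)]`
(`Lattice2/Dim`).
-/
import Fermat.Agent.Gateway.GoodRed.TLineHurwitz
import Fermat.Agent.Gateway.GoodRed.ConjFamily.FBarEq
import Fermat.Agent.Gateway.AuxLevel.Shifted9
import Fermat.Agent.S34x.Inst.Charts
import Fermat.Agent.S34x.Inst.ElementYRed
import Fermat.Agent.S34x.Lattice2.Dim

set_option autoImplicit false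
set_option linter.unusedSectionVars false
set_option linter.style.haveILetI false

noncomputable section

namespace Fermat.Agent.S34x.Inst.HDeg

open AlgebraicCurve IntermediateField ModularCurve Module
open Fermat.Agent.Gateway Fermat.Agent.Gateway.GoodRed Fermat.Agent.Gateway.GoodRed.ConjFamily
open Fermat.Agent.Gateway.AuxLevel
open Fermat.Agent.S34x.Inst.ElementYRed

/-! ### Transport along an equality of intermediate fields -/

section Congr

variable {K Ω : Type*} [Field K] [Field Ω] [Algebra K Ω]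

theorem finrank_adjoin_congr {E₁ E₂ : IntermediateField K Ω} (h : E₁ = E₂) (x₁ : E₁) (x₂ : E₂)
    (hx : (x₁ : Ω) = x₂) : finrank K⟮x₁⟯ E₁ = finrank K⟮x₂⟯ E₂ := by
  subst h
  obtain rfl : x₁ = x₂ := Subtype.ext hx
  rfl

theorem finiteDimensional_adjoin_congr {E₁ E₂ : IntermediateField K Ω} (h : E₁ = E₂) (x₁ : E₁)
    (x₂ : E₂) (hx : (x₁ : Ω) = x₂) (hfin : FiniteDimensional K⟮x₂⟯ E₂) :
    FiniteDimensional K⟮x₁⟯ E₁ := by
  subst h
  obtain rfl : x₁ = x₂ := Subtype.ext hx
  exact hfin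

theorem isSeparable_adjoin_congr {E₁ E₂ : IntermediateField K Ω} (h : E₁ = E₂) (x₁ : E₁)
    (x₂ : E₂) (hx : (x₁ : Ω) = x₂) (hsep : Algebra.IsSeparable K⟮x₂⟯ E₂) :
    Algebra.IsSeparable K⟮x₁⟯ E₁ := by
  subst h
  obtain rfl : x₁ = x₂ := Subtype.ext hx
  exact hsep

theorem transcendental_congr {E₁ E₂ : IntermediateField K Ω} (h : E₁ = E₂) (x₁ : E₁)
    (x₂ : E₂) (hx : (x₁ : Ω) = x₂) (htr : Transcendental K x₂) : Transcendental K x₁ := by
  subst h
  obtain rfl : x₁ = x₂ := Subtype.ext hx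
  exact htr

theorem finrank_of_eq {F : Type*} [Field F] [Algebra K F] {E₁ E₂ : IntermediateField K F}
    (h : E₁ = E₂) : finrank E₁ F = finrank E₂ F := by
  subst h
  rfl

theorem finiteDimensional_of_eq {F : Type*} [Field F] [Algebra K F]
    {E₁ E₂ : IntermediateField K F} (h : E₁ = E₂) (hfin : FiniteDimensional E₁ F) :
    FiniteDimensional E₂ F := by
  subst h
  exact hfin

theorem isSeparable_of_eq {F : Type*} [Field F] [Algebra K F]
    {E₁ E₂ : IntermediateField K F} (h : E₁ = E₂) (hsep : Algebra.IsSeparable E₁ F) :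
    Algebra.IsSeparable E₂ F := by
  subst h
  exact hsep

/-- `K(x + c) = K(x)` -/
theorem adjoin_add_algebraMap {F : Type*} [Field F] [Algebra K F] (x : F) (c : K) :
    K⟮x + algebraMap K F c⟯ = K⟮x⟯ := by
  apply le_antisymm
  · rw [adjoin_simple_le_iff]
    exact add_mem (mem_adjoin_simple_self K x) (IntermediateField.algebraMap_mem _ c)
  · rw [adjoin_simple_le_iff]
    have h : x + algebraMap K F c - algebraMap K F c ∈ K⟮x + algebraMap K F c⟯ :=
      sub_mem (mem_adjoin_simple_self K _) (IntermediateField.algebraMap_mem _ c)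
    rwa [add_sub_cancel_right] at h

end Congr

/-! ### Characteristic zero: the degree of `α` and of the chart functions over any `L` -/

section CharZero

variable (L : Type) [Field L] [Algebra ℚ L] [IsAlgClosed L] (M : ℕ) [NeZero M]

theorem natCast_ne_zero_L {n : ℕ} (hn : n ≠ 0) : (n : L) ≠ 0 := by
  haveI : CharZero L := algebraRat.charZero L
  exact Nat.cast_ne_zero.mpr hn

/-- `F_M / L(j)` is finite. -/
theorem finiteDimensional_FL_j : FiniteDimensional L⟮HK1.jL L M⟯ (HK1.FL L M) :=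
  finiteDimensional_adjoin_congr (FBar_eq_fullC L M) (HK1.jL L M) (jFk L M) rfl
    (finiteDimensional_Fk (natCast_ne_zero_L L (NeZero.ne M)))

/-- `[F_M : L(j)] = ψ(M)` over every algebraically closed field `L` of characteristic zero. -/
theorem finrank_FL_j : finrank L⟮HK1.jL L M⟯ (HK1.FL L M) = dedekindPsi M := by
  rw [finrank_adjoin_congr (FBar_eq_fullC L M) (HK1.jL L M) (jFk L M) rfl]
  exact finrank_Fk_eq_dedekindPsi (natCast_ne_zero_L L (NeZero.ne M))

theorem heckeAlphaBar_jL (q : ℕ) [NeZero q] :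
    heckeAlphaBar L M q (HK1.jL L M) = HK1.jL L (M * q) :=
  Subtype.ext rfl

/-- **Degree of `α`** over every algebraically closed `L` of characteristic zero:
`[F_{M q} : α F_M] = q + 1` for a prime `q ∤ M`. -/
theorem finrankAlong_alpha (q : ℕ) [NeZero q] (hq : q.Prime) (hqM : ¬ q ∣ M) :
    finrankAlong L (heckeAlphaBar L M q) = q + 1 := by
  have h2 := ESC.finrank_mul_finrank_along (heckeAlphaBar L M q) L⟮HK1.jL L M⟯
    L⟮HK1.jL L (M * q)⟯
    (by rw [IntermediateField.adjoin_map, Set.image_singleton, heckeAlphaBar_jL])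
  rw [finrank_FL_j, finrank_FL_j,
    Fermat.Agent.S24.Comb.dedekindPsi_mul_prime_of_not_dvd (NeZero.ne M) hq hqM, mul_comm] at h2
  have hpos : 0 < dedekindPsi M := by
    rw [← finrank_FL_j L M]
    haveI := finiteDimensional_FL_j L M
    exact Module.finrank_pos
  exact Nat.eq_of_mul_eq_mul_right hpos h2

end CharZero

/-! ### Level `4 ∣ M`: the chart function `x₄` -/

section Four

variable {k : Type} [Field k] [IsAlgClosed k] (M M' : ℕ) [NeZero M] [NeZero M'] (hM : M = 4 * M')

include hM in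
theorem two_ne_zero_of_four (hMk : (M : k) ≠ 0) : (2 : k) ≠ 0 := by
  intro h2
  apply hMk
  rw [hM, Nat.cast_mul]
  have : ((4 : ℕ) : k) = 2 * 2 := by norm_num
  rw [this, h2, zero_mul, zero_mul]

theorem tbar_x4 : tbar k L4.x4 = TLine4.x4k k := rfl

include hM in
/-- `[Fk k M : k(x₄)] ψ(4) = ψ(M)` over any algebraically closed field in which `M` is
invertible. -/
theorem finrank_four (hMk : (M : k) ≠ 0) (u : Fk k M)
    (hu : (u : LaurentSeries k) = tbar k L4.x4) :
    finrank k⟮u⟯ (Fk k M) * 6 = dedekindPsi M :=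
  TLineHurwitz.finrank_t4 (two_ne_zero_of_four M M' hM hMk) M M' hM hMk u hu

theorem transcendental_four (u : Fk k M) (hu : (u : LaurentSeries k) = tbar k L4.x4) :
    Transcendental k u :=
  TLineHurwitz.transcendental_t4 M u hu

theorem finiteDimensional_four (hMk : (M : k) ≠ 0) (u : Fk k M)
    (hu : (u : LaurentSeries k) = tbar k L4.x4) : FiniteDimensional k⟮u⟯ (Fk k M) :=
  TLineHurwitz.finiteDimensional_t4 M hMk u hu

theorem isSeparable_four (hMk : (M : k) ≠ 0) (u : Fk k M)
    (hu : (u : LaurentSeries k) = tbar k L4.x4) : Algebra.IsSeparable k⟮u⟯ (Fk k M) :=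
  TLineHurwitz.isSeparable_t4 M hMk u hu

variable (L : Type) [Field L] [Algebra ℚ L] [IsAlgClosed L]

/-- the element of `Fk L M` with the same expansion as `t' ∈ F_M` -/
def toFk (t' : HK1.FL L M) : Fk L M := ⟨t', mem_FBar_iff_mem_fullC.mp t'.2⟩

theorem coe_toFk (t' : HK1.FL L M) : ((toFk M L t' : Fk L M) : LaurentSeries L) = t' := by
  unfold toFk
  rfl

include hM in
/-- `[F_M : L(x₄)] ψ(4) = ψ(M)` in characteristic zero. -/
theorem finrank_FL_four (t' : HK1.FL L M) (ht' : (t' : LaurentSeries L) = tbar L L4.x4) :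
    finrank L⟮t'⟯ (HK1.FL L M) * 6 = dedekindPsi M := by
  rw [finrank_adjoin_congr (FBar_eq_fullC L M) t' (toFk M L t') (coe_toFk M L t').symm]
  exact finrank_four M M' hM (natCast_ne_zero_L L (NeZero.ne M)) _ ((coe_toFk M L t').trans ht')

theorem transcendental_FL_four (t' : HK1.FL L M) (ht' : (t' : LaurentSeries L) = tbar L L4.x4) :
    Transcendental L t' :=
  transcendental_congr (FBar_eq_fullC L M) t' (toFk M L t') (coe_toFk M L t').symm (transcendental_four M _ ((coe_toFk M L t').trans ht'))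

theorem finiteDimensional_FL_four (t' : HK1.FL L M)
    (ht' : (t' : LaurentSeries L) = tbar L L4.x4) : FiniteDimensional L⟮t'⟯ (HK1.FL L M) :=
  finiteDimensional_adjoin_congr (FBar_eq_fullC L M) t' (toFk M L t') (coe_toFk M L t').symm
    (finiteDimensional_four M (natCast_ne_zero_L L (NeZero.ne M)) _ ((coe_toFk M L t').trans ht'))

variable (q : ℕ) [Fact q.Prime] [CharP k q]

theorem natCast_ne_zero_k (hqM : ¬ q ∣ M) : (M : k) ≠ 0 := by
  rw [Ne, CharP.cast_eq_zero_iff k q]
  exact hqM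

include hM in
/-- `[F_M : L(x₄)] = [Fk k M : k(x̄₄)]` -/
theorem finrank_FL_four_eq (hqM : ¬ q ∣ M) (t' : HK1.FL L M)
    (ht' : (t' : LaurentSeries L) = tbar L L4.x4) (u : Fk k M)
    (hu : (u : LaurentSeries k) = tbar k L4.x4) :
    finrank L⟮t'⟯ (HK1.FL L M) = finrank k⟮u⟯ (Fk k M) := by
  have h1 := finrank_FL_four M M' hM L t' ht'
  have h2 := finrank_four M M' hM (natCast_ne_zero_k M q hqM) u hu
  omega

include hM in
/-- **`hdeg` at level `M q`, `4 ∣ M`**: `[F_{M q} : L(α x₄)] = [Fk : k(x̄₄)] + [Fk : k(x̄₄ ^ q)]`,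
the two summands being `n'` and `q n'`. -/
theorem finrank_tα_four (hqM : ¬ q ∣ M) (t' : HK1.FL L M)
    (ht' : (t' : LaurentSeries L) = tbar L L4.x4) (u v : Fk k M)
    (hu : (u : LaurentSeries k) = tbar k L4.x4) (hv : (v : LaurentSeries k) = tbar k L4.x4 ^ q) :
    haveI : NeZero q := ⟨(Fact.out : q.Prime).ne_zero⟩
    finrank L⟮heckeAlphaBar L M q t'⟯ (HK1.FL L (M * q)) =
      finrank k⟮u⟯ (Fk k M) + finrank k⟮v⟯ (Fk k M) := by
  haveI : NeZero q := ⟨(Fact.out : q.Prime).ne_zero⟩
  have hq : q.Prime := Fact.out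
  have hMk := natCast_ne_zero_k (k := k) M q hqM
  obtain rfl : v = u ^ q := Subtype.ext (by rw [hv, IntermediateField.coe_pow, hu])
  haveI := finiteDimensional_FL_four M L t' ht'
  haveI := finiteDimensional_four M hMk u hu
  haveI := isSeparable_four M hMk u hu
  have htr := transcendental_four M u hu
  haveI := Lattice2.Dim.finiteDimensional_adjoin_pow htr hq.pos
  rw [Lattice2.Dim.finrank_adjoin_pow htr hq.pos,
    ← finrank_FL_four_eq M M' hM L q hqM t' ht' u hu]
  have h := Charts.finrank_tα L M q t' (finrankAlong_alpha L M q hq hqM)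
  rw [h]
  ring

end Four

/-! ### Level `9 ∣ M`: the chart function `z₉ = y₉ - 3` -/

section Nine

variable {k : Type} [Field k] [IsAlgClosed k] (M M' : ℕ) [NeZero M] [NeZero M'] (hM : M = 9 * M')

include hM in
theorem three_ne_zero_of_nine (hMk : (M : k) ≠ 0) : (3 : k) ≠ 0 := by
  intro h3
  apply hMk
  rw [hM, Nat.cast_mul]
  have : ((9 : ℕ) : k) = 3 * 3 := by norm_num
  rw [this, h3, zero_mul, zero_mul]

theorem tbar_z9 : tbar k L9.z9 = TLine9.y9k k - 3 := by
  rw [tbar, L9.z9, map_sub, map_ofNat]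
  rfl

theorem coe_add_three (u : Fk k M) (hu : (u : LaurentSeries k) = tbar k L9.z9) :
    ((u + 3 : Fk k M) : LaurentSeries k) = TLine9.y9k k := by
  have h3 : (((3 : Fk k M)) : LaurentSeries k) = 3 := by
    rw [← map_ofNat (algebraMap k (Fk k M)) 3, ← map_ofNat (algebraMap k (LaurentSeries k)) 3]
    rfl
  rw [AddMemClass.coe_add, hu, tbar_z9, h3, sub_add_cancel]

theorem adjoin_add_three (u : Fk k M) : k⟮u + 3⟯ = k⟮u⟯ := by
  have h := adjoin_add_algebraMap (K := k) u (3 : k)
  rwa [map_ofNat] at h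

include hM in
/-- `[Fk k M : k(z₉)] ψ(9) = ψ(M)` over any algebraically closed field in which `M` is
invertible. -/
theorem finrank_nine (hMk : (M : k) ≠ 0) (u : Fk k M)
    (hu : (u : LaurentSeries k) = tbar k L9.z9) :
    finrank k⟮u⟯ (Fk k M) * 12 = dedekindPsi M := by
  rw [← finrank_of_eq (adjoin_add_three M u)]
  exact TLineHurwitz.finrank_t9 (three_ne_zero_of_nine M M' hM hMk) M M' hM hMk (u + 3)
    (coe_add_three M u hu)

theorem transcendental_nine (u : Fk k M) (hu : (u : LaurentSeries k) = tbar k L9.z9) :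
    Transcendental k u := by
  have h := TLineHurwitz.transcendental_t9 M (u + 3) (coe_add_three M u hu)
  intro hu'
  apply h
  have h3 : IsAlgebraic k (3 : Fk k M) := by
    rw [← map_ofNat (algebraMap k (Fk k M)) 3]
    exact isAlgebraic_algebraMap _
  exact hu'.add h3

theorem finiteDimensional_nine (hMk : (M : k) ≠ 0) (u : Fk k M)
    (hu : (u : LaurentSeries k) = tbar k L9.z9) : FiniteDimensional k⟮u⟯ (Fk k M) :=
  finiteDimensional_of_eq (adjoin_add_three M u)
    (TLineHurwitz.finiteDimensional_t9 M hMk (u + 3) (coe_add_three M u hu))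

theorem isSeparable_nine (hMk : (M : k) ≠ 0) (u : Fk k M)
    (hu : (u : LaurentSeries k) = tbar k L9.z9) : Algebra.IsSeparable k⟮u⟯ (Fk k M) :=
  isSeparable_of_eq (adjoin_add_three M u)
    (TLineHurwitz.isSeparable_t9 M hMk (u + 3) (coe_add_three M u hu))

variable (L : Type) [Field L] [Algebra ℚ L] [IsAlgClosed L]

include hM in
/-- `[F_M : L(z₉)] ψ(9) = ψ(M)` in characteristic zero. -/
theorem finrank_FL_nine (t' : HK1.FL L M) (ht' : (t' : LaurentSeries L) = tbar L L9.z9) :
    finrank L⟮t'⟯ (HK1.FL L M) * 12 = dedekindPsi M := by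
  rw [finrank_adjoin_congr (FBar_eq_fullC L M) t' (toFk M L t') (coe_toFk M L t').symm]
  exact finrank_nine M M' hM (natCast_ne_zero_L L (NeZero.ne M)) _ ((coe_toFk M L t').trans ht')

theorem transcendental_FL_nine (t' : HK1.FL L M) (ht' : (t' : LaurentSeries L) = tbar L L9.z9) :
    Transcendental L t' :=
  transcendental_congr (FBar_eq_fullC L M) t' (toFk M L t') (coe_toFk M L t').symm (transcendental_nine M _ ((coe_toFk M L t').trans ht'))

theorem finiteDimensional_FL_nine (t' : HK1.FL L M)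
    (ht' : (t' : LaurentSeries L) = tbar L L9.z9) : FiniteDimensional L⟮t'⟯ (HK1.FL L M) :=
  finiteDimensional_adjoin_congr (FBar_eq_fullC L M) t' (toFk M L t') (coe_toFk M L t').symm
    (finiteDimensional_nine M (natCast_ne_zero_L L (NeZero.ne M)) _ ((coe_toFk M L t').trans ht'))

variable (q : ℕ) [Fact q.Prime] [CharP k q]

include hM in
/-- `[F_M : L(z₉)] = [Fk k M : k(z̄₉)]` -/
theorem finrank_FL_nine_eq (hqM : ¬ q ∣ M) (t' : HK1.FL L M)
    (ht' : (t' : LaurentSeries L) = tbar L L9.z9) (u : Fk k M)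
    (hu : (u : LaurentSeries k) = tbar k L9.z9) :
    finrank L⟮t'⟯ (HK1.FL L M) = finrank k⟮u⟯ (Fk k M) := by
  have h1 := finrank_FL_nine M M' hM L t' ht'
  have h2 := finrank_nine M M' hM (natCast_ne_zero_k M q hqM) u hu
  omega

include hM in
/-- **`hdeg` at level `M q`, `9 ∣ M`**: `[F_{M q} : L(α z₉)] = [Fk : k(z̄₉)] + [Fk : k(z̄₉ ^ q)]`,
the two summands being `n'` and `q n'`. -/
theorem finrank_tα_nine (hqM : ¬ q ∣ M) (t' : HK1.FL L M)
    (ht' : (t' : LaurentSeries L) = tbar L L9.z9) (u v : Fk k M)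
    (hu : (u : LaurentSeries k) = tbar k L9.z9) (hv : (v : LaurentSeries k) = tbar k L9.z9 ^ q) :
    haveI : NeZero q := ⟨(Fact.out : q.Prime).ne_zero⟩
    finrank L⟮heckeAlphaBar L M q t'⟯ (HK1.FL L (M * q)) =
      finrank k⟮u⟯ (Fk k M) + finrank k⟮v⟯ (Fk k M) := by
  haveI : NeZero q := ⟨(Fact.out : q.Prime).ne_zero⟩
  have hq : q.Prime := Fact.out
  have hMk := natCast_ne_zero_k (k := k) M q hqM
  obtain rfl : v = u ^ q := Subtype.ext (by rw [hv, IntermediateField.coe_pow, hu])
  haveI := finiteDimensional_FL_nine M L t' ht'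
  haveI := finiteDimensional_nine M hMk u hu
  haveI := isSeparable_nine M hMk u hu
  have htr := transcendental_nine M u hu
  haveI := Lattice2.Dim.finiteDimensional_adjoin_pow htr hq.pos
  rw [Lattice2.Dim.finrank_adjoin_pow htr hq.pos,
    ← finrank_FL_nine_eq M M' hM L q hqM t' ht' u hu]
  have h := Charts.finrank_tα L M q t' (finrankAlong_alpha L M q hq hqM)
  rw [h]
  ring

end Nine

end Fermat.Agent.S34x.Inst.HDeg
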