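/-
helper82 (P-S34, WP3-inst): the degree / transcendence / finiteness inputs of
`GaussInstMq.chartCoordMq` and `Lattice2.exists_const_mul_pow_of_prod` for the CONCRETE reduction
setups `RedSetupInst.redSetupInfty H hA`, `redSetupZero H hA`, `redSetup2 H hA` at level `M q` and
the chart `t = α x`, `x ∈ F_M` with integer expansion `z` (`z = x₄`, `4 ∣ M`; `z = z₉ = y₉ - 3`,
`9 ∣ M`).

* `ChartDeg L k M z` : the degree facts on the `z`-line at level `M` (over `L` and over `k`);
  `chartDeg_four`, `chartDeg_nine` (from `Inst/HDeg`).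
* before the chart exists (inputs of `chartCoordMq` for `Ri := redSetupInfty H hA`,
  `Rz := redSetupZero H hA`, `x := α x`): `alpha_mem_valInfty`, `alpha_mem_valZero`,
  `transcendental_resInfty_alpha` (`hxb₁`), `transcendental_resZero_alpha` (`hxb₂`),
  `finiteDimensional_alpha`, `finrank_alpha_le` (`hdeg'`).
* for a chart `C : ChartCoord (redSetup2 H hA)` with `C.t = α x`
  (inputs of `exists_const_mul_pow_of_prod` with `x := C.T.1`): `transcendental_T_fst` (`hx`),
  `finiteDimensional_T_fst`, `isSeparable_T_fst`, `T_eq` (`hT`), `transcendental_t` (`ht`),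
  `finiteDimensional_t`, `finrank_t_eq` (`hn`).
-/
import Fermat.Agent.S34x.Inst.HDeg
import Fermat.Agent.S34x.Inst.BridgeInst
import Fermat.Agent.S34x.Inst.GaussInstMq
import Fermat.Agent.S34x.TwoVal.ResidueSurj

set_option autoImplicit false
set_option linter.unusedSectionVars false
set_option linter.style.haveILetI false

noncomputable section

namespace Fermat.Agent.S34x.Inst.HDegMq

open ModularCurve AlgebraicCurve IntermediateField IsLocalRing Module
open Fermat.Agent.Gateway.Hecke Fermat.Agent.Gateway.ESC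
open Fermat.Agent.Gateway.Red Fermat.Agent.Gateway.GoodRed
open Fermat.Agent.Gateway.GoodRed.ConjFamily Fermat.Agent.Gateway.AuxLevel
open Fermat.Agent.S34x.TwoVal Fermat.Agent.S34x.C0two Fermat.Agent.S34x.Lattice2
open Fermat.Agent.S34x.Inst.RedSetupInst

/-! ### The degree facts on the `z`-line at level `M` -/

/-- The degree facts on the `z`-line at level `M`, over `L` (characteristic zero) and over `k`:
transcendence, finiteness (separability over `k`) and equality of the two degrees. -/
structure ChartDeg (L k : Type) [Field L] [Algebra ℚ L] [Field k] (M : ℕ) [NeZero M]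
    (z : LaurentSeries ℤ) : Prop where
  trL : ∀ t' : FL L M, (t' : LaurentSeries L) = coeffMap (Int.castRingHom L) z →
    Transcendental L t'
  finL : ∀ t' : FL L M, (t' : LaurentSeries L) = coeffMap (Int.castRingHom L) z →
    FiniteDimensional L⟮t'⟯ (FL L M)
  trk : ∀ u : Fk k M, (u : LaurentSeries k) = coeffMap (Int.castRingHom k) z →
    Transcendental k u
  fink : ∀ u : Fk k M, (u : LaurentSeries k) = coeffMap (Int.castRingHom k) z →
    FiniteDimensional k⟮u⟯ (Fk k M)
  sepk : ∀ u : Fk k M, (u : LaurentSeries k) = coeffMap (Int.castRingHom k) z →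
    Algebra.IsSeparable k⟮u⟯ (Fk k M)
  eq : ∀ (t' : FL L M) (u : Fk k M), (t' : LaurentSeries L) = coeffMap (Int.castRingHom L) z →
    (u : LaurentSeries k) = coeffMap (Int.castRingHom k) z →
    finrank L⟮t'⟯ (FL L M) = finrank k⟮u⟯ (Fk k M)

section Instances

variable (L : Type) [Field L] [Algebra ℚ L] [IsAlgClosed L]
  (k : Type) [Field k] [IsAlgClosed k] (M : ℕ) [NeZero M] (q : ℕ) [Fact q.Prime] [CharP k q]

/-- the chart `x₄` at a level `4 ∣ M`, `q ∤ M` -/
theorem chartDeg_four (h4 : 4 ∣ M) (hqM : ¬ q ∣ M) : ChartDeg L k M L4.x4 := by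
  obtain ⟨M', hM⟩ := h4
  haveI : NeZero M' := ⟨by rintro rfl; exact NeZero.ne M (by rw [hM, mul_zero])⟩
  have hMk : (M : k) ≠ 0 := HDeg.natCast_ne_zero_k M q hqM
  exact
    { trL := fun t' ht' => HDeg.transcendental_FL_four M L t' ht'
      finL := fun t' ht' => HDeg.finiteDimensional_FL_four M L t' ht'
      trk := fun u hu => HDeg.transcendental_four M u hu
      fink := fun u hu => HDeg.finiteDimensional_four M hMk u hu
      sepk := fun u hu => HDeg.isSeparable_four M hMk u hu
      eq := fun t' u ht' hu => HDeg.finrank_FL_four_eq M M' hM L q hqM t' ht' u hu }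

/-- the chart `z₉ = y₉ - 3` at a level `9 ∣ M`, `q ∤ M` -/
theorem chartDeg_nine (h9 : 9 ∣ M) (hqM : ¬ q ∣ M) : ChartDeg L k M L9.z9 := by
  obtain ⟨M', hM⟩ := h9
  haveI : NeZero M' := ⟨by rintro rfl; exact NeZero.ne M (by rw [hM, mul_zero])⟩
  have hMk : (M : k) ≠ 0 := HDeg.natCast_ne_zero_k M q hqM
  exact
    { trL := fun t' ht' => HDeg.transcendental_FL_nine M L t' ht'
      finL := fun t' ht' => HDeg.finiteDimensional_FL_nine M L t' ht'
      trk := fun u hu => HDeg.transcendental_nine M u hu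
      fink := fun u hu => HDeg.finiteDimensional_nine M hMk u hu
      sepk := fun u hu => HDeg.isSeparable_nine M hMk u hu
      eq := fun t' u ht' hu => HDeg.finrank_FL_nine_eq M M' hM L q hqM t' ht' u hu }

end Instances

/-! ### Level `M q` -/

variable {L : Type} [Field L] [Algebra ℚ L] [IsAlgClosed L] {A : ValuationSubring L}
  {k : Type} [Field k] {π : A →+* k} [IsAlgClosed k]
variable {M q : ℕ} [NeZero M] [NeZero q] [Fact q.Prime] [CharP k q]
variable {hdeg : finrankAlong L (heckeAlphaBar L M q) = q + 1} {hq : q.Prime} {hqM : ¬ q ∣ M}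
variable {hrk : ∀ x ∈ maximalIdeal A, ∀ c : A, c ≠ 0 → ∃ j : ℕ, c ∣ x ^ j}
  {hπ : Function.Surjective π}
variable (H : ResidueFacts A π M q hdeg hq hqM hrk hπ) (hA : A.LiesOverPrime q)
variable {z : LaurentSeries ℤ} (D : ChartDeg L k M z)
variable {x : FBar L M} (hz : ((x : FL L M) : LaurentSeries L) = coeffMap (Int.castRingHom L) z)

/-! #### Before the chart: the inputs of `GaussInstMq.chartCoordMq` -/

include hz in
theorem alpha_mem_valInfty : heckeAlphaBar L M q x ∈ valInfty A π M q hrk hπ hqM :=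
  (alpha_mem_Ov_iff A π M q x).mpr (mem_Ov_of_int A π M x z hz)

include hz in
theorem alpha_mem_valZero :
    heckeAlphaBar L M q x ∈ valZero A π M q hdeg hq hqM hrk hπ :=
  alpha_mem_Ov0 A π M q hdeg hq hqM x (mem_Ov_of_int A π M x z hz)

include hz in
/-- `red_∞ (α x) = z̄` -/
theorem coe_resInfty_alpha (hxi : heckeAlphaBar L M q x ∈ valInfty A π M q hrk hπ hqM) :
    (((redSetupInfty H hA).res ⟨heckeAlphaBar L M q x, hxi⟩ : Fk k M) : LaurentSeries k) =
      coeffMap (Int.castRingHom k) z :=
  redV_alpha_of_int A π M q x z hz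

include hz in
/-- `red_0 (α x) = z̄ ^ q` -/
theorem coe_resZero_alpha
    (hxz : heckeAlphaBar L M q x ∈ valZero A π M q hdeg hq hqM hrk hπ) :
    (((redSetupZero H hA).res ⟨heckeAlphaBar L M q x, hxz⟩ : Fk k M) : LaurentSeries k) =
      coeffMap (Int.castRingHom k) z ^ q :=
  red0_alpha_of_int A π M q hdeg hq hqM x z hz

include hz in
theorem resZero_alpha_eq_pow (hxi : heckeAlphaBar L M q x ∈ valInfty A π M q hrk hπ hqM)
    (hxz : heckeAlphaBar L M q x ∈ valZero A π M q hdeg hq hqM hrk hπ) :
    (redSetupZero H hA).res ⟨heckeAlphaBar L M q x, hxz⟩ =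
      (redSetupInfty H hA).res ⟨heckeAlphaBar L M q x, hxi⟩ ^ q := by
  apply Subtype.ext
  rw [coe_resZero_alpha H hA hz hxz, SubmonoidClass.coe_pow, coe_resInfty_alpha H hA hz hxi]

include D hz in
/-- `hxb₁` of `chartCoordMq` -/
theorem transcendental_resInfty_alpha
    (hxi : heckeAlphaBar L M q x ∈ valInfty A π M q hrk hπ hqM) :
    Transcendental k ((redSetupInfty H hA).res ⟨heckeAlphaBar L M q x, hxi⟩) :=
  D.trk _ (coe_resInfty_alpha H hA hz hxi)

include D hz in
/-- `hxb₂` of `chartCoordMq` -/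
theorem transcendental_resZero_alpha
    (hxz : heckeAlphaBar L M q x ∈ valZero A π M q hdeg hq hqM hrk hπ) :
    Transcendental k ((redSetupZero H hA).res ⟨heckeAlphaBar L M q x, hxz⟩) := by
  rw [resZero_alpha_eq_pow H hA hz (alpha_mem_valInfty hz) hxz]
  exact Dim.transcendental_pow (transcendental_resInfty_alpha H hA D hz _) hq.pos

include D hz in
theorem transcendental_alpha : Transcendental L (heckeAlphaBar L M q x) :=
  Charts.transcendental_tα L M q (D.trL x hz)

include D hz in
/-- the `FiniteDimensional` instance of `chartCoordMq` -/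
theorem finiteDimensional_alpha :
    FiniteDimensional L⟮heckeAlphaBar L M q x⟯ (FL L (M * q)) :=
  haveI := D.finL x hz
  Charts.finiteDimensional_tα L M q x

include D hz in
/-- `[F_{M q} : L(α x)] = (q + 1) [Fk k M : k(u)]` for every `u` with expansion `z̄` -/
theorem finrank_alpha_eq (hq' : q.Prime) (hqM' : ¬ q ∣ M) (u : Fk k M)
    (hu : (u : LaurentSeries k) = coeffMap (Int.castRingHom k) z) :
    finrank L⟮heckeAlphaBar L M q x⟯ (FL L (M * q)) = (q + 1) * finrank k⟮u⟯ (Fk k M) := by
  haveI := D.finL x hz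
  have h := Charts.finrank_tα L M q x (HDeg.finrankAlong_alpha L M q hq' hqM')
  rw [D.eq x u hz hu] at h
  exact h.trans (Nat.mul_comm _ _)

include D hz in
/-- **`hdeg'` of `chartCoordMq`** -/
theorem finrank_alpha_le (hxi : heckeAlphaBar L M q x ∈ valInfty A π M q hrk hπ hqM)
    (hxz : heckeAlphaBar L M q x ∈ valZero A π M q hdeg hq hqM hrk hπ) :
    finrank L⟮heckeAlphaBar L M q x⟯ (FL L (M * q)) ≤
      finrank k⟮(redSetupInfty H hA).res ⟨heckeAlphaBar L M q x, hxi⟩⟯ (Fk k M) +
        finrank k⟮(redSetupZero H hA).res ⟨heckeAlphaBar L M q x, hxz⟩⟯ (Fk k M) := by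
  have hu := coe_resInfty_alpha H hA hz hxi
  have htr := D.trk _ hu
  haveI := D.fink _ hu
  haveI := D.sepk _ hu
  haveI := Dim.finiteDimensional_adjoin_pow htr hq.pos
  rw [resZero_alpha_eq_pow H hA hz hxi hxz, Dim.finrank_adjoin_pow htr hq.pos,
    finrank_alpha_eq D hz hq hqM _ hu]
  exact le_of_eq (by ring)

/-! #### For a chart `C` with `C.t = α x` -/

variable (C : ChartCoord (redSetup2 H hA)) (hCt : C.t = heckeAlphaBar L M q x)

include hz hCt in
theorem coe_T_fst : ((C.T.1 : Fk k M) : LaurentSeries k) = coeffMap (Int.castRingHom k) z :=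
  BridgeInst.coe_T_fst H hA C hCt z hz

include D hz hCt in
/-- `hx` of `exists_const_mul_pow_of_prod` (with `x := C.T.1`) -/
theorem transcendental_T_fst : Transcendental k C.T.1 :=
  D.trk _ (coe_T_fst H hA hz C hCt)

include D hz hCt in
theorem finiteDimensional_T_fst : FiniteDimensional k⟮C.T.1⟯ (Fk k M) :=
  D.fink _ (coe_T_fst H hA hz C hCt)

include D hz hCt in
theorem isSeparable_T_fst : Algebra.IsSeparable k⟮C.T.1⟯ (Fk k M) :=
  D.sepk _ (coe_T_fst H hA hz C hCt)

include hz hCt in
/-- `hT` of `exists_const_mul_pow_of_prod` -/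
theorem T_eq : C.T = (C.T.1, C.T.1 ^ q) :=
  Prod.ext rfl (BridgeInst.T_snd_eq_pow H hA C hCt z hz)

include D hz hCt in
/-- `ht` of `exists_const_mul_pow_of_prod` -/
theorem transcendental_t : Transcendental L C.t := by
  rw [hCt]
  exact transcendental_alpha D hz

include D hz hCt in
theorem finiteDimensional_t : FiniteDimensional L⟮C.t⟯ (FL L (M * q)) := by
  rw [hCt]
  exact finiteDimensional_alpha D hz

include D hz hCt in
/-- **`hn` of `exists_const_mul_pow_of_prod`** -/
theorem finrank_t_eq :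
    finrank L⟮C.t⟯ (FL L (M * q)) = (q + 1) * finrank k⟮C.T.1⟯ (Fk k M) := by
  rw [hCt]
  exact finrank_alpha_eq D hz hq hqM _ (coe_T_fst H hA hz C hCt)

end Fermat.Agent.S34x.Inst.HDegMq
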