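/-
helper44 (P-S34, WP3-inst): CLOSED forms of (L2) on both charts at the good level `M q`, for the
concrete `R = RedSetupInst.redSetup2 H hA` over `Kbar` and the chart `t = α t'`:

* `isL2_x4` : `4 ∣ M`, `q ≠ 2`, `t' = x₄`;
* `isL2_z9` : `9 ∣ M`, `q = 2`, `t' = z₉ = y₉ - 3`.

No hypotheses besides `H : ResidueFacts`, `hA : A.LiesOverPrime q` and `C.t = α t'`.
Inputs used: `LevelFactsTHaupt.l2Facts_x4 / l2Facts_z9` (helper61), `Cusp.isIntegral_eltY4 / eltY9`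
(helper8, (Y3)), `BridgeInst.isL2_both`.
-/
import Fermat.Agent.S34x.Inst.BridgeInst
import Fermat.Agent.S34x.Inst.LevelFactsTHaupt
import Fermat.Agent.S34x.Cusp.Y4Inst
import Fermat.Agent.S34x.Cusp.Y9Inst
import Fermat.Agent.Gateway.AuxLevel.Shifted9Red

set_option autoImplicit false
set_option linter.style.haveILetI false
set_option linter.unusedSectionVars false

noncomputable section

namespace Fermat.Agent.S34x.Inst.IsL2Haupt

open ModularCurve AlgebraicCurve IntermediateField IsLocalRing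
open Fermat.Agent.Gateway.Hecke Fermat.Agent.Gateway.ESC
open Fermat.Agent.Gateway.Red Fermat.Agent.Gateway.GoodRed Fermat.Agent.Gateway.AuxLevel
open Fermat.Agent.Gateway.GoodRed.ConjFamily Fermat.Agent.S24.Setup
open Fermat.Agent.S34x.TwoVal Fermat.Agent.S34x.C0two Fermat.Agent.S34x.Lattice2
open Fermat.Agent.S34x.Inst.L2 Fermat.Agent.S34x.Inst.IsL2Inst
open Fermat.Agent.S34x.Inst.RedSetupInst

variable {A : ValuationSubring Kbar} {k : Type} [Field k] {π : A →+* k} [IsAlgClosed k]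
variable {M : ℕ} [NeZero M]

section Four

variable {q : ℕ} [NeZero q] [Fact q.Prime] [CharP k q]
variable {hdeg : finrankAlong Kbar (heckeAlphaBar Kbar M q) = q + 1} {hq : q.Prime}
  {hqM : ¬ q ∣ M}
variable {hrk : ∀ x ∈ maximalIdeal A, ∀ c : A, c ≠ 0 → ∃ j : ℕ, c ∣ x ^ j}
  {hπ : Function.Surjective π}

/-- the integer expansion of `x₄` -/
theorem coe_x4F_int (h4 : 4 ∣ M) :
    ((HauptRed.x4F M h4 : FL Kbar M) : LaurentSeries Kbar) =
      coeffMap (Int.castRingHom Kbar) L4.x4 := rfl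

/-- **(L2) on both charts, `r₀ = 4`, `q` odd.** -/
theorem isL2_x4 (hq2 : q ≠ 2) (h4 : 4 ∣ M)
    (H : ResidueFacts A π M q hdeg hq hqM hrk hπ) (hA : A.LiesOverPrime q)
    (C : ChartCoord (redSetup2 H hA))
    (hCt : C.t = heckeAlphaBar Kbar M q (HauptRed.x4F M h4)) :
    C.IsL2 ∧ C.swap.IsL2 := by
  haveI : Algebra.IsAlgebraic ℚ Kbar := AlgebraicClosure.isAlgebraic ℚ
  obtain ⟨-, -, h3, h3'⟩ :=
    Fermat.Agent.S34x.Cusp.isIntegral_eltY4 Kbar M q hq hq2 h4 (HauptRed.x4F M h4) rfl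
  exact BridgeInst.isL2_both H hA C
    (LevelFactsTHaupt.l2Facts_x4 A π M q hπ hqM h4) hCt h3 h3' L4.x4 (coe_x4F_int h4)

/-- `T = (x̄₄, x̄₄ ^ q)` -/
theorem T_snd_eq_pow_x4 (h4 : 4 ∣ M)
    (H : ResidueFacts A π M q hdeg hq hqM hrk hπ) (hA : A.LiesOverPrime q)
    (C : ChartCoord (redSetup2 H hA))
    (hCt : C.t = heckeAlphaBar Kbar M q (HauptRed.x4F M h4)) :
    C.T.2 = C.T.1 ^ q :=
  BridgeInst.T_snd_eq_pow H hA C hCt L4.x4 (coe_x4F_int h4)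

end Four

section Nine

variable [CharP k 2]
variable {hdeg : finrankAlong Kbar (heckeAlphaBar Kbar M 2) = 2 + 1} {hq : Nat.Prime 2}
  {hqM : ¬ 2 ∣ M}
variable {hrk : ∀ x ∈ maximalIdeal A, ∀ c : A, c ≠ 0 → ∃ j : ℕ, c ∣ x ^ j}
  {hπ : Function.Surjective π}

/-- the integer expansion of `z₉ = y₉ - 3` -/
theorem coe_z9F_int (h9 : 9 ∣ M) :
    ((HauptRed.z9F M h9 : FL Kbar M) : LaurentSeries Kbar) =
      coeffMap (Int.castRingHom Kbar) L9.z9 := rfl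

/-- **(L2) on both charts, `r₀ = 9`, `q = 2`**, `t' = z₉`. -/
theorem isL2_z9 (h9 : 9 ∣ M)
    (H : ResidueFacts A π M 2 hdeg hq hqM hrk hπ) (hA : A.LiesOverPrime 2)
    (C : ChartCoord (redSetup2 H hA))
    (hCt : C.t = heckeAlphaBar Kbar M 2 (HauptRed.z9F M h9)) :
    C.IsL2 ∧ C.swap.IsL2 := by
  haveI : Algebra.IsAlgebraic ℚ Kbar := AlgebraicClosure.isAlgebraic ℚ
  obtain ⟨-, -, h3, h3'⟩ :=
    Fermat.Agent.S34x.Cusp.isIntegral_eltY9 Kbar M h9 (HauptRed.z9F M h9) rfl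
  have Hx : GoodLevelFactsT A π M 2 hπ hqM (HauptRed.z9F M h9) := by
    rw [HauptRed.z9F_eq]
    exact LevelFactsTHaupt.l2Facts_z9 A π M 2 hπ hqM h9
  exact BridgeInst.isL2_both H hA C Hx hCt h3 h3' L9.z9 (coe_z9F_int h9)

/-- the same for `t' = y₉ - 3` (helper61's spelling) -/
theorem isL2_y9_sub (h9 : 9 ∣ M)
    (H : ResidueFacts A π M 2 hdeg hq hqM hrk hπ) (hA : A.LiesOverPrime 2)
    (C : ChartCoord (redSetup2 H hA))
    (hCt : C.t = heckeAlphaBar Kbar M 2 (HauptRed.y9F M h9 - 3)) :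
    C.IsL2 ∧ C.swap.IsL2 := by
  rw [← HauptRed.z9F_eq] at hCt
  exact isL2_z9 h9 H hA C hCt

/-- `T = (z̄₉, z̄₉ ^ 2)` -/
theorem T_snd_eq_pow_z9 (h9 : 9 ∣ M)
    (H : ResidueFacts A π M 2 hdeg hq hqM hrk hπ) (hA : A.LiesOverPrime 2)
    (C : ChartCoord (redSetup2 H hA))
    (hCt : C.t = heckeAlphaBar Kbar M 2 (HauptRed.z9F M h9)) :
    C.T.2 = C.T.1 ^ 2 :=
  BridgeInst.T_snd_eq_pow H hA C hCt L9.z9 (coe_z9F_int h9)

end Nine

end Fermat.Agent.S34x.Inst.IsL2Haupt
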