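/-
helper44 (P-S34, WP3-inst): CLOSED forms of `hpth` (= `hN1`, `hN1₀` of
`Lattice2.exists_const_mul_pow_of_codim / _of_prod`, `p = q ^ 2`) at the good level `M q` for the
concrete `R = RedSetupInst.redSetup2 H hA` and a chart `t = α t'`:

* `hpth_both` / `hpth_fst_both`: from `GoodLevelFactsT`, (Y3) and an integer expansion of `t'`;
* `hpth_x4`, `hpth_z9` (+ `_fst`): `t' = x₄` (`4 ∣ M`, `q` odd), `t' = z₉` (`9 ∣ M`, `q = 2`), no
  hypotheses besides `H`, `hA` and `C.t = α t'`.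

Instantiation of helper46's `Inst/HpthInst` through `Inst/BridgeInst`.
-/
import Fermat.Agent.S34x.Inst.HpthInst
import Fermat.Agent.S34x.Inst.IsL2Haupt

set_option autoImplicit false
set_option linter.style.haveILetI false
set_option linter.unusedSectionVars false

noncomputable section

namespace Fermat.Agent.S34x.Inst.HpthHaupt

open ModularCurve AlgebraicCurve IntermediateField IsLocalRing
open Fermat.Agent.Gateway.Hecke Fermat.Agent.Gateway.ESC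
open Fermat.Agent.Gateway.Red Fermat.Agent.Gateway.GoodRed Fermat.Agent.Gateway.AuxLevel
open Fermat.Agent.Gateway.GoodRed.ConjFamily Fermat.Agent.S24.Setup
open Fermat.Agent.S34x.TwoVal Fermat.Agent.S34x.C0two Fermat.Agent.S34x.Lattice2
open Fermat.Agent.S34x.Inst.L2 Fermat.Agent.S34x.Inst.IsL2Inst
open Fermat.Agent.S34x.Inst.RedSetupInst

section Generic

variable {L : Type} [Field L] [Algebra ℚ L] [IsAlgClosed L] [Algebra.IsAlgebraic ℚ L]
  {A : ValuationSubring L}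
  {k : Type} [Field k] {π : A →+* k} [IsAlgClosed k]
variable {M q : ℕ} [NeZero M] [NeZero q] [Fact q.Prime] [CharP k q]
variable {hdeg : finrankAlong L (heckeAlphaBar L M q) = q + 1} {hq : q.Prime} {hqM : ¬ q ∣ M}
variable {hrk : ∀ x ∈ maximalIdeal A, ∀ c : A, c ≠ 0 → ∃ j : ℕ, c ∣ x ^ j}
  {hπ : Function.Surjective π}
variable (H : ResidueFacts A π M q hdeg hq hqM hrk hπ) (hA : A.LiesOverPrime q)
  (C : ChartCoord (redSetup2 H hA))

/-- the reduction of `x` is fixed by the coefficientwise inverse Frobenius -/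
theorem frobInvLS_resFk_of_int {x : FBar L M} (hx : x ∈ OvVal A π M q hπ hqM)
    (z : LaurentSeries ℤ)
    (hz : ((x : FL L M) : LaurentSeries L) = coeffMap (Int.castRingHom L) z) :
    frobInvLS q (((resFk A π M q hπ hqM ⟨x, hx⟩ : Fk k M)) : LaurentSeries k) =
      ((resFk A π M q hπ hqM ⟨x, hx⟩ : Fk k M) : LaurentSeries k) := by
  have h1 : ((resFk A π M q hπ hqM ⟨x, hx⟩ : Fk k M) : LaurentSeries k) =
      coeffMap (Int.castRingHom k) z := by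
    rw [coe_resFk]
    exact redV_of_int A π M x z hz
  rw [h1]
  exact frobInvLS_coeffMap_int q z

/-- **`hpth` (second components) on both charts.** -/
theorem hpth_both {x : FBar L M}
    (Hx : GoodLevelFactsT A π M q hπ hqM x) (hCt : C.t = heckeAlphaBar L M q x)
    (hY3 : IsIntegral (Algebra.adjoin L {heckeAlphaBar L M q x}) (heckeBetaBar L M q x))
    (hY3' : IsIntegral (Algebra.adjoin L {(heckeAlphaBar L M q x)⁻¹}) (heckeBetaBar L M q x)⁻¹)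
    (z : LaurentSeries ℤ)
    (hz : ((x : FL L M) : LaurentSeries L) = coeffMap (Int.castRingHom L) z) :
    (∀ g : C.B₂, ∃ g' : C.B₂, ((0 : C.B₁), g - g' ^ (q ^ 2)) ∈ C.BbarT) ∧
      (∀ g : C.swap.B₂, ∃ g' : C.swap.B₂,
        ((0 : C.swap.B₁), g - g' ^ (q ^ 2)) ∈ C.swap.BbarT) := by
  have hB := BridgeInst.bridge H hA
  have hT1 : C.T.1 = resFk A π M q hπ hqM ⟨x, Hx.mem⟩ := T_fst_eq C hB Hx.mem hCt
  have hT2 : C.T.2 = (resFk A π M q hπ hqM ⟨x, Hx.mem⟩) ^ q := by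
    rw [BridgeInst.T_snd_eq_pow H hA C hCt z hz, hT1]
  have hfix := frobInvLS_resFk_of_int (A := A) (π := π) (hπ := hπ) (hqM := hqM) Hx.mem z hz
  exact ⟨HpthInst.hpth A π M q hdeg hq hπ hqM hB C x _ hCt hT2
      (liftsIntegral_of_facts A π M q hπ hqM hA Hx) hY3
      (HpthInst.frobStable_of_fix M q _ hfix),
    HpthInst.hpth_swap A π M q hdeg hq hπ hqM hB C x _ hCt hT2
      (liftsIntegral_inv_of_facts A π M q hπ hqM hA Hx) hY3'
      (HpthInst.frobStable_of_fix M q _ (HpthInst.fix_inv M q _ hfix))⟩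

/-- **`hpth` (first components) on both charts.** -/
theorem hpth_fst_both {x : FBar L M}
    (Hx : GoodLevelFactsT A π M q hπ hqM x) (hCt : C.t = heckeAlphaBar L M q x)
    (hY3 : IsIntegral (Algebra.adjoin L {heckeAlphaBar L M q x}) (heckeBetaBar L M q x))
    (hY3' : IsIntegral (Algebra.adjoin L {(heckeAlphaBar L M q x)⁻¹}) (heckeBetaBar L M q x)⁻¹)
    (z : LaurentSeries ℤ)
    (hz : ((x : FL L M) : LaurentSeries L) = coeffMap (Int.castRingHom L) z) :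
    (∀ f : C.B₁, ∃ f' : C.B₁, (f - f' ^ (q ^ 2), (0 : C.B₂)) ∈ C.BbarT) ∧
      (∀ f : C.swap.B₁, ∃ f' : C.swap.B₁,
        (f - f' ^ (q ^ 2), (0 : C.swap.B₂)) ∈ C.swap.BbarT) := by
  have hB := BridgeInst.bridge H hA
  have hT1 : C.T.1 = resFk A π M q hπ hqM ⟨x, Hx.mem⟩ := T_fst_eq C hB Hx.mem hCt
  have hfix := frobInvLS_resFk_of_int (A := A) (π := π) (hπ := hπ) (hqM := hqM) Hx.mem z hz
  exact ⟨HpthInst.hpth_fst A π M q hdeg hq hπ hqM hB C x _ hCt hT1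
      (liftsIntegral_of_facts A π M q hπ hqM hA Hx) hY3
      (HpthInst.frobStable_of_fix M q _ hfix),
    HpthInst.hpth_fst_swap A π M q hdeg hq hπ hqM hB C x _ hCt hT1
      (liftsIntegral_inv_of_facts A π M q hπ hqM hA Hx) hY3'
      (HpthInst.frobStable_of_fix M q _ (HpthInst.fix_inv M q _ hfix))⟩

end Generic

variable {A : ValuationSubring Kbar} {k : Type} [Field k] {π : A →+* k} [IsAlgClosed k]
variable {M : ℕ} [NeZero M]

section Four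

variable {q : ℕ} [NeZero q] [Fact q.Prime] [CharP k q]
variable {hdeg : finrankAlong Kbar (heckeAlphaBar Kbar M q) = q + 1} {hq : q.Prime}
  {hqM : ¬ q ∣ M}
variable {hrk : ∀ x ∈ maximalIdeal A, ∀ c : A, c ≠ 0 → ∃ j : ℕ, c ∣ x ^ j}
  {hπ : Function.Surjective π}

/-- **`hN1`, `hN1₀` for `r₀ = 4`, `q` odd** (`p = p₀ = q ^ 2`). -/
theorem hpth_x4 (hq2 : q ≠ 2) (h4 : 4 ∣ M)
    (H : ResidueFacts A π M q hdeg hq hqM hrk hπ) (hA : A.LiesOverPrime q)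
    (C : ChartCoord (redSetup2 H hA))
    (hCt : C.t = heckeAlphaBar Kbar M q (HauptRed.x4F M h4)) :
    (∀ g : C.B₂, ∃ g' : C.B₂, ((0 : C.B₁), g - g' ^ (q ^ 2)) ∈ C.BbarT) ∧
      (∀ g : C.swap.B₂, ∃ g' : C.swap.B₂,
        ((0 : C.swap.B₁), g - g' ^ (q ^ 2)) ∈ C.swap.BbarT) := by
  haveI : Algebra.IsAlgebraic ℚ Kbar := AlgebraicClosure.isAlgebraic ℚ
  obtain ⟨-, -, h3, h3'⟩ :=
    Fermat.Agent.S34x.Cusp.isIntegral_eltY4 Kbar M q hq hq2 h4 (HauptRed.x4F M h4) rfl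
  exact hpth_both H hA C (LevelFactsTHaupt.l2Facts_x4 A π M q hπ hqM h4) hCt h3 h3' L4.x4
    (IsL2Haupt.coe_x4F_int h4)

/-- the mirror for the first components -/
theorem hpth_fst_x4 (hq2 : q ≠ 2) (h4 : 4 ∣ M)
    (H : ResidueFacts A π M q hdeg hq hqM hrk hπ) (hA : A.LiesOverPrime q)
    (C : ChartCoord (redSetup2 H hA))
    (hCt : C.t = heckeAlphaBar Kbar M q (HauptRed.x4F M h4)) :
    (∀ f : C.B₁, ∃ f' : C.B₁, (f - f' ^ (q ^ 2), (0 : C.B₂)) ∈ C.BbarT) ∧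
      (∀ f : C.swap.B₁, ∃ f' : C.swap.B₁,
        (f - f' ^ (q ^ 2), (0 : C.swap.B₂)) ∈ C.swap.BbarT) := by
  haveI : Algebra.IsAlgebraic ℚ Kbar := AlgebraicClosure.isAlgebraic ℚ
  obtain ⟨-, -, h3, h3'⟩ :=
    Fermat.Agent.S34x.Cusp.isIntegral_eltY4 Kbar M q hq hq2 h4 (HauptRed.x4F M h4) rfl
  exact hpth_fst_both H hA C (LevelFactsTHaupt.l2Facts_x4 A π M q hπ hqM h4) hCt h3 h3' L4.x4
    (IsL2Haupt.coe_x4F_int h4)

end Four

section Nine

variable [CharP k 2]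
variable {hdeg : finrankAlong Kbar (heckeAlphaBar Kbar M 2) = 2 + 1} {hq : Nat.Prime 2}
  {hqM : ¬ 2 ∣ M}
variable {hrk : ∀ x ∈ maximalIdeal A, ∀ c : A, c ≠ 0 → ∃ j : ℕ, c ∣ x ^ j}
  {hπ : Function.Surjective π}

theorem l2Facts_z9F (h9 : 9 ∣ M) :
    GoodLevelFactsT A π M 2 hπ hqM (HauptRed.z9F M h9) := by
  rw [HauptRed.z9F_eq]
  exact LevelFactsTHaupt.l2Facts_z9 A π M 2 hπ hqM h9

/-- **`hN1`, `hN1₀` for `r₀ = 9`, `q = 2`** (`p = p₀ = 2 ^ 2`). -/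
theorem hpth_z9 (h9 : 9 ∣ M)
    (H : ResidueFacts A π M 2 hdeg hq hqM hrk hπ) (hA : A.LiesOverPrime 2)
    (C : ChartCoord (redSetup2 H hA))
    (hCt : C.t = heckeAlphaBar Kbar M 2 (HauptRed.z9F M h9)) :
    (∀ g : C.B₂, ∃ g' : C.B₂, ((0 : C.B₁), g - g' ^ (2 ^ 2)) ∈ C.BbarT) ∧
      (∀ g : C.swap.B₂, ∃ g' : C.swap.B₂,
        ((0 : C.swap.B₁), g - g' ^ (2 ^ 2)) ∈ C.swap.BbarT) := by
  haveI : Algebra.IsAlgebraic ℚ Kbar := AlgebraicClosure.isAlgebraic ℚ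
  obtain ⟨-, -, h3, h3'⟩ :=
    Fermat.Agent.S34x.Cusp.isIntegral_eltY9 Kbar M h9 (HauptRed.z9F M h9) rfl
  exact hpth_both H hA C (l2Facts_z9F h9) hCt h3 h3' L9.z9 (IsL2Haupt.coe_z9F_int h9)

/-- the mirror for the first components -/
theorem hpth_fst_z9 (h9 : 9 ∣ M)
    (H : ResidueFacts A π M 2 hdeg hq hqM hrk hπ) (hA : A.LiesOverPrime 2)
    (C : ChartCoord (redSetup2 H hA))
    (hCt : C.t = heckeAlphaBar Kbar M 2 (HauptRed.z9F M h9)) :
    (∀ f : C.B₁, ∃ f' : C.B₁, (f - f' ^ (2 ^ 2), (0 : C.B₂)) ∈ C.BbarT) ∧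
      (∀ f : C.swap.B₁, ∃ f' : C.swap.B₁,
        (f - f' ^ (2 ^ 2), (0 : C.swap.B₂)) ∈ C.swap.BbarT) := by
  haveI : Algebra.IsAlgebraic ℚ Kbar := AlgebraicClosure.isAlgebraic ℚ
  obtain ⟨-, -, h3, h3'⟩ :=
    Fermat.Agent.S34x.Cusp.isIntegral_eltY9 Kbar M h9 (HauptRed.z9F M h9) rfl
  exact hpth_fst_both H hA C (l2Facts_z9F h9) hCt h3 h3' L9.z9 (IsL2Haupt.coe_z9F_int h9)

end Nine

end Fermat.Agent.S34x.Inst.HpthHaupt
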