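import Fermat.Agent.Gateway.C0.Count
import Fermat.Agent.Gateway.GoodRed.GaussAbstract

/-!
# P-S34, WP3 (L1): integrality over `K[x]` reduces, for a valuation ring which is NOT the only
extension of the Gauss valuation (helper57)

`F / K(x)` a finite extension, `O` a valuation subring of `F` over the valuation subring `A` of
`K` with residue data `R : C0.RedSetup A O k κ`, `x ∈ O` with `x̄ = res x` transcendental over `k`.
Then `O ∩ K(x)` is the Gauss valuation ring of `K(x)` (`coeff_mem_of_aeval_mem`).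

In the good reduction case `O` is the integral closure of the Gauss ring `O ∩ K(x)` in `F`
(`GaussExt.FullResidueDegree`), and integrality over `K[x]` reduces to integrality over `k[x̄]`
(`GaussExt.ResidueData.FullResidueDegree.isIntegral_red'`).  At a prime `q ∥ N` the Gauss valuation
has two extensions `O_∞`, `O_0`, and the integral closure of the Gauss ring is `O_∞ ∩ O_0`.  The
statement which survives is:

* `isIntegral_res_of_isIntegral` : if `f ∈ O` is integral over the Gauss ring `O ∩ K(x)` and over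
  `K[x]`, then `res f` is integral over `k[x̄]`;
* `isIntegral_res_inv_of_isIntegral` : the same for the chart `x ≠ 0` (`K[1/x]`, `k[1/x̄]`).

These are the hypotheses `hint1`, `hint2` of `C0.exists_countData_spec`, restricted to the elements
integral over the Gauss ring.  `isIntegral_of_span` gives the integrality over the Gauss ring for a
subring of `F` which is spanned over it by finitely many elements (the orthonormal basis of
`O_∞ ∩ O_0`).  `comap_eq_comap` : two such valuation rings have the same Gauss ring.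
-/

set_option autoImplicit false
set_option linter.unusedSectionVars false
set_option linter.style.haveILetI false

noncomputable section

namespace Fermat.Agent.S34x.IntegralRed2

open Polynomial IntermediateField IsLocalRing
open Fermat.Agent.Gateway.C0 Fermat.Agent.Gateway.GoodRed

/-! ### The general reduction lemma -/

section General

variable {Kx F : Type*} [Field Kx] [Field F] [Algebra Kx F] (Ox : ValuationSubring Kx)
  (O : Subring F) (j : Ox →+* O) (hj : ∀ c : Ox, ((j c : O) : F) = algebraMap Kx F (c : Kx))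
  {E : Type*} [CommRing E] (red : O →+* E)
  {R1 : Type*} [CommRing R1] [Algebra R1 Kx] [Algebra R1 F] [IsScalarTower R1 Kx F]
  {R1k : Type*} [CommRing R1k] [Algebra R1k E]

include hj in
/-- Integrality over `R1` reduces to integrality over `R1k`, for the elements of `O` which are
integral over the valuation ring `Ox` of `Kx`, provided `red` maps the elements of `Ox` integral
over `R1` to elements integral over `R1k`. -/
theorem isIntegral_red_of_isIntegral
    (hR : ∀ c : Ox, IsIntegral R1 (c : Kx) → IsIntegral R1k (red (j c)))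
    (f : O) (hfO : IsIntegral Ox (f : F)) (hf : IsIntegral R1 (f : F)) :
    IsIntegral R1k (red f) := by
  set Q : Ox[X] := minpoly Ox (f : F) with hQ
  have hQm : Q.Monic := minpoly.monic hfO
  -- the coefficients of `Q` are integral over `R1`
  have hQi : ∀ i, IsIntegral R1 ((Q.coeff i : Ox) : Kx) := by
    intro i
    obtain ⟨P0, hP0, hP0f⟩ := hf
    have hint : IsIntegral Kx (f : F) := hfO.tower_top
    have hd : minpoly Kx (f : F) ∣ P0.map (algebraMap R1 Kx) := by
      apply minpoly.dvd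
      rw [aeval_def, eval₂_map, ← IsScalarTower.algebraMap_eq]
      exact hP0f
    have hl := integralClosure.mem_lifts_of_monic_of_dvd_map Kx hP0 (minpoly.monic hint) hd
    have hc := (Polynomial.lifts_iff_coeff_lifts _).1 hl i
    obtain ⟨y, hy⟩ := hc
    have h2 : ((Q.coeff i : Ox) : Kx) = (minpoly Kx (f : F)).coeff i := by
      rw [minpoly.isIntegrallyClosed_eq_field_fractions' Kx hfO, Polynomial.coeff_map]
      rfl
    rw [h2, ← hy]
    exact y.2
  -- `f` is a root of `Q` in `O`
  have hroot : Polynomial.eval₂ j f Q = 0 := by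
    apply Subtype.ext
    have h1 : ((Polynomial.eval₂ j f Q : O) : F) = Polynomial.eval₂ (O.subtype.comp j) (f : F) Q :=
      Polynomial.hom_eval₂ Q j O.subtype f
    rw [h1]
    have h2 : O.subtype.comp j = algebraMap Ox F := by
      ext c
      exact hj c
    rw [h2, ← aeval_def]
    exact minpoly.aeval Ox (f : F)
  have hroot' : Polynomial.eval₂ (red.comp j) (red f) Q = 0 := by
    rw [← Polynomial.hom_eval₂, hroot, map_zero]
  -- `red f` is integral over the integral closure of `R1k` in `E`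
  have hlift : Q.map (red.comp j) ∈ Polynomial.lifts (algebraMap (integralClosure R1k E) E) := by
    rw [Polynomial.lifts_iff_coeff_lifts]
    intro i
    rw [Polynomial.coeff_map]
    exact ⟨⟨_, hR _ (hQi i)⟩, rfl⟩
  obtain ⟨q, hq, -, hqm⟩ := Polynomial.lifts_and_natDegree_eq_and_monic hlift (hQm.map _)
  have h1 : IsIntegral (integralClosure R1k E) (red f) := by
    refine ⟨q, hqm, ?_⟩
    have h3 : Polynomial.eval₂ (algebraMap (integralClosure R1k E) E) (red f) q =
        Polynomial.eval₂ (RingHom.id E) (red f) (q.map (algebraMap (integralClosure R1k E) E)) := by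
      rw [Polynomial.eval₂_map, RingHom.id_comp]
    rw [h3, hq, Polynomial.eval₂_map, RingHom.id_comp]
    exact hroot'
  exact isIntegral_trans _ h1

end General

/-! ### Polynomials in a transcendental element -/

section Poly

open scoped IntermediateField.algebraAdjoinAdjoin

variable {K F : Type*} [Field K] [Field F] [Algebra K F] {x : F}

/-- `K[x]` is integrally closed for `x` transcendental. -/
theorem isIntegrallyClosed_adjoin (hx : Transcendental K x) :
    IsIntegrallyClosed (Algebra.adjoin K {x}) :=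
  IsIntegrallyClosed.of_equiv (Polynomial.algEquivOfTranscendental K x hx).toRingEquiv

/-- An element of `K(x)` integral over `K[x]` is a polynomial in `x`. -/
theorem exists_eq_aeval_of_isIntegral (hx : Transcendental K x) {c : F} (hc : c ∈ K⟮x⟯)
    (hint : IsIntegral (Algebra.adjoin K {x}) c) : ∃ P : K[X], c = aeval x P := by
  haveI := isIntegrallyClosed_adjoin hx
  have h1 : IsIntegral (Algebra.adjoin K {x}) (⟨c, hc⟩ : K⟮x⟯) := by
    have h2 : IsIntegral (Algebra.adjoin K {x}) (algebraMap K⟮x⟯ F ⟨c, hc⟩) := hint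
    exact (isIntegral_algebraMap_iff (algebraMap K⟮x⟯ F).injective).mp h2
  obtain ⟨y, hy⟩ := (IsIntegrallyClosed.isIntegral_iff (R := Algebra.adjoin K {x})
    (K := K⟮x⟯)).mp h1
  obtain ⟨y, hy'⟩ := y
  rw [Algebra.adjoin_singleton_eq_range_aeval] at hy'
  obtain ⟨P, rfl⟩ := hy'
  refine ⟨P, ?_⟩
  have := congrArg (fun z : K⟮x⟯ => (z : F)) hy
  exact this.symm

end Poly

/-! ### The Gauss valuation -/

section Gauss

variable {K : Type*} [Field K] {A : ValuationSubring K} {F : Type*} [Field F] [Algebra K F]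
  {O : ValuationSubring F} {k κ : Type*} [Field k] [Field κ] [Algebra k κ]
  (R : RedSetup A O k κ)

include R

/-- A constant lies in `O` iff it lies in `A`. -/
theorem algebraMap_mem_iff (c : K) : algebraMap K F c ∈ O ↔ c ∈ A := by
  constructor
  · intro h
    by_contra hc
    have hc0 : c ≠ 0 := fun h0 => hc (h0 ▸ A.zero_mem)
    have hinv : c⁻¹ ∈ A := (A.mem_or_inv_mem c).resolve_left hc
    have hmax : (⟨c⁻¹, hinv⟩ : A) ∈ maximalIdeal A := by
      rw [A.valuation_lt_one_iff]
      have h1 : ¬ A.valuation c ≤ 1 := fun h1 => hc ((A.valuation_le_one_iff c).mp h1)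
      rw [map_inv₀]
      exact inv_lt_one_of_one_lt₀ (not_le.mp h1)
    have hsmall : O.valuation (algebraMap K F c⁻¹) < 1 := R.base.algebraMap_lt ⟨c⁻¹, hinv⟩ hmax
    have hle : O.valuation (algebraMap K F c) ≤ 1 := (O.valuation_le_one_iff _).mpr h
    have hprod : O.valuation (algebraMap K F c) * O.valuation (algebraMap K F c⁻¹) = 1 := by
      rw [← map_mul, ← map_mul, mul_inv_cancel₀ hc0, map_one, map_one]
    have : O.valuation (algebraMap K F c) * O.valuation (algebraMap K F c⁻¹) < 1 :=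
      mul_lt_one_of_nonneg_of_lt_one_right hle zero_le hsmall
    exact absurd hprod this.ne
  · intro h
    exact R.algebraMap_mem ⟨c, h⟩

/-- The constants, `A → O`. -/
def cst : A →+* O :=
  ((algebraMap K F).comp A.subtype).codRestrict O.toSubring fun a => R.algebraMap_mem a

@[simp] theorem coe_cst (a : A) : ((cst R a : O) : F) = algebraMap K F (a : K) := rfl

theorem res_cst (a : A) : R.res (cst R a) = algebraMap k κ (R.π a) := R.res_algebraMap a

theorem coe_eval₂_cst {x : F} (hxO : x ∈ O) (Q : A[X]) :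
    ((Polynomial.eval₂ (cst R) ⟨x, hxO⟩ Q : O) : F) = aeval x (Q.map A.subtype) := by
  have h := Polynomial.hom_eval₂ Q (cst R) O.subtype ⟨x, hxO⟩
  rw [aeval_def, eval₂_map]
  exact h

theorem res_eval₂_cst {x : F} (hxO : x ∈ O) (Q : A[X]) :
    R.res (Polynomial.eval₂ (cst R) ⟨x, hxO⟩ Q) = aeval (R.res ⟨x, hxO⟩) (Q.map R.π) := by
  rw [Polynomial.hom_eval₂, aeval_def, eval₂_map]
  congr 1
  refine RingHom.ext fun a => ?_
  exact res_cst R a

/-- A unit of `O`: nonzero residue. -/
theorem valuation_eq_one_of_res_ne_zero (u : O) (hu : R.res u ≠ 0) : O.valuation (u : F) = 1 := by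
  refine le_antisymm ((O.valuation_le_one_iff _).mpr u.2) (not_lt.mp fun hlt => ?_)
  exact hu ((R.res_ker u).mpr hlt)

/-- **`O ∩ K(x)` is the Gauss valuation ring**: a polynomial in `x` lies in `O` iff its
coefficients lie in `A` (`x ∈ O` with transcendental residue). -/
theorem coeff_mem_of_aeval_mem {x : F} (hxO : x ∈ O)
    (hxbt : Transcendental k (R.res ⟨x, hxO⟩)) (P : K[X]) (hP : aeval x P ∈ O) :
    ∀ n, P.coeff n ∈ A := by
  by_cases hP0 : P = 0
  · intro n
    rw [hP0, Polynomial.coeff_zero]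
    exact A.zero_mem
  obtain ⟨c, hc0, Q', hQ', hQπ⟩ := exists_content_single A R.π P hP0
  set u : O := Polynomial.eval₂ (cst R) ⟨x, hxO⟩ Q' with hu
  have hures : R.res u ≠ 0 := by
    rw [hu, res_eval₂_cst]
    exact fun h0 => hQπ ((transcendental_iff.mp hxbt) _ h0)
  have hu1 : O.valuation (u : F) = 1 := valuation_eq_one_of_res_ne_zero R u hures
  have hucoe : (u : F) = algebraMap K F c⁻¹ * aeval x P := by
    rw [hu, coe_eval₂_cst, hQ', map_mul, aeval_C]
  have hPc : aeval x P = algebraMap K F c * (u : F) := by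
    rw [hucoe, ← mul_assoc, ← map_mul, mul_inv_cancel₀ hc0, map_one, one_mul]
  have hcO : algebraMap K F c ∈ O := by
    rw [← O.valuation_le_one_iff]
    have h1 : O.valuation (aeval x P) ≤ 1 := (O.valuation_le_one_iff _).mpr hP
    rwa [hPc, map_mul, hu1, mul_one] at h1
  have hcA : c ∈ A := (algebraMap_mem_iff R c).mp hcO
  intro n
  have h2 := congrArg (fun p => Polynomial.coeff p n) hQ'
  simp only [Polynomial.coeff_map, Polynomial.coeff_C_mul] at h2
  have h3 : P.coeff n = c * ((Q'.coeff n : A) : K) := by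
    have : (A.subtype (Q'.coeff n) : K) = ((Q'.coeff n : A) : K) := rfl
    rw [← this, h2, ← mul_assoc, mul_inv_cancel₀ hc0, one_mul]
  rw [h3]
  exact A.mul_mem _ _ hcA (Q'.coeff n).2

/-- The residue of a polynomial in `x` with coefficients in `A`. -/
theorem res_aeval_mem_adjoin {x : F} (hxO : x ∈ O) (P : K[X]) (hP : ∀ n, P.coeff n ∈ A)
    (hPO : aeval x P ∈ O) :
    R.res ⟨aeval x P, hPO⟩ ∈ Algebra.adjoin k {R.res ⟨x, hxO⟩} := by
  obtain ⟨P₀, rfl⟩ : ∃ P₀ : A[X], P₀.map A.subtype = P := by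
    have : P ∈ Polynomial.lifts A.subtype := by
      rw [Polynomial.lifts_iff_coeff_lifts]
      intro n
      exact ⟨⟨_, hP n⟩, rfl⟩
    exact this
  have h1 : (⟨aeval x (P₀.map A.subtype), hPO⟩ : O) = Polynomial.eval₂ (cst R) ⟨x, hxO⟩ P₀ :=
    Subtype.ext (coe_eval₂_cst R hxO P₀).symm
  rw [h1, res_eval₂_cst, Algebra.adjoin_singleton_eq_range_aeval]
  exact ⟨P₀.map R.π, rfl⟩

end Gauss

/-! ### (L1): integrality over `K[x]` and `K[1/x]` reduces -/

section Main

open scoped IntermediateField.algebraAdjoinAdjoin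

variable {K : Type*} [Field K] {A : ValuationSubring K} {F : Type*} [Field F] [Algebra K F]
  {O : ValuationSubring F} {k κ : Type*} [Field k] [Field κ] [Algebra k κ]
  (R : RedSetup A O k κ) {x : F}

/-- The inclusion of `O ∩ Kx` into `O`. -/
def gaussIncl (O : ValuationSubring F) (Kx : IntermediateField K F) :
    (O.comap (algebraMap Kx F)) →+* O.toSubring :=
  (algebraMap Kx F).restrict (O.comap (algebraMap Kx F)) O.toSubring fun _ h => h

theorem isIntegral_comap_congr {Kx Kx' : IntermediateField K F} (h : Kx = Kx') {f : F}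
    (hf : IsIntegral (O.comap (algebraMap Kx F)) f) :
    IsIntegral (O.comap (algebraMap Kx' F)) f := by
  subst h
  exact hf

theorem adjoin_simple_inv (x : F) : K⟮x⁻¹⟯ = K⟮x⟯ := by
  apply le_antisymm
  · rw [adjoin_simple_le_iff]
    exact inv_mem (mem_adjoin_simple_self K x)
  · rw [adjoin_simple_le_iff]
    have := inv_mem (mem_adjoin_simple_self K x⁻¹)
    rwa [inv_inv] at this

/-- **(L1), chart `x ≠ ∞`**: if `f ∈ O` is integral over the Gauss ring `O ∩ K(x)` and over
`K[x]`, then `res f` is integral over `k[x̄]`. -/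
theorem isIntegral_res_of_isIntegral (hx : Transcendental K x) (hxO : x ∈ O)
    (hxbt : Transcendental k (R.res ⟨x, hxO⟩)) {f : F} (hfO : f ∈ O)
    (hfG : IsIntegral (O.comap (algebraMap K⟮x⟯ F)) f)
    (hf : IsIntegral (Algebra.adjoin K {x}) f) :
    IsIntegral (Algebra.adjoin k {R.res ⟨x, hxO⟩}) (R.res ⟨f, hfO⟩) := by
  refine isIntegral_red_of_isIntegral (Kx := K⟮x⟯) (O.comap (algebraMap K⟮x⟯ F)) O.toSubring
    (gaussIncl O K⟮x⟯) (fun c => rfl) (E := κ) R.res (R1 := Algebra.adjoin K {x})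
    (R1k := Algebra.adjoin k {R.res ⟨x, hxO⟩}) ?_ ⟨f, hfO⟩ hfG hf
  intro c hc
  have hc' : IsIntegral (Algebra.adjoin K {x}) (algebraMap K⟮x⟯ F (c : K⟮x⟯)) :=
    hc.map (IsScalarTower.toAlgHom (Algebra.adjoin K {x}) K⟮x⟯ F)
  obtain ⟨P, hP⟩ := exists_eq_aeval_of_isIntegral hx ((c : K⟮x⟯)).2 hc'
  have hPO : aeval x P ∈ O := by
    rw [← hP]
    exact c.2
  have hcoef := coeff_mem_of_aeval_mem R hxO hxbt P hPO
  have hmem := res_aeval_mem_adjoin R hxO P hcoef hPO
  have heq : R.res (gaussIncl O K⟮x⟯ c) = R.res ⟨aeval x P, hPO⟩ := by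
    congr 1
    exact Subtype.ext hP
  rw [heq]
  exact isIntegral_algebraMap (x := (⟨_, hmem⟩ : Algebra.adjoin k {R.res ⟨x, hxO⟩}))

/-- `1/x ∈ O`, with residue `1/x̄`. -/
theorem inv_mem_of_res_ne_zero (hxO : x ∈ O) (hxb : R.res ⟨x, hxO⟩ ≠ 0) : x⁻¹ ∈ O := by
  have h1 := valuation_eq_one_of_res_ne_zero R ⟨x, hxO⟩ hxb
  rw [← O.valuation_le_one_iff, map_inv₀, h1, inv_one]

theorem res_inv (hxO : x ∈ O) (hxb : R.res ⟨x, hxO⟩ ≠ 0) :
    R.res ⟨x⁻¹, inv_mem_of_res_ne_zero R hxO hxb⟩ = (R.res ⟨x, hxO⟩)⁻¹ := by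
  have hx0 : x ≠ 0 := by
    rintro rfl
    exact hxb (map_zero R.res)
  have h1 : (⟨x⁻¹, inv_mem_of_res_ne_zero R hxO hxb⟩ : O) * ⟨x, hxO⟩ = 1 :=
    Subtype.ext (inv_mul_cancel₀ hx0)
  have h2 := congrArg R.res h1
  rw [map_mul, map_one] at h2
  exact eq_inv_of_mul_eq_one_left h2

/-- **(L1), chart `x ≠ 0`**: if `f ∈ O` is integral over the Gauss ring `O ∩ K(x)` and over
`K[1/x]`, then `res f` is integral over `k[1/x̄]`. -/
theorem isIntegral_res_inv_of_isIntegral (hx : Transcendental K x) (hxO : x ∈ O)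
    (hxbt : Transcendental k (R.res ⟨x, hxO⟩)) {f : F} (hfO : f ∈ O)
    (hfG : IsIntegral (O.comap (algebraMap K⟮x⟯ F)) f)
    (hf : IsIntegral (Algebra.adjoin K {x⁻¹}) f) :
    IsIntegral (Algebra.adjoin k {(R.res ⟨x, hxO⟩)⁻¹}) (R.res ⟨f, hfO⟩) := by
  have hxb0 : R.res ⟨x, hxO⟩ ≠ 0 := by
    intro h0
    rw [h0] at hxbt
    exact hxbt isAlgebraic_zero
  have hxi : Transcendental K x⁻¹ := by
    intro h
    apply hx
    have := h.inv
    rwa [inv_inv] at this
  have hxiO := inv_mem_of_res_ne_zero R hxO hxb0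
  have hres := res_inv R hxO hxb0
  have hxibt : Transcendental k (R.res ⟨x⁻¹, hxiO⟩) := by
    rw [hres]
    intro h
    apply hxbt
    have := h.inv
    rwa [inv_inv] at this
  have h1 := isIntegral_res_of_isIntegral R hxi hxiO hxibt hfO
    (isIntegral_comap_congr (adjoin_simple_inv x).symm hfG) hf
  rwa [hres] at h1

end Main

/-! ### Integrality over the Gauss ring from a finite spanning family -/

section Span

variable {Kx F : Type*} [Field Kx] [Field F] [Algebra Kx F] (Ox : ValuationSubring Kx)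

/-- A subring of `F` containing `Ox` and spanned over `Ox` by finitely many elements is integral
over `Ox`. -/
theorem isIntegral_of_span (S : Subring F) (hOxS : ∀ c : Kx, c ∈ Ox → algebraMap Kx F c ∈ S)
    {ι : Type*} [Finite ι] (b : ι → F) (hbS : ∀ i, b i ∈ S)
    (hb : ∀ f ∈ S, ∃ c : ι → Kx, (∀ i, c i ∈ Ox) ∧ f = ∑ᶠ i, c i • b i)
    {f : F} (hf : f ∈ S) : IsIntegral Ox f := by
  classical
  haveI : Fintype ι := Fintype.ofFinite ι
  let S' : Subalgebra Ox F :=
    { S with
      algebraMap_mem' := fun c => hOxS (c : Kx) c.2 }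
  have hfg : (Subalgebra.toSubmodule S').FG := by
    have hle : Subalgebra.toSubmodule S' ≤ Submodule.span Ox (Set.range b) := by
      intro g hg
      obtain ⟨c, hc, rfl⟩ := hb g hg
      rw [finsum_eq_sum_of_fintype]
      refine Submodule.sum_mem _ fun i _ => ?_
      have h1 : c i • b i = (⟨c i, hc i⟩ : Ox) • b i := rfl
      rw [h1]
      exact Submodule.smul_mem _ _ (Submodule.subset_span ⟨i, rfl⟩)
    have hge : Submodule.span Ox (Set.range b) ≤ Subalgebra.toSubmodule S' := by
      rw [Submodule.span_le]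
      rintro _ ⟨i, rfl⟩
      exact hbS i
    rw [le_antisymm hle hge]
    exact Submodule.fg_span (Set.finite_range b)
  exact IsIntegral.of_mem_of_fg S' hfg f hf

end Span

/-! ### Two valuation rings over `A` with transcendental residue of `x` have the same Gauss ring -/

section Two

variable {K : Type*} [Field K] {A : ValuationSubring K} {F : Type*} [Field F] [Algebra K F]
  {O : ValuationSubring F} {k κ : Type*} [Field k] [Field κ] [Algebra k κ]
  (R : RedSetup A O k κ) {x : F}

/-- The valuation of a polynomial in `x` is the valuation of its content. -/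
theorem valuation_aeval_eq (hxO : x ∈ O) (hxbt : Transcendental k (R.res ⟨x, hxO⟩)) {P : K[X]}
    {c : K} (hc0 : c ≠ 0) {Q' : A[X]} (hQ' : Q'.map A.subtype = C c⁻¹ * P)
    (hQu : ∃ n, Q'.coeff n ∉ maximalIdeal A) :
    O.valuation (aeval x P) = O.valuation (algebraMap K F c) := by
  set u : O := Polynomial.eval₂ (cst R) ⟨x, hxO⟩ Q' with hu
  have hQπ : Q'.map R.π ≠ 0 := by
    obtain ⟨n, hn⟩ := hQu
    intro h0
    have h1 := congrArg (fun p => Polynomial.coeff p n) h0
    simp only [Polynomial.coeff_map, Polynomial.coeff_zero] at h1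
    exact hn ((R.π_eq_zero_iff _).mp h1)
  have hures : R.res u ≠ 0 := by
    rw [hu, res_eval₂_cst]
    exact fun h0 => hQπ ((transcendental_iff.mp hxbt) _ h0)
  have hu1 : O.valuation (u : F) = 1 := valuation_eq_one_of_res_ne_zero R u hures
  have hucoe : (u : F) = algebraMap K F c⁻¹ * aeval x P := by
    rw [hu, coe_eval₂_cst, hQ', map_mul, aeval_C]
  have hPc : aeval x P = algebraMap K F c * (u : F) := by
    rw [hucoe, ← mul_assoc, ← map_mul, mul_inv_cancel₀ hc0, map_one, one_mul]
  rw [hPc, map_mul, hu1, mul_one]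

omit R in
theorem exists_content_unit (π : A →+* k) (hπ : ∀ a : A, π a = 0 ↔ a ∈ maximalIdeal A)
    {P : K[X]} (hP0 : P ≠ 0) :
    ∃ c : K, c ≠ 0 ∧ ∃ Q' : A[X], Q'.map A.subtype = C c⁻¹ * P ∧
      ∃ n, Q'.coeff n ∉ maximalIdeal A := by
  obtain ⟨c, hc0, Q', hQ', hQπ⟩ := exists_content_single A π P hP0
  refine ⟨c, hc0, Q', hQ', ?_⟩
  by_contra hcon
  push Not at hcon
  apply hQπ
  ext n
  rw [Polynomial.coeff_map, Polynomial.coeff_zero]
  exact (hπ _).mpr (hcon n)

variable {O' : ValuationSubring F} {κ' : Type*} [Field κ'] [Algebra k κ']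
  (R' : RedSetup A O' k κ')

/-- Two valuation rings of `F` over `A` for which `x` has a transcendental residue induce the same
valuation ring (the Gauss ring) on `K(x)`. -/
theorem comap_le_comap (hxO : x ∈ O) (hxbt : Transcendental k (R.res ⟨x, hxO⟩))
    (hxO' : x ∈ O') (hxbt' : Transcendental k (R'.res ⟨x, hxO'⟩)) :
    O.comap (algebraMap K⟮x⟯ F) ≤ O'.comap (algebraMap K⟮x⟯ F) := by
  intro c hc
  have hc1 : O.valuation (algebraMap K⟮x⟯ F c) ≤ 1 := (O.valuation_le_one_iff _).mpr hc
  show algebraMap K⟮x⟯ F c ∈ O'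
  rw [← O'.valuation_le_one_iff]
  obtain ⟨P, Q, hPQ⟩ := (IntermediateField.mem_adjoin_simple_iff K _).mp c.2
  have hcF : algebraMap K⟮x⟯ F c = aeval x P / aeval x Q := hPQ
  by_cases hP0 : P = 0
  · rw [hcF, hP0, map_zero, zero_div, map_zero]
    exact zero_le_one
  by_cases hQ0 : aeval x Q = 0
  · rw [hcF, hQ0, div_zero, map_zero]
    exact zero_le_one
  have hQ0' : Q ≠ 0 := by
    rintro rfl
    exact hQ0 (map_zero _)
  obtain ⟨cP, hcP0, P', hP', hPu⟩ := exists_content_unit R.π R.π_eq_zero_iff hP0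
  obtain ⟨cQ, hcQ0, Q', hQ', hQu⟩ := exists_content_unit R.π R.π_eq_zero_iff hQ0'
  have e1 := valuation_aeval_eq R hxO hxbt hcP0 hP' hPu
  have e2 := valuation_aeval_eq R hxO hxbt hcQ0 hQ' hQu
  have e1' := valuation_aeval_eq R' hxO' hxbt' hcP0 hP' hPu
  have e2' := valuation_aeval_eq R' hxO' hxbt' hcQ0 hQ' hQu
  rw [hcF, map_div₀, e1, e2, ← map_div₀, ← map_div₀] at hc1
  rw [hcF, map_div₀, e1', e2', ← map_div₀, ← map_div₀]
  have hA : cP / cQ ∈ A := (algebraMap_mem_iff R _).mp ((O.valuation_le_one_iff _).mp hc1)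
  exact (O'.valuation_le_one_iff _).mpr ((algebraMap_mem_iff R' _).mpr hA)

theorem comap_eq_comap (hxO : x ∈ O) (hxbt : Transcendental k (R.res ⟨x, hxO⟩))
    (hxO' : x ∈ O') (hxbt' : Transcendental k (R'.res ⟨x, hxO'⟩)) :
    O.comap (algebraMap K⟮x⟯ F) = O'.comap (algebraMap K⟮x⟯ F) :=
  le_antisymm (comap_le_comap R R' hxO hxbt hxO' hxbt')
    (comap_le_comap R' R hxO' hxbt' hxO hxbt)

/-- **(L1) for two valuation rings**: the four integrality statements for the elements of
`O ∩ O'` which are integral over the Gauss ring `O ∩ K(x) = O' ∩ K(x)`. -/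
theorem isIntegral_res_pair (hx : Transcendental K x)
    (hxO : x ∈ O) (hxbt : Transcendental k (R.res ⟨x, hxO⟩))
    (hxO' : x ∈ O') (hxbt' : Transcendental k (R'.res ⟨x, hxO'⟩))
    {f : F} (hfO : f ∈ O) (hfO' : f ∈ O')
    (hfG : IsIntegral (O.comap (algebraMap K⟮x⟯ F)) f) :
    (IsIntegral (Algebra.adjoin K {x}) f →
      IsIntegral (Algebra.adjoin k {R.res ⟨x, hxO⟩}) (R.res ⟨f, hfO⟩) ∧
      IsIntegral (Algebra.adjoin k {R'.res ⟨x, hxO'⟩}) (R'.res ⟨f, hfO'⟩)) ∧
    (IsIntegral (Algebra.adjoin K {x⁻¹}) f →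
      IsIntegral (Algebra.adjoin k {(R.res ⟨x, hxO⟩)⁻¹}) (R.res ⟨f, hfO⟩) ∧
      IsIntegral (Algebra.adjoin k {(R'.res ⟨x, hxO'⟩)⁻¹}) (R'.res ⟨f, hfO'⟩)) := by
  have hfG' : IsIntegral (O'.comap (algebraMap K⟮x⟯ F)) f := by
    rw [← comap_eq_comap R R' hxO hxbt hxO' hxbt']
    exact hfG
  exact ⟨fun hf => ⟨isIntegral_res_of_isIntegral R hx hxO hxbt hfO hfG hf,
      isIntegral_res_of_isIntegral R' hx hxO' hxbt' hfO' hfG' hf⟩,
    fun hf => ⟨isIntegral_res_inv_of_isIntegral R hx hxO hxbt hfO hfG hf,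
      isIntegral_res_inv_of_isIntegral R' hx hxO' hxbt' hfO' hfG' hf⟩⟩

end Two

end Fermat.Agent.S34x.IntegralRed2
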