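import Fermat.Agent.S34x.Lattice2.DimBridgeTwoPole
import Fermat.Agent.Gateway.GoodRed.TLineHurwitz
import Fermat.Agent.Gateway.AuxLevel.Shifted9

/-!
# P-S34, WP3-inst: the `k`-side filtration at the concrete special fibre

helper26.  `k : Type` algebraically closed, `(M : k) ≠ 0`, `E := Fk k M`
(`= modularFunctionFieldFullC k M`), `x` the reduced Hauptmodul:

* `4 ∣ M` : `x := L4.tFk h4 hMk` (`q`-expansion `x₄`);
* `9 ∣ M` : `x := L9.zFk h9 hMk` (`q`-expansion `z₉ = y₉ - 3`).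

We provide: `x` transcendental over `k`, `Fk k M / k(x)` finite separable, the degree
`[Fk k M : k(x)] · ψ(r₀) = ψ(M)`, and the packaged filtrations `DimBridge.exists_filtration` /
`exists_filtration_inv` on `Fk k M × Fk k M` with `T = (x, x ^ q)`.
-/

set_option autoImplicit false
set_option linter.unusedSectionVars false
set_option linter.style.haveILetI false

noncomputable section

namespace Fermat.Agent.S34x.Inst.KSideInst

open AlgebraicCurve Polynomial IntermediateField Module ModularCurve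
open Fermat.Agent.Gateway.GoodRed.ConjFamily (Fk jFk)
open Fermat.Agent.Gateway.AuxLevel
open Fermat.Agent.Gateway.GoodRed.TLineHurwitz
open Fermat.Agent.S34x.Lattice2

section Shift

/-! ### Shifting a generator by a constant -/

variable {k E : Type*} [Field k] [Field E] [Algebra k E]

theorem adjoin_sub_algebraMap (t : E) (c : k) : k⟮t - algebraMap k E c⟯ = k⟮t⟯ := by
  apply le_antisymm
  · rw [adjoin_simple_le_iff]
    exact sub_mem (mem_adjoin_simple_self k t) (IntermediateField.algebraMap_mem _ c)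
  · rw [adjoin_simple_le_iff]
    have h1 : (t - algebraMap k E c) + algebraMap k E c ∈ k⟮t - algebraMap k E c⟯ :=
      add_mem (mem_adjoin_simple_self k _) (IntermediateField.algebraMap_mem _ c)
    rwa [sub_add_cancel] at h1

theorem transcendental_sub_algebraMap {t : E} (ht : Transcendental k t) (c : k) :
    Transcendental k (t - algebraMap k E c) := by
  intro h
  apply ht
  have h1 : IsAlgebraic k ((t - algebraMap k E c) + algebraMap k E c) :=
    h.add (isAlgebraic_algebraMap c)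
  rwa [sub_add_cancel] at h1

end Shift

section Coord

/-! ### Separating coordinates and the `k`-side package on `E × E` -/

/-- A transcendental element `x` of a function field `E / k` with `E / k(x)` finite separable. -/
structure SepCoord (k E : Type*) [Field k] [Field E] [Algebra k E] where
  /-- the coordinate -/
  x : E
  transcendental : Transcendental k x
  finite : FiniteDimensional k⟮x⟯ E
  separable : Algebra.IsSeparable k⟮x⟯ E

namespace SepCoord

variable {k E : Type*} [Field k] [Field E] [Algebra k E] (c : SepCoord k E)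

/-- `T = (x, x ^ q)`: the reduction of the chart coordinate `t` on the two components. -/
def T (q : ℕ) : E × E := (c.x, c.x ^ q)

/-- `Ti = T⁻¹`. -/
def Ti (q : ℕ) : E × E := (c.x⁻¹, (c.x ^ q)⁻¹)

/-- `n' = [E : k(x)]`. -/
def deg : ℕ :=
  haveI := c.finite
  finrank k⟮c.x⟯ E

theorem x_ne_zero : c.x ≠ 0 := by
  intro h
  apply c.transcendental
  rw [h]
  exact isAlgebraic_zero

theorem T_mul_Ti (q : ℕ) : c.T q * c.Ti q = 1 :=
  DimBridgeTwoPole.T_mul_Ti c.transcendental q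

theorem Ti_mul_T (q : ℕ) : c.Ti q * c.T q = 1 := by
  rw [mul_comm]; exact c.T_mul_Ti q

theorem deg_pos : 0 < c.deg := by
  haveI := c.finite
  exact Module.finrank_pos

/-- The inverse coordinate (chart 2). -/
def inv : SepCoord k E where
  x := c.x⁻¹
  transcendental := DimBridge.transcendental_inv c.transcendental
  finite := by
    haveI := c.finite
    exact DimBridge.finiteDimensional_inv
  separable := by
    haveI := c.separable
    exact DimBridge.isSeparable_inv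

theorem inv_deg : c.inv.deg = c.deg := by
  haveI := c.finite
  exact DimBridge.finrank_adjoin_inv

variable [IsAlgClosed k]

theorem finite_twoPole {q : ℕ} (hq : 0 < q) (a b : ℕ) :
    Module.Finite k (twoPole k (c.T q) (c.Ti q) a b) := by
  haveI := c.finite
  haveI := c.separable
  exact DimBridgeTwoPole.finite_twoPole c.transcendental hq a b

/-- **Riemann-Roch on the special fibre** `E × E`:
`dim L(a C₀ + b C∞) = (q+1) n' (a+b) + 2 - 2 g'` for `(a+b) n' > 2 g' - 2`. -/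
theorem finrank_twoPole {q : ℕ} (hq : 0 < q) {a b : ℕ}
    (hab : 2 * (genusFF k E : ℤ) - 2 < ((a + b : ℕ) : ℤ) * (c.deg : ℤ)) :
    (finrank k (twoPole k (c.T q) (c.Ti q) a b) : ℤ) =
      (((q + 1) * c.deg : ℕ) : ℤ) * ((a + b : ℕ) : ℤ) + (2 - 2 * (genusFF k E : ℤ)) := by
  haveI := c.finite
  haveI := c.separable
  exact DimBridgeTwoPole.finrank_twoPole c.transcendental hq hab

/-- A threshold `b₀` with `b₀ n' > 2 g' - 2`. -/
theorem exists_threshold : ∃ b₀ : ℕ, 2 * (genusFF k E : ℤ) - 2 < b₀ * (c.deg : ℤ) := by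
  haveI := c.finite
  haveI := c.separable
  exact DimBridge.exists_threshold c.transcendental

/-- One-step generation towards `∞`. -/
theorem exists_add_T_mul {q : ℕ} (hq : 0 < q) {b₀ : ℕ}
    (hb₀ : 2 * (genusFF k E : ℤ) - 2 < b₀ * (c.deg : ℤ)) {a b : ℕ} (hab : b₀ + 1 ≤ a + b)
    {p : E × E} (hp : p ∈ twoPole k (c.T q) (c.Ti q) a (b + 1)) :
    ∃ y ∈ twoPole k (c.T q) (c.Ti q) a b, ∃ z ∈ twoPole k (c.T q) (c.Ti q) a b,
      p = y + c.T q * z := by
  haveI := c.finite
  haveI := c.separable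
  exact DimBridgeTwoPole.exists_add_T_mul c.transcendental hq hb₀ hab hp

/-- One-step generation towards `0`. -/
theorem exists_add_Ti_mul {q : ℕ} (hq : 0 < q) {b₀ : ℕ}
    (hb₀ : 2 * (genusFF k E : ℤ) - 2 < b₀ * (c.deg : ℤ)) {a b : ℕ} (hab : b₀ + 1 ≤ a + b)
    {p : E × E} (hp : p ∈ twoPole k (c.T q) (c.Ti q) (a + 1) b) :
    ∃ y ∈ twoPole k (c.T q) (c.Ti q) a b, ∃ z ∈ twoPole k (c.T q) (c.Ti q) a b,
      p = y + c.Ti q * z := by
  haveI := c.finite
  haveI := c.separable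
  exact DimBridgeTwoPole.exists_add_Ti_mul c.transcendental hq hb₀ hab hp

/-- **The `k`-side hypotheses (c) of `TheoremB`, chart `∞`**, for
`P b := twoPole k T Ti 0 b = {z | z integral over k[T], Ti ^ b z integral over k[Ti]}`. -/
theorem kside_inf {q : ℕ} (hq : 0 < q) :
    (∀ b, FiniteDimensional k (twoPole k (c.T q) (c.Ti q) 0 b)) ∧
    (∀ m : ℕ, 0 < m → ∀ (b : ℕ) (z : E × E),
      z ^ m ∈ twoPole k (c.T q) (c.Ti q) 0 (m * b) → z ∈ twoPole k (c.T q) (c.Ti q) 0 b) ∧
    ∃ b₀ : ℕ,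
      (∀ b, b₀ ≤ b → ∀ p ∈ twoPole k (c.T q) (c.Ti q) 0 (b + 1),
        ∃ y ∈ twoPole k (c.T q) (c.Ti q) 0 b, ∃ z ∈ twoPole k (c.T q) (c.Ti q) 0 b,
          p = y + c.T q * z) ∧
      (∀ b, b₀ ≤ b → (finrank k (twoPole k (c.T q) (c.Ti q) 0 b) : ℤ) =
        (((q + 1) * c.deg : ℕ) : ℤ) * b + (2 - 2 * (genusFF k E : ℤ))) := by
  obtain ⟨b₀, hb₀⟩ := c.exists_threshold
  have hmono : ∀ b : ℕ, b₀ ≤ b → 2 * (genusFF k E : ℤ) - 2 < (b : ℤ) * (c.deg : ℤ) := fun b hb => by
    have : (b₀ : ℤ) * (c.deg : ℤ) ≤ (b : ℤ) * (c.deg : ℤ) :=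
      mul_le_mul_of_nonneg_right (by exact_mod_cast hb) (Int.natCast_nonneg _)
    linarith
  refine ⟨fun b => c.finite_twoPole hq 0 b, fun m hm b z hz => ?_, b₀ + 1, fun b hb p hp => ?_,
    fun b hb => ?_⟩
  · refine twoPole_radical hm 0 b z ?_
    rwa [mul_zero]
  · exact c.exists_add_T_mul hq hb₀ (a := 0) (b := b) (by omega) hp
  · have h := c.finrank_twoPole hq (a := 0) (b := b) (by rw [zero_add]; exact hmono b (by omega))
    rw [h, zero_add]

/-- **The `k`-side hypotheses of `TheoremB`, chart `0`**, for `P' a := twoPole k T Ti a 0`. -/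
theorem kside_zero {q : ℕ} (hq : 0 < q) :
    (∀ a, FiniteDimensional k (twoPole k (c.T q) (c.Ti q) a 0)) ∧
    (∀ m : ℕ, 0 < m → ∀ (a : ℕ) (z : E × E),
      z ^ m ∈ twoPole k (c.T q) (c.Ti q) (m * a) 0 → z ∈ twoPole k (c.T q) (c.Ti q) a 0) ∧
    ∃ a₀ : ℕ,
      (∀ a, a₀ ≤ a → ∀ p ∈ twoPole k (c.T q) (c.Ti q) (a + 1) 0,
        ∃ y ∈ twoPole k (c.T q) (c.Ti q) a 0, ∃ z ∈ twoPole k (c.T q) (c.Ti q) a 0,
          p = y + c.Ti q * z) ∧
      (∀ a, a₀ ≤ a → (finrank k (twoPole k (c.T q) (c.Ti q) a 0) : ℤ) =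
        (((q + 1) * c.deg : ℕ) : ℤ) * a + (2 - 2 * (genusFF k E : ℤ))) := by
  obtain ⟨b₀, hb₀⟩ := c.exists_threshold
  have hmono : ∀ b : ℕ, b₀ ≤ b → 2 * (genusFF k E : ℤ) - 2 < (b : ℤ) * (c.deg : ℤ) := fun b hb => by
    have : (b₀ : ℤ) * (c.deg : ℤ) ≤ (b : ℤ) * (c.deg : ℤ) :=
      mul_le_mul_of_nonneg_right (by exact_mod_cast hb) (Int.natCast_nonneg _)
    linarith
  refine ⟨fun a => c.finite_twoPole hq a 0, fun m hm a z hz => ?_, b₀ + 1, fun a ha p hp => ?_,
    fun a ha => ?_⟩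
  · refine twoPole_radical hm a 0 z ?_
    rwa [mul_zero]
  · exact c.exists_add_Ti_mul hq hb₀ (a := a) (b := 0) (by omega) hp
  · have h := c.finrank_twoPole hq (a := a) (b := 0) (by rw [add_zero]; exact hmono a (by omega))
    rw [h, add_zero]

end SepCoord

end Coord

section Level4

/-! ### `4 ∣ M` -/

variable {k : Type} [Field k] [IsAlgClosed k] {M : ℕ} [NeZero M] (h4 : 4 ∣ M)
  (hMk : (M : k) ≠ 0)

include h4 hMk in
theorem two_ne_zero_of_four_dvd : (2 : k) ≠ 0 := by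
  intro h
  apply hMk
  obtain ⟨c, rfl⟩ := h4
  have h4' : ((4 : ℕ) : k) = 0 := by
    have : ((4 : ℕ) : k) = 2 * 2 := by norm_num
    rw [this, h, mul_zero]
  rw [Nat.cast_mul, h4', zero_mul]

theorem transcendental_x4 : Transcendental k (L4.tFk h4 hMk) :=
  transcendental_t4 M (L4.tFk h4 hMk) rfl

theorem finiteDimensional_x4 : FiniteDimensional k⟮L4.tFk h4 hMk⟯ (Fk k M) :=
  finiteDimensional_t4 M hMk (L4.tFk h4 hMk) rfl

theorem isSeparable_x4 : Algebra.IsSeparable k⟮L4.tFk h4 hMk⟯ (Fk k M) :=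
  isSeparable_t4 M hMk (L4.tFk h4 hMk) rfl

/-- `[Fk k M : k(x₄)] · ψ(4) = ψ(M)`. -/
theorem finrank_x4 : finrank k⟮L4.tFk h4 hMk⟯ (Fk k M) * 6 = dedekindPsi M := by
  obtain ⟨M', hM'⟩ := id h4
  haveI : NeZero M' := ⟨by rintro rfl; exact NeZero.ne M (by rw [hM', mul_zero])⟩
  exact finrank_t4 (two_ne_zero_of_four_dvd h4 hMk) M M' hM' hMk (L4.tFk h4 hMk) rfl

/-- **The separating coordinate at a level divisible by `4`**: the reduced Hauptmodul `x₄`. -/
def coord4 : SepCoord k (Fk k M) where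
  x := L4.tFk h4 hMk
  transcendental := transcendental_x4 h4 hMk
  finite := finiteDimensional_x4 h4 hMk
  separable := isSeparable_x4 h4 hMk

theorem coord4_x : (coord4 h4 hMk).x = L4.tFk h4 hMk := rfl

theorem coord4_deg : (coord4 h4 hMk).deg * 6 = dedekindPsi M := finrank_x4 h4 hMk

end Level4

section Level9

/-! ### `9 ∣ M` (the shifted Hauptmodul `z₉ = y₉ - 3`) -/

variable {k : Type} [Field k] [IsAlgClosed k] {M : ℕ} [NeZero M] (h9 : 9 ∣ M)
  (hMk : (M : k) ≠ 0)

include h9 hMk in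
theorem three_ne_zero_of_nine_dvd : (3 : k) ≠ 0 := by
  intro h
  apply hMk
  obtain ⟨c, rfl⟩ := h9
  have h9' : ((9 : ℕ) : k) = 0 := by
    have : ((9 : ℕ) : k) = 3 * 3 := by norm_num
    rw [this, h, mul_zero]
  rw [Nat.cast_mul, h9', zero_mul]

theorem zFk_eq_sub_algebraMap :
    L9.zFk h9 hMk = L9.tFk h9 hMk - algebraMap k (Fk k M) 3 := by
  rw [L9.zFk_eq, map_ofNat]

theorem adjoin_z9 : k⟮L9.zFk h9 hMk⟯ = k⟮L9.tFk h9 hMk⟯ := by
  rw [zFk_eq_sub_algebraMap, adjoin_sub_algebraMap]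

theorem transcendental_z9 : Transcendental k (L9.zFk h9 hMk) := by
  rw [zFk_eq_sub_algebraMap]
  exact transcendental_sub_algebraMap (transcendental_t9 M (L9.tFk h9 hMk) rfl) 3

theorem finiteDimensional_z9 : FiniteDimensional k⟮L9.zFk h9 hMk⟯ (Fk k M) := by
  rw [adjoin_z9]
  exact finiteDimensional_t9 M hMk (L9.tFk h9 hMk) rfl

theorem isSeparable_z9 : Algebra.IsSeparable k⟮L9.zFk h9 hMk⟯ (Fk k M) := by
  rw [adjoin_z9]
  exact isSeparable_t9 M hMk (L9.tFk h9 hMk) rfl

/-- `[Fk k M : k(z₉)] · ψ(9) = ψ(M)`. -/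
theorem finrank_z9 : finrank k⟮L9.zFk h9 hMk⟯ (Fk k M) * 12 = dedekindPsi M := by
  rw [adjoin_z9]
  obtain ⟨M', hM'⟩ := id h9
  haveI : NeZero M' := ⟨by rintro rfl; exact NeZero.ne M (by rw [hM', mul_zero])⟩
  exact finrank_t9 (three_ne_zero_of_nine_dvd h9 hMk) M M' hM' hMk (L9.tFk h9 hMk) rfl

/-- **The separating coordinate at a level divisible by `9`**: the reduced shifted Hauptmodul
`z₉ = y₉ - 3`. -/
def coord9 : SepCoord k (Fk k M) where
  x := L9.zFk h9 hMk
  transcendental := transcendental_z9 h9 hMk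
  finite := finiteDimensional_z9 h9 hMk
  separable := isSeparable_z9 h9 hMk

theorem coord9_x : (coord9 h9 hMk).x = L9.zFk h9 hMk := rfl

theorem coord9_deg : (coord9 h9 hMk).deg * 12 = dedekindPsi M := finrank_z9 h9 hMk

end Level9

end Fermat.Agent.S34x.Inst.KSideInst
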